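import Fermat.Agent.LT.H3Kernel

/-!
# Theta: the archimedean coefficient function and its eigenfunction property

`archF s = ∫₀^∞ exp (-2π s (q + 1/q)) dq/q`, `archRho s = s * archF s`; for `ζ ≠ 0` the function
`(z, t) ↦ archRho (|ζ| t) exp (4π i re (ζ z))` is an eigenfunction of all invariant operators with
parameter `0`: it is the limit of smoothed averages of translates of the height.
-/

set_option autoImplicit false
open MeasureTheory Set Filter Topology
open scoped Real ComplexConjugate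

noncomputable section

namespace Fermat.LT.Theta

/-- The integrand of `archF`. -/
def archI (s q : ℝ) : ℝ := Real.exp (-(2 * π * s) * (q + q⁻¹)) / q

/-- The integral over `q > 0` of `archI s q`. -/
def archF (s : ℝ) : ℝ := ∫ q in Ioi (0 : ℝ), archI s q

/-- The coefficient function `s * archF s`. -/
def archRho (s : ℝ) : ℝ := s * archF s

/-- The integrand is jointly measurable in `s` and `q`. -/
lemma measurable_archI : Measurable (Function.uncurry archI) := by
  unfold Function.uncurry archI; fun_prop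

/-- The integrand is positive on the positive half line. -/
lemma archI_pos {s q : ℝ} (hq : 0 < q) : 0 < archI s q := div_pos (Real.exp_pos _) hq

/-- The integrand is dominated by a Gamma integrand. -/
lemma archI_le {s q : ℝ} (hs : 0 < s) (hq : 0 < q) :
    archI s q ≤ (Real.sqrt (2 * π * s))⁻¹ *
      (q ^ ((1 / 2 : ℝ) - 1) * Real.exp (-(2 * π * s * q))) := by
  set c := 2 * π * s with hc
  have hc0 : 0 < c := by positivity
  have hx : 0 < c / q := div_pos hc0 hq
  have hkey : Real.sqrt (c / q) * Real.exp (-(c / q)) ≤ 1 := by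
    rw [Real.exp_neg, ← div_eq_mul_inv, div_le_one (Real.exp_pos _)]
    have h1 : Real.sqrt (c / q) ≤ c / q + 1 := by
      nlinarith [Real.sq_sqrt hx.le, sq_nonneg (Real.sqrt (c / q) - 1)]
    exact h1.trans (Real.add_one_le_exp _)
  have hq' : q ^ ((1 / 2 : ℝ) - 1) = (Real.sqrt q)⁻¹ := by
    rw [Real.sqrt_eq_rpow, ← Real.rpow_neg hq.le]; norm_num
  have hsq : Real.sqrt (c / q) = Real.sqrt c / Real.sqrt q := Real.sqrt_div hc0.le q
  rw [hsq, div_mul_eq_mul_div, div_le_one (Real.sqrt_pos.2 hq)] at hkey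
  rw [archI, ← hc, show -c * (q + q⁻¹) = -(c / q) + -(c * q) by ring, Real.exp_add, hq',
    div_le_iff₀ hq]
  have e : (Real.sqrt c)⁻¹ * ((Real.sqrt q)⁻¹ * Real.exp (-(c * q))) * q
      = Real.sqrt q / Real.sqrt c * Real.exp (-(c * q)) := by
    rw [show (Real.sqrt c)⁻¹ * ((Real.sqrt q)⁻¹ * Real.exp (-(c * q))) * q
      = ((Real.sqrt q)⁻¹ * q) / Real.sqrt c * Real.exp (-(c * q)) by ring,
      inv_mul_eq_div, Real.div_sqrt]
  rw [e]
  refine mul_le_mul_of_nonneg_right ?_ (Real.exp_pos _).le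
  rw [le_div_iff₀ (Real.sqrt_pos.2 hc0)]
  linarith

/-- The integral of the majorant: `Γ(1/2) / √c`. -/
lemma integral_major {c : ℝ} (hc : 0 < c) :
    ∫ q in Ioi (0 : ℝ), q ^ ((1 / 2 : ℝ) - 1) * Real.exp (-(c * q)) =
      Real.sqrt π / Real.sqrt c := by
  rw [Real.integral_rpow_mul_exp_neg_mul_Ioi (by norm_num) hc, Real.Gamma_one_half_eq,
    ← Real.sqrt_eq_rpow, one_div, Real.sqrt_inv, inv_mul_eq_div]

/-- The majorant is integrable on the positive half line. -/
lemma integrableOn_major {c : ℝ} (hc : 0 < c) :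
    IntegrableOn (fun q => q ^ ((1 / 2 : ℝ) - 1) * Real.exp (-(c * q))) (Ioi 0) :=
  MeasureTheory.Integrable.of_integral_ne_zero (by rw [integral_major hc]; positivity)

/-- The radial integrand is integrable. -/
lemma integrableOn_archI {s : ℝ} (hs : 0 < s) : IntegrableOn (archI s) (Ioi 0) := by
  refine ((integrableOn_major (c := 2 * π * s) (by positivity)).const_mul
    (Real.sqrt (2 * π * s))⁻¹).mono' (measurable_archI.of_uncurry_left.aestronglyMeasurable) ?_
  filter_upwards [ae_restrict_mem measurableSet_Ioi] with q (hq : (0 : ℝ) < q)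
  rw [Real.norm_of_nonneg (archI_pos hq).le]
  exact archI_le hs hq

/-- The radial integral is nonnegative. -/
lemma archF_nonneg (s : ℝ) : 0 ≤ archF s :=
  setIntegral_nonneg measurableSet_Ioi fun _ hq => (archI_pos hq).le

/-- The radial integral is positive for positive `s`. -/
lemma archF_pos {s : ℝ} (hs : 0 < s) : 0 < archF s := by
  refine (integral_pos_iff_support_of_nonneg_ae ?_ (integrableOn_archI hs)).2 ?_
  · filter_upwards [ae_restrict_mem measurableSet_Ioi] with q (hq : (0 : ℝ) < q)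
    exact (archI_pos hq).le
  · refine lt_of_lt_of_le (b := (volume.restrict (Ioi (0 : ℝ))) (Ioi 0)) ?_
      (measure_mono fun q hq => (archI_pos (s := s) hq).ne')
    simp

/-- `archF s ≤ √π / (2π s)`. -/
lemma archF_le {s : ℝ} (hs : 0 < s) : archF s ≤ Real.sqrt π / (2 * π * s) := by
  have hc : 0 < 2 * π * s := by positivity
  calc archF s ≤ ∫ q in Ioi (0 : ℝ),
        (Real.sqrt (2 * π * s))⁻¹ * (q ^ ((1 / 2 : ℝ) - 1) * Real.exp (-(2 * π * s * q))) :=
      setIntegral_mono_on (integrableOn_archI hs) ((integrableOn_major hc).const_mul _)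
        measurableSet_Ioi fun q hq => archI_le hs hq
    _ = Real.sqrt π / (2 * π * s) := by
      rw [integral_const_mul, integral_major hc, inv_mul_eq_div, div_div,
        Real.mul_self_sqrt hc.le]

/-- Halving the argument costs at most the factor `exp (-2π s)`, as `q + q⁻¹ ≥ 2`. -/
lemma archF_le_half {s : ℝ} (hs : 0 < s) :
    archF s ≤ Real.exp (-(2 * π * s)) * archF (s / 2) := by
  rw [archF, archF, ← integral_const_mul]
  refine setIntegral_mono_on (integrableOn_archI hs)
    ((integrableOn_archI (half_pos hs)).const_mul _) measurableSet_Ioi fun q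
      (hq : (0 : ℝ) < q) => ?_
  rw [archI, archI, ← mul_div_assoc, div_le_div_iff_of_pos_right hq, ← Real.exp_add,
    Real.exp_le_exp]
  have h2 : 2 ≤ q + q⁻¹ := by
    have h := mul_inv_cancel₀ hq.ne'
    nlinarith [sq_nonneg (q - 1), inv_pos.2 hq]
  nlinarith [mul_pos Real.pi_pos hs]

/-- The coefficient function is nonnegative. -/
lemma archRho_nonneg {s : ℝ} (hs : 0 ≤ s) : 0 ≤ archRho s := mul_nonneg hs (archF_nonneg s)

/-- The coefficient function is positive for positive `s`. -/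
lemma archRho_pos {s : ℝ} (hs : 0 < s) : 0 < archRho s := mul_pos hs (archF_pos hs)

/-- `archRho s` is at most `exp (-2π s)`. -/
theorem archRho_le {s : ℝ} (hs : 0 ≤ s) : archRho s ≤ Real.exp (-(2 * π * s)) := by
  rcases hs.eq_or_lt with rfl | hs
  · simp [archRho]
  have hπ : Real.sqrt π ≤ π := by
    nlinarith [Real.sq_sqrt Real.pi_pos.le, Real.pi_gt_three, Real.sqrt_nonneg π]
  have h1 : s / 2 * archF (s / 2) ≤ 1 / 2 := by
    refine (mul_le_mul_of_nonneg_left (archF_le (half_pos hs)) (half_pos hs).le).trans ?_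
    rw [mul_div_assoc', div_le_div_iff₀ (by positivity) two_pos]
    nlinarith
  calc archRho s ≤ s * (Real.exp (-(2 * π * s)) * archF (s / 2)) :=
        mul_le_mul_of_nonneg_left (archF_le_half hs) hs.le
    _ = Real.exp (-(2 * π * s)) * (2 * (s / 2 * archF (s / 2))) := by ring
    _ ≤ Real.exp (-(2 * π * s)) * 1 :=
        mul_le_mul_of_nonneg_left (by linarith) (Real.exp_pos _).le
    _ = _ := mul_one _

/-- The radial integral is continuous at every positive point, by dominated convergence. -/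
lemma continuousAt_archF {s₀ : ℝ} (hs : 0 < s₀) : ContinuousAt archF s₀ := by
  refine continuousAt_of_dominated (bound := archI (s₀ / 2)) ?_ ?_
    (integrableOn_archI (half_pos hs)) ?_
  · exact Eventually.of_forall fun s => measurable_archI.of_uncurry_left.aestronglyMeasurable
  · filter_upwards [lt_mem_nhds (half_lt_self hs)] with s hs'
    filter_upwards [ae_restrict_mem measurableSet_Ioi] with q (hq : (0 : ℝ) < q)
    rw [Real.norm_of_nonneg (archI_pos hq).le, archI, archI, div_le_div_iff_of_pos_right hq,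
      Real.exp_le_exp]
    have : 0 ≤ q + q⁻¹ := by positivity
    have h2 : 2 * π * (s₀ / 2) ≤ 2 * π * s := by
      refine mul_le_mul_of_nonneg_left ?_ (by positivity); linarith
    nlinarith
  · refine Eventually.of_forall fun q => ?_
    unfold archI
    fun_prop

/-- The coefficient function is continuous on the positive half line. -/
theorem continuousOn_archRho : ContinuousOn archRho (Ioi 0) := fun _ hs =>
  (continuousAt_id.mul (continuousAt_archF hs)).continuousWithinAt

/-! ### eigenfunctions -/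

/-- `exp (4π i re x)`. -/
def eC (x : ℂ) : ℂ := Complex.exp (4 * π * Complex.I * (x.re : ℂ))

/-- `eC` has absolute value one. -/
lemma norm_eC (x : ℂ) : ‖eC x‖ = 1 := by
  rw [eC, show (4 * π * Complex.I * (x.re : ℂ)) = ((4 * π * x.re : ℝ) : ℂ) * Complex.I by
    push_cast; ring]
  exact Complex.norm_exp_ofReal_mul_I _

/-- `eC` is continuous. -/
@[fun_prop] lemma continuous_eC : Continuous eC := by unfold eC; fun_prop

/-- `eC` turns sums into products. -/
lemma eC_add (x y : ℂ) : eC (x + y) = eC x * eC y := by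
  rw [eC, eC, eC, ← Complex.exp_add, Complex.add_re]; push_cast; ring_nf

/-- The eigenfunction attached to `ζ`. -/
def hW (ζ : ℂ) (y : H3) : ℂ :=
  (archRho (‖ζ‖ * (H3.coord y).2) : ℂ) * eC (ζ * (H3.coord y).1)

/-- The eigenfunction decays exponentially in the height. -/
lemma norm_hW_le (ζ : ℂ) (y : H3) :
    ‖hW ζ y‖ ≤ Real.exp (-(2 * π * (‖ζ‖ * (H3.coord y).2))) := by
  have h : 0 ≤ ‖ζ‖ * (H3.coord y).2 := mul_nonneg (norm_nonneg _) (H3.coord_pos y).le
  rw [hW, norm_mul, norm_eC, mul_one, Complex.norm_real, Real.norm_of_nonneg (archRho_nonneg h)]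
  exact archRho_le h

/-- The height of a translate. -/
def pKer (p : ℂ × ℝ) (ξ : ℂ) : ℝ := p.2 / (Complex.normSq (p.1 - ξ) + p.2 ^ 2)

/-- A translated height is nonnegative at points of positive height. -/
lemma pKer_nonneg {p : ℂ × ℝ} (hp : 0 < p.2) (ξ : ℂ) : 0 ≤ pKer p ξ :=
  div_nonneg hp.le (add_nonneg (Complex.normSq_nonneg _) (sq_nonneg _))

/-- A translated height is at most the inverse of the height. -/
lemma pKer_le {p : ℂ × ℝ} (hp : 0 < p.2) (ξ : ℂ) : pKer p ξ ≤ p.2⁻¹ := by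
  have := Complex.normSq_nonneg (p.1 - ξ)
  rw [pKer, div_le_iff₀ (by positivity)]
  calc p.2 = p.2⁻¹ * p.2 ^ 2 := by field_simp
    _ ≤ _ := by gcongr; linarith

/-- `pKer · ξ` is the height after translation by one fixed element of `GL₂(ℂ)`. -/
lemma exists_pKer (ξ : ℂ) : ∃ g : GL (Fin 2) ℂ,
    ∀ y : H3, (H3.coord (g • y)).2 = pKer (H3.coord y) ξ := by
  let n : GL (Fin 2) ℂ := Matrix.GeneralLinearGroup.mkOfDetNeZero !![1, -ξ; 0, 1]
    (by simp [Matrix.det_fin_two])
  refine ⟨wMat * n, fun y => ?_⟩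
  have ht := H3.coord_pos y
  conv_lhs => rw [← H3.mk_coord y, H3.mk_of_pos _ ht]
  rw [MulAction.Quotient.smul_coe, H3.coord_mk, tc, herm_eq, smul_eq_mul]
  simp only [Units.val_mul, coe_triMat, Matrix.det_mul]
  have e1 : ((wMat : GL (Fin 2) ℂ) : Matrix (Fin 2) (Fin 2) ℂ) = !![0, -1; 1, 0] := rfl
  have e2 : ((n : GL (Fin 2) ℂ) : Matrix (Fin 2) (Fin 2) ℂ) = !![1, -ξ; 0, 1] := rfl
  rw [e1, e2]
  simp [Matrix.det_fin_two, abs_of_pos ht, pKer]
  congr 1
  rw [show (H3.coord y).1 - ξ = (H3.coord y).1 + -ξ by ring]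
  simp [Complex.normSq_apply]
  ring

variable {k : ℝ → ℝ}

/-- The height is dominated near a point. -/
lemma snd_le_coshd (x y : H3) : (H3.coord y).2 ≤ 2 * (H3.coord x).2 * coshd x y := by
  have hx := H3.coord_pos x
  have hy := H3.coord_pos y
  rw [coshd_eq_cd, cd, mul_div_assoc', le_div_iff₀ (by positivity)]
  nlinarith [Complex.normSq_nonneg ((H3.coord x).1 - (H3.coord y).1), sq_nonneg (H3.coord x).2,
    mul_pos hx hy]

/-- A radial kernel times a function bounded on its range is integrable. -/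
lemma integrable_kernel_mul (hk : Continuous k) (hs : HasCompactSupport k) (x : H3) {f : H3 → ℂ}
    (hf : Measurable f) {C : ℝ} (hC : ∀ y, coshd x y ≤ (AKer.ofRadial k hk hs).range → ‖f y‖ ≤ C) :
    Integrable (fun y => (k (coshd x y) : ℂ) * f y) hmeas := by
  set K := AKer.ofRadial k hk hs with hK
  refine Integrable.mono' (AKer.integrable_indicator x K.range (K.bound * C))
    (((K.continuous_right x).measurable.mul hf).aestronglyMeasurable)
      (Eventually.of_forall fun y => ?_)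
  change ‖K x y * f y‖ ≤ _
  by_cases h : coshd x y ≤ K.range
  · rw [indicator_of_mem (show y ∈ {y | coshd x y ≤ K.range} from h), norm_mul]
    exact mul_le_mul (K.le_bound x y) (hC y h) (norm_nonneg _) K.bound_nonneg
  · rw [indicator_of_notMem (show y ∉ {y | coshd x y ≤ K.range} from h),
      K.eq_zero x y (not_le.1 h), zero_mul, norm_zero]

/-- A radial kernel times the inverse height is integrable. -/
lemma integrable_kernel_inv_height (hk : Continuous k) (hs : HasCompactSupport k) (x : H3) :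
    Integrable (fun y => ‖AKer.ofRadial k hk hs x y‖ * (H3.coord y).2⁻¹) hmeas := by
  set K := AKer.ofRadial k hk hs with hK
  refine (integrable_kernel_mul hk hs x
    (f := fun y => (((H3.coord y).2⁻¹ : ℝ) : ℂ))
    (Complex.measurable_ofReal.comp continuous_coord.snd.measurable.inv)
    (C := 2 * |K.range| / (H3.coord x).2) fun y hy => ?_).norm.congr
      (Eventually.of_forall fun y => ?_)
  · have hy0 := H3.coord_pos y
    rw [Complex.norm_real, Real.norm_of_nonneg (inv_nonneg.2 hy0.le),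
      le_div_iff₀ (H3.coord_pos x), inv_mul_le_iff₀ hy0]
    have := snd_le_coshd y x
    rw [coshd_comm] at this
    refine this.trans ?_
    rw [show 2 * (H3.coord y).2 * coshd x y = (H3.coord y).2 * (2 * coshd x y) by ring]
    exact mul_le_mul_of_nonneg_left (by linarith [hy.trans (le_abs_self K.range)]) hy0.le
  · simp only [norm_mul, Complex.norm_real, Real.norm_of_nonneg (inv_nonneg.2 (H3.coord_pos y).le)]
    show _ = ‖(k (coshd x y) : ℂ)‖ * _
    rw [Complex.norm_real]

/-- The transform of a radial kernel is its integral against the height. -/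
lemma hhat0_eq (hk : Continuous k) :
    hhat0 k = ∫ y, (k (coshd ((1 : GL (Fin 2) ℂ) : H3) y) : ℂ) * ((H3.coord y).2 : ℂ) ∂hmeas := by
  have hc : Continuous fun y : H3 =>
      (k (coshd ((1 : GL (Fin 2) ℂ) : H3) y) : ℂ) * ((H3.coord y).2 : ℂ) :=
    (Complex.continuous_ofReal.comp (hk.comp
      (continuous_coshd.comp (continuous_const.prodMk continuous_id)))).mul
      (Complex.continuous_ofReal.comp continuous_coord.snd)
  rw [← hIntegral_eq_integral hc.aestronglyMeasurable, hhat0, hIntegral]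
  refine setIntegral_congr_fun (MeasurableSet.univ.prod measurableSet_Ioi) fun p hp => ?_
  have : (0 : ℝ) < p.2 := hp.2
  simp [H3.coord_mk_of_pos p.1 this, Complex.real_smul]

/-- The height is an eigenfunction. -/
lemma eigen_height (hk : Continuous k) (x : H3) :
    ∫ y, (k (coshd x y) : ℂ) * ((H3.coord y).2 : ℂ) ∂hmeas = hhat0 k * ((H3.coord x).2 : ℂ) := by
  have ht := H3.coord_pos x
  set g := triMat (H3.coord x).1 ht with hg
  have hx : x = g • ((1 : GL (Fin 2) ℂ) : H3) := by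
    rw [MulAction.Quotient.smul_coe, smul_eq_mul, mul_one, hg, ← H3.mk_of_pos _ ht, H3.mk_coord]
  rw [← (measurePreserving_smul_H3 g).integral_comp (MeasurableEquiv.smul g).measurableEmbedding,
    hhat0_eq hk, ← integral_mul_const]
  refine integral_congr_ae (Eventually.of_forall fun y => ?_)
  have h1 : coshd x (g • y) = coshd ((1 : GL (Fin 2) ℂ) : H3) y := by
    conv_lhs => rw [hx, coshd_smul]
  have h2 : (H3.coord (g • y)).2 = (H3.coord x).2 * (H3.coord y).2 := by
    conv_lhs => rw [← H3.mk_coord y]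
    rw [herm_tri_eq (by rw [hg, coe_triMat]; rfl) _ (H3.coord_pos y)]
    simp [hg, coe_triMat, abs_of_pos ht]
  simp only
  rw [h1, h2]
  push_cast
  ring

/-- Translates of the height are eigenfunctions. -/
lemma eigen_pKer (hk : Continuous k) (ξ : ℂ) (x : H3) :
    ∫ y, (k (coshd x y) : ℂ) * (pKer (H3.coord y) ξ : ℂ) ∂hmeas
      = hhat0 k * (pKer (H3.coord x) ξ : ℂ) := by
  obtain ⟨g, hg⟩ := exists_pKer ξ
  simp only [← hg]
  rw [← eigen_height hk (g • x)]
  conv_rhs => rw [← (measurePreserving_smul_H3 g).integral_comp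
    (MeasurableEquiv.smul g).measurableEmbedding]
  simp only [coshd_smul]

/-- The integral over `ξ` of the translated height times the character at `ζ`, damped by a
Gaussian. -/
def fEps (ζ : ℂ) (ε : ℝ) (p : ℂ × ℝ) : ℂ :=
  ∫ ξ : ℂ, (pKer p ξ : ℂ) * (((Real.exp (-ε * ‖ξ‖ ^ 2) : ℝ) : ℂ) * eC (ζ * ξ))

/-- `pKer` is jointly measurable. -/
lemma measurable_pKer : Measurable (Function.uncurry pKer) := by
  unfold Function.uncurry pKer
  simp only [Complex.normSq_apply]
  fun_prop

/-- Gaussians on `ℂ` are integrable. -/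
lemma integrable_gauss {b : ℝ} (hb : 0 < b) :
    Integrable fun ξ : ℂ => Real.exp (-b * ‖ξ‖ ^ 2) :=
  MeasureTheory.Integrable.of_integral_ne_zero (by
    rw [GaussianFourier.integral_rexp_neg_mul_sq_norm hb]; positivity)

/-- The smoothed average is a measurable function on `H3`. -/
lemma measurable_fEps (ζ : ℂ) (ε : ℝ) : Measurable fun y : H3 => fEps ζ ε (H3.coord y) := by
  have h : StronglyMeasurable fun r : (ℂ × ℝ) × ℂ =>
      (pKer r.1 r.2 : ℂ) * (((Real.exp (-ε * ‖r.2‖ ^ 2) : ℝ) : ℂ) * eC (ζ * r.2)) := by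
    refine (Measurable.mul (Complex.measurable_ofReal.comp measurable_pKer) ?_).stronglyMeasurable
    exact (Complex.measurable_ofReal.comp (by fun_prop)).mul
      (continuous_eC.measurable.comp (by fun_prop))
  exact ((h.integral_prod_right' (ν := (volume : Measure ℂ))).measurable).comp
    continuous_coord.measurable

/-- The smoothed averages are eigenfunctions. -/
lemma eigen_fEps (hk : Continuous k) (hs : HasCompactSupport k) (ζ : ℂ) {ε : ℝ} (hε : 0 < ε)
    (x : H3) :
    ∫ y, (k (coshd x y) : ℂ) * fEps ζ ε (H3.coord y) ∂hmeas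
      = hhat0 k * fEps ζ ε (H3.coord x) := by
  set K := AKer.ofRadial k hk hs with hK
  set g : ℂ → ℂ := fun ξ => ((Real.exp (-ε * ‖ξ‖ ^ 2) : ℝ) : ℂ) * eC (ζ * ξ) with hg
  have hgn : ∀ ξ, ‖g ξ‖ = Real.exp (-ε * ‖ξ‖ ^ 2) := fun ξ => by
    rw [hg, norm_mul, norm_eC, mul_one, Complex.norm_real, Real.norm_of_nonneg (Real.exp_pos _).le]
  let G : H3 × ℂ → ℂ := fun r => K x r.1 * ((pKer (H3.coord r.1) r.2 : ℂ) * g r.2)
  have hGm : Measurable G := by
    refine ((K.continuous_right x).measurable.comp measurable_fst).mul (Measurable.mul ?_ ?_)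
    · exact Complex.measurable_ofReal.comp (measurable_pKer.comp
        ((continuous_coord.measurable.comp measurable_fst).prodMk measurable_snd))
    · exact (show Measurable g from ((Complex.measurable_ofReal.comp (by fun_prop)).mul
        (continuous_eC.measurable.comp (by fun_prop)))).comp measurable_snd
  -- Fubini applies
  have hK1 : Integrable (fun y => ‖K x y‖ * (H3.coord y).2⁻¹) hmeas :=
    integrable_kernel_inv_height hk hs x
  have hGi : Integrable G (hmeas.prod volume) := by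
    refine Integrable.mono' (hK1.mul_prod (integrable_gauss hε)) hGm.aestronglyMeasurable
      (Eventually.of_forall fun r => ?_)
    have hr := H3.coord_pos r.1
    simp only [G, norm_mul, hgn, Complex.norm_real, Real.norm_of_nonneg (pKer_nonneg hr r.2),
      mul_assoc]
    exact mul_le_mul_of_nonneg_left
      (mul_le_mul_of_nonneg_right (pKer_le hr r.2) (Real.exp_pos _).le) (norm_nonneg _)
  -- average the eigenfunctions `pKer`
  have h1 : ∫ y, (k (coshd x y) : ℂ) * fEps ζ ε (H3.coord y) ∂hmeas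
      = ∫ y, ∫ ξ, G (y, ξ) ∂volume ∂hmeas := by
    refine integral_congr_ae (Eventually.of_forall fun y => ?_)
    simp only [fEps, G]
    rw [← integral_const_mul]
    rfl
  rw [h1, integral_integral_swap hGi, fEps, ← integral_const_mul]
  refine integral_congr_ae (Eventually.of_forall fun ξ => ?_)
  simp only [G]
  have h2 : ∀ y, K x y * ((pKer (H3.coord y) ξ : ℂ) * g ξ)
      = ((k (coshd x y) : ℂ) * (pKer (H3.coord y) ξ : ℂ)) * g ξ := fun y => by
    rw [← mul_assoc]; rfl
  simp only [h2]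
  rw [integral_mul_const, eigen_pKer hk, mul_assoc]

/-- The integrand of the smoothed average after the Gaussian integration. -/
def fInt (ζ : ℂ) (ε : ℝ) (p : ℂ × ℝ) (u : ℝ) : ℂ :=
  (((u + ε)⁻¹ * Real.exp (-(u * p.2 ^ 2) - 4 * π ^ 2 * ‖ζ‖ ^ 2 / (u + ε)
      - u * ε / (u + ε) * ‖p.1‖ ^ 2) : ℝ) : ℂ) * eC (ζ * ((u / (u + ε) : ℝ) * p.1))

/-- The Gaussian integral of a shifted Gaussian against the character. -/
lemma gauss_shift (ζ : ℂ) {u ε : ℝ} (hu : 0 ≤ u) (hε : 0 < ε) (z : ℂ) :
    ∫ ξ : ℂ, ((Real.exp (-u * ‖z - ξ‖ ^ 2 + -ε * ‖ξ‖ ^ 2) : ℝ) : ℂ) * eC (ζ * ξ)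
      = (π : ℂ) * (((u + ε)⁻¹ * Real.exp (- 4 * π ^ 2 * ‖ζ‖ ^ 2 / (u + ε)
          - u * ε / (u + ε) * ‖z‖ ^ 2) : ℝ) : ℂ) * eC (ζ * ((u / (u + ε) : ℝ) * z)) := by
  set b := u + ε with hb
  have hb0 : 0 < b := by linarith
  set c : ℂ := ((u / b : ℝ) : ℂ) * z with hc
  -- complete the square after translating by `c`
  rw [← integral_add_right_eq_self _ c]
  have hkey : ∀ η : ℂ, -u * ‖z - (η + c)‖ ^ 2 + -ε * ‖η + c‖ ^ 2
      = -b * ‖η‖ ^ 2 + -(u * ε / b * ‖z‖ ^ 2) := fun η => by
    simp only [← Complex.normSq_eq_norm_sq, Complex.normSq_apply, Complex.sub_re, Complex.sub_im,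
      Complex.add_re, Complex.add_im, hc, Complex.mul_re, Complex.mul_im, Complex.ofReal_re,
      Complex.ofReal_im]
    field_simp
    rw [hb]
    ring
  simp only [hkey, Real.exp_add, Complex.ofReal_mul, mul_add, eC_add]
  rw [show (fun η : ℂ => ((Real.exp (-b * ‖η‖ ^ 2) : ℝ) : ℂ)
      * ((Real.exp (-(u * ε / b * ‖z‖ ^ 2)) : ℝ) : ℂ) * (eC (ζ * η) * eC (ζ * c)))
    = fun η : ℂ => (((Real.exp (-b * ‖η‖ ^ 2) : ℝ) : ℂ) * eC (ζ * η))
      * (((Real.exp (-(u * ε / b * ‖z‖ ^ 2)) : ℝ) : ℂ) * eC (ζ * c)) from funext fun η => by ring,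
    integral_mul_const]
  -- what remains is a Gaussian Fourier integral
  have hg := GaussianFourier.integral_cexp_neg_mul_sq_norm_add (b := (b : ℂ))
    (by simpa using hb0) (4 * π * Complex.I) (conj ζ)
  have he : ∫ η : ℂ, ((Real.exp (-b * ‖η‖ ^ 2) : ℝ) : ℂ) * eC (ζ * η)
      = (π : ℂ) * ((b⁻¹ * Real.exp (-4 * π ^ 2 * ‖ζ‖ ^ 2 / b) : ℝ) : ℂ) := by
    refine Eq.trans (integral_congr_ae (Eventually.of_forall fun η => ?_)) (hg.trans ?_)
    · simp only [eC, Complex.ofReal_exp, ← Complex.exp_add]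
      congr 1
      rw [show inner ℝ (conj ζ) η = (ζ * η).re by simp [Complex.inner]; ring]
      push_cast
      ring
    · rw [Complex.finrank_real_complex, Complex.norm_conj]
      norm_num
      rw [show (4 * (π : ℂ) * Complex.I) ^ 2 = -(16 * (π : ℂ) ^ 2) by
        rw [mul_pow, Complex.I_sq]; ring]
      rw [div_eq_mul_inv (π : ℂ), mul_assoc]
      congr 2
      congr 1
      field_simp
      ring
  rw [he, sub_eq_add_neg (-4 * π ^ 2 * ‖ζ‖ ^ 2 / b), Real.exp_add]
  push_cast
  ring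

/-- `a⁻¹` as the Laplace transform of the constant one. -/
lemma inv_eq_integral {a : ℝ} (ha : 0 < a) : a⁻¹ = ∫ u in Ioi (0 : ℝ), Real.exp (-a * u) := by
  rw [integral_exp_mul_Ioi (neg_lt_zero.2 ha)]
  simp

/-- The smoothed average as an integral over one real variable. -/
lemma fEps_eq (ζ : ℂ) {ε : ℝ} (hε : 0 < ε) {p : ℂ × ℝ} (hp : 0 < p.2) :
    fEps ζ ε p = ((π * p.2 : ℝ) : ℂ) * ∫ u in Ioi (0 : ℝ), fInt ζ ε p u := by
  obtain ⟨z, t⟩ := p
  replace hp : 0 < t := hp
  set g : ℂ → ℂ := fun ξ => ((Real.exp (-ε * ‖ξ‖ ^ 2) : ℝ) : ℂ) * eC (ζ * ξ) with hg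
  have hgm : Measurable g := ((Complex.measurable_ofReal.comp (by fun_prop)).mul
    (continuous_eC.measurable.comp (by fun_prop)))
  let H : ℂ × ℝ → ℂ := fun r =>
    ((Real.exp (-(Complex.normSq (z - r.1) + t ^ 2) * r.2) : ℝ) : ℂ) * g r.1
  have hHm : Measurable H := by
    refine Measurable.mul (Complex.measurable_ofReal.comp ?_) (hgm.comp measurable_fst)
    simp only [Complex.normSq_apply]
    fun_prop
  -- Fubini applies
  have hHi : Integrable H ((volume : Measure ℂ).prod (volume.restrict (Ioi (0 : ℝ)))) := by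
    refine Integrable.mono' ((integrable_gauss hε).mul_prod
      (exp_neg_integrableOn_Ioi (0 : ℝ) (b := t ^ 2) (by positivity))) hHm.aestronglyMeasurable ?_
    have hpos : ∀ᵐ r : ℂ × ℝ ∂((volume : Measure ℂ).prod (volume.restrict (Ioi (0 : ℝ)))),
        0 < r.2 := Measure.quasiMeasurePreserving_snd.ae (ae_restrict_mem measurableSet_Ioi)
    filter_upwards [hpos] with r hr
    simp only [H, g, norm_mul, norm_eC, mul_one, Complex.norm_real,
      Real.norm_of_nonneg (Real.exp_pos _).le]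
    rw [mul_comm]
    refine mul_le_mul_of_nonneg_left (Real.exp_le_exp.2 ?_) (Real.exp_pos _).le
    nlinarith [Complex.normSq_nonneg (z - r.1)]
  have h1 : fEps ζ ε (z, t) = (t : ℂ) * ∫ ξ, ∫ u in Ioi (0 : ℝ), H (ξ, u) := by
    rw [fEps, ← integral_const_mul]
    refine integral_congr_ae (Eventually.of_forall fun ξ => ?_)
    simp only [H, pKer]
    rw [integral_mul_const, integral_complex_ofReal, ← inv_eq_integral (by
      have := Complex.normSq_nonneg (z - ξ); positivity), div_eq_mul_inv]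
    simp only [g]
    push_cast
    ring
  rw [h1, integral_integral_swap hHi, Complex.ofReal_mul, mul_comm (π : ℂ), mul_assoc]
  congr 1
  rw [← integral_const_mul]
  refine setIntegral_congr_fun measurableSet_Ioi fun u (hu : (0 : ℝ) < u) => ?_
  -- the inner integral is Gaussian
  have h2 : ∀ ξ, H (ξ, u) = ((Real.exp (-(u * t ^ 2)) : ℝ) : ℂ)
      * (((Real.exp (-u * ‖z - ξ‖ ^ 2 + -ε * ‖ξ‖ ^ 2) : ℝ) : ℂ) * eC (ζ * ξ)) := fun ξ => by
    simp only [H, g, ← Complex.normSq_eq_norm_sq]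
    rw [← mul_assoc, ← mul_assoc, ← Complex.ofReal_mul, ← Complex.ofReal_mul, ← Real.exp_add,
      ← Real.exp_add]
    congr 3
    ring
  simp only [h2]
  rw [integral_const_mul, gauss_shift ζ hu.le hε z, fInt]
  simp only
  rw [show -(u * t ^ 2) - 4 * π ^ 2 * ‖ζ‖ ^ 2 / (u + ε) - u * ε / (u + ε) * ‖z‖ ^ 2
    = -(u * t ^ 2) + (-4 * π ^ 2 * ‖ζ‖ ^ 2 / (u + ε) - u * ε / (u + ε) * ‖z‖ ^ 2) by ring,
    Real.exp_add]
  push_cast
  ring

/-- A bound for the integrand uniform in the smoothing. -/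
lemma norm_fInt_le {ζ : ℂ} (hζ : ζ ≠ 0) {ε : ℝ} (hε : 0 ≤ ε) (p : ℂ × ℝ) {u : ℝ} (hu : 0 < u) :
    ‖fInt ζ ε p u‖ ≤ (4 * π ^ 2 * ‖ζ‖ ^ 2)⁻¹ * Real.exp (-(p.2 ^ 2) * u) := by
  have hA : 0 < 4 * π ^ 2 * ‖ζ‖ ^ 2 := by have := norm_pos_iff.2 hζ; positivity
  set A := 4 * π ^ 2 * ‖ζ‖ ^ 2 with hAdef
  rw [fInt, norm_mul, norm_eC, mul_one, Complex.norm_real, Real.norm_of_nonneg (by positivity),
    sub_eq_add_neg (-(u * p.2 ^ 2) - A / (u + ε)), sub_eq_add_neg (-(u * p.2 ^ 2)), Real.exp_add,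
    Real.exp_add]
  have h1 : (u + ε)⁻¹ * Real.exp (-(A / (u + ε))) ≤ A⁻¹ := by
    rw [Real.exp_neg, ← mul_inv]
    refine inv_anti₀ hA ?_
    have := Real.add_one_le_exp (A / (u + ε))
    calc A = (u + ε) * (A / (u + ε)) := by field_simp
      _ ≤ _ := by gcongr; linarith
  have h2 : Real.exp (-(u * ε / (u + ε) * ‖p.1‖ ^ 2)) ≤ 1 := Real.exp_le_one_iff.2 (by
    rw [neg_nonpos]; positivity)
  calc (u + ε)⁻¹ * (Real.exp (-(u * p.2 ^ 2)) * Real.exp (-(A / (u + ε)))
        * Real.exp (-(u * ε / (u + ε) * ‖p.1‖ ^ 2)))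
      = ((u + ε)⁻¹ * Real.exp (-(A / (u + ε)))) * Real.exp (-(u * p.2 ^ 2))
        * Real.exp (-(u * ε / (u + ε) * ‖p.1‖ ^ 2)) := by ring
    _ ≤ A⁻¹ * Real.exp (-(u * p.2 ^ 2)) * 1 := by gcongr
    _ = _ := by rw [mul_one, show -(p.2 ^ 2) * u = -(u * p.2 ^ 2) by ring]

/-- A bound for the smoothed average uniform in `ε`. -/
lemma norm_fEps_le {ζ : ℂ} (hζ : ζ ≠ 0) {ε : ℝ} (hε : 0 < ε) {p : ℂ × ℝ} (hp : 0 < p.2) :
    ‖fEps ζ ε p‖ ≤ π * (4 * π ^ 2 * ‖ζ‖ ^ 2)⁻¹ * p.2⁻¹ := by
  rw [fEps_eq ζ hε hp, norm_mul, Complex.norm_real, Real.norm_of_nonneg (by positivity)]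
  have h : ‖∫ u in Ioi (0 : ℝ), fInt ζ ε p u‖ ≤ (4 * π ^ 2 * ‖ζ‖ ^ 2)⁻¹ * (p.2 ^ 2)⁻¹ := by
    rw [inv_eq_integral (by positivity : 0 < p.2 ^ 2), ← integral_const_mul]
    refine norm_integral_le_of_norm_le
      ((exp_neg_integrableOn_Ioi (0 : ℝ) (b := p.2 ^ 2) (by positivity)).const_mul _) ?_
    filter_upwards [ae_restrict_mem measurableSet_Ioi] with u (hu : (0 : ℝ) < u)
    exact norm_fInt_le hζ hε.le p hu
  refine (mul_le_mul_of_nonneg_left h (by positivity)).trans (le_of_eq ?_)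
  field_simp

/-- The smoothed averages tend to a multiple of the eigenfunction. -/
lemma tendsto_fEps {ζ : ℂ} (hζ : ζ ≠ 0) (y : H3) :
    Tendsto (fun n : ℕ => fEps ζ (1 / (n + 1)) (H3.coord y)) atTop
      (𝓝 (((π / ‖ζ‖ : ℝ) : ℂ) * hW ζ y)) := by
  set p := H3.coord y with hp
  have ht : 0 < p.2 := H3.coord_pos y
  -- dominated convergence
  have hlim : Tendsto (fun n : ℕ => ∫ u in Ioi (0 : ℝ), fInt ζ (1 / (n + 1)) p u) atTop
      (𝓝 (∫ u in Ioi (0 : ℝ), fInt ζ 0 p u)) := by
    refine tendsto_integral_of_dominated_convergence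
      (fun u => (4 * π ^ 2 * ‖ζ‖ ^ 2)⁻¹ * Real.exp (-(p.2 ^ 2) * u)) (fun n => ?_) ?_
        (fun n => ?_) ?_
    · refine Measurable.aestronglyMeasurable ?_
      unfold fInt
      exact (Complex.measurable_ofReal.comp (by fun_prop)).mul
        (continuous_eC.measurable.comp (by fun_prop))
    · exact (exp_neg_integrableOn_Ioi (0 : ℝ) (b := p.2 ^ 2) (by positivity)).const_mul _
    · filter_upwards [ae_restrict_mem measurableSet_Ioi] with u (hu : (0 : ℝ) < u)
      exact norm_fInt_le hζ (by positivity) p hu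
    · filter_upwards [ae_restrict_mem measurableSet_Ioi] with u (hu : (0 : ℝ) < u)
      have hc : ContinuousAt (fun e : ℝ => fInt ζ e p u) 0 := by
        have h1 : ContinuousAt (fun e : ℝ => (u + e)⁻¹) 0 :=
          (continuousAt_const.add continuousAt_id).inv₀ (by simpa using hu.ne')
        unfold fInt
        refine (Complex.continuous_ofReal.continuousAt.comp ?_).mul
          (continuous_eC.continuousAt.comp ?_)
        · simp only [div_eq_mul_inv]
          fun_prop
        · simp only [div_eq_mul_inv]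
          fun_prop
      exact hc.tendsto.comp tendsto_one_div_add_atTop_nhds_zero_nat
  -- the limit is the radial integral
  have hval : ((π * p.2 : ℝ) : ℂ) * ∫ u in Ioi (0 : ℝ), fInt ζ 0 p u
      = ((π / ‖ζ‖ : ℝ) : ℂ) * hW ζ y := by
    have e : ∀ u ∈ Ioi (0 : ℝ), fInt ζ 0 p u
        = ((u⁻¹ * Real.exp (-(u * p.2 ^ 2) - 4 * π ^ 2 * ‖ζ‖ ^ 2 / u) : ℝ) : ℂ) * eC (ζ * p.1) :=
      fun u (hu : 0 < u) => by simp [fInt, div_self hu.ne']
    rw [setIntegral_congr_fun measurableSet_Ioi e, integral_mul_const, integral_complex_ofReal,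
      hW, ← hp, ← mul_assoc, ← mul_assoc, ← Complex.ofReal_mul, ← Complex.ofReal_mul]
    congr 2
    set b := 2 * π * ‖ζ‖ / p.2 with hb
    have hb0 : 0 < b := by positivity
    have hsub := MeasureTheory.integral_comp_mul_left_Ioi
      (fun u => u⁻¹ * Real.exp (-(u * p.2 ^ 2) - 4 * π ^ 2 * ‖ζ‖ ^ 2 / u)) 0 hb0
    rw [mul_zero, smul_eq_mul] at hsub
    have hcomp : archF (‖ζ‖ * p.2) = b * ∫ q in Ioi (0 : ℝ),
        (b * q)⁻¹ * Real.exp (-(b * q * p.2 ^ 2) - 4 * π ^ 2 * ‖ζ‖ ^ 2 / (b * q)) := by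
      rw [← integral_const_mul]
      refine setIntegral_congr_fun measurableSet_Ioi fun q (hq : (0 : ℝ) < q) => ?_
      rw [archI, hb]
      field_simp
      congr 1
      ring
    rw [archRho, hcomp, hsub, ← mul_assoc b, mul_inv_cancel₀ hb0.ne', one_mul]
    field_simp
  refine (hval ▸ hlim.const_mul ((π * p.2 : ℝ) : ℂ)).congr fun n => ?_
  rw [fEps_eq ζ (by positivity) ht]

/-- **The eigenfunction property.** For `ζ ≠ 0` the function `hW ζ` is an eigenfunction of every
invariant compact kernel, with eigenvalue `hhat0`. -/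
theorem eigen_hW {ζ : ℂ} (hζ : ζ ≠ 0) (hk : Continuous k) (hs : HasCompactSupport k) (x : H3) :
    ∫ y, (k (coshd x y) : ℂ) * hW ζ y ∂hmeas = hhat0 k * hW ζ x := by
  set K := AKer.ofRadial k hk hs with hK
  set c : ℂ := ((π / ‖ζ‖ : ℝ) : ℂ) with hc
  have hc0 : c ≠ 0 := Complex.ofReal_ne_zero.2 (div_ne_zero Real.pi_ne_zero (norm_ne_zero_iff.2 hζ))
  have hlim : Tendsto (fun n : ℕ => ∫ y,
      (k (coshd x y) : ℂ) * fEps ζ (1 / (n + 1)) (H3.coord y) ∂hmeas)
      atTop (𝓝 (∫ y, (k (coshd x y) : ℂ) * (c * hW ζ y) ∂hmeas)) := by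
    refine tendsto_integral_of_dominated_convergence
      (fun y => ‖K x y‖ * (π * (4 * π ^ 2 * ‖ζ‖ ^ 2)⁻¹ * (H3.coord y).2⁻¹))
      (fun n => ?_) ?_ (fun n => ?_) ?_
    · exact ((K.continuous_right x).measurable.mul (measurable_fEps ζ _)).aestronglyMeasurable
    · exact ((integrable_kernel_inv_height hk hs x).const_mul
        (π * (4 * π ^ 2 * ‖ζ‖ ^ 2)⁻¹)).congr (Eventually.of_forall fun y => mul_left_comm _ _ _)
    · refine Eventually.of_forall fun y => ?_
      rw [norm_mul]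
      exact mul_le_mul_of_nonneg_left (norm_fEps_le hζ (by positivity) (H3.coord_pos y))
        (norm_nonneg _)
    · exact Eventually.of_forall fun y => (tendsto_fEps hζ y).const_mul _
  have h2 : Tendsto (fun n : ℕ => ∫ y,
      (k (coshd x y) : ℂ) * fEps ζ (1 / (n + 1)) (H3.coord y) ∂hmeas)
      atTop (𝓝 (hhat0 k * (c * hW ζ x))) :=
    ((tendsto_fEps hζ x).const_mul _).congr fun n => (eigen_fEps hk hs ζ (by positivity) x).symm
  have h := tendsto_nhds_unique hlim h2
  simp only [show ∀ y, (k (coshd x y) : ℂ) * (c * hW ζ y) = c * ((k (coshd x y) : ℂ) * hW ζ y) from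
    fun y => by ring] at h
  rw [integral_const_mul] at h
  exact mul_left_cancel₀ hc0 (h.trans (by ring))

end Fermat.LT.Theta
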