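import Fermat.Agent.LT.Theta.Lattice

/-!
# Theta: the Gaussian lattice sums and their duals

`exists_poisson`: the Gaussian sum over a translate of `D 𝓞` is, up to a constant, the dual sum
twisted by the translation.
-/

set_option autoImplicit false

open NumberField MeasureTheory Filter Topology Module
open scoped Real Pointwise NNReal

noncomputable section

namespace Fermat.LT.Theta

open Fermat.LT.Mult (emb chiF BIdx)

variable {F M : Type} [Field F] [NumberField F] [IsTotallyComplex F] [Field M] [NumberField M]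
  [Algebra F M] [IsGalois F M] {σ : M ≃ₐ[F] M}

variable (σ) in
/-- The Jacobian of the transform. -/
def jacG (δ : Fˣ) (t : InfinitePlace F → ℝ) (z : InfinitePlace F → ℂ) : ℝ :=
  ∏ w : InfinitePlace F, 1 / (4 * ‖w.embedding (δ : F)‖ ^ 2 * (Complex.normSq (z w) + t w ^ 2))

variable (hF : Module.finrank F M = 2) (hσ : σ ≠ 1)
include hF hσ

omit hF hσ in
omit [NumberField F] [IsTotallyComplex F] [IsGalois F M] in
/-- The dual family lies in a fractional lattice. -/
lemma exists_dualY_lattice (δ : Fˣ) (D : ℕ) :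
    ∃ Den : ℕ, Den ≠ 0 ∧ ∀ k, dualY σ δ D k ∈ fracLat (F := M) Den := by
  set b' := (Algebra.traceForm ℚ M).dualBasis (traceForm_nondegenerate ℚ M) (integralBasis M)
  choose E hE l hl using fun i => Mult.exists_den (σ ((algebraMap F M (δ : F) * (D : M))⁻¹ * b' i))
  refine ⟨∏ i, E i, Finset.prod_ne_zero_iff.2 fun i _ => hE i, fun k v => ?_⟩
  rw [dualY, Finset.mul_sum, map_sum, Finset.mul_sum]
  refine (v.valuation M).map_sum_le fun i _ => ?_
  rw [mul_smul_comm, Algebra.smul_def, map_mul σ, map_intCast, map_intCast,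
    ← Finset.prod_erase_mul _ _ (Finset.mem_univ i), Nat.cast_mul,
    show ∀ A B C G : M, A * B * (C * G) = (A * C) * (B * G) from fun A B C G => by ring, hl i,
    map_mul, map_mul]
  refine mul_le_one' (mul_le_one' ?_ ?_) (v.valuation_le_one (l i))
  · exact_mod_cast v.valuation_le_one (K := M) ((∏ j ∈ Finset.univ.erase i, E j : ℕ) : 𝓞 M)
  · exact_mod_cast v.valuation_le_one (K := M) ((k i : ℤ) : 𝓞 M)

/-- The dual lattice sum converges absolutely. -/
lemma summable_dual (δ : Fˣ) {D : ℕ} (hD : D ≠ 0) {t q : InfinitePlace F → ℝ} (ht : ∀ w, 0 < t w)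
    (hq : ∀ w, 0 < q w) (z : InfinitePlace F → ℂ) :
    Summable fun k : BIdx M → ℤ => ‖gE δ t q z (jj σ (dualY σ δ D k))‖ := by
  obtain ⟨Den, hDen, h⟩ := exists_dualY_lattice (σ := σ) δ D
  exact (summable_gE hF hσ δ ht hq z hDen).comp_injective
    (i := fun k => (⟨_, h k⟩ : fracLat (F := M) Den))
    fun a b hab => dualY_injective hF hσ δ hD (congrArg Subtype.val hab)

omit hF hσ in
omit [IsTotallyComplex F] in
/-- The Fourier transform of the Gaussian on the ambient space. -/
lemma integral_gE (δ : Fˣ) {t q : InfinitePlace F → ℝ} (ht : ∀ w, 0 < t w) (hq : ∀ w, 0 < q w)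
    (z : InfinitePlace F → ℂ) (Y : InfinitePlace F → ℂ × ℂ) :
    ∫ U, gE δ t q z U * Complex.exp (2 * π * Complex.I * ((bE δ Y U : ℝ) : ℂ))
      = (jacG δ t z : ℂ) * gE δ (tJ t z) q (zJ t z) Y := by
  have e : (fun U => gE δ t q z U * Complex.exp (2 * π * Complex.I * ((bE δ Y U : ℝ) : ℂ)))
      = fun U => ∏ w, (fun (w : InfinitePlace F) (u : ℂ × ℂ) =>
          gW (w.embedding (δ : F)) (t w) (q w) (z w) u * pW (w.embedding (δ : F)) u
              (Y w)) w (U w) :=
    funext fun U => by rw [← prod_pW, gE, ← Finset.prod_mul_distrib]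
  rw [e, MeasureTheory.integral_fintype_prod_volume_eq_prod (E := fun _ : InfinitePlace F => ℂ × ℂ)
    (fun (w : InfinitePlace F) (u : ℂ × ℂ) =>
      gW (w.embedding (δ : F)) (t w) (q w) (z w) u * pW (w.embedding (δ : F)) u (Y w)),
    jacG, gE, Complex.ofReal_prod, ← Finset.prod_mul_distrib]
  exact Finset.prod_congr rfl fun w _ =>
    integral_gW ((map_ne_zero _).2 δ.ne_zero) (ht w) (hq w) (z w) (Y w)

/-- The character dual to the cube is that of the pairing with the dual lattice, translated. -/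
lemma eDot_eq_bE (δ : Fˣ) {D : ℕ} (hD : D ≠ 0) {Λ : (BIdx M → ℝ) ≃L[ℝ] (InfinitePlace F → ℂ × ℂ)}
    (hΛ : ∀ s, Λ s = ∑ i, s i • jj σ (RingOfIntegers.basis M i : M)) (c : M)
    (k : BIdx M → ℤ) (s : BIdx M → ℝ) :
    eDot k s = Complex.exp (2 * π * Complex.I *
        ((bE δ (jj σ (dualY σ δ D k)) (jj σ c + (D : ℝ) • Λ s) : ℝ) : ℂ))
      * chiF ((δ : F) * pair σ c (dualY σ δ D k)) := by
  set y := dualY σ δ D k
  have hD' : bE δ (jj σ y) ((D : ℝ) • Λ s) = ∑ i, (k i : ℝ) * s i := by
    rw [hΛ, Finset.smul_sum, map_sum]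
    refine Finset.sum_congr rfl fun i _ => ?_
    rw [smul_comm, map_smul, ← jj_natCast_mul, bE_jj hF hσ, trace_dualY hF hσ δ hD, smul_eq_mul]
    push_cast
    ring
  rw [map_add, hD', Complex.ofReal_add, mul_add, Complex.exp_add, chi_bE hF hσ,
    show ∀ A B C : ℂ, A * B * C = B * (A * C) from fun A B C => by ring, chiF, ← Mult.chi_add,
    add_neg_cancel, Mult.chi_zero, mul_one]
  rfl

/-- **Poisson summation over `c + D 𝓞`.** The Gaussian sum over a translate of `D 𝓞` equals, up to a
constant, the Gaussian sum with characters over the dual lattice. -/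
theorem exists_poisson (δ : Fˣ) : ∃ κ : ℝ, ∀ (D : ℕ), D ≠ 0 → ∀ (t q : InfinitePlace F → ℝ),
    (∀ w, 0 < t w) → (∀ w, 0 < q w) → ∀ (z : InfinitePlace F → ℂ) (c : M),
    ∑' l : 𝓞 M, gE δ t q z (jj σ (c + (D : M) * (l : M)))
      = ((κ / (D : ℝ) ^ finrank ℚ M * jacG δ t z : ℝ) : ℂ)
        * ∑' k : BIdx M → ℤ, chiF ((δ : F) * pair σ c (dualY σ δ D k))
          * gE δ (tJ t z) q (zJ t z) (jj σ (dualY σ δ D k)) := by
  obtain ⟨Λ, hΛ⟩ := exists_lattice_equiv hF hσ δ
  let e : (BIdx M → ℝ) ≃ᵐ (InfinitePlace F → ℂ × ℂ) := Λ.toHomeomorph.toMeasurableEquiv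
  have hH2 : (volume : Measure (ℂ × ℂ)).IsAddHaarMeasure := by
    rw [Measure.volume_eq_prod]; infer_instance
  have hHE : (volume : Measure (InfinitePlace F → ℂ × ℂ)).IsAddHaarMeasure := by
    have : ∀ _ : InfinitePlace F, (volume : Measure (ℂ × ℂ)).IsAddHaarMeasure := fun _ => hH2
    exact Measure.pi.isAddHaarMeasure _
  have hHaar : (Measure.map Λ (volume : Measure (BIdx M → ℝ))).IsAddHaarMeasure :=
    Λ.isAddHaarMeasure_map _
  set κ : ℝ≥0 := Measure.addHaarScalarFactor (Measure.map Λ (volume : Measure (BIdx M → ℝ)))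
    (volume : Measure (InfinitePlace F → ℂ × ℂ))
  have hmap : Measure.map Λ (volume : Measure (BIdx M → ℝ))
      = κ • (volume : Measure (InfinitePlace F → ℂ × ℂ)) :=
    Measure.isAddLeftInvariant_eq_smul _ _
  refine ⟨(κ : ℝ), fun D hD t q ht hq z c => ?_⟩
  have hD0 : (0 : ℝ) < D := by exact_mod_cast Nat.pos_of_ne_zero hD
  -- the change of variables along the lattice
  have hchg : ∀ f : (InfinitePlace F → ℂ × ℂ) → ℂ, Continuous f →
      ∫ s, f (jj σ c + (D : ℝ) • Λ s) = ((κ : ℝ) / (D : ℝ) ^ finrank ℚ M : ℝ) • ∫ U, f U := by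
    intro f _
    have h1 := integral_map_equiv (μ := (volume : Measure (BIdx M → ℝ))) e
      fun U => f (jj σ c + (D : ℝ) • U)
    rw [show (Measure.map e volume) = Measure.map Λ volume from rfl, hmap,
      integral_smul_nnreal_measure] at h1
    rw [show (fun s => f (jj σ c + (D : ℝ) • Λ s)) = fun s => f (jj σ c + (D : ℝ) • e s) from rfl,
      ← h1, Measure.integral_comp_smul volume (fun U => f (jj σ c + U)), integral_add_left_eq_self,
      NNReal.smul_def, smul_smul, finrank_ambient hF,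
      show finrank ℚ M = Fintype.card (BIdx M) from finrank_eq_card_basis (integralBasis M),
      abs_of_nonneg (by positivity), div_eq_mul_inv]
  set g : (BIdx M → ℝ) → ℂ := fun s => gE δ t q z (jj σ c + (D : ℝ) • Λ s) with hg
  have hgc : Continuous g := (continuous_gE δ z).comp
    (continuous_const.add (Λ.continuous.const_smul (D : ℝ)))
  have hgi : Integrable g := by
    have h1 : Integrable (fun U => gE δ t q z (jj σ c + (D : ℝ) • U))
        (Measure.map e (volume : Measure (BIdx M → ℝ))) := by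
      rw [show (Measure.map e volume) = Measure.map Λ volume from rfl, hmap]
      exact (((integrable_gE δ ht hq z).comp_add_left (jj σ c)).comp_smul
        hD0.ne').smul_measure_nnreal
    exact (integrable_map_equiv e _).1 h1
  set L : (BIdx M → ℤ) → 𝓞 M := fun n => ∑ i, n i • RingOfIntegers.basis M i
  have hLΛ : ∀ n, Λ (zVec n) = jj σ (L n : M) := fun n => by
    rw [hΛ]
    simp only [L, map_sum, zsmul_eq_mul, map_mul, map_intCast]
    refine Finset.sum_congr rfl fun i _ => ?_
    rw [← zsmul_eq_mul, map_zsmul, zVec, Int.cast_smul_eq_zsmul]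
  have hLbij : Function.Bijective L := by
    have e : L = ⇑(RingOfIntegers.basis M).equivFun.symm := funext fun n => by
      simp [L, Basis.equivFun_symm_apply]
    rw [e]
    exact (RingOfIntegers.basis M).equivFun.symm.bijective
  have hb : ∀ R : ℝ, ∃ b : (BIdx M → ℤ) → ℝ, Summable b ∧
      ∀ n s, ‖s‖ ≤ R → ‖g (s + zVec n)‖ ≤ b n := by
    intro R
    obtain ⟨R', hR'⟩ := ((isCompact_closedBall (0 : BIdx M → ℝ) R).image
      (continuous_const.add (Λ.continuous.const_smul (D : ℝ)) :
        Continuous fun s => jj σ c + (D : ℝ) • Λ s)).isBounded.exists_norm_le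
    obtain ⟨c', C, hc', -, hbd⟩ := exists_gE_shift_le δ ht hq z R'
    have := isTotallyComplex_of_algebra (F := F) (K := M)
    refine ⟨fun n => C * Real.exp (-(c' * (D : ℝ) ^ 2 / (2 * Fintype.card (InfinitePlace M)))
        * ∑ W, ‖emb (F := M) (L n : M) W‖ ^ 2), ((summable_gauss_lattice (F := M)
          (by positivity)).comp_injective hLbij.1).mul_left C, fun n s hs => ?_⟩
    have hs' : ‖jj σ c + (D : ℝ) • Λ s‖ ≤ R' := hR' _ ⟨s, by simpa using hs, rfl⟩
    change ‖gE δ t q z (jj σ c + (D : ℝ) • Λ (s + zVec n))‖ ≤ _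
    rw [map_add, smul_add, ← add_assoc, hLΛ]
    refine (hbd _ _ hs').trans (mul_le_mul_of_nonneg_left (Real.exp_le_exp.2 ?_) ?_)
    · rw [neg_mul, neg_mul, neg_le_neg_iff]
      refine (mul_le_mul_of_nonneg_left (sum_places_le hF hσ (L n : M)) (by positivity)).trans_eq ?_
      simp only [Pi.smul_apply, Prod.smul_fst, Prod.smul_snd, norm_smul, Real.norm_natCast, mul_pow,
        ← mul_add, ← Finset.mul_sum]
      field_simp
    · exact le_trans (norm_nonneg _) (hbd (jj σ c + (D : ℝ) • Λ s) 0 hs') |> fun h =>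
        nonneg_of_mul_nonneg_left h (Real.exp_pos _)
  -- the Fourier coefficients are the Gaussians at the dual lattice
  have hhat : ∀ k : BIdx M → ℤ, ∫ s, g s * eDot k s
      = ((κ : ℝ) / (D : ℝ) ^ finrank ℚ M * jacG δ t z : ℝ) *
          (chiF ((δ : F) * pair σ c (dualY σ δ D k))
          * gE δ (tJ t z) q (zJ t z) (jj σ (dualY σ δ D k))) := by
    intro k
    set y := dualY σ δ D k
    have hdot := eDot_eq_bE hF hσ δ hD hΛ c k
    simp only [hdot, hg, ← mul_assoc]
    rw [integral_mul_const, hchg (fun U => gE δ t q z U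
      * Complex.exp (2 * π * Complex.I * ((bE δ (jj σ y) U : ℝ) : ℂ)))
        ((continuous_gE δ z).mul (Complex.continuous_exp.comp (continuous_const.mul
          (Complex.continuous_ofReal.comp (bE δ (jj σ y)).continuous_of_finiteDimensional)))),
      integral_gE δ ht hq z, Complex.real_smul]
    push_cast
    ring
  have hsum : Summable fun k : BIdx M → ℤ => ∫ s, g s * eDot k s := by
    have h1 : Summable fun k : BIdx M → ℤ => chiF ((δ : F) * pair σ c (dualY σ δ D k))
        * gE δ (tJ t z) q (zJ t z) (jj σ (dualY σ δ D k)) := by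
      refine Summable.of_norm_bounded (g := fun k =>
        ‖gE δ (tJ t z) q (zJ t z) (jj σ (dualY σ δ D k))‖)
        (summable_dual hF hσ δ hD (tJ_pos ht z) hq (zJ t z)) fun k => ?_
      rw [norm_mul, chiF, Mult.norm_chi, one_mul]
    exact (h1.mul_left ((((κ : ℝ) / (D : ℝ) ^ finrank ℚ M * jacG δ t z : ℝ) : ℂ))).congr
      fun k => (hhat k).symm
  have hP := poisson_pi hgc hgi hb hsum
  simp only [hhat, tsum_mul_left] at hP
  rw [← hP, ← (Equiv.ofBijective L hLbij).tsum_eq]
  refine tsum_congr fun n => ?_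
  change gE δ t q z (jj σ (c + (D : M) * (L n : M))) = g (zVec n)
  rw [map_add, jj_natCast_mul, ← hLΛ]

end Fermat.LT.Theta
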