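import Fermat.Agent.LT.Theta.Expand
import Fermat.Agent.LT.Theta.Poisson

/-!
# Theta: the archimedean coefficient as an integral of Gaussians over the torus

`archW_norm` evaluates the archimedean coefficient at a norm, by `integral_gU`.
-/

set_option autoImplicit false
set_option linter.unusedSectionVars false

open NumberField MeasureTheory Filter Topology Fermat.CFT
open scoped Real

noncomputable section

namespace Fermat.LT.Theta

/-- The radial integral in the logarithmic variable `q = exp u`. -/
lemma integral_exp_archI (s : ℝ) :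
    ∫ u : ℝ, Real.exp (-(2 * π * s) * (Real.exp u + (Real.exp u)⁻¹)) = archF s := by
  have h := integral_image_eq_integral_abs_deriv_smul MeasurableSet.univ
    (fun u _ => (Real.hasDerivAt_exp u).hasDerivWithinAt) Real.exp_injective.injOn (archI s)
  rw [Set.image_univ, Real.range_exp, Measure.restrict_univ] at h
  rw [archF, h]
  refine integral_congr_ae (Eventually.of_forall fun u => ?_)
  simp only [smul_eq_mul, archI, abs_of_pos (Real.exp_pos u)]
  field_simp

/-- The radial integrand in the logarithmic variable is integrable. -/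
lemma integrable_exp_archI {s : ℝ} (hs : 0 < s) :
    Integrable fun u : ℝ => Real.exp (-(2 * π * s) * (Real.exp u + (Real.exp u)⁻¹)) := by
  have h := integrableOn_image_iff_integrableOn_abs_deriv_smul MeasurableSet.univ
    (fun u _ => (Real.hasDerivAt_exp u).hasDerivWithinAt) Real.exp_injective.injOn (archI s)
  rw [Set.image_univ, Real.range_exp, integrableOn_univ] at h
  refine (h.1 (integrableOn_archI hs)).congr (Eventually.of_forall fun u => ?_)
  simp only [smul_eq_mul, archI, abs_of_pos (Real.exp_pos u)]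
  field_simp

/-- Along `q = exp u` the modulus of the twisted Gaussian at `(a, b)` is the radial integrand
at `|c| t |a| |b|`, shifted by `log |a| - log |b|`. -/
lemma norm_gW_exp (c : ℂ) (t : ℝ) (z : ℂ) {a b : ℂ} (ha : a ≠ 0) (hb : b ≠ 0) (u : ℝ) :
    ‖gW c t (Real.exp u) z (a, b)‖
      = Real.exp (-(2 * π * (‖c‖ * t * (‖a‖ * ‖b‖)))
          * (Real.exp (u + (Real.log ‖a‖ - Real.log ‖b‖))
            + (Real.exp (u + (Real.log ‖a‖ - Real.log ‖b‖)))⁻¹)) := by
  have ha' : 0 < ‖a‖ := norm_pos_iff.2 ha
  have hb' : 0 < ‖b‖ := norm_pos_iff.2 hb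
  have := Real.exp_pos u
  rw [norm_gW, Real.exp_add, Real.exp_sub, Real.exp_log ha', Real.exp_log hb']
  congr 1
  field_simp

/-- The twisted Gaussian is its modulus times the character at `c z a b`. -/
lemma gW_exp (c : ℂ) (t : ℝ) (z : ℂ) (a b : ℂ) (u : ℝ) :
    gW c t (Real.exp u) z (a, b)
      = (‖gW c t (Real.exp u) z (a, b)‖ : ℂ) * eC (c * z * a * b) := by
  rw [norm_gW, gW]

/-- The integral of that modulus over `u` is `archF (|c| t |a| |b|)`. -/
lemma integral_norm_gW_exp (c : ℂ) (t : ℝ) (z : ℂ) {a b : ℂ} (ha : a ≠ 0) (hb : b ≠ 0) :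
    ∫ u : ℝ, ‖gW c t (Real.exp u) z (a, b)‖ = archF (‖c‖ * t * (‖a‖ * ‖b‖)) := by
  simp only [norm_gW_exp c t z ha hb]
  rw [integral_add_right_eq_self (fun u => Real.exp (-(2 * π * (‖c‖ * t * (‖a‖ * ‖b‖)))
    * (Real.exp u + (Real.exp u)⁻¹)))]
  exact integral_exp_archI _

/-- That modulus is integrable over `u`. -/
lemma integrable_norm_gW_exp {c : ℂ} (hc : c ≠ 0) {t : ℝ} (ht : 0 < t) (z : ℂ) {a b : ℂ}
    (ha : a ≠ 0) (hb : b ≠ 0) :
    Integrable fun u : ℝ => ‖gW c t (Real.exp u) z (a, b)‖ := by
  simp only [norm_gW_exp c t z ha hb]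
  refine (integrable_exp_archI ?_).comp_add_right _
  have := norm_pos_iff.2 hc
  have := norm_pos_iff.2 ha
  have := norm_pos_iff.2 hb
  positivity

variable {F M : Type} [Field F] [NumberField F] [Field M] [NumberField M] [Algebra F M]
  [IsGalois F M] {σ : M ≃ₐ[F] M}

variable (σ) in
/-- The Gaussian at `η` as a function of the logarithm of the radius. -/
def gU (δ : Fˣ) (t : InfinitePlace F → ℝ) (z : InfinitePlace F → ℂ) (η : M)
    (u : InfinitePlace F → ℝ) : ℂ :=
  gE δ t (fun w => Real.exp (u w)) z (jj σ η)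

/-- The Gaussian is continuous in the logarithm of the radius. -/
lemma continuous_gU (δ : Fˣ) (t : InfinitePlace F → ℝ) (z : InfinitePlace F → ℂ) (η : M) :
    Continuous (gU σ δ t z η) := by
  refine continuous_finsetProd _ fun w _ => ?_
  unfold gW
  simp only [div_eq_mul_inv, ← Real.exp_neg]
  fun_prop

/-- The logarithmic shift of a multiplier. -/
def logT (μ : M) (w : InfinitePlace F) : ℝ := 2 * Real.log ‖jw M w μ‖

variable (hF : Module.finrank F M = 2) (hσ : σ ≠ 1)
include hF hσ

/-- At an infinite place the norm is the product of the two conjugate coordinates. -/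
lemma jw_norm (w : InfinitePlace F) (η : M) :
    w.embedding (Algebra.norm F η) = jw M w η * jw M w (σ η) := by
  rw [← jw_algebraMap (M := M), norm_eq hF hσ, map_mul]

/-- Multiplying by a norm one element shifts the logarithmic variable. -/
lemma gU_mul (δ : Fˣ) (t : InfinitePlace F → ℝ) (z : InfinitePlace F → ℂ) {μ : M}
    (hμ : Algebra.norm F μ = 1) (η : M) (u : InfinitePlace F → ℝ) :
    gU σ δ t z (μ * η) u = gU σ δ t z η (u + logT μ) := by
  refine Finset.prod_congr rfl fun w _ => ?_
  have h1 : jw M w μ * jw M w (σ μ) = 1 := by rw [← jw_norm hF hσ, hμ, map_one]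
  have hμ0 : (0 : ℝ) < ‖jw M w μ‖ := norm_pos_iff.2 (left_ne_zero_of_mul_eq_one h1)
  have h2 : ‖jw M w (σ μ)‖ = ‖jw M w μ‖⁻¹ := by
    refine eq_inv_of_mul_eq_one_right ?_
    rw [← norm_mul, h1, norm_one]
  simp only [jj_apply, map_mul, gW, norm_mul, h2, Pi.add_apply, logT]
  congr 1
  · rw [Real.exp_add, two_mul (Real.log _), Real.exp_add, Real.exp_log hμ0]
    have := Real.exp_pos (u w)
    congr 3
    field_simp
  · congr 1
    linear_combination (w.embedding (δ : F) * z w * jw M w η * jw M w (σ η)) * h1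

/-- The two coordinates of `η` at `w` have absolute values multiplying to `|N η|_w`. -/
lemma norm_mul_norm_jj (w : InfinitePlace F) (η : M) :
    ‖(jj σ η w).1‖ * ‖(jj σ η w).2‖ = w (Algebra.norm F η) := by
  rw [jj_apply, ← norm_mul, ← jw_norm hF hσ, InfinitePlace.norm_embedding_eq]

variable [IsTotallyComplex F] (δ : Fˣ) {t : InfinitePlace F → ℝ} (z : InfinitePlace F → ℂ) {η : M}
  (hη : η ≠ 0)
include hη

/-- The integral of the modulus of `gU` is the product over the places of radial integrals. -/
lemma integral_norm_gU :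
    ∫ u, ‖gU σ δ t z η u‖ =
      ∏ w : InfinitePlace F, archF (w (δ : F) * t w * w (Algebra.norm F η)) := by
  simp only [gU, gE, norm_prod]
  rw [integral_fintype_prod_volume_eq_prod (fun (w : InfinitePlace F) (u : ℝ) =>
    ‖gW (w.embedding (δ : F)) (t w) (Real.exp u) (z w) (jj σ η w)‖)]
  refine Finset.prod_congr rfl fun w _ => ?_
  simp only [jj_apply]
  rw [integral_norm_gW_exp _ _ _ ((map_ne_zero _).2 hη) ((map_ne_zero _).2 ((map_ne_zero σ).2 hη)),
    ← norm_mul_norm_jj hF hσ, InfinitePlace.norm_embedding_eq]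
  rfl

omit hF hσ in
/-- The Gaussian is integrable in the logarithm of the radius. -/
lemma integrable_gU (ht : ∀ w, 0 < t w) : Integrable (gU σ δ t z η) := by
  have h : ∀ w,
      Integrable (fun u : ℝ => ‖gW (w.embedding (δ : F)) (t w) (Real.exp u) (z w) (jj σ η w)‖) :=
    fun w => integrable_norm_gW_exp ((map_ne_zero _).2 δ.ne_zero) (ht w) _
      ((map_ne_zero _).2 hη) ((map_ne_zero _).2 ((map_ne_zero σ).2 hη))
  have h' := Integrable.fintype_prod (μ := fun _ : InfinitePlace F => (volume : Measure ℝ)) h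
  rw [← volume_pi] at h'
  refine h'.mono' (continuous_gU δ t z η).aestronglyMeasurable (Eventually.of_forall fun u => ?_)
  simp only [gU, gE, norm_prod]
  exact le_rfl

/-- The integral of the Gaussian is the character times the radial integrals. -/
lemma integral_gU :
    ∫ u, gU σ δ t z η u = (∏ w : InfinitePlace F, eC (w.embedding (δ : F) * z w
      * w.embedding (Algebra.norm F η)))
      * ((∏ w : InfinitePlace F, archF (w (δ : F) * t w * w (Algebra.norm F η)) : ℝ) : ℂ) := by
  rw [← integral_norm_gU hF hσ δ z hη (t := t), ← integral_complex_ofReal, ← integral_const_mul]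
  refine integral_congr_ae (Eventually.of_forall fun u => ?_)
  simp only [gU, gE, norm_prod, Complex.ofReal_prod, ← Finset.prod_mul_distrib]
  refine Finset.prod_congr rfl fun w _ => ?_
  rw [mul_comm, jw_norm hF hσ]
  conv_lhs => rw [show jj σ η w = ((jj σ η w).1, (jj σ η w).2) from rfl, gW_exp]
  simp only [jj_apply]
  rw [mul_assoc _ (jw M w η)]

/-- The lower integral of the modulus of `gU`. -/
lemma lintegral_norm_gU (ht : ∀ w, 0 < t w) : ∫⁻ u, ‖gU σ δ t z η u‖ₑ
    = ENNReal.ofReal (∏ w : InfinitePlace F, archF (w (δ : F) * t w * w (Algebra.norm F η))) := by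
  rw [← integral_norm_gU hF hσ δ z hη (t := t),
    ofReal_integral_norm_eq_lintegral_enorm (integrable_gU δ z hη ht)]

omit hη

variable {lam : Pl F → ℝ} (H : HData σ lam)

/-- **The archimedean coefficient at a norm.** -/
theorem archW_norm (ξ : Mˣ) (x : InfinitePlace F → H3) :
    archW (dat H) (nrm σ ξ) x
      = ((∏ w : InfinitePlace F, w (dlt H : F) * (H3.coord (x w)).2 : ℝ) : ℂ)
        * ((∏ w : InfinitePlace F, w (nrm σ ξ : F) : ℝ) : ℂ)
        * ∫ u, gU σ (dlt H) (fun w => (H3.coord (x w)).2) (fun w => (H3.coord (x w)).1)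
          (ξ : M) u := by
  rw [integral_gU hF hσ (dlt H) _ ξ.ne_zero]
  simp only [archW, hW, archRho, Complex.ofReal_prod, ← Finset.prod_mul_distrib, coe_nrm]
  refine Finset.prod_congr rfl fun w _ => ?_
  rw [show (dat H).δ = dlt H from rfl, InfinitePlace.norm_embedding_eq, map_mul, map_mul,
    show w (dlt H : F) * w (Algebra.norm F (ξ : M)) * (H3.coord (x w)).2
      = w (dlt H : F) * (H3.coord (x w)).2 * w (Algebra.norm F (ξ : M)) by ring]
  push_cast
  ring_nf

end Fermat.LT.Theta
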