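import Fermat.Agent.CFT.Kummer.Ord

/-!
# Frobenius automorphisms of Galois extensions of number fields and the Artin map of elements

`art` is the Artin map of elements, independent of the finite set used (`art_eq_of_subset`) and
functorial in the target (`art_comp`).
-/

set_option autoImplicit false
set_option linter.unusedSectionVars false

noncomputable section

open NumberField IsDedekindDomain Fermat.CFT
open scoped Pointwise Classical

namespace Fermat.LT.Theta

variable {K N : Type} [Field K] [NumberField K] [Field N] [NumberField N] [Algebra K N]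

/-- `g` is the `q`-th power map modulo `w`. -/
def Congr (g : N ≃ₐ[K] N) (w : Pl N) (q : ℕ) : Prop :=
  ∀ x : 𝓞 N, g • x - x ^ q ∈ w.asIdeal

namespace Congr

variable {g h : N ≃ₐ[K] N} {w : Pl N} {q r : ℕ}

/-- An automorphism congruent to a power map preserves the prime. -/
lemma smul_mem (hg : Congr g w q) (hq : 0 < q) {x : 𝓞 N} (hx : x ∈ w.asIdeal) :
    g • x ∈ w.asIdeal := by
  have := w.asIdeal.add_mem (hg x) (w.asIdeal.pow_mem_of_mem hx q hq)
  rwa [sub_add_cancel] at this

/-- The identity is the first power map modulo any prime. -/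
lemma one : Congr (1 : N ≃ₐ[K] N) w 1 := fun x => by simp

/-- Congruences to power maps compose. -/
lemma mul (hg : Congr g w q) (hq : 0 < q) (hh : Congr h w r) : Congr (g * h) w (q * r) := by
  intro x
  have e : (g * h) • x - x ^ (q * r) = g • (h • x - x ^ r) + (g • x ^ r - (x ^ r) ^ q) := by
    rw [smul_sub, mul_smul, ← pow_mul, mul_comm q r]; ring
  rw [e]
  exact w.asIdeal.add_mem (hg.smul_mem hq (hh x)) (hg _)

/-- Powers of a congruence to a power map. -/
lemma pow (hg : Congr g w q) (hq : 0 < q) : ∀ n : ℕ, Congr (g ^ n) w (q ^ n)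
  | 0 => by simpa using one
  | n + 1 => by
    have := (hg.pow hq n).mul (pow_pos hq n) hg
    rwa [← pow_succ, ← pow_succ] at this

/-- Uniqueness, when inertia is trivial. -/
lemma eq_of_congr [IsGalois K N] (hw : plRamIdx K w = 1) (hg : Congr g w q) (hh : Congr h w q) :
    g = h := by
  have hI : (w.asIdeal.inertia (N ≃ₐ[K] N)) = ⊥ := by
    have : Finite (𝓞 K ⧸ (plUnder K w).asIdeal) :=
      Ideal.finiteQuotientOfFreeOfNeBot _ (plUnder K w).ne_bot
    have h1 := Ideal.card_inertia_eq_ramificationIdxIn (G := N ≃ₐ[K] N) (plUnder K w).asIdeal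
      w.asIdeal
    rw [Ideal.ramificationIdxIn_eq_ramificationIdx (plUnder K w).asIdeal w.asIdeal (N ≃ₐ[K] N),
      ← plRamIdx_eq, hw] at h1
    exact Subgroup.card_eq_one.mp h1
  have hmem : g * h⁻¹ ∈ w.asIdeal.inertia (N ≃ₐ[K] N) := by
    intro x
    have e : (g * h⁻¹) • x - x = (g • (h⁻¹ • x) - (h⁻¹ • x) ^ q)
        - (h • (h⁻¹ • x) - (h⁻¹ • x) ^ q) := by
      rw [mul_smul, smul_inv_smul]; ring
    change (g * h⁻¹) • x - x ∈ w.asIdeal
    rw [e]
    exact w.asIdeal.sub_mem (hg _) (hh _)
  rw [hI, Subgroup.mem_bot] at hmem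
  exact mul_inv_eq_one.mp hmem

/-- Conjugation moves the congruence to the translated prime. -/
lemma conj (hg : Congr g w q) (τ : N ≃ₐ[K] N) : Congr (τ * g * τ⁻¹) (τ • w) q := by
  intro x
  have h1 : τ • (g • (τ⁻¹ • x) - (τ⁻¹ • x) ^ q) ∈ τ • w.asIdeal :=
    Ideal.smul_mem_pointwise_smul_iff.mpr (hg _)
  rw [smul_sub, smul_pow', smul_inv_smul, ← mul_smul, ← mul_smul] at h1
  exact h1

end Congr

/-- The number of residues at a finite prime. -/
def resCard (v : Pl K) : ℕ := Ideal.absNorm v.asIdeal

/-- The residue count is positive. -/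
lemma resCard_pos (v : Pl K) : 0 < resCard v :=
  Nat.pos_of_ne_zero (Ideal.absNorm_eq_zero_iff.not.mpr v.ne_bot)

/-- There are at least two residues. -/
lemma one_lt_resCard (v : Pl K) : 1 < resCard v := by
  refine lt_of_le_of_ne (resCard_pos v) fun h => v.isPrime.ne_top ?_
  exact Ideal.absNorm_eq_one_iff.mp h.symm

section Galois

variable [IsGalois K N]

variable (K) in
/-- A Frobenius automorphism at `w`. -/
def frobEl (w : Pl N) : N ≃ₐ[K] N :=
  have : Finite (𝓞 N ⧸ w.asIdeal) := Ideal.finiteQuotientOfFreeOfNeBot _ w.ne_bot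
  arithFrobAt (𝓞 K) (N ≃ₐ[K] N) w.asIdeal

/-- The Frobenius automorphism is congruent to the power map of the residue count. -/
lemma congr_frobEl (w : Pl N) : Congr (frobEl K w) w (resCard (plUnder K w)) := by
  have : Finite (𝓞 N ⧸ w.asIdeal) := Ideal.finiteQuotientOfFreeOfNeBot _ w.ne_bot
  intro x
  have h : frobEl K w • x - x ^ Nat.card (𝓞 K ⧸ w.asIdeal.under (𝓞 K)) ∈ w.asIdeal :=
    IsArithFrobAt.arithFrobAt (𝓞 K) (N ≃ₐ[K] N) w.asIdeal x
  rwa [show Nat.card (𝓞 K ⧸ w.asIdeal.under (𝓞 K)) = resCard (plUnder K w) from ?_] at h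
  rw [resCard, Ideal.absNorm_apply, Submodule.cardQuot_apply]
  rfl

variable (N) in
/-- A prime above a given one. -/
def plOver (v : Pl K) : Pl N := (exists_plUnder_eq (F := N) v).choose

/-- The chosen prime lies over the given one. -/
lemma plUnder_plOver (v : Pl K) : plUnder K (plOver N v) = v :=
  (exists_plUnder_eq (F := N) v).choose_spec

variable (N) in
/-- The Frobenius at a chosen prime above `v`. -/
def frobPl (v : Pl K) : N ≃ₐ[K] N := frobEl K (plOver N v)

/-- In an abelian extension the Frobenius only depends on the prime below. -/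
lemma frobPl_eq (hc : ∀ a b : N ≃ₐ[K] N, a * b = b * a) {g : N ≃ₐ[K] N} {w : Pl N}
    (hw : plRamIdx K w = 1) (hg : Congr g w (resCard (plUnder K w))) :
    frobPl N (plUnder K w) = g := by
  obtain ⟨τ, hτ⟩ := exists_smul_eq_of_plUnder_eq (K := K)
    (plUnder_plOver (N := N) (plUnder K w))
  have h := (congr_frobEl (K := K) (plOver N (plUnder K w))).conj τ
  rw [hτ, hc τ, mul_inv_cancel_right, plUnder_plOver] at h
  exact Congr.eq_of_congr hw h hg

/-- Residue cardinality in a Galois extension. -/
lemma resCard_eq_pow_card_stabilizer (w : Pl N) (hw : plRamIdx K w = 1) :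
    resCard w = resCard (plUnder K w) ^ Nat.card (MulAction.stabilizer (N ≃ₐ[K] N) w) := by
  have : Finite (𝓞 K ⧸ (plUnder K w).asIdeal) :=
    Ideal.finiteQuotientOfFreeOfNeBot _ (plUnder K w).ne_bot
  have h1 := Ideal.card_stabilizer_eq (G := N ≃ₐ[K] N) (plUnder K w).asIdeal w.asIdeal
  rw [Ideal.ramificationIdxIn_eq_ramificationIdx (plUnder K w).asIdeal w.asIdeal (N ≃ₐ[K] N),
    ← plRamIdx_eq, hw, one_mul,
    Ideal.inertiaDegIn_eq_inertiaDeg (plUnder K w).asIdeal w.asIdeal (N ≃ₐ[K] N)] at h1
  have h2 : MulAction.stabilizer (N ≃ₐ[K] N) w = MulAction.stabilizer (N ≃ₐ[K] N) w.asIdeal := by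
    ext g
    simp only [MulAction.mem_stabilizer_iff]
    exact ⟨fun h => congrArg HeightOneSpectrum.asIdeal h, fun h => HeightOneSpectrum.ext h⟩
  rw [h2, h1, resCard, resCard, Ideal.absNorm_pow_inertiaDeg (plUnder K w).asIdeal w.asIdeal]

/-- At an unramified prime the Frobenius generates the decomposition group. -/
lemma congr_pow_stabilizer (w : Pl N) (hw : plRamIdx K w = 1) {g : N ≃ₐ[K] N}
    (hg : Congr g w (resCard (plUnder K w))) :
    orderOf g = Nat.card (MulAction.stabilizer (N ≃ₐ[K] N) w) ∧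
      Subgroup.zpowers g = MulAction.stabilizer (N ≃ₐ[K] N) w := by
  set q := resCard (plUnder K w)
  set f := Nat.card (MulAction.stabilizer (N ≃ₐ[K] N) w) with hf
  have hfpos : 0 < f := Nat.card_pos
  have hres : resCard w = q ^ f := resCard_eq_pow_card_stabilizer w hw
  have hfin : Finite (𝓞 N ⧸ w.asIdeal) := Ideal.finiteQuotientOfFreeOfNeBot _ w.ne_bot
  let _ : Field (𝓞 N ⧸ w.asIdeal) := Ideal.Quotient.field _
  let _ : Fintype (𝓞 N ⧸ w.asIdeal) := Fintype.ofFinite _
  have hcard : Fintype.card (𝓞 N ⧸ w.asIdeal) = q ^ f := by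
    rw [← hres, resCard, Ideal.absNorm_apply, Submodule.cardQuot_apply, Nat.card_eq_fintype_card]
  -- `g ^ f` is the identity on the residue field, so `1`, as inertia is trivial.
  have h1 : g ^ f = 1 := by
    refine Congr.eq_of_congr hw (hg.pow (resCard_pos _) f) fun x => ?_
    rw [one_smul, ← Ideal.Quotient.eq, map_pow, ← hcard, FiniteField.pow_card]
  have hmem : g ∈ MulAction.stabilizer (N ≃ₐ[K] N) w := by
    rw [MulAction.mem_stabilizer_iff]
    refine HeightOneSpectrum.ext ?_
    have : g • w.asIdeal ≤ w.asIdeal := by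
      rw [Ideal.pointwise_smul_def, Ideal.map_le_iff_le_comap]
      exact fun x hx => hg.smul_mem (resCard_pos _) hx
    exact ((g • w).isMaximal.eq_of_le w.isPrime.ne_top this)
  -- Conversely `y ^ q ^ j = y` on all `q ^ f` residues forces `f ≤ j`.
  have hle : f ≤ orderOf g := by
    set j := orderOf g
    have hj : 0 < j := orderOf_pos_iff.mpr (isOfFinOrder_of_finite g)
    by_contra hlt
    have hx : ∀ y : 𝓞 N ⧸ w.asIdeal, y ^ q ^ j = y := by
      intro y
      obtain ⟨x, rfl⟩ := Ideal.Quotient.mk_surjective y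
      have h := hg.pow (resCard_pos _) j x
      rw [pow_orderOf_eq_one, one_smul, ← Ideal.Quotient.eq, map_pow] at h
      exact h.symm
    have hq : 1 < q := one_lt_resCard _
    have hne : (Polynomial.X ^ (q ^ j) - Polynomial.X : Polynomial (𝓞 N ⧸ w.asIdeal)) ≠ 0 :=
      FiniteField.X_pow_card_sub_X_ne_zero _ (Nat.one_lt_pow hj.ne' hq)
    have hall := Polynomial.card_le_degree_of_subset_roots
      (Z := (Finset.univ : Finset (𝓞 N ⧸ w.asIdeal)))
      (p := (Polynomial.X ^ (q ^ j) - Polynomial.X : Polynomial (𝓞 N ⧸ w.asIdeal))) fun y _ => by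
        rw [Polynomial.mem_roots hne]
        simp [hx y]
    rw [Finset.card_univ, hcard,
      FiniteField.X_pow_card_sub_X_natDegree_eq _ (Nat.one_lt_pow hj.ne' hq)] at hall
    exact absurd hall (not_le.mpr (Nat.pow_lt_pow_right hq (not_le.mp hlt)))
  have hord : orderOf g = f := le_antisymm (Nat.le_of_dvd hfpos (orderOf_dvd_of_pow_eq_one h1)) hle
  refine ⟨hord, ?_⟩
  refine Subgroup.eq_of_le_of_card_ge (Subgroup.zpowers_le.mpr hmem) ?_
  rw [Nat.card_zpowers, hord]

end Galois

/-! ### Towers -/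

section Tower

variable {Ω : Type} [Field Ω] [NumberField Ω] [Algebra K Ω] [Algebra N Ω] [IsScalarTower K N Ω]

/-- Restriction to a normal intermediate field. -/
lemma Congr.restrictNormal [Normal K N] {g : Ω ≃ₐ[K] Ω} {W : Pl Ω} {q : ℕ} (h : Congr g W q) :
    Congr (g.restrictNormal N) (plUnder N W) q := by
  intro x
  rw [asIdeal_plUnder, Ideal.under, Ideal.mem_comap, map_sub, map_pow]
  have e : algebraMap (𝓞 N) (𝓞 Ω) (g.restrictNormal N • x) = g • algebraMap (𝓞 N) (𝓞 Ω) x :=
    RingOfIntegers.ext (AlgEquiv.restrictNormal_commutes g N (x : N))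
  rw [e]
  exact h _

/-- A congruence of an automorphism holds for it over a smaller field. -/
lemma Congr.restrictScalars {g : Ω ≃ₐ[N] Ω} {W : Pl Ω} {q : ℕ} (h : Congr g W q) :
    Congr (g.restrictScalars K) W q := h

/-- The prime under a prime is transitive in towers. -/
lemma plUnder_plUnder' (W : Pl Ω) : plUnder K (plUnder N W) = plUnder K W := by
  refine HeightOneSpectrum.ext ?_
  simp only [asIdeal_plUnder]
  exact Ideal.under_under (A := 𝓞 K) (B := 𝓞 N) W.asIdeal

/-- Ramification indices multiply in towers. -/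
lemma plRamIdx_tower (W : Pl Ω) :
    plRamIdx K W = plRamIdx K (plUnder N W) * plRamIdx N W := by
  obtain ⟨π, hπ0, hπ⟩ := exists_ord_eq_one (plUnder K W)
  have h1 := ord_algebraMap_eq (K := K) W π
  rw [hπ, mul_one, IsScalarTower.algebraMap_apply K N Ω, ord_algebraMap_eq,
    ord_algebraMap_eq, plUnder_plUnder', hπ, mul_one] at h1
  exact_mod_cast (by rw [mul_comm]; exact h1.symm :
    (plRamIdx K W : ℤ) = plRamIdx K (plUnder N W) * plRamIdx N W)

end Tower

/-! ### The Artin map on elements -/

section Art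

variable [IsGalois K N] {A : Type*} [CommGroup A] (χ : (N ≃ₐ[K] N) →* A)

/-- `∏_{v ∉ T} χ(Frob_v) ^ ord_v x`. -/
def art (T : Set (Pl K)) (x : K) : A :=
  ∏ᶠ v : Pl K, if v ∈ T then 1 else χ (frobPl N v) ^ ord v x

/-- Only finitely many places contribute to the Artin map at an element. -/
lemma mulSupport_art_finite (T : Set (Pl K)) (x : K) :
    (Function.mulSupport fun v : Pl K =>
      if v ∈ T then 1 else χ (frobPl N v) ^ ord v x).Finite :=
  (finite_ord_ne_zero x).subset fun v hv h => hv (by simp [h])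

/-- The Artin map of elements is multiplicative. -/
lemma art_mul (T : Set (Pl K)) {x y : K} (hx : x ≠ 0) (hy : y ≠ 0) :
    art χ T (x * y) = art χ T x * art χ T y := by
  rw [art, art, art, ← finprod_mul_distrib (mulSupport_art_finite χ T x)
    (mulSupport_art_finite χ T y)]
  refine finprod_congr fun v => ?_
  by_cases h : v ∈ T <;> simp [h, ord_mul v hx hy, zpow_add]

/-- The Artin map sends `1` to `1`. -/
lemma art_one (T : Set (Pl K)) : art χ T (1 : K) = 1 :=
  finprod_eq_one_of_forall_eq_one fun v => by simp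

/-- The Artin map is trivial at `x` when all its local factors are. -/
lemma art_eq_one_of_forall {T : Set (Pl K)} {x : K}
    (h : ∀ v ∉ T, χ (frobPl N v) ^ ord v x = 1) : art χ T x = 1 :=
  finprod_eq_one_of_forall_eq_one fun v => by
    by_cases hv : v ∈ T <;> simp [hv, h v]

/-- Enlarging `T` by places where `x` is a unit. -/
lemma art_eq_of_subset {T T' : Set (Pl K)} (hT : T ⊆ T') {x : K}
    (hx : ∀ v ∈ T', v ∉ T → ord v x = 0) : art χ T x = art χ T' x :=
  finprod_congr fun v => by
    by_cases h : v ∈ T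
    · simp [h, hT h]
    · by_cases h' : v ∈ T' <;> simp [h, h', hx v]

/-- The Artin map commutes with homomorphisms of the target. -/
lemma art_comp {B : Type*} [CommGroup B] (f : A →* B) (T : Set (Pl K)) (x : K) :
    f (art χ T x) = art (f.comp χ) T x := by
  rw [art, f.map_finprod (mulSupport_art_finite χ T x)]
  refine finprod_congr fun v => ?_
  by_cases h : v ∈ T <;> simp [h, map_zpow]

end Art

end Fermat.LT.Theta
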