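import Fermat.Agent.LT.Theta.Artin
import Fermat.Agent.CFT.Kummer.LocalPower
import Fermat.Agent.CFT.Kummer.Cyclic

/-!
# Auxiliary cyclotomic extensions

`auxField` is the compositum with two cyclotomic fields, for which `exists_prime_order` supplies
primes of large two-power order.
-/

set_option autoImplicit false

noncomputable section

open NumberField Fermat.CFT
open scoped Classical

namespace Fermat.LT.Theta

/-- A prime modulo which `q` has order divisible by a power of two, avoiding a finite set. -/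
theorem exists_prime_order (q a : ℕ) (hq : 1 < q) (B : Finset ℕ) :
    ∃ ℓ : ℕ, ℓ.Prime ∧ ℓ ∉ B ∧ ℓ ≠ 2 ∧ ¬ ℓ ∣ q ∧
      ∀ j : ℕ, (q : ZMod ℓ) ^ j = 1 → 2 ^ a ∣ j := by
  obtain ⟨k, hka, hkB⟩ : ∃ k, a ≤ k + 2 ∧ ∀ b ∈ B, b < 2 ^ (k + 2) := by
    refine ⟨B.sup id + a, by omega, fun b hb => ?_⟩
    have h1 : b ≤ B.sup id := Finset.le_sup (f := id) hb
    have h2 : B.sup id + a + 2 < 2 ^ (B.sup id + a + 2) := Nat.lt_two_pow_self
    omega
  set z := q ^ 2 ^ k with hz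
  have hz2 : 2 ≤ z := by
    calc 2 ≤ q ^ 1 := by rw [pow_one]; omega
      _ ≤ z := Nat.pow_le_pow_right (by omega) Nat.one_le_two_pow
  -- an odd prime divisor of `z ^ 2 + 1`
  obtain ⟨ℓ, hℓ, hℓd, hℓ2⟩ : ∃ ℓ : ℕ, ℓ.Prime ∧ ℓ ∣ z ^ 2 + 1 ∧ ℓ ≠ 2 := by
    rcases Nat.even_or_odd' z with ⟨t, ht | ht⟩
    · have h1 : z ^ 2 + 1 = 2 * (2 * t * t) + 1 := by rw [ht]; ring
      obtain ⟨ℓ, hℓ, hd⟩ := Nat.exists_prime_and_dvd (show z ^ 2 + 1 ≠ 1 by
        have := Nat.pow_le_pow_left hz2 2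
        omega)
      refine ⟨ℓ, hℓ, hd, ?_⟩
      rintro rfl
      omega
    · have h1 : z ^ 2 + 1 = 2 * (2 * (t * t + t) + 1) := by rw [ht]; ring
      obtain ⟨ℓ, hℓ, hd⟩ := Nat.exists_prime_and_dvd (show 2 * (t * t + t) + 1 ≠ 1 by
        have : 1 ≤ t := by omega
        nlinarith)
      refine ⟨ℓ, hℓ, h1 ▸ hd.mul_left 2, ?_⟩
      rintro rfl
      omega
  have : Fact ℓ.Prime := ⟨hℓ⟩
  have hneg : (q : ZMod ℓ) ^ 2 ^ (k + 1) = -1 := by
    have h : ((z ^ 2 + 1 : ℕ) : ZMod ℓ) = 0 := (ZMod.natCast_eq_zero_iff _ _).mpr hℓd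
    rw [hz, ← pow_mul, ← pow_succ, Nat.cast_add, Nat.cast_pow, Nat.cast_one] at h
    exact eq_neg_of_add_eq_zero_left h
  have hone : (1 : ZMod ℓ) ≠ -1 := by
    intro h
    have h2 : ((2 : ℕ) : ZMod ℓ) = 0 := by
      rw [Nat.cast_two, ← one_add_one_eq_two]
      nth_rw 2 [h]
      exact add_neg_cancel 1
    rw [ZMod.natCast_eq_zero_iff] at h2
    exact hℓ2 ((Nat.prime_dvd_prime_iff_eq hℓ Nat.prime_two).mp h2)
  -- so `q` has order `2 ^ (k + 2)`
  have hord : orderOf (q : ZMod ℓ) = 2 ^ (k + 2) :=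
    orderOf_eq_prime_pow (fun h => hone (h.symm.trans hneg)) (by
      rw [show k + 1 + 1 = k + 2 from rfl, pow_succ 2 (k + 1), pow_mul, hneg]; norm_num)
  have hq0 : (q : ZMod ℓ) ≠ 0 := by
    intro h
    rw [h, zero_pow (by positivity)] at hneg
    exact one_ne_zero (neg_eq_zero.mp hneg.symm)
  refine ⟨ℓ, hℓ, fun hB => ?_, hℓ2, fun h => hq0 ((ZMod.natCast_eq_zero_iff _ _).mpr h),
    fun j hj => ?_⟩
  · have h1 := hkB ℓ hB
    have h2 : 2 ^ (k + 2) ∣ ℓ - 1 := by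
      rw [← hord]; exact ZMod.orderOf_dvd_card_sub_one hq0
    have h3 := Nat.le_of_dvd (by have := hℓ.two_le; omega) h2
    omega
  · exact (pow_dvd_pow 2 hka).trans (hord ▸ orderOf_dvd_of_pow_eq_one hj)

variable {K : Type} [Field K] [NumberField K]

/-- The rational primes under finitely many places. -/
lemma finite_primes_under (T : Finset (Pl K)) :
    {ℓ : ℕ | ℓ.Prime ∧ ∃ v ∈ T, (ℓ : 𝓞 K) ∈ v.asIdeal}.Finite := by
  refine (Set.finite_le_nat (T.sup resCard)).subset ?_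
  rintro ℓ ⟨hℓ, v, hv, h⟩
  exact (Nat.le_of_dvd (resCard_pos v) (CFT.prime_dvd_absNorm hℓ v.isPrime h)).trans
    (Finset.le_sup hv)

/-- Almost all rational primes have valuation one. -/
lemma finite_ord_natCast_ne_one :
    {ℓ : ℕ | ℓ.Prime ∧ ∃ v : Pl K, (ℓ : 𝓞 K) ∈ v.asIdeal ∧ ord v (ℓ : K) ≠ 1}.Finite := by
  have hne : differentIdeal ℤ (𝓞 K) ≠ ⊥ := differentIdeal_ne_bot
  set D := (Ideal.finite_factors hne).toFinset
  refine (finite_primes_under D).subset ?_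
  rintro ℓ ⟨hℓ, v, hv, hord⟩
  refine ⟨hℓ, v, (Ideal.finite_factors hne).mem_toFinset.mpr ?_, hv⟩
  have hℓ0 : (ℓ : 𝓞 K) ≠ 0 := by exact_mod_cast hℓ.ne_zero
  have h1 := (ord_algebraMap_pos_iff v hℓ0).mpr hv
  have h2 : ((2 : ℕ) : ℤ) ≤ ord v ((ℓ : 𝓞 K) : K) := by
    simp only [map_natCast] at h1 ⊢
    push_cast
    omega
  rw [le_ord_algebraMap_iff v hℓ0] at h2
  have : Fact ℓ.Prime := ⟨hℓ⟩
  have hmax : (Ideal.span {(ℓ : ℤ)}).IsMaximal :=
    PrincipalIdealRing.isMaximal_of_irreducible (Nat.prime_iff_prime_int.mp hℓ).irreducible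
  have h3 := pow_sub_one_dvd_differentIdeal ℤ (p := Ideal.span {(ℓ : ℤ)}) v.asIdeal 2
    (by simp [hℓ.ne_zero]) (by
      rw [Ideal.map_span, Set.image_singleton, Ideal.dvd_iff_le, Ideal.span_singleton_le_iff_mem]
      simpa using h2)
  simpa using h3

omit [NumberField K] in
/-- Inertia fixes roots of unity of order prime to the residue characteristic. -/
lemma apply_root_eq_of_inertia {Ω : Type} [Field Ω] [NumberField Ω] [Algebra K Ω] {ℓ : ℕ}
    [hℓ : Fact ℓ.Prime] {ζ : Ω} (hζ : IsPrimitiveRoot ζ ℓ) {W : Pl Ω}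
    (hW : (ℓ : 𝓞 Ω) ∉ W.asIdeal) {g : Ω ≃ₐ[K] Ω} (hg : ∀ x : 𝓞 Ω, g • x - x ∈ W.asIdeal) :
    g ζ = ζ := by
  obtain ⟨i, hi, hgi⟩ := hζ.eq_pow_of_pow_eq_one (show (g ζ) ^ ℓ = 1 by
    rw [← map_pow, hζ.pow_eq_one, map_one])
  by_contra hne
  set z : 𝓞 Ω := ⟨ζ, hζ.isIntegral hℓ.out.pos⟩
  have hi1 : i ≠ 1 := fun h => hne (by rw [← hgi, h, pow_one])
  have hz0 : zetaOrd ζ W = 0 := zetaOrd_eq_zero_of_ord hζ W (by
    have := (ord_algebraMap_eq_zero_iff W (r := (ℓ : 𝓞 Ω))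
      (by exact_mod_cast hℓ.out.ne_zero)).mpr hW
    simpa using this)
  have h1 : ord W (ζ ^ i - ζ) = 0 := by
    have h := ord_zeta_pow_sub hζ W hi hℓ.out.one_lt hi1
    rw [pow_one, hz0] at h
    simpa using h
  have hcoe : ((g • z - z : 𝓞 Ω) : Ω) = ζ ^ i - ζ := by
    change g ζ - ζ = ζ ^ i - ζ
    rw [hgi]
  have hne0 : (g • z - z : 𝓞 Ω) ≠ 0 := fun h => by
    have h0 : ζ ^ i - ζ = 0 := by rw [← hcoe, h]; rfl
    exact hne (by rw [← hgi]; exact sub_eq_zero.mp h0)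
  have h2 := (ord_algebraMap_pos_iff W hne0).mpr (hg z)
  rw [hcoe] at h2
  omega

section Construction

variable (N : Type) [Field N] [NumberField N] [Algebra K N] (ℓ₁ ℓ₂ : ℕ)

variable (K) in
/-- The polynomial whose roots are adjoined. -/
def auxPoly : Polynomial K := (Polynomial.X ^ ℓ₁ - 1) * (Polynomial.X ^ ℓ₂ - 1)

variable (K) in
/-- The compositum of `N` with two cyclotomic fields. -/
def auxField : IntermediateField K (AlgebraicClosure N) :=
  (IsScalarTower.toAlgHom K N (AlgebraicClosure N)).fieldRange ⊔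
    IntermediateField.adjoin K ((auxPoly K ℓ₁ ℓ₂).rootSet (AlgebraicClosure N))

/-- The auxiliary field is finite over `K`. -/
instance auxField_finite [Fact ℓ₁.Prime] [Fact ℓ₂.Prime] :
    FiniteDimensional K (auxField K N ℓ₁ ℓ₂) := by
  have : FiniteDimensional K N := Module.Finite.of_restrictScalars_finite ℚ K N
  have : FiniteDimensional K
      ↥(IntermediateField.adjoin K ((auxPoly K ℓ₁ ℓ₂).rootSet (AlgebraicClosure N))) :=
    IntermediateField.finiteDimensional_adjoin fun x _ =>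
      isIntegral_trans (A := N) x (Algebra.IsIntegral.isIntegral x)
  have : FiniteDimensional K ↥(IsScalarTower.toAlgHom K N (AlgebraicClosure N)).fieldRange :=
    Module.Finite.equiv (AlgEquiv.ofInjectiveField
      (IsScalarTower.toAlgHom K N (AlgebraicClosure N))).toLinearEquiv
  unfold auxField
  infer_instance

/-- The auxiliary field is a number field. -/
instance auxField_numberField [Fact ℓ₁.Prime] [Fact ℓ₂.Prime] :
    NumberField (auxField K N ℓ₁ ℓ₂) := NumberField.of_module_finite K _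

/-- The inclusion of `N` in the auxiliary field, as an algebra. -/
instance auxField_algebra : Algebra N (auxField K N ℓ₁ ℓ₂) :=
  (((IsScalarTower.toAlgHom K N (AlgebraicClosure N)).codRestrict
    (auxField K N ℓ₁ ℓ₂).toSubalgebra fun x =>
      (le_sup_left : _ ≤ auxField K N ℓ₁ ℓ₂) ⟨x, rfl⟩).toRingHom).toAlgebra

/-- The auxiliary field is an extension of `N` over `K`. -/
instance auxField_tower : IsScalarTower K N (auxField K N ℓ₁ ℓ₂) :=
  IsScalarTower.of_algebraMap_eq fun x => Subtype.ext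
    (IsScalarTower.algebraMap_apply K N (AlgebraicClosure N) x)

variable [Fact ℓ₁.Prime] [Fact ℓ₂.Prime]

omit [NumberField N] [Fact (Nat.Prime ℓ₁)] [Fact (Nat.Prime ℓ₂)] in
/-- The auxiliary field is Galois over the base when `N` is. -/
lemma auxField_isGalois [IsGalois K N] : IsGalois K (auxField K N ℓ₁ ℓ₂) := by
  have : Algebra.IsAlgebraic K (AlgebraicClosure N) := Algebra.IsAlgebraic.trans K N _
  have : Normal K ↥(IsScalarTower.toAlgHom K N (AlgebraicClosure N)).fieldRange :=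
    Normal.of_algEquiv (AlgEquiv.ofInjectiveField (IsScalarTower.toAlgHom K N (AlgebraicClosure N)))
  have : (auxPoly K ℓ₁ ℓ₂).IsSplittingField K
      ↥(IntermediateField.adjoin K ((auxPoly K ℓ₁ ℓ₂).rootSet (AlgebraicClosure N))) :=
    IntermediateField.adjoin_rootSet_isSplittingField (IsAlgClosed.splits _)
  have : Normal K
      ↥(IntermediateField.adjoin K ((auxPoly K ℓ₁ ℓ₂).rootSet (AlgebraicClosure N))) :=
    Normal.of_isSplittingField (auxPoly K ℓ₁ ℓ₂)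
  have : Normal K (auxField K N ℓ₁ ℓ₂) := by unfold auxField; infer_instance
  exact { }

/-- The auxiliary field contains the required roots of unity. -/
lemma exists_auxField_roots :
    ∃ ζ₁ ζ₂ : auxField K N ℓ₁ ℓ₂, IsPrimitiveRoot ζ₁ ℓ₁ ∧ IsPrimitiveRoot ζ₂ ℓ₂ := by
  have key : ∀ ℓ : ℕ, [Fact ℓ.Prime] → (Polynomial.X ^ ℓ - 1 : Polynomial K) ∣ auxPoly K ℓ₁ ℓ₂ →
      ∃ ζ : auxField K N ℓ₁ ℓ₂, IsPrimitiveRoot ζ ℓ := by
    intro ℓ hℓ hdvd
    have : NeZero ((ℓ : ℕ) : AlgebraicClosure N) := ⟨by exact_mod_cast (Fact.out : ℓ.Prime).ne_zero⟩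
    obtain ⟨ζ, hζ⟩ := HasEnoughRootsOfUnity.exists_primitiveRoot (AlgebraicClosure N) ℓ
    have hmem : ζ ∈ auxField K N ℓ₁ ℓ₂ := by
      refine (le_sup_right : _ ≤ auxField K N ℓ₁ ℓ₂) (IntermediateField.subset_adjoin K _ ?_)
      refine (Polynomial.mem_rootSet.mpr ⟨?_, ?_⟩)
      · exact mul_ne_zero (Polynomial.X_pow_sub_C_ne_zero (Nat.Prime.pos Fact.out) 1)
          (Polynomial.X_pow_sub_C_ne_zero (Nat.Prime.pos Fact.out) 1)
      · obtain ⟨c, hc⟩ := hdvd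
        rw [hc, map_mul]
        simp [hζ.pow_eq_one]
    exact ⟨⟨ζ, hmem⟩, IsPrimitiveRoot.of_map_of_injective (f := (auxField K N ℓ₁ ℓ₂).val) hζ
      (RingHom.injective (auxField K N ℓ₁ ℓ₂).val.toRingHom)⟩
  obtain ⟨a, ha⟩ := key ℓ₁ (dvd_mul_right _ _)
  obtain ⟨b, hb⟩ := key ℓ₂ (dvd_mul_left _ _)
  exact ⟨a, b, ha, hb⟩

/-- An automorphism fixing `N` and the roots of unity is trivial. -/
lemma auxField_ext {ζ₁ ζ₂ : auxField K N ℓ₁ ℓ₂} (h1 : IsPrimitiveRoot ζ₁ ℓ₁)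
    (h2 : IsPrimitiveRoot ζ₂ ℓ₂) {g : auxField K N ℓ₁ ℓ₂ ≃ₐ[K] auxField K N ℓ₁ ℓ₂}
    (hN : ∀ x : N, g (algebraMap N _ x) = algebraMap N _ x) (hg1 : g ζ₁ = ζ₁) (hg2 : g ζ₂ = ζ₂) :
    g = 1 := by
  have hle : auxField K N ℓ₁ ℓ₂ ≤
      IntermediateField.lift (IntermediateField.fixedField (Subgroup.zpowers g)) := by
    have hfix : ∀ x : auxField K N ℓ₁ ℓ₂, g x = x →
        (x : AlgebraicClosure N) ∈
          IntermediateField.lift (IntermediateField.fixedField (Subgroup.zpowers g)) := by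
      intro x hx
      refine (IntermediateField.mem_lift x).mpr ?_
      rintro ⟨h, hh⟩
      have : Subgroup.zpowers g ≤ MulAction.stabilizer _ x :=
        Subgroup.zpowers_le.mpr (MulAction.mem_stabilizer_iff.mpr hx)
      exact this hh
    refine sup_le ?_ (IntermediateField.adjoin_le_iff.mpr fun z hz => ?_)
    · rintro _ ⟨x, rfl⟩
      exact hfix _ (hN x)
    · have hz' : z ∈ auxField K N ℓ₁ ℓ₂ :=
        (le_sup_right : _ ≤ auxField K N ℓ₁ ℓ₂) (IntermediateField.subset_adjoin K _ hz)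
      refine hfix ⟨z, hz'⟩ ?_
      have hroot := (Polynomial.mem_rootSet.mp hz).2
      simp only [auxPoly, map_mul, map_sub, map_pow, Polynomial.aeval_X, map_one, mul_eq_zero,
        sub_eq_zero] at hroot
      rcases hroot with h | h
      · obtain ⟨i, -, hi⟩ := h1.eq_pow_of_pow_eq_one (ξ := ⟨z, hz'⟩) (Subtype.ext h)
        rw [← hi, map_pow, hg1]
      · obtain ⟨i, -, hi⟩ := h2.eq_pow_of_pow_eq_one (ξ := ⟨z, hz'⟩) (Subtype.ext h)
        rw [← hi, map_pow, hg2]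
  refine AlgEquiv.ext fun x => ?_
  exact ((IntermediateField.mem_lift x).mp (hle x.2)) ⟨g, Subgroup.mem_zpowers g⟩

end Construction

end Fermat.LT.Theta
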