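import Fermat.Agent.LT.Theta.Sums
import Fermat.Agent.LT.Theta.Artin
import Fermat.Agent.CFT.Kummer.Cyclic
import Fermat.Agent.LT.Approx

/-!
# Theta: the subgroups of a quadratic extension cut out by the valuations over one place

`box` is such a subgroup, `Adm` the condition on exponents at a non-split place, and
`relIndex_box` the index between two of them.
-/

set_option autoImplicit false
set_option linter.unusedSectionVars false

noncomputable section

open NumberField IsDedekindDomain Fermat.CFT
open scoped Pointwise Classical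

namespace Fermat.LT.Theta

variable {F M : Type} [Field F] [NumberField F] [Field M] [NumberField M] [Algebra F M]
  [IsGalois F M] {σ : M ≃ₐ[F] M}

/-- Galois automorphisms transport valuations. -/
lemma val_smul_pl (g : M ≃ₐ[F] M) (P : Pl M) (x : M) :
    (g • P).valuation M (g x) = P.valuation M x := by
  rcases eq_or_ne x 0 with rfl | hx
  · simp
  rw [valuation_eq_exp_neg_ord _ hx, valuation_eq_exp_neg_ord _ ((map_ne_zero g).2 hx),
    show g x = g • x from rfl, CFT.ord_smul]

/-- The valuation at `P` of an element of `F` is the power `e(P)` of its valuation below. -/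
lemma val_algebraMap (P : Pl M) (x : F) :
    P.valuation M (algebraMap F M x) = (plUnder F P).valuation F x ^ plRamIdx F P := by
  rw [← HeightOneSpectrum.valuation_liesOver M (plUnder F P) P x, plRamIdx]

variable (σ) in
/-- The other place over `v`. -/
def plConj (v : Pl F) : Pl M := σ • plOver M v

/-- The other place also lies over `v`. -/
lemma plUnder_plConj (v : Pl F) : plUnder F (plConj σ v) = v := by
  rw [plConj, plUnder_smul, plUnder_plOver]

variable (σ) in
/-- `η` with valuations bounded by `exp (-m)` at the two places over `v`. -/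
def box (v : Pl F) (m : ℤ × ℤ) : AddSubgroup M where
  carrier := {η | (plOver M v).valuation M η ≤ WithZero.exp (-m.1) ∧
    (plConj σ v).valuation M η ≤ WithZero.exp (-m.2)}
  zero_mem' := by simp
  add_mem' := fun {a b} ha hb => ⟨(Valuation.map_add _ a b).trans (max_le ha.1 hb.1),
    (Valuation.map_add _ a b).trans (max_le ha.2 hb.2)⟩
  neg_mem' := fun {a} ha => by
    refine ⟨?_, ?_⟩ <;> rw [Valuation.map_neg]
    exacts [ha.1, ha.2]

/-- Membership in a box, unfolded. -/
lemma mem_box {v : Pl F} {m : ℤ × ℤ} {η : M} : η ∈ box σ v m ↔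
    (plOver M v).valuation M η ≤ WithZero.exp (-m.1) ∧
      (plConj σ v).valuation M η ≤ WithZero.exp (-m.2) := Iff.rfl

/-- Membership of a nonzero element in a box is a bound on its two orders. -/
lemma mem_box_iff_ord {v : Pl F} {m : ℤ × ℤ} {η : M} (hη : η ≠ 0) : η ∈ box σ v m ↔
    m.1 ≤ CFT.ord (plOver M v) η ∧ m.2 ≤ CFT.ord (plConj σ v) η := by
  rw [mem_box, le_ord_iff _ hη, le_ord_iff _ hη]

/-- Boxes decrease as the exponents grow. -/
lemma box_mono {v : Pl F} {m n : ℤ × ℤ} (h1 : m.1 ≤ n.1) (h2 : m.2 ≤ n.2) :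
    box σ v n ≤ box σ v m := fun η hη =>
  ⟨hη.1.trans (WithZero.exp_le_exp.2 (by omega)), hη.2.trans (WithZero.exp_le_exp.2 (by omega))⟩

/-- The exponents of boxes add under products. -/
lemma mul_mem_box {v : Pl F} {m n : ℤ × ℤ} {a b : M} (ha : a ∈ box σ v m) (hb : b ∈ box σ v n) :
    a * b ∈ box σ v (m + n) := by
  refine ⟨?_, ?_⟩ <;> rw [map_mul] <;>
    simp only [Prod.fst_add, Prod.snd_add, neg_add, WithZero.exp_add]
  exacts [mul_le_mul' ha.1 hb.1, mul_le_mul' ha.2 hb.2]

/-- Equal exponents at a non-split place. -/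
def Adm (σ : M ≃ₐ[F] M) (v : Pl F) (m : ℤ × ℤ) : Prop := IsNonsplit σ v → m.1 = m.2

variable (hF : Module.finrank F M = 2) (hσ : σ ≠ 1)
include hF hσ

/-- The conjugation is an involution. -/
lemma sigma_mul_self : σ * σ = 1 := by
  have h := pow_orderOf_eq_one σ
  rwa [orderOf_generator hF hσ, sq] at h

/-- Applying the conjugation twice gives back the element. -/
lemma sigma_apply_apply (x : M) : σ (σ x) = x := by
  rw [← AlgEquiv.mul_apply, sigma_mul_self hF hσ, AlgEquiv.one_apply]

/-- The conjugation sends the other place back to the chosen one. -/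
lemma smul_plConj (v : Pl F) : σ • plConj σ v = plOver M v := by
  rw [plConj, ← mul_smul, sigma_mul_self hF hσ, one_smul]

/-- The places over `v` are the chosen one and its conjugate. -/
lemma eq_or_eq_of_plUnder {v : Pl F} {W : Pl M} (hW : plUnder F W = v) :
    W = plOver M v ∨ W = plConj σ v := by
  obtain ⟨i, hi, rfl⟩ := (plUnder_eq_iff hF hσ (plOver M v) W).1 ((plUnder_plOver v).trans hW.symm)
  interval_cases i
  · exact Or.inl (by simp)
  · exact Or.inr (by simp [plConj])

/-- The two places coincide exactly at a non-split place. -/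
lemma plConj_eq_iff {v : Pl F} : plConj σ v = plOver M v ↔ IsNonsplit σ v :=
  ⟨fun h => plUnder_plOver (N := M) v ▸ IsNonsplit.of_smul_eq hF hσ h,
    fun h => h _ (plUnder_plOver v)⟩

/-- The trace of a quadratic extension is `x + σ x`. -/
lemma trace_eq (x : M) : algebraMap F M (Algebra.trace F M x) = x + σ x := by
  have huniv : (Finset.univ : Finset (M ≃ₐ[F] M)) = {1, σ} := by
    refine (Finset.eq_univ_of_card _ ?_).symm
    rw [Finset.card_pair (Ne.symm hσ), ← Nat.card_eq_fintype_card, card_aut_eq hF]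
  rw [trace_eq_sum_automorphisms, huniv, Finset.sum_pair (Ne.symm hσ)]
  rfl

/-- The norm of a quadratic extension is `x · σ x`. -/
lemma norm_eq (x : M) : algebraMap F M (Algebra.norm F x) = x * σ x := by
  rw [algebraMap_norm_eq_prod_pow hF hσ, Finset.prod_range_succ, Finset.prod_range_one]
  simp

/-- The conjugation exchanges the exponents of a box. -/
lemma smul_mem_box_iff {v : Pl F} {m : ℤ × ℤ} {η : M} :
    σ η ∈ box σ v m ↔ η ∈ box σ v (m.2, m.1) := by
  rw [mem_box, mem_box]
  have h1 := val_smul_pl σ (plConj σ v) η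
  rw [smul_plConj hF hσ] at h1
  have h2 := val_smul_pl σ (plOver M v) η
  rw [show σ • plOver M v = plConj σ v from rfl] at h2
  rw [h1, h2]
  exact And.comm

/-- Every admissible pair of exponents is attained. -/
lemma exists_ord_pair {v : Pl F} {m : ℤ × ℤ} (hm : Adm σ v m) :
    ∃ η : M, η ≠ 0 ∧ CFT.ord (plOver M v) η = m.1 ∧ CFT.ord (plConj σ v) η = m.2 := by
  set P := plOver M v
  set Q := plConj σ v
  choose π hπ0 hπ using fun W : Pl M => CFT.exists_ord_eq_one W
  let k : Pl M → ℤ := fun W => if W = P then m.1 else m.2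
  let u : Pl M → M := fun W => π W ^ k W
  obtain ⟨N, hN⟩ : ∃ N : ℕ, m.1 + 1 ≤ N ∧ m.2 + 1 ≤ N :=
    ⟨(max (m.1 + 1) (m.2 + 1)).toNat, by omega, by omega⟩
  obtain ⟨η, hη, -⟩ := Fermat.LT.exists_approx (F := M) {P, Q} u N
  have hk : ∀ W ∈ ({P, Q} : Finset (Pl M)), W.valuation M η = WithZero.exp (-k W) := by
    intro W hW
    have hu : W.valuation M (u W) = WithZero.exp (-k W) := by
      rw [valuation_eq_exp_neg_ord W (zpow_ne_zero _ (hπ0 W)), CFT.ord_zpow, hπ, mul_one]
    rw [show η = u W + (η - u W) by ring, (W.valuation M).map_add_eq_of_lt_left, hu]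
    refine lt_of_le_of_lt (hη W hW) ?_
    rw [hu, WithZero.exp_lt_exp]
    have : k W = m.1 ∨ k W = m.2 := by simp only [k]; split_ifs <;> simp
    omega
  have hη0 : η ≠ 0 := fun h => by
    have := hk P (Finset.mem_insert_self _ _)
    rw [h, map_zero] at this
    exact WithZero.exp_ne_zero this.symm
  have e : ∀ W ∈ ({P, Q} : Finset (Pl M)), CFT.ord W η = k W := fun W hW => by
    rw [CFT.ord, hk W hW, WithZero.log_exp, neg_neg]
  refine ⟨η, hη0, by rw [e P (Finset.mem_insert_self _ _)]; simp [k], ?_⟩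
  rw [e Q (Finset.mem_insert_of_mem (Finset.mem_singleton_self _))]
  by_cases h : Q = P
  · simp only [k, if_pos h]; exact hm ((plConj_eq_iff hF hσ).1 h)
  · simp [k, h]

omit hF hσ

/-- Multiplication by a nonzero element. -/
def mulE {a : M} (ha : a ≠ 0) : M ≃+ M where
  toFun := (a * ·)
  invFun := (a⁻¹ * ·)
  left_inv x := inv_mul_cancel_left₀ ha x
  right_inv x := mul_inv_cancel_left₀ ha x
  map_add' := mul_add a

/-- `mulE` multiplies by `a`. -/
lemma mulE_apply {a : M} (ha : a ≠ 0) (x : M) : mulE ha x = a * x := rfl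

/-- Multiplication shifts the exponents of a box by the orders of the multiplier. -/
lemma box_map_mulE {v : Pl F} {m : ℤ × ℤ} {a : M} (ha : a ≠ 0) :
    (box σ v m).map (mulE ha).toAddMonoidHom
      = box σ v (m + (CFT.ord (plOver M v) a, CFT.ord (plConj σ v) a)) := by
  ext η
  constructor
  · rintro ⟨x, hx, rfl⟩
    rw [show (mulE ha).toAddMonoidHom x = a * x from rfl, mul_comm a]
    exact mul_mem_box hx ((mem_box_iff_ord ha).2 ⟨le_rfl, le_rfl⟩)
  · intro hη
    refine ⟨a⁻¹ * η, ?_, mul_inv_cancel_left₀ ha η⟩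
    have := mul_mem_box ((mem_box_iff_ord (inv_ne_zero ha)).2
      ⟨le_rfl, le_rfl⟩ : a⁻¹ ∈ box σ v (CFT.ord (plOver M v) a⁻¹, CFT.ord (plConj σ v) a⁻¹)) hη
    rw [CFT.ord_inv, CFT.ord_inv] at this
    have e : (-CFT.ord (plOver M v) a, -CFT.ord (plConj σ v) a)
        + (m + (CFT.ord (plOver M v) a, CFT.ord (plConj σ v) a)) = m := by ext <;> simp
    rwa [e] at this

variable (σ) in
/-- The index of a box in a bigger one, as a function of the difference of exponents. -/
def boxCard (v : Pl F) (d : ℤ × ℤ) : ℕ :=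
  if IsNonsplit σ v then resCard (plOver M v) ^ d.1.toNat
  else resCard (plOver M v) ^ d.1.toNat * resCard (plConj σ v) ^ d.2.toNat

include hF hσ

/-- A nonnegative box has the stated index in the integral one. -/
lemma relIndex_box_zero {v : Pl F} {k : ℕ × ℕ} (hk : Adm σ v ((k.1 : ℤ), (k.2 : ℤ))) :
    (box σ v ((k.1 : ℤ), (k.2 : ℤ))).relIndex (box σ v 0) = boxCard σ v ((k.1 : ℤ), (k.2 : ℤ)) := by
  set P := plOver M v
  set Q := plConj σ v
  set I : Ideal (𝓞 M) := P.asIdeal ^ k.1 ⊓ Q.asIdeal ^ k.2
  have hI : Ideal.absNorm I = boxCard σ v ((k.1 : ℤ), (k.2 : ℤ)) := by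
    unfold boxCard
    simp only [Int.toNat_natCast, resCard]
    split_ifs with h
    · have e : Q = P := (plConj_eq_iff hF hσ).2 h
      have e' : k.1 = k.2 := by exact Int.ofNat.inj (hk h)
      simp only [I, e, ← e', inf_idem, map_pow]
      rfl
    · have hne : P.asIdeal ≠ Q.asIdeal := fun e =>
        h ((plConj_eq_iff hF hσ).1 (HeightOneSpectrum.ext e.symm))
      have hco : IsCoprime (P.asIdeal ^ k.1) (Q.asIdeal ^ k.2) :=
        (Ideal.isCoprime_iff_sup_eq.2 (P.isMaximal.coprime_of_ne Q.isMaximal hne)).pow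
      rw [show I = P.asIdeal ^ k.1 * Q.asIdeal ^ k.2 from
        ((Ideal.mul_eq_inf_of_isCoprime hco).symm), map_mul, map_pow, map_pow]
  have hint : ∀ x : 𝓞 M, (x : M) ∈ box σ v 0 := fun x =>
    ⟨by simpa using P.valuation_le_one x, by simpa using Q.valuation_le_one x⟩
  -- the integers in the box form the ideal `I`
  have hmem : ∀ x : 𝓞 M, (x : M) ∈ box σ v ((k.1 : ℤ), (k.2 : ℤ)) ↔ x ∈ I := fun x => by
    rw [mem_box, Ideal.mem_inf, ← HeightOneSpectrum.intValuation_le_pow_iff_mem,
      ← HeightOneSpectrum.intValuation_le_pow_iff_mem,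
      ← HeightOneSpectrum.valuation_of_algebraMap (K := M),
      ← HeightOneSpectrum.valuation_of_algebraMap (K := M)]
  let f : 𝓞 M →+ box σ v 0 ⧸ (box σ v ((k.1 : ℤ), (k.2 : ℤ))).addSubgroupOf (box σ v 0) :=
    (QuotientAddGroup.mk' _).comp
      (AddMonoidHom.codRestrict (algebraMap (𝓞 M) M).toAddMonoidHom _ hint)
  have hker : f.ker = I.toAddSubgroup := by
    ext x
    simp only [f, AddMonoidHom.mem_ker, AddMonoidHom.coe_comp, Function.comp_apply,
      QuotientAddGroup.mk'_apply, QuotientAddGroup.eq_zero_iff, Submodule.mem_toAddSubgroup]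
    rw [AddSubgroup.mem_addSubgroupOf]
    exact hmem x
  -- approximation gives surjectivity
  have hsurj : Function.Surjective f := by
    intro q
    obtain ⟨⟨η, hη⟩, rfl⟩ := QuotientAddGroup.mk_surjective q
    obtain ⟨y, hy, hy'⟩ := Fermat.LT.exists_approx (F := M) {P, Q} (fun _ => η) (max k.1 k.2)
    have hyint : ∀ W : Pl M, W.valuation M y ≤ 1 := fun W => by
      by_cases hW : W ∈ ({P, Q} : Finset (Pl M))
      · rw [show y = (y - η) + η by ring]
        refine ((W.valuation M).map_add _ _).trans (max_le ((hy W hW).trans ?_) ?_)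
        · rw [← WithZero.exp_zero, WithZero.exp_le_exp]; omega
        · rcases Finset.mem_insert.1 hW with rfl | hW
          · simpa using hη.1
          · rw [Finset.mem_singleton.1 hW]; simpa using hη.2
      · exact hy' W hW
    obtain ⟨r, rfl⟩ := IsDedekindDomain.HeightOneSpectrum.mem_integers_of_valuation_le_one M y hyint
    refine ⟨r, ?_⟩
    simp only [f, AddMonoidHom.coe_comp, Function.comp_apply, QuotientAddGroup.mk'_apply]
    rw [QuotientAddGroup.eq, AddSubgroup.mem_addSubgroupOf]
    change -(r : M) + η ∈ box σ v ((k.1 : ℤ), (k.2 : ℤ))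
    rw [← AddSubgroup.neg_mem_iff, show -(-(r : M) + η) = (r : M) - η by ring]
    exact ⟨(hy P (Finset.mem_insert_self _ _)).trans (WithZero.exp_le_exp.2 (by push_cast; omega)),
      (hy Q (Finset.mem_insert_of_mem (Finset.mem_singleton_self _))).trans
        (WithZero.exp_le_exp.2 (by push_cast; omega))⟩
  rw [AddSubgroup.relIndex, AddSubgroup.index, ← Nat.card_congr
    (QuotientAddGroup.quotientKerEquivOfSurjective f hsurj).toEquiv, hker, ← hI,
    Ideal.absNorm_apply, Submodule.cardQuot_apply]
  rfl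

/-- The index between admissible boxes depends only on the difference of the exponents. -/
lemma relIndex_box {v : Pl F} {lo hi : ℤ × ℤ} (h1 : lo.1 ≤ hi.1) (h2 : lo.2 ≤ hi.2)
    (hlo : Adm σ v lo) (hhi : Adm σ v hi) :
    (box σ v hi).relIndex (box σ v lo) = boxCard σ v (hi - lo) := by
  obtain ⟨η, hη0, e1, e2⟩ := exists_ord_pair hF hσ hlo
  obtain ⟨k1, hk1⟩ := Int.eq_ofNat_of_zero_le (sub_nonneg.2 h1)
  obtain ⟨k2, hk2⟩ := Int.eq_ofNat_of_zero_le (sub_nonneg.2 h2)
  have hd : hi - lo = ((k1 : ℤ), (k2 : ℤ)) := Prod.ext hk1 hk2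
  rw [hd, ← relIndex_box_zero hF hσ (k := (k1, k2)) (fun h => by
      have := hlo h
      have := hhi h
      simp only
      omega),
    ← AddSubgroup.relIndex_map_map_of_injective (box σ v _) (box σ v 0)
      (f := (mulE hη0).toAddMonoidHom) (mulE hη0).injective, box_map_mulE, box_map_mulE, e1, e2]
  congr 2
  · ext <;> simp <;> omega
  · ext <;> simp

omit hF hσ in
/-- Box indices are positive. -/
lemma boxCard_pos (v : Pl F) (d : ℤ × ℤ) : 0 < boxCard σ v d := by
  unfold boxCard
  split_ifs
  · exact pow_pos (resCard_pos _) _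
  · exact Nat.mul_pos (pow_pos (resCard_pos _) _) (pow_pos (resCard_pos _) _)

/-- At an unramified place the index only involves the residue field of `v`. -/
lemma boxCard_eq {v : Pl F} (hv : plRamIdx F (plOver M v) = 1) {d : ℤ × ℤ}
    (h1 : 0 ≤ d.1) (h2 : 0 ≤ d.2) (hd : Adm σ v d) :
    boxCard σ v d = resCard v ^ (d.1 + d.2).toNat := by
  have hst : Nat.card (MulAction.stabilizer (M ≃ₐ[F] M) (plOver M v))
      = if IsNonsplit σ v then 2 else 1 := by
    split_ifs with h
    · rw [show MulAction.stabilizer (M ≃ₐ[F] M) (plOver M v) = ⊤ from eq_top_iff.2 fun g _ => by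
        obtain ⟨i, -, rfl⟩ := exists_eq_generator_pow hF hσ g
        exact pow_smul_eq_self (h _ (plUnder_plOver v)) i, Subgroup.card_top, card_aut_eq hF]
    · rw [Subgroup.card_eq_one, Subgroup.eq_bot_iff_forall]
      intro g hg
      by_contra hg1
      exact h ((plConj_eq_iff hF hσ).1 (smul_eq_self_of_ne_one hF hg1 hg))
  have hP := resCard_eq_pow_card_stabilizer (K := F) (plOver M v) hv
  rw [plUnder_plOver, hst] at hP
  unfold boxCard
  split_ifs with h
  · rw [if_pos h] at hP
    rw [hP, ← pow_mul]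
    congr 1
    have := hd h
    omega
  · rw [if_neg h] at hP
    have hQ : resCard (plConj σ v) = resCard v := by
      rw [← pow_one (resCard v), ← hP]
      rw [plConj, resCard, resCard, smul_asIdeal, Ideal.absNorm_apply, Ideal.absNorm_apply,
        Submodule.cardQuot_apply, Submodule.cardQuot_apply]
      exact Nat.card_congr (Ideal.quotientEquiv (plOver M v).asIdeal _
        (MulSemiringAction.toRingEquiv _ (𝓞 M) σ) rfl).symm.toEquiv
    rw [hP, hQ, pow_one, ← pow_add]
    congr 1
    omega

end Fermat.LT.Theta
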