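import Fermat.Agent.LT.Theta.Cyclo

/-!
# The Artin map of norms

`art_norm`: the Artin map of a norm is that of the element for the restricted map;
`art_norm_eq_one'` kills norms from cyclotomic levels.
-/

set_option autoImplicit false
set_option linter.unusedSectionVars false

noncomputable section

open NumberField Fermat.CFT
open scoped Classical

namespace Fermat.LT.Theta

variable {K E N Ω : Type} [Field K] [NumberField K] [Field E] [NumberField E] [Field N]
  [NumberField N] [Field Ω] [NumberField Ω] [Algebra K E] [Algebra K N] [Algebra K Ω]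
  [Algebra E Ω] [Algebra N Ω] [IsScalarTower K E Ω] [IsScalarTower K N Ω]
  [IsGalois K E] [IsGalois K N] [IsGalois K Ω] [IsGalois E Ω]

variable (K E N Ω) in
/-- `Gal(Ω/E) → Gal(N/K)`. -/
def resHom : (Ω ≃ₐ[E] Ω) →* (N ≃ₐ[K] N) :=
  (AlgEquiv.restrictNormalHom N).comp (AlgEquiv.restrictScalarsHom K)

/-- The value of `resHom`. -/
lemma resHom_apply (g : Ω ≃ₐ[E] Ω) : resHom K E N Ω g = (g.restrictScalars K).restrictNormal N :=
  rfl

variable (hc : ∀ a b : Ω ≃ₐ[K] Ω, a * b = b * a)

include hc in
/-- Normal sub-extensions of an abelian extension are abelian. -/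
lemma comm_restrict (L : Type) [Field L] [Algebra K L] [Algebra L Ω] [IsScalarTower K L Ω]
    [Normal K L] (a b : L ≃ₐ[K] L) : a * b = b * a := by
  obtain ⟨a', rfl⟩ := AlgEquiv.restrictNormalHom_surjective (F := K) (K₁ := L) Ω a
  obtain ⟨b', rfl⟩ := AlgEquiv.restrictNormalHom_surjective (F := K) (K₁ := L) Ω b
  rw [← map_mul, hc, map_mul]

include hc in
/-- Frobenius at a prime of `E` restricted to `N`. -/
lemma resHom_frobPl (w : Pl E) (hun : ∀ W : Pl Ω, plUnder E W = w → plRamIdx K W = 1) :
    resHom K E N Ω (frobPl Ω w) =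
      frobPl N (plUnder K w) ^ Nat.card (MulAction.stabilizer (E ≃ₐ[K] E) w) := by
  set W := plOver Ω w with hW
  have hWw : plUnder E W = w := plUnder_plOver w
  have hram : plRamIdx K W = 1 := hun W hWw
  have hramw : plRamIdx K w = 1 := by
    have := plRamIdx_tower (K := K) (N := E) W
    rw [hram, hWw] at this
    exact Nat.eq_one_of_mul_eq_one_right this.symm
  have hramN : plRamIdx K (plUnder N W) = 1 := by
    have := plRamIdx_tower (K := K) (N := N) W
    rw [hram] at this
    exact Nat.eq_one_of_mul_eq_one_right this.symm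
  have hunder : plUnder K W = plUnder K w := by rw [← plUnder_plUnder' (N := E) W, hWw]
  set f := Nat.card (MulAction.stabilizer (E ≃ₐ[K] E) w)
  have h1 : Congr ((frobPl Ω w).restrictScalars K) W (resCard (plUnder K w) ^ f) := by
    have h := (congr_frobEl (K := E) W).restrictScalars (K := K)
    rw [hWw, resCard_eq_pow_card_stabilizer w hramw] at h
    exact h
  have h2 := congr_frobEl (K := K) W
  rw [hunder] at h2
  have h3 : (frobPl Ω w).restrictScalars K = frobEl K W ^ f :=
    Congr.eq_of_congr hram h1 (h2.pow (resCard_pos _) f)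
  have h4 : frobPl N (plUnder K w) = (frobEl K W).restrictNormal N := by
    have h := frobPl_eq (comm_restrict hc N) hramN
      (g := (frobEl K W).restrictNormal N) (by
        rw [plUnder_plUnder']; exact (congr_frobEl (K := K) W).restrictNormal)
    rwa [plUnder_plUnder', hunder] at h
  rw [resHom_apply, h3, h4]
  exact map_pow (AlgEquiv.restrictNormalHom N) _ _

variable {A : Type*} [CommGroup A] (χ : (N ≃ₐ[K] N) →* A)

include hc in
/-- **Artin map of a norm.** The Artin map of a norm off `T` is that of the element for the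
restricted character, off the places over `T`. -/
theorem art_norm (T : Set (Pl K)) (hun : ∀ W : Pl Ω, plUnder K W ∉ T → plRamIdx K W = 1)
    {x : E} (hx : x ≠ 0) :
    art χ T (Algebra.norm K x) =
      art (χ.comp (resHom K E N Ω)) {w | plUnder K w ∈ T} x := by
  set Sx := (CFT.finite_ord_ne_zero x).toFinset with hSx
  set SK := Sx.image (plUnder K) with hSK
  have hunE : ∀ w : Pl E, plUnder K w ∉ T → plRamIdx K w = 1 := fun w hw => by
    have := plRamIdx_tower (K := K) (N := E) (plOver Ω w)
    rw [hun _ (by rwa [← plUnder_plUnder' (N := E), plUnder_plOver]), plUnder_plOver] at this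
    exact Nat.eq_one_of_mul_eq_one_right this.symm
  have hord : ∀ w : Pl E, plRamIdx K w = 1 →
      CFT.ord (plUnder K w) (Algebra.norm K x) = ∑ g : E ≃ₐ[K] E, CFT.ord (g • w) x := by
    intro w hw
    have h := congrArg (CFT.ord w) (Algebra.norm_eq_prod_automorphisms K x)
    rw [CFT.ord_algebraMap_eq, hw, Nat.cast_one, one_mul,
      CFT.ord_prod w _ _ fun g _ => (map_ne_zero g).mpr hx] at h
    rw [h]
    refine Fintype.sum_equiv (Equiv.inv _) _ _ fun g => ?_
    have h' := CFT.ord_smul g (g⁻¹ • w) x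
    rw [smul_inv_smul] at h'
    exact h'
  set φ := χ.comp (resHom K E N Ω)
  have hsub : (Function.mulSupport fun w : Pl E =>
      if w ∈ {w : Pl E | plUnder K w ∈ T} then 1 else φ (frobPl Ω w) ^ CFT.ord w x) ⊆ ↑Sx := by
    intro w hw
    rw [hSx, Set.Finite.coe_toFinset]
    intro h0
    exact hw (by simp [h0])
  rw [art, art, finprod_eq_prod_of_mulSupport_subset _ hsub,
    finprod_eq_prod_of_mulSupport_subset (s := SK) _ ?_,
    ← Finset.prod_fiberwise_of_maps_to (g := plUnder K) (t := SK)
      fun w hw => Finset.mem_image_of_mem _ hw]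
  swap
  · intro v hv
    by_contra hvS
    refine hv ?_
    by_cases hvT : v ∈ T
    · simp [hvT]
    simp only [if_neg hvT]
    obtain ⟨w, rfl⟩ := CFT.exists_plUnder_eq (F := E) v
    rw [hord w (hunE w hvT), Finset.sum_eq_zero, zpow_zero]
    intro g _
    by_contra hg
    exact hvS (Finset.mem_coe.mpr (Finset.mem_image.mpr
      ⟨g • w, (CFT.finite_ord_ne_zero x).mem_toFinset.mpr hg, plUnder_smul g w⟩))
  -- compare the factors over each place of `K`
  refine Finset.prod_congr rfl fun v hv => ?_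
  by_cases hvT : v ∈ T
  · rw [if_pos hvT, Finset.prod_eq_one]
    intro w hw
    simp only [Set.mem_ofPred_eq]
    rw [if_pos (show plUnder K w ∈ T by rwa [(Finset.mem_filter.mp hw).2])]
  obtain ⟨w₀, rfl⟩ := CFT.exists_plUnder_eq (F := E) v
  have hram : plRamIdx K w₀ = 1 := hunE w₀ hvT
  set f := Nat.card (MulAction.stabilizer (E ≃ₐ[K] E) w₀) with hf
  set O : Finset (Pl E) := Finset.univ.image fun g : E ≃ₐ[K] E => g • w₀
  have hstab : ∀ w ∈ O, Nat.card (MulAction.stabilizer (E ≃ₐ[K] E) w) = f := by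
    intro w hw
    obtain ⟨g, -, rfl⟩ := Finset.mem_image.mp hw
    have : MulAction.stabilizer (E ≃ₐ[K] E) (g • w₀) = MulAction.stabilizer (E ≃ₐ[K] E) w₀ := by
      ext a
      simp only [MulAction.mem_stabilizer_iff]
      rw [← mul_smul, comm_restrict hc E a g, mul_smul, smul_left_cancel_iff]
    rw [this]
  have hfib : ∀ w ∈ O, ({g : E ≃ₐ[K] E | g • w₀ = w} : Finset _).card = f := by
    intro w hw
    obtain ⟨τ, -, rfl⟩ := Finset.mem_image.mp hw
    rw [hf, ← Fintype.card_subtype, ← Nat.card_eq_fintype_card]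
    refine Nat.card_congr ((Equiv.mulLeft τ⁻¹).subtypeEquiv fun g => ?_)
    rw [MulAction.mem_stabilizer_iff, Equiv.coe_mulLeft, mul_smul, inv_smul_eq_iff]
  rw [if_neg hvT, hord w₀ hram,
    Finset.sum_comp (fun w => CFT.ord w x) (fun g : E ≃ₐ[K] E => g • w₀)]
  have hrhs : ∏ w ∈ Sx with plUnder K w = plUnder K w₀,
      (if w ∈ {w : Pl E | plUnder K w ∈ T} then 1 else φ (frobPl Ω w) ^ CFT.ord w x) =
      ∏ w ∈ O, φ (frobPl Ω w) ^ CFT.ord w x := by
    simp only [Set.mem_ofPred_eq]
    rw [Finset.prod_congr rfl fun w hw => if_neg (show ¬ plUnder K w ∈ T by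
      rw [(Finset.mem_filter.mp hw).2]; exact hvT)]
    refine Finset.prod_subset (fun w hw => ?_) fun w hw hw' => ?_
    · obtain ⟨g, hg⟩ := CFT.exists_smul_eq_of_plUnder_eq (Finset.mem_filter.mp hw).2.symm
      exact Finset.mem_image.mpr ⟨g, Finset.mem_univ _, hg⟩
    · obtain ⟨g, -, rfl⟩ := Finset.mem_image.mp hw
      have h0 : CFT.ord (g • w₀) x = 0 := by
        by_contra h
        exact hw' (Finset.mem_filter.mpr
          ⟨(CFT.finite_ord_ne_zero x).mem_toFinset.mpr h, plUnder_smul g w₀⟩)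
      rw [h0, zpow_zero]
  rw [hrhs, ← map_sum_zpow]
  refine Finset.prod_congr rfl fun w hw => ?_
  rw [hfib w hw, nsmul_eq_mul, zpow_mul, zpow_natCast]
  obtain ⟨g, -, rfl⟩ := Finset.mem_image.mp hw
  rw [MonoidHom.comp_apply, resHom_frobPl hc (g • w₀) ?_, map_pow, plUnder_smul, hstab _ hw]
  intro W hW
  exact hun W (by rwa [← plUnder_plUnder' (N := E), hW, plUnder_smul])
where
  map_sum_zpow {ι : Type} {s : Finset ι} {a : A} {e : ι → ℤ} :
      ∏ i ∈ s, a ^ e i = a ^ (∑ i ∈ s, e i) := by
    induction s using Finset.induction with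
    | empty => simp
    | insert i s hi ih => rw [Finset.prod_insert hi, Finset.sum_insert hi, zpow_add, ih]

include hc in
/-- The Artin map kills norms from fields over which the relevant part of `Ω` is cyclotomic. -/
theorem art_norm_eq_one' [IsTotallyComplex E] {n : ℕ} [NeZero n] {ζ : Ω}
    (hζ : IsPrimitiveRoot ζ n) (hn1 : 1 < n)
    (hψ : ∀ g : Ω ≃ₐ[E] Ω, hζ.autToPow E g = 1 → resHom K E N Ω g = 1)
    (T : Set (Pl K)) (hun : ∀ W : Pl Ω, plUnder K W ∉ T → plRamIdx K W = 1)
    (hTn : ∀ v : Pl K, (n : 𝓞 K) ∈ v.asIdeal → v ∈ T)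
    {x : E} (hx : x ≠ 0) (hxT : ∀ w : Pl E, plUnder K w ∈ T → CFT.ord w x = 0)
    (hxn : ∀ w : Pl E, (n : 𝓞 E) ∈ w.asIdeal → CFT.CloseOne w (CFT.ord w (n : E)) x) :
    art χ T (Algebra.norm K x) = 1 := by
  rw [art_norm hc χ T hun hx]
  have hT : ∀ w : Pl E, (n : 𝓞 E) ∈ w.asIdeal → plUnder K w ∈ T := fun w hw =>
    hTn _ (by rwa [natCast_mem_plUnder])
  set e := (hζ.autToPow E).rangeRestrict
  have hker : e.ker ≤ (χ.comp (resHom K E N Ω)).ker := fun g hg => by
    rw [MonoidHom.mem_ker, MonoidHom.comp_apply, hψ g (congrArg Subtype.val hg), map_one]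
  set f := e.liftOfRightInverse _
    (Function.rightInverse_surjInv (hζ.autToPow E).rangeRestrict_surjective)
    ⟨χ.comp (resHom K E N Ω), hker⟩
  have hf : f.comp e = χ.comp (resHom K E N Ω) := e.liftOfRightInverse_comp _ _ _
  have h1 : art e {w | plUnder K w ∈ T} x = 1 := by
    have h := autToPow_art_eq_one hζ hn1 {w | plUnder K w ∈ T} hT hx hxT hxn
    have h2 := art_comp e (hζ.autToPow E).range.subtype {w | plUnder K w ∈ T} x
    rw [show (hζ.autToPow E).range.subtype.comp e = hζ.autToPow E from rfl, h] at h2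
    exact (hζ.autToPow E).range.subtype_injective (h2.trans (map_one _).symm)
  rw [← hf, ← art_comp, h1, map_one]

end Fermat.LT.Theta
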