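import Fermat.Agent.LT.Theta.SymbolArt
import Fermat.Agent.LT.Theta.Transfer

/-!
# Crossing a quadratic extension with a cyclotomic one

`mem_nonNorm_norm_iff` reads the symbol of a norm at an unramified place; `exists_pair_norm`
realises two nonsplit places as the symbols of an element whose norm has trivial Artin symbol.
-/

set_option autoImplicit false
set_option linter.unusedSectionVars false

noncomputable section

open NumberField Fermat.CFT
open scoped Classical symmDiff

namespace Fermat.LT.Theta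

variable {K : Type} [Field K] [NumberField K] [IsTotallyComplex K]
  {F : Type} [Field F] [NumberField F] [Algebra K F] [IsGalois K F]

/-- The nontrivial character of a group of order two. -/
def quadSgn (hF : Module.finrank K F = 2) : (F ≃ₐ[K] F) →* ℤˣ :=
  MonoidHom.mk' (fun g => if g = 1 then 1 else -1) fun g h => by
    have hc : Nat.card (F ≃ₐ[K] F) = 2 := by rw [IsGalois.card_aut_eq_finrank, hF]
    by_cases hg : g = 1
    · simp [hg]
    by_cases hh : h = 1
    · simp [hh]
    have hgh : g * h = 1 := by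
      obtain ⟨y, hy, huniq⟩ := (Nat.card_eq_two_iff' (1 : F ≃ₐ[K] F)).mp hc
      rw [huniq g hg, huniq h hh]
      by_contra hne
      have := huniq _ hne
      exact hy (mul_eq_right.mp this)
    simp [hg, hh, hgh]

/-- The value of the character of order two. -/
lemma quadSgn_apply (hF : Module.finrank K F = 2) (g : F ≃ₐ[K] F) :
    quadSgn hF g = if g = 1 then 1 else -1 := rfl

variable {Ω : Type} [Field Ω] [NumberField Ω] [Algebra K Ω] [Algebra F Ω] [IsScalarTower K F Ω]
  [IsGalois K Ω]
  {E : Type} [Field E] [NumberField E] [Algebra K E] [Algebra E Ω] [IsScalarTower K E Ω]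
  [IsGalois K E] [IsGalois E Ω]
  {E' : Type} [Field E'] [NumberField E'] [Algebra E E'] [Algebra E' Ω] [IsScalarTower E E' Ω]
  [IsGalois E E']
  (hc : ∀ a b : Ω ≃ₐ[K] Ω, a * b = b * a) (hF : Module.finrank K F = 2)
  (hker : ∀ g : Ω ≃ₐ[E] Ω, g.restrictNormal E' = 1 ↔ resHom K E F Ω g = 1)
  (hE : Module.finrank E E' = 2) {σE : E' ≃ₐ[E] E'} (hσE : σE ≠ 1)
  (T : Set (Pl K)) (hun : ∀ W : Pl Ω, plUnder K W ∉ T → plRamIdx K W = 1)

include hun in
/-- The top field is unramified over `E` outside the excluded set. -/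
lemma plRamIdx_top_eq_one {W : Pl Ω} (hW : plUnder K W ∉ T) : plRamIdx E W = 1 := by
  have := plRamIdx_tower (K := K) (N := E) W
  rw [hun W hW] at this
  exact Nat.eq_one_of_mul_eq_one_left this.symm

include hun in
/-- A prime ramified in the crossed extension lies over the excluded set. -/
lemma mem_of_mem_ramPl {w : Pl E} (hw : w ∈ ramPl E') : plUnder K w ∈ T := by
  by_contra hT
  obtain ⟨u, rfl, hu⟩ := hw
  obtain ⟨W, rfl⟩ := CFT.exists_plUnder_eq (F := Ω) u
  refine hu ?_
  have h1 := plRamIdx_tower (K := E) (N := E') W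
  rw [plRamIdx_top_eq_one T hun (by
    rwa [plUnder_plUnder' (K := E) (N := E') W, plUnder_plUnder' (K := K) (N := E) W] at hT)] at h1
  exact Nat.eq_one_of_mul_eq_one_right h1.symm

include hker hE hσE hun in
/-- Outside the excluded set, non-split means nontrivial restricted Frobenius. -/
lemma isNonsplit_iff_res {w : Pl E} (hw : plUnder K w ∉ T) :
    IsNonsplit σE w ↔ resHom K E F Ω (frobPl Ω w) ≠ 1 := by
  set W := plOver Ω w
  have hWw : plUnder E W = w := plUnder_plOver w
  have hWT : plUnder K W ∉ T := by rwa [← plUnder_plUnder' (N := E), hWw]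
  have hcg : Congr ((frobPl Ω w).restrictNormal E') (plUnder E' W) (resCard w) := by
    have h := (congr_frobEl (K := E) W).restrictNormal (N := E')
    rwa [hWw] at h
  have hram : plRamIdx E (plUnder E' W) = 1 := by
    have h1 := plRamIdx_tower (K := E) (N := E') W
    rw [plRamIdx_top_eq_one T hun hWT] at h1
    exact Nat.eq_one_of_mul_eq_one_right h1.symm
  rw [isNonsplit_iff_congr hE hσE (by rw [plUnder_plUnder', hWw]) hram hcg, Ne, hker]

include hker hE hσE hun in
/-- Outside the excluded set the character of the Frobenius is `-1` exactly at non-split places. -/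
lemma quadSgn_frobPl {w : Pl E} (hw : plUnder K w ∉ T) :
    ((quadSgn hF).comp (resHom K E F Ω)) (frobPl Ω w) = if IsNonsplit σE w then -1 else 1 := by
  rw [MonoidHom.comp_apply, quadSgn_apply]
  by_cases h : resHom K E F Ω (frobPl Ω w) = 1
  · rw [if_pos h, if_neg fun hn => (isNonsplit_iff_res hker hE hσE T hun hw).mp hn h]
  · rw [if_neg h, if_pos ((isNonsplit_iff_res hker hE hσE T hun hw).mpr h)]

variable [IsTotallyComplex E]

include hc hF hker hE hσE hun in
/-- The Artin map of `N_{E/K} x` in `F` counts the symbols of `x`. -/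
lemma art_norm_quad (x : Eˣ) :
    art (quadSgn hF) T (Algebra.norm K (x : E)) =
      (-1) ^ (nonNorm σE x \ {w | plUnder K w ∈ T}).ncard := by
  rw [art_norm hc (quadSgn hF) T hun x.ne_zero]
  exact art_eq_neg_one_pow hE hσE _ {w | plUnder K w ∈ T}
    (fun w hw => mem_of_mem_ramPl T hun hw)
    (fun w hw => quadSgn_frobPl hF hker hE hσE T hun hw) x

include hc hF hker hE hσE in
/-- The symbol of a norm at an unramified place. -/
theorem mem_nonNorm_norm_iff {σ : F ≃ₐ[K] F} (hσ : σ ≠ 1) {v : Pl K}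
    (hv : ∀ W : Pl Ω, plUnder K W = v → plRamIdx K W = 1) (x : Eˣ) :
    v ∈ nonNorm σ (Units.map (Algebra.norm K : E →* K) x) ↔
      Odd {w | w ∈ nonNorm σE x ∧ plUnder K w = v}.ncard := by
  have hun' : ∀ W : Pl Ω, plUnder K W ∉ ({v}ᶜ : Set (Pl K)) → plRamIdx K W = 1 := fun W hW =>
    hv W (not_not.mp hW)
  -- `v` is unramified in `F`, being unramified all the way up to `Ω`
  have hram : v ∉ ramPl F := by
    rintro ⟨u, rfl, hu⟩
    obtain ⟨W, rfl⟩ := CFT.exists_plUnder_eq (F := Ω) u
    refine hu ?_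
    have h1 := plRamIdx_tower (K := K) (N := F) W
    rw [hv W (plUnder_plUnder' (N := F) W).symm] at h1
    exact Nat.eq_one_of_mul_eq_one_right h1.symm
  set y := Units.map (Algebra.norm K : E →* K) x
  -- compute the Artin symbol of `N x` through `F` and through the norm from `E`
  have h1 := art_eq_neg_one_pow hF hσ (quadSgn hF) ({v}ᶜ : Set (Pl K))
    (fun u hu => fun h => hram (h ▸ hu))
    (fun u hu => by
      obtain rfl : u = v := not_not.mp hu
      rw [quadSgn_apply]
      by_cases h : frobPl F u = 1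
      · rw [if_pos h, if_neg fun hn => (isNonsplit_iff_frobPl hF hσ hram).mp hn h]
      · rw [if_neg h, if_pos ((isNonsplit_iff_frobPl hF hσ hram).mpr h)]) y
  have h2 := art_norm_quad hc hF hker hE hσE ({v}ᶜ : Set (Pl K)) hun' x
  rw [show (y : K) = Algebra.norm K (x : E) from rfl, h2] at h1
  -- both exponents only see the places over `v`
  have e1 : nonNorm σE x \ {w | plUnder K w ∈ ({v}ᶜ : Set (Pl K))} =
      {w | w ∈ nonNorm σE x ∧ plUnder K w = v} := by ext w; simp
  have e2 : (nonNorm σ y \ ({v}ᶜ : Set (Pl K))).ncard = if v ∈ nonNorm σ y then 1 else 0 := by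
    rw [Set.sdiff_compl]
    split_ifs with h
    · rw [Set.inter_singleton_of_mem h, Set.ncard_singleton]
    · rw [Set.inter_singleton_eq_empty.mpr h, Set.ncard_empty]
  rw [e1, e2] at h1
  -- compare parities
  rcases Nat.even_or_odd {w | w ∈ nonNorm σE x ∧ plUnder K w = v}.ncard with he | ho
  · rw [he.neg_one_pow] at h1
    refine iff_of_false (fun h => ?_) (Nat.not_odd_iff_even.mpr he)
    rw [if_pos h, pow_one] at h1
    exact absurd h1 (by decide)
  · rw [ho.neg_one_pow] at h1
    refine iff_of_true ?_ ho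
    by_contra h
    rw [if_neg h, pow_zero] at h1
    exact absurd h1 (by decide)

variable {ℓ : ℕ} [hℓ : Fact ℓ.Prime] {ζ : Ω} (hζ : IsPrimitiveRoot ζ ℓ)
  (hTℓ : ∀ v : Pl K, (ℓ : 𝓞 K) ∈ v.asIdeal → v ∈ T)

omit [IsGalois E E'] in
/-- A level of congruence sufficient at all places of a finite set. -/
lemma exists_level (S : Finset (Pl E)) (n : ℕ) :
    ∃ L : ℕ, n ≤ L ∧ ∀ w ∈ S, localLevel 2 (-1 : E) w ≤ L ∧ CFT.ord w (ℓ : E) ≤ L := by
  refine ⟨n + S.sup (fun w => localLevel 2 (-1 : E) w + (CFT.ord w (ℓ : E)).toNat), by omega,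
    fun w hw => ?_⟩
  have := Finset.le_sup (f := fun w => localLevel 2 (-1 : E) w + (CFT.ord w (ℓ : E)).toNat) hw
  constructor <;> omega

include hc hF hker hE hσE hun hζ hTℓ in
/-- Where `Ω` is cyclotomic over `E`, every unramified symbol is needed in the relation. -/
theorem not_alone_of_cyclo (hT : T.Finite)
    (hinj : ∀ g : Ω ≃ₐ[E] Ω, g ζ = ζ → resHom K E F Ω g = 1) {w : Pl E}
    (hw : plUnder K w ∉ T) : ¬ Alone σE w := by
  rintro ⟨x, hx⟩
  set TE := plAbove E hT.toFinset with hTE
  have hmem : ∀ u : Pl E, u ∈ TE ↔ plUnder K u ∈ T := fun u => by simp [hTE]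
  obtain ⟨L, -, hL⟩ := exists_level (ℓ := ℓ) TE 1
  obtain ⟨x', hx', hcl⟩ := exists_adjust hE hσE TE L x fun u hu => by
    by_cases hs : IsNonsplit σE u
    · by_contra h
      have : u ∈ nonNorm σE x := ⟨hs, h⟩
      rw [hx, Set.mem_singleton_iff] at this
      exact hw (this ▸ (hmem u).mp hu)
    · rw [lnorms_eq_top_of_split hE hσE hs]; exact Subgroup.mem_top _
  have hℓE : ∀ u : Pl E, (ℓ : 𝓞 E) ∈ u.asIdeal → u ∈ TE := fun u hu =>
    (hmem u).mpr (hTℓ _ (by rwa [natCast_mem_plUnder]))
  have hord : ∀ u : Pl E, plUnder K u ∈ T → CFT.ord u (x' : E) = 0 := fun u hu => by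
    have h1 := hL u ((hmem u).mpr hu)
    exact (closeOne_mono (hcl u ((hmem u).mpr hu)) (m := ((L : ℕ) : ℤ)) le_rfl).ord_eq_zero (by
      have : 0 < localLevel 2 (-1 : E) u := Nat.succ_pos _
      omega)
  have hart : art (quadSgn hF) T (Algebra.norm K (x' : E)) = 1 := by
    have hψ : ∀ g : Ω ≃ₐ[E] Ω, hζ.autToPow E g = 1 → resHom K E F Ω g = 1 := fun g h' => by
      refine hinj g ?_
      have h1 := hζ.autToPow_spec E g
      rw [h', Units.val_one, ZMod.val_one, pow_one] at h1
      exact h1.symm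
    exact art_norm_eq_one' hc (quadSgn hF) hζ hℓ.out.one_lt hψ T hun hTℓ x'.ne_zero hord
      fun u hu => closeOne_mono (hcl u (hℓE u hu)) (hL u (hℓE u hu)).2
  rw [art_norm_quad hc hF hker hE hσE T hun x', hx', hx,
    show ({w} : Set (Pl E)) \ {w | plUnder K w ∈ T} = {w} from
      sdiff_eq_left.mpr (Set.disjoint_singleton_left.mpr hw), Set.ncard_singleton, pow_one] at hart
  exact absurd hart (by decide)

include hc hE hσE hun hζ hTℓ in
/-- Two such places are the symbols of an element whose norm has trivial Artin symbols. -/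
theorem exists_pair_norm {N : Type} [Field N] [NumberField N] [Algebra K N] [IsGalois K N]
    [Algebra N Ω] [IsScalarTower K N Ω] {A : Type*} [CommGroup A] (χ : (N ≃ₐ[K] N) →* A)
    (hT : T.Finite) (hinj : ∀ g : Ω ≃ₐ[E] Ω, g ζ = ζ → resHom K E N Ω g = 1) (n : ℕ)
    {w w' : Pl E} (hw : plUnder K w ∉ T) (hw' : plUnder K w' ∉ T) (hns : IsNonsplit σE w)
    (hns' : IsNonsplit σE w') (hA : ¬ Alone σE w) (hA' : ¬ Alone σE w') :
    ∃ x : Eˣ, nonNorm σE x = {w} ∆ {w'} ∧
      (∀ u : Pl E, plUnder K u ∈ T → CloseOne u n (x : E)) ∧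
      art χ T (Algebra.norm K (x : E)) = 1 := by
  set TE := plAbove E hT.toFinset with hTE
  have hmem : ∀ u : Pl E, u ∈ TE ↔ plUnder K u ∈ T := fun u => by simp [hTE]
  -- an element with that defect set, from a relation
  obtain ⟨x, hx⟩ : ∃ x : Eˣ, nonNorm σE x = {w} ∆ {w'} := by
    rcases eq_or_ne w w' with rfl | hne
    · exact ⟨1, by simp [nonNorm_one]⟩
    obtain ⟨U, B, hU, hBU, hBns, -, hP⟩ := exists_relation hE hσE {w, w'}
    have hin : ∀ u ∈ ({w, w'} : Finset (Pl E)), u ∈ B := by
      intro u hu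
      by_contra huB
      have hu' : IsNonsplit σE u := by
        rcases Finset.mem_insert.mp hu with rfl | h
        · exact hns
        · exact (Finset.mem_singleton.mp h) ▸ hns'
      have h := (hP {u} (Finset.singleton_subset_iff.mpr (hU hu)) (by simpa using hu')).mpr
        (by rw [Finset.singleton_inter_of_notMem huB]; exact Even.zero)
      obtain ⟨z, hz⟩ := h
      rw [Finset.coe_singleton] at hz
      rcases Finset.mem_insert.mp hu with rfl | h'
      · exact hA ⟨z, hz⟩
      · exact hA' ⟨z, (Finset.mem_singleton.mp h') ▸ hz⟩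
    obtain ⟨x, hx⟩ := (hP {w, w'} hU (by simp [hns, hns'])).mpr (by
      rw [Finset.inter_eq_left.mpr hin, Finset.card_pair hne]; exact even_two)
    refine ⟨x, hx.trans ?_⟩
    rw [Finset.coe_pair]
    ext u
    simp only [Set.mem_insert_iff, Set.mem_singleton_iff, Set.mem_symmDiff]
    constructor
    · rintro (rfl | rfl) <;> simp [hne, hne.symm]
    · tauto
  -- adjust it to be close to one above `T`
  obtain ⟨L, hnL, hL⟩ := exists_level (ℓ := ℓ) TE n
  obtain ⟨x', hx', hcl⟩ := exists_adjust hE hσE TE L x fun u hu => by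
    by_cases hs : IsNonsplit σE u
    · by_contra h
      have : u ∈ nonNorm σE x := ⟨hs, h⟩
      rw [hx, Set.mem_symmDiff] at this
      rcases this with ⟨h1, -⟩ | ⟨h1, -⟩ <;>
        rw [Set.mem_singleton_iff] at h1 <;> subst h1
      · exact hw ((hmem _).mp hu)
      · exact hw' ((hmem _).mp hu)
    · rw [lnorms_eq_top_of_split hE hσE hs]; exact Subgroup.mem_top _
  have hℓE : ∀ u : Pl E, (ℓ : 𝓞 E) ∈ u.asIdeal → u ∈ TE := fun u hu =>
    (hmem u).mpr (hTℓ _ (by rwa [natCast_mem_plUnder]))
  refine ⟨x', hx'.trans hx, fun u hu => closeOne_mono (hcl u ((hmem u).mpr hu))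
    (by exact_mod_cast hnL), ?_⟩
  -- so its norm has trivial Artin symbols
  have hψ : ∀ g : Ω ≃ₐ[E] Ω, hζ.autToPow E g = 1 → resHom K E N Ω g = 1 := fun g h' => by
    refine hinj g ?_
    have h1 := hζ.autToPow_spec E g
    rw [h', Units.val_one, ZMod.val_one, pow_one] at h1
    exact h1.symm
  refine art_norm_eq_one' hc χ hζ hℓ.out.one_lt hψ T hun hTℓ x'.ne_zero (fun u hu => ?_)
    fun u hu => closeOne_mono (hcl u (hℓE u hu)) (hL u (hℓE u hu)).2
  have h1 := hL u ((hmem u).mpr hu)
  have : 0 < localLevel 2 (-1 : E) u := Nat.succ_pos _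
  exact (hcl u ((hmem u).mpr hu)).ord_eq_zero (by omega)

end Fermat.LT.Theta
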