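import Fermat.Agent.LT.Mult.Mean

/-!
# Theta: summability of rapidly decreasing functions over lattices in `ℂ ^ r`

`summable_gauss_fracLat` and `summable_exp_fracLat` give it on fractional lattices `fracLat`.
-/

set_option autoImplicit false
set_option linter.unusedSectionVars false
open NumberField Module IsDedekindDomain

namespace Fermat.LT.Theta

open Fermat.LT.Mult (emb basisR)

variable {F : Type*} [Field F] [NumberField F] [IsTotallyComplex F]

/-- Integers embed into the lattice spanned by the real basis. -/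
lemma emb_mem_lattice (l : 𝓞 F) :
    emb (l : F) ∈ Submodule.span ℤ (Set.range (basisR (F := F))) := by
  rw [← (RingOfIntegers.basis F).sum_repr l]
  push_cast
  rw [map_sum]
  refine Submodule.sum_mem _ fun i _ => ?_
  simp only [zsmul_eq_mul, map_mul, map_intCast]
  have e : ((((RingOfIntegers.basis F).repr l i : ℤ) : InfinitePlace F → ℂ))
      * emb ((RingOfIntegers.basis F i : 𝓞 F) : F)
      = ((RingOfIntegers.basis F).repr l i) • basisR (F := F) i := by
    rw [zsmul_eq_mul, Mult.basisR_apply]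
  rw [e]
  exact Submodule.smul_mem _ _ (Submodule.subset_span ⟨i, rfl⟩)

/-- A function decreasing faster than `‖z‖ ^ (-d)` is summable over the integers. -/
theorem summable_lattice {f : (InfinitePlace F → ℂ) → ℝ} {N : ℕ}
    (hN : finrank ℝ (InfinitePlace F → ℂ) < N) {C : ℝ} (hf0 : ∀ z, 0 ≤ f z)
    (hf : ∀ z, z ≠ 0 → f z ≤ C * ‖z‖⁻¹ ^ N) : Summable fun l : 𝓞 F => f (emb (l : F)) := by
  set L : Submodule ℤ (InfinitePlace F → ℂ) :=
    Submodule.span ℤ (Set.range (basisR (F := F))) with hL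
  have h0 : Summable fun z : L => ‖(z : InfinitePlace F → ℂ)‖⁻¹ ^ N :=
    ZLattice.summable_norm_pow_inv L N (by rw [ZLattice.rank ℝ L]; exact hN)
  have hinj : Function.Injective fun l : 𝓞 F => (⟨emb (l : F), emb_mem_lattice l⟩ : L) :=
    fun a b h => RingOfIntegers.coe_injective ((emb (F := F)).injective (congrArg Subtype.val h))
  refine Summable.of_norm_bounded_eventually ((h0.comp_injective hinj).mul_left C) ?_
  refine (Filter.eventually_cofinite_ne (0 : 𝓞 F)).mono fun l hl => ?_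
  rw [Real.norm_of_nonneg (hf0 _)]
  refine hf _ fun h => hl ?_
  rw [← map_zero (emb (F := F))] at h
  exact RingOfIntegers.coe_injective ((emb (F := F)).injective h)

/-- `exp (-x) ≤ N! x ^ (-N)`. -/
lemma exp_neg_le_inv_pow {x : ℝ} (hx : 0 < x) (N : ℕ) :
    Real.exp (-x) ≤ (N.factorial : ℝ) * x⁻¹ ^ N := by
  have h := Real.pow_div_factorial_le_exp x hx.le N
  rw [Real.exp_neg, inv_le_iff_one_le_mul₀ (Real.exp_pos _)]
  rw [div_le_iff₀ (by positivity)] at h
  rw [inv_pow, mul_right_comm, ← div_eq_mul_inv, one_le_div (by positivity), mul_comm]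
  exact h

/-- The sup norm is at most the sum of the norms of the coordinates. -/
lemma norm_le_sum_norm (z : InfinitePlace F → ℂ) : ‖z‖ ≤ ∑ w, ‖z w‖ :=
  (pi_norm_le_iff_of_nonneg (Finset.sum_nonneg fun _ _ => norm_nonneg _)).2 fun w =>
    Finset.single_le_sum (f := fun u => ‖z u‖) (fun _ _ => norm_nonneg _) (Finset.mem_univ w)

/-- The exponential of minus the sizes at infinity is summable over the integers. -/
theorem summable_exp_lattice {c : ℝ} (hc : 0 < c) :
    Summable fun l : 𝓞 F => Real.exp (-c * ∑ w, ‖emb (l : F) w‖) := by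
  set N := finrank ℝ (InfinitePlace F → ℂ) + 1
  refine summable_lattice (f := fun z => Real.exp (-c * ∑ w, ‖z w‖)) (N := N) (Nat.lt_succ_self _)
    (C := (N.factorial : ℝ) * c⁻¹ ^ N) (fun z => (Real.exp_pos _).le) fun z hz => ?_
  have hn : 0 < ‖z‖ := norm_pos_iff.2 hz
  calc Real.exp (-c * ∑ w, ‖z w‖) ≤ Real.exp (-(c * ‖z‖)) := by
        rw [Real.exp_le_exp, neg_mul, neg_le_neg_iff]
        exact mul_le_mul_of_nonneg_left (norm_le_sum_norm z) hc.le
    _ ≤ _ := (exp_neg_le_inv_pow (mul_pos hc hn) N).trans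
        (le_of_eq (by rw [mul_inv, mul_pow]; ring))

/-- Gaussians in the sizes at infinity are summable over the integers. -/
theorem summable_gauss_lattice {c : ℝ} (hc : 0 < c) :
    Summable fun l : 𝓞 F => Real.exp (-c * ∑ w, ‖emb (l : F) w‖ ^ 2) := by
  set N := finrank ℝ (InfinitePlace F → ℂ) + 1
  refine summable_lattice (f := fun z => Real.exp (-c * ∑ w, ‖z w‖ ^ 2)) (N := 2 * N)
    (by omega) (C := (N.factorial : ℝ) * c⁻¹ ^ N) (fun z => (Real.exp_pos _).le) fun z hz => ?_
  have hn : 0 < ‖z‖ := norm_pos_iff.2 hz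
  have hle : ‖z‖ ^ 2 ≤ ∑ w, ‖z w‖ ^ 2 := by
    obtain ⟨w, hw⟩ : ∃ w, ‖z‖ ≤ ‖z w‖ := by
      by_contra h
      push Not at h
      exact lt_irrefl _ ((pi_norm_lt_iff hn).2 h)
    exact (pow_le_pow_left₀ hn.le hw 2).trans
      (Finset.single_le_sum (f := fun u => ‖z u‖ ^ 2) (fun u _ => sq_nonneg _) (Finset.mem_univ w))
  calc Real.exp (-c * ∑ w, ‖z w‖ ^ 2) ≤ Real.exp (-(c * ‖z‖ ^ 2)) := by
        rw [Real.exp_le_exp, neg_mul, neg_le_neg_iff]
        exact mul_le_mul_of_nonneg_left hle hc.le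
    _ ≤ _ := (exp_neg_le_inv_pow (mul_pos hc (pow_pos hn 2)) N).trans
        (le_of_eq (by rw [mul_inv, mul_pow, ← inv_pow, ← pow_mul]; ring))

/-- The fractional lattice `D⁻¹ 𝓞`. -/
def fracLat (D : ℕ) : Set F := {a | ∀ v : HeightOneSpectrum (𝓞 F), v.valuation F ((D : F) * a) ≤ 1}

/-- An element of `D⁻¹ 𝓞` times `D` is an integer. -/
lemma exists_int_of_fracLat {D : ℕ} (a : fracLat (F := F) D) : ∃ l : 𝓞 F, (l : F) = (D : F) * a.1 :=
  HeightOneSpectrum.mem_integers_of_valuation_le_one F _ a.2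

/-- Summability over `D⁻¹ 𝓞` from summability over `𝓞`. -/
lemma summable_fracLat {D : ℕ} (hD : D ≠ 0) {f : (InfinitePlace F → ℂ) → ℝ}
    (h : Summable fun l : 𝓞 F => f (emb (l : F))) :
    Summable fun a : fracLat (F := F) D => f ((D : ℂ) • emb (a.1 : F)) := by
  choose l hl using exists_int_of_fracLat (F := F) (D := D)
  have hinj : Function.Injective l := fun a b hab => by
    have := hl a
    rw [hab, hl b] at this
    exact Subtype.ext (mul_left_cancel₀ (Nat.cast_ne_zero.2 hD) this.symm)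
  refine (h.comp_injective hinj).congr fun a => ?_
  simp only [Function.comp_apply, hl a, map_mul, map_natCast]
  congr 1

/-- Exponentials of minus a norm are summable over a fractional lattice. -/
theorem summable_exp_fracLat {D : ℕ} (hD : D ≠ 0) {c : ℝ} (hc : 0 < c) :
    Summable fun a : fracLat (F := F) D => Real.exp (-c * ∑ w, ‖emb (a.1 : F) w‖) := by
  refine (summable_fracLat hD (f := fun z => Real.exp (-(c / D) * ∑ w, ‖z w‖))
    (summable_exp_lattice (div_pos hc (by positivity)))).congr fun a => ?_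
  simp only [Pi.smul_apply, norm_smul, Complex.norm_natCast, ← Finset.mul_sum]
  congr 1
  field_simp

/-- Gaussians are summable over a fractional lattice. -/
theorem summable_gauss_fracLat {D : ℕ} (hD : D ≠ 0) {c : ℝ} (hc : 0 < c) :
    Summable fun a : fracLat (F := F) D => Real.exp (-c * ∑ w, ‖emb (a.1 : F) w‖ ^ 2) := by
  have hD2 : 0 < c / (D : ℝ) ^ 2 :=
    div_pos hc (pow_pos (Nat.cast_pos.2 (Nat.pos_of_ne_zero hD)) 2)
  have h0 : Summable fun l : 𝓞 F =>
      Real.exp (-(c / (D : ℝ) ^ 2) * ∑ w, ‖emb (l : F) w‖ ^ 2) := summable_gauss_lattice hD2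
  obtain ⟨g, hg⟩ : ∃ g : (InfinitePlace F → ℂ) → ℝ,
      g = fun z => Real.exp (-(c / (D : ℝ) ^ 2) * ∑ w, ‖z w‖ ^ 2) := ⟨_, rfl⟩
  have h1 : Summable fun l : 𝓞 F => g (emb (l : F)) := by rw [hg]; exact h0
  have h := summable_fracLat (F := F) (D := D) hD (f := g) h1
  rw [hg] at h
  refine h.congr fun a => ?_
  have e : ∀ w, ‖((D : ℂ) • emb (a.1 : F)) w‖ ^ 2 = (D : ℝ) ^ 2 * ‖emb (a.1 : F) w‖ ^ 2 :=
      fun w => by
    rw [Pi.smul_apply, norm_smul, Complex.norm_natCast, mul_pow]
  have hD' : ((D : ℝ) ^ 2) ≠ 0 := pow_ne_zero 2 (Nat.cast_ne_zero.2 hD)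
  change Real.exp _ = _
  rw [Finset.sum_congr rfl fun w _ => e w, ← Finset.mul_sum, ← mul_assoc, neg_mul,
    div_mul_cancel₀ c hD']

end Fermat.LT.Theta
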