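import Fermat.Agent.LT.Mult.Char
import Fermat.Agent.LT.CuspKer
import Fermat.Agent.LT.SphKer
import Fermat.Agent.CFT.Kummer.Ord

/-!
# Theta: the local coefficient functions

At `v` every vertex is `upMat a x * k` with `k` in the stabiliser `klein S v` (all of `U0` off the
level, the preimage of the Klein group at the level), and the coefficient is
`psi v (δ x) * hfun a`.
-/

set_option autoImplicit false
set_option linter.constructorNameAsVariable false
open NumberField IsDedekindDomain Filter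
open scoped Classical

noncomputable section

namespace Fermat.LT.Theta

open Fermat.LT.Mult (psi cnd)

/-- The Klein group of `GL₂(𝔽₃)` with its scalars, on entries. -/
def Q83 (a b c d : ZMod 3) : Prop := a * d - b * c = 1 ∧ (a + d = 0 ∨ (b = 0 ∧ c = 0 ∧ a = d))

/-- Membership in `Q83` is decidable. -/
instance (a b c d : ZMod 3) : Decidable (Q83 a b c d) := by unfold Q83; infer_instance

/-- `Q83` is closed under products. -/
lemma Q83.mul : ∀ {a b c d x y z w : ZMod 3}, Q83 a b c d → Q83 x y z w →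
    Q83 (a * x + b * z) (a * y + b * w) (c * x + d * z) (c * y + d * w) := by
  intro a b c d x y z w h
  revert x y z w
  revert a b c d
  decide +kernel

/-- `Q83` is closed under adjugates. -/
lemma Q83.adjugate : ∀ {a b c d : ZMod 3}, Q83 a b c d → Q83 d (-b) (-c) a := by decide +kernel

/-- The triangular elements of `Q83` are scalars. -/
lemma Q83.upper : ∀ {a b d : ZMod 3}, Q83 a b 0 d → a = d ∧ b = 0 := by decide +kernel

/-- Every invertible matrix over `𝔽₃` is a Borel translate of an element of `Q83`. -/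
lemma exists_borel_Q83 : ∀ a b c d : ZMod 3, a * d - b * c ≠ 0 → ∃ r s : ZMod 3, (s = 1 ∨ s = -1) ∧
    Q83 (s * (a - r * c)) (s * (b - r * d)) c d := by decide +kernel

/-- `e4` in terms of the indicators of `Q83` and of determinant one. -/
lemma e4_eq_ite : ∀ a b c d : ZMod 3, e4 a b c d
    = 3 * (if Q83 a b c d then 1 else 0) - (if a * d - b * c = 1 then 1 else 0) := by decide +kernel

/-- `Q83` of a matrix. -/
def IsQ83 (M : GL (Fin 2) (ZMod 3)) : Prop :=
  Q83 ((M : Matrix (Fin 2) (Fin 2) (ZMod 3)) 0 0) ((M : Matrix (Fin 2) (Fin 2) (ZMod 3)) 0 1)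
    ((M : Matrix (Fin 2) (Fin 2) (ZMod 3)) 1 0) ((M : Matrix (Fin 2) (Fin 2) (ZMod 3)) 1 1)

/-- `IsQ83` is decidable. -/
instance : DecidablePred IsQ83 := fun _ => by unfold IsQ83; infer_instance

/-- `IsQ83` is closed under products. -/
lemma IsQ83.mul {M N : GL (Fin 2) (ZMod 3)} (hM : IsQ83 M) (hN : IsQ83 N) : IsQ83 (M * N) := by
  have h := Q83.mul hM hN
  simpa [IsQ83, Units.val_mul, Matrix.mul_apply, Fin.sum_univ_two] using h

/-- Elements of `IsQ83` have determinant one. -/
lemma IsQ83.det {M : GL (Fin 2) (ZMod 3)} (hM : IsQ83 M) :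
    (M : Matrix (Fin 2) (Fin 2) (ZMod 3)).det = 1 := by rw [Matrix.det_fin_two]; exact hM.1

/-- `IsQ83` is closed under inverses. -/
lemma IsQ83.inv {M : GL (Fin 2) (ZMod 3)} (hM : IsQ83 M) : IsQ83 M⁻¹ := by
  have h := Q83.adjugate hM
  rw [IsQ83, coe_inv_zmod3, hM.det, one_smul, Matrix.adjugate_fin_two]
  simpa using h

/-- `e3 = 1/6` exactly on the Klein group with its scalars. -/
lemma e3_eq_sixth_iff (M : GL (Fin 2) (ZMod 3)) :
    e3 (M : Matrix (Fin 2) (Fin 2) (ZMod 3)) = 1 / 6 ↔ IsQ83 M := by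
  have h : ∀ a b c d : ZMod 3, e4 a b c d = 2 ↔ Q83 a b c d := by decide +kernel
  rw [e3, IsQ83, ← h, div_eq_iff (by norm_num : (12 : ℂ) ≠ 0)]
  rw [show (1 / 6 : ℂ) * 12 = ((2 : ℤ) : ℂ) by norm_num, Int.cast_inj]

/-- The Klein group of `GL₂(𝔽₃)` with its scalars has eight elements. -/
lemma card_q83 : ((Finset.univ : Finset (GL (Fin 2) (ZMod 3))).filter IsQ83).card = 8 := by
  let φ : GL (Fin 2) (ZMod 3) → (ZMod 3 × ZMod 3) × ZMod 3 × ZMod 3 := fun M =>
    (((M : Matrix (Fin 2) (Fin 2) (ZMod 3)) 0 0, (M : Matrix (Fin 2) (Fin 2) (ZMod 3)) 0 1),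
      (M : Matrix (Fin 2) (Fin 2) (ZMod 3)) 1 0, (M : Matrix (Fin 2) (Fin 2) (ZMod 3)) 1 1)
  have hφ : Function.Injective φ := fun M M' h => by
    refine Units.ext (Matrix.ext fun i j => ?_)
    simp only [φ, Prod.mk.injEq] at h
    fin_cases i <;> fin_cases j
    exacts [h.1.1, h.1.2, h.2.1, h.2.2]
  have h8 : ((Finset.univ : Finset ((ZMod 3 × ZMod 3) × ZMod 3 × ZMod 3)).filter
      fun p => Q83 p.1.1 p.1.2 p.2.1 p.2.2).card = 8 := by decide +kernel
  refine ((Finset.card_image_of_injective _ hφ).symm.trans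
    (congrArg Finset.card (Finset.ext fun p => ?_))).trans h8
  simp only [Finset.mem_image, Finset.mem_filter, Finset.mem_univ, true_and]
  constructor
  · rintro ⟨M, hM, rfl⟩; exact hM
  · intro hp
    have hne : (!![p.1.1, p.1.2; p.2.1, p.2.2] : Matrix (Fin 2) (Fin 2) (ZMod 3)).det ≠ 0 := by
      rw [Matrix.det_fin_two_of, hp.1]; exact one_ne_zero
    exact ⟨Matrix.GeneralLinearGroup.mkOfDetNeZero _ hne, by simpa [IsQ83] using hp, rfl⟩

/-- The matrix `(s r; 0 1)` over `𝔽₃`. -/
def borel3 (s : (ZMod 3)ˣ) (r : ZMod 3) : GL (Fin 2) (ZMod 3) :=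
  Matrix.GeneralLinearGroup.mkOfDetNeZero !![(s : ZMod 3), r; 0, 1]
    (by simp [Matrix.det_fin_two_of])

/-- The entries of `borel3`. -/
lemma coe_borel3 (s : (ZMod 3)ˣ) (r : ZMod 3) :
    ((borel3 s r : GL (Fin 2) (ZMod 3)) : Matrix (Fin 2) (Fin 2) (ZMod 3)) =
      !![(s : ZMod 3), r; 0, 1] :=
  rfl

/-- Averaging the idempotent against a function on the cosets of the Klein group. -/
lemma half_sum_e3_mul {G : GL (Fin 2) (ZMod 3) → ℂ}
    (hQ : ∀ M q, IsQ83 q → G (M * q) = G M) (hU : ∀ M, ∑ r : ZMod 3, G (borel3 1 r * M) = 0)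
    (M : GL (Fin 2) (ZMod 3)) :
    2⁻¹ * ∑ N : GL (Fin 2) (ZMod 3),
      e3 ((M⁻¹ * N : GL (Fin 2) (ZMod 3)) : Matrix (Fin 2) (Fin 2) (ZMod 3)) * G N = G M := by
  set SL := (Finset.univ : Finset (GL (Fin 2) (ZMod 3))).filter
    fun N : GL (Fin 2) (ZMod 3) => (N : Matrix (Fin 2) (Fin 2) (ZMod 3)).det = 1 with hSL
  set Q := (Finset.univ : Finset (GL (Fin 2) (ZMod 3))).filter IsQ83 with hQdef
  -- `e3` as a combination of the indicators of `Q` and of `det = 1`
  have h1 : ∀ N : GL (Fin 2) (ZMod 3), e3 (N : Matrix (Fin 2) (Fin 2) (ZMod 3))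
      = (1 / 4) * (if IsQ83 N then (1 : ℂ) else 0)
        - (1 / 12) * (if (N : Matrix (Fin 2) (Fin 2) (ZMod 3)).det = 1 then (1 : ℂ) else 0) := by
    intro N
    rw [e3, e4_eq_ite, Matrix.det_fin_two]
    simp only [IsQ83, Int.cast_sub, Int.cast_mul, Int.cast_ite, Int.cast_one, Int.cast_zero,
      Int.cast_ofNat]
    ring
  -- the `det = 1` part vanishes: average over the unipotents and use `hU`
  have h0 : ∑ N ∈ SL, G (M * N) = 0 := by
    set SM := (Finset.univ : Finset (GL (Fin 2) (ZMod 3))).filter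
      fun N : GL (Fin 2) (ZMod 3) => (N : Matrix (Fin 2) (Fin 2) (ZMod 3)).det =
        (M : Matrix (Fin 2) (Fin 2) (ZMod 3)).det
    have e : ∑ N ∈ SL, G (M * N) = ∑ N ∈ SM, G N := by
      refine Finset.sum_equiv (Equiv.mulLeft M) (fun N => ?_) fun N _ => rfl
      have hd := (Matrix.GeneralLinearGroup.det M).ne_zero
      rw [Matrix.GeneralLinearGroup.val_det_apply] at hd
      simp [SM, hSL, Units.val_mul, hd]
    rw [e]
    have h3 : ∀ r : ZMod 3, ∑ N ∈ SM, G N = ∑ N ∈ SM, G (borel3 1 r * N) := fun r => by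
      refine (Finset.sum_equiv (Equiv.mulLeft (borel3 1 r)) (fun N => ?_) fun N _ => rfl).symm
      simp only [SM, Finset.mem_filter, Finset.mem_univ, true_and, Equiv.coe_mulLeft, Units.val_mul,
        Matrix.det_mul, coe_borel3, Matrix.det_fin_two_of, Units.val_one, mul_one,
          one_mul, mul_zero,
        sub_zero]
    have h4 : ∑ _r : ZMod 3, ∑ N ∈ SM, G N = 0 := by
      rw [Finset.sum_congr rfl fun r _ => h3 r, Finset.sum_comm]
      exact Finset.sum_eq_zero fun N _ => hU N
    simpa using h4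
  -- shift by `M`; what is left is the sum over `Q`, where `G (M * ·)` is constant
  rw [← Equiv.sum_comp (Equiv.mulLeft M)]
  simp only [Equiv.coe_mulLeft, inv_mul_cancel_left, h1, sub_mul, mul_assoc, ite_mul, one_mul,
    zero_mul, Finset.sum_sub_distrib, ← Finset.mul_sum, ← Finset.sum_filter]
  rw [← hSL, h0, mul_zero, sub_zero, Finset.sum_congr rfl fun N hN =>
    hQ M N (Finset.mem_filter.1 hN).2, Finset.sum_const, card_q83]
  simp; ring

variable {F : Type*} [Field F] [NumberField F] {S : Set (Place F)} {v : Place F}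

/-- The stabiliser of the coefficient. -/
def klein (S : Set (Place F)) (v : Place F) : Set (GL (Fin 2) F) :=
  if v ∈ S then {g | eCusp (v.valuation F) g = 1 / 6} else (U0 (v.valuation F) : Set (GL (Fin 2) F))

/-- Off the level the stabiliser is `U0`. -/
lemma mem_klein_off (h : v ∉ S) {g : GL (Fin 2) F} : g ∈ klein S v ↔ g ∈ U0 (v.valuation F) := by
  simp [klein, h]

/-- The stabiliser of the coefficient lies in `U0`. -/
lemma klein_le_U0 {g : GL (Fin 2) F} (h : g ∈ klein S v) : g ∈ U0 (v.valuation F) := by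
  by_cases hv : v ∈ S
  · by_contra hn
    simp only [klein, if_pos hv, Set.mem_ofPred_eq, eCusp_eq_zero hn] at h
    norm_num at h
  · exact (mem_klein_off hv).1 h

/-- At the level a scaled integral matrix is in the stabiliser when its reduction is in `Q83`. -/
lemma mem_klein_on (hvS : v ∈ S) (hv3 : pnorm v = 3) (c : Fˣ)
    (a : GL (Fin 2) (v.valuation F).integer) :
    scal c * incGL v a ∈ klein S v ↔ IsQ83 (red3 hv3 a) := by
  simp only [klein, if_pos hvS, Set.mem_ofPred_eq, eCusp_scal_incGL hv3, e3_eq_sixth_iff]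

variable (h3 : ∀ v ∈ S, pnorm v = 3)
include h3

/-- Elements of the stabiliser at the level are scaled integral lifts of `Q83`. -/
lemma exists_of_mem_klein (hvS : v ∈ S) {g : GL (Fin 2) F} (h : g ∈ klein S v) :
    ∃ (c : Fˣ) (a : GL (Fin 2) (v.valuation F).integer),
      g = scal c * incGL v a ∧ IsQ83 (red3 (h3 v hvS) a) := by
  obtain ⟨c, a, rfl⟩ := exists_eq_scal_incGL (klein_le_U0 h)
  exact ⟨c, a, rfl, (mem_klein_on hvS (h3 v hvS) c a).1 h⟩

/-- The stabiliser is closed under multiplication. -/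
lemma klein_mul {g k : GL (Fin 2) F} (hg : g ∈ klein S v) (hk : k ∈ klein S v) :
    g * k ∈ klein S v := by
  by_cases hv : v ∈ S
  · obtain ⟨c, a, rfl, ha⟩ := exists_of_mem_klein h3 hv hg
    obtain ⟨d, b, rfl, hb⟩ := exists_of_mem_klein h3 hv hk
    rw [show scal c * incGL v a * (scal d * incGL v b) = scal (c * d) * incGL v (a * b) by
      rw [scal_mul, map_mul, mul_assoc (scal c), ← mul_assoc (incGL v a), ← scal_comm d]; group,
      mem_klein_on hv (h3 v hv), map_mul]
    exact ha.mul hb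
  · rw [mem_klein_off hv] at *
    exact mul_mem hg hk

/-- The stabiliser is closed under inverses. -/
lemma klein_inv {g : GL (Fin 2) F} (hg : g ∈ klein S v) : g⁻¹ ∈ klein S v := by
  by_cases hv : v ∈ S
  · obtain ⟨c, a, rfl, ha⟩ := exists_of_mem_klein h3 hv hg
    rw [mul_inv_rev, show (scal c)⁻¹ = scal c⁻¹ from (map_inv _ _).symm, ← scal_comm, ← map_inv,
      mem_klein_on hv (h3 v hv), map_inv]
    exact ha.inv
  · rw [mem_klein_off hv] at *
    exact inv_mem hg

/-- The stabiliser contains the level group. -/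
lemma lev_subset_klein {g : GL (Fin 2) F} (hg : g ∈ lev S v) : g ∈ klein S v := by
  by_cases hv : v ∈ S
  · rw [lev_of_mem hv] at hg
    simp only [klein, if_pos hv, Set.mem_ofPred_eq]
    have h1 := eCusp_scal_incGL (h3 v hv) 1 1
    rw [map_one, map_one, mul_one, (e3_eq_sixth_iff 1).2 (by unfold IsQ83 Q83; simp)] at h1
    have h2 := eCusp_mul_U1 (h3 v hv) hg ((U1 _).one_mem) (1 : GL (Fin 2) F)
    rw [mul_one, mul_one] at h2
    rw [h2, ← h1]
    simp [scal]
  · rw [lev_of_not_mem hv] at hg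
    exact (mem_klein_off hv).2 hg

/-- The stabiliser contains the identity. -/
lemma one_mem_klein : (1 : GL (Fin 2) F) ∈ klein S v := lev_subset_klein h3 (one_mem _)

/-- A triangular element of the stabiliser is integral, and principal at the level. -/
lemma val_of_upMat_mem_klein {c : Fˣ} {r : F} (h : upMat c r ∈ klein S v) :
    v.valuation F (c : F) = 1 ∧ v.valuation F r ≤ 1 ∧
      (v ∈ S → v.valuation F ((c : F) - 1) < 1 ∧ v.valuation F r < 1) := by
  -- Write it as a scalar `d` times an integral `a`: `d` and the diagonal of `a` are units.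
  obtain ⟨d, a, ha⟩ := exists_eq_scal_incGL (klein_le_U0 h)
  have q : ∀ i j, (!![(c : F), r; 0, 1] : Matrix (Fin 2) (Fin 2) F) i j
      = (d : F) * ((a : Matrix (Fin 2) (Fin 2) (v.valuation F).integer) i j : F) := fun i j => by
    rw [← coe_upMat, ha, Units.val_mul, scal_coe, Matrix.scalar_apply, Matrix.diagonal_mul]
    rfl
  have q00 : (c : F) = d * ((a : Matrix (Fin 2) (Fin 2) (v.valuation F).integer) 0 0 : F) := by
    simpa using q 0 0
  have q01 : r = d * ((a : Matrix (Fin 2) (Fin 2) (v.valuation F).integer) 0 1 : F) := by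
    simpa using q 0 1
  have q10 : ((a : Matrix (Fin 2) (Fin 2) (v.valuation F).integer) 1 0 : F) = 0 := by
    have := q 1 0
    simp only [Matrix.of_apply, Matrix.cons_val', Matrix.cons_val_zero, Matrix.cons_val_one,
      Matrix.cons_val_fin_one] at this
    exact (mul_eq_zero.1 this.symm).resolve_left d.ne_zero
  have q11 : (1 : F) = d * ((a : Matrix (Fin 2) (Fin 2) (v.valuation F).integer) 1 1 : F) := by
    simpa using q 1 1
  set A := (a : Matrix (Fin 2) (Fin 2) (v.valuation F).integer) with hA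
  have hdet : v.valuation F ((A.det : (v.valuation F).integer) : F) = 1 :=
    (Valuation.Integers.isUnit_iff_valuation_eq_one (Valuation.integer.integers _)).1
      ((Matrix.isUnit_iff_isUnit_det _).1 a.isUnit)
  have hA10 : A 1 0 = 0 := Subtype.ext q10
  rw [Matrix.det_fin_two, hA10, mul_zero, sub_zero, Subring.coe_mul, map_mul] at hdet
  have h00 : v.valuation F (A 0 0 : F) = 1 := le_antisymm (A 0 0).2 (by
    rw [← hdet]; exact mul_le_of_le_one_right' (A 1 1).2)
  have h11 : v.valuation F (A 1 1 : F) = 1 := by rwa [h00, one_mul] at hdet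
  have hd : v.valuation F (d : F) = 1 := by
    have := congrArg (v.valuation F) q11
    rw [map_one, map_mul, h11, mul_one] at this
    exact this.symm
  refine ⟨by rw [q00, map_mul, hd, h00,
               one_mul], by rw [q01, map_mul, hd, one_mul]; exact (A 0 1).2, fun hv => ?_⟩
  -- At the level `a` reduces into the upper part of the congruence group.
  have hQ := (mem_klein_on hv (h3 v hv) d a).1 (ha ▸ h)
  obtain ⟨e1, e2⟩ := Q83.upper (a := res3 (h3 v hv) (A 0 0)) (b := res3 (h3 v hv) (A 0 1))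
    (d := res3 (h3 v hv) (A 1 1)) (by
      have e10 : res3 (h3 v hv) (A 1 0) = 0 := by rw [hA10, map_zero]
      rw [← e10]; exact hQ)
  constructor
  · have hk : v.valuation F ((A 0 0 : F) - (A 1 1 : F)) < 1 := by
      have := (res3_eq_zero (h3 v hv) (A 0 0 - A 1 1)).1 (by rw [map_sub, e1, sub_self])
      simpa using this
    rw [q00]
    conv_lhs => rw [q11, ← mul_sub]
    rwa [map_mul, hd, one_mul]
  · rw [q01, map_mul, hd, one_mul]
    exact (res3_eq_zero (h3 v hv) _).1 e2

/-- Every vertex is a triangular translate by the stabiliser. -/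
lemma exists_repr (y : Vert S v) : ∃ (a : Fˣ) (x : F) (k : GL (Fin 2) F),
    k ∈ klein S v ∧ y = ((upMat a x * k : GL (Fin 2) F) : Vert S v) := by
  obtain ⟨g, rfl⟩ := QuotientGroup.mk_surjective y
  obtain ⟨a, x, hax⟩ := exists_upMat_mod_U0 (v.valuation F) g
  by_cases hv : v ∈ S
  swap
  · exact ⟨a, x, _, (mem_klein_off hv).2 hax, by rw [mul_inv_cancel_left]⟩
  obtain ⟨c, m, hm⟩ := exists_eq_scal_incGL hax
  set hv3 := h3 v hv
  -- reduce modulo three and split off a Borel element
  set N := red3 hv3 m with hN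
  have hd := (Matrix.GeneralLinearGroup.det N).ne_zero
  rw [Matrix.GeneralLinearGroup.val_det_apply, Matrix.det_fin_two] at hd
  obtain ⟨r, s, hs, hq⟩ := exists_borel_Q83 _ _ _ _ hd
  have hss : s * s = 1 := by rcases hs with rfl | rfl <;> decide
  obtain ⟨r', hr'⟩ := ZMod.ringHom_surjective (res3 hv3) r
  obtain ⟨u', hu', hu'0⟩ : ∃ u' : (v.valuation F).integer, res3 hv3 u' = s ∧
      v.valuation F (u' : F) = 1 := by
    rcases hs with rfl | rfl
    · exact ⟨1, map_one _, by simp⟩
    · exact ⟨-1, by simp, by simp⟩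
  let u : Fˣ := Units.mk0 (u' : F) fun h => by rw [h, map_zero] at hu'0; exact zero_ne_one hu'0
  obtain ⟨b, hb⟩ : upMat u (r' : F) ∈ intGL (v.valuation F) := upMat_mem_intGL _ hu'0 r'.2
  change incGL v b = _ at hb
  refine ⟨a * u, (a : F) * r' + x, scal c * incGL v (b⁻¹ * m), (mem_klein_on hv hv3 c _).2 ?_, ?_⟩
  · -- the reduction lies in the Klein group
    have hbM : ((red3 hv3 b : GL (Fin 2) (ZMod 3)) : Matrix (Fin 2) (Fin 2) (ZMod 3)) =
        !![s, r; 0, 1] := by rw [coe_red3_upMat hv3 hb (u' := u') rfl, hu', hr']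
    rw [map_mul, map_inv, IsQ83, Units.val_mul, coe_inv_zmod3, hbM, Matrix.det_fin_two_of]
    simp only [mul_one, mul_zero, sub_zero, Matrix.adjugate_fin_two_of, neg_zero,
      Matrix.smul_apply, Matrix.mul_apply, Fin.sum_univ_two, Matrix.of_apply, Matrix.cons_val',
      Matrix.cons_val_zero, Matrix.cons_val_one, Matrix.cons_val_fin_one, smul_eq_mul,
      zero_mul, zero_add, ← hN]
    convert hq using 1 <;> ring_nf <;> simp [show s ^ 2 = 1 by rw [sq, hss]]
  · congr 1
    rw [← upMat_mul, mul_assoc, ← hb, map_mul, map_inv, ← mul_assoc (incGL v b), ← scal_comm,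
      mul_assoc, mul_inv_cancel_left, ← hm, mul_inv_cancel_left]

omit h3

variable [IsTotallyComplex F] (δ : Fˣ) (c : Place F → ℝ) (N : Place F → Subgroup Fˣ)

/-- The order of `δ` plus the conductor exponent of the additive character at `v`. -/
def eL (v : Place F) : ℤ := CFT.ord v (δ : F) + cnd v

/-- `U 0 = 1, U 1 = c, U (n + 2) = c U (n + 1) - U n`. -/
def chebU (c : ℝ) : ℕ → ℝ
  | 0 => 1
  | 1 => c
  | n + 2 => c * chebU c (n + 1) - chebU c n

/-- `U n 0` is `(-1) ^ k` at `n = 2 k` and `0` at odd `n`. -/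
lemma chebU_zero : ∀ k : ℕ, chebU 0 (2 * k) = (-1) ^ k ∧ chebU 0 (2 * k + 1) = 0
  | 0 => ⟨by simp [chebU], rfl⟩
  | k + 1 => by
    obtain ⟨h1, h2⟩ := chebU_zero k
    have e : ∀ n, chebU 0 (n + 2) = -chebU 0 n := fun n => by simp [chebU]
    refine ⟨?_, by rw [show 2 * (k + 1) + 1 = 2 * k + 1 + 2 by ring, e, h2, neg_zero]⟩
    rw [mul_add, mul_one, e, h1, pow_succ, mul_neg, mul_one]

/-- The radial values outside the level. -/
def radial (q : ℕ) (c : ℝ) (n : ℤ) : ℝ :=
  if n < 0 then 0 else (Real.sqrt q ^ n.toNat)⁻¹ * chebU c n.toNat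

/-- The value at `diag (a, 1)`. -/
def hfun (S : Set (Place F)) (v : Place F) (a : Fˣ) : ℂ :=
  if v ∈ S then (if CFT.ord v (a : F) + eL δ v = -1 ∧ a ∈ N v then 1 else 0)
  else (radial (pnorm v) (c v) (CFT.ord v (a : F) + eL δ v) : ℂ)

/-- The local coefficient. -/
def locW (S : Set (Place F)) (v : Place F) (y : Vert S v) : ℂ :=
  if h : ∃ (a : Fˣ) (x : F) (k : GL (Fin 2) F),
      k ∈ klein S v ∧ y = ((upMat a x * k : GL (Fin 2) F) : Vert S v)
  then psi v ((δ : F) * h.choose_spec.choose) * hfun δ c N S v h.choose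
  else 0

/-- The value at `diag(a, 1)` vanishes below the shift. -/
lemma le_ord_of_hfun_ne_zero {a : Fˣ} (h : hfun δ c N S v a ≠ 0) : -1 ≤ CFT.ord v (a : F) + eL δ v ∧
    (v ∉ S → 0 ≤ CFT.ord v (a : F) + eL δ v) := by
  by_cases hv : v ∈ S
  · simp only [hfun, if_pos hv, ne_eq, ite_eq_right_iff, one_ne_zero, imp_false, not_not] at h
    exact ⟨h.1.ge, fun h' => absurd hv h'⟩
  · have : 0 ≤ CFT.ord v (a : F) + eL δ v := by
      by_contra hn
      simp [hfun, hv, radial, not_le.1 hn] at h
    exact ⟨by omega, fun _ => this⟩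

/-- The local character is trivial below its conductor. -/
lemma psi_mul_eq_one {a : Fˣ} {r : F}
    (h : WithZero.exp (-(cnd v : ℤ)) * v.valuation F ((δ : F) * a * r) ≤ 1) :
    psi v ((δ : F) * a * r) = 1 :=
  Mult.psi_of_le_cnd (by
    have h2 := mul_le_mul' (le_refl (WithZero.exp (cnd v : ℤ))) h
    rwa [← mul_assoc, ← WithZero.exp_add, add_neg_cancel, WithZero.exp_zero, one_mul,
      mul_one] at h2)

variable (hN : ∀ v ∈ S, ∀ a : Fˣ, v.valuation F ((a : F) - 1) < 1 → a ∈ N v)
include h3 hN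

/-- The local coefficient at a vertex in coordinates. -/
theorem locW_eq {y : Vert S v} {a : Fˣ} {x : F} {k : GL (Fin 2) F} (hk : k ∈ klein S v)
    (hy : y = ((upMat a x * k : GL (Fin 2) F) : Vert S v)) :
    locW δ c N S v y = psi v ((δ : F) * x) * hfun δ c N S v a := by
  have h : ∃ (a : Fˣ) (x : F) (k : GL (Fin 2) F),
      k ∈ klein S v ∧ y = ((upMat a x * k : GL (Fin 2) F) : Vert S v) := ⟨a, x, k, hk, hy⟩
  rw [locW, dif_pos h]
  obtain ⟨k', hk', hy'⟩ := h.choose_spec.choose_spec
  set a' := h.choose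
  set x' := h.choose_spec.choose
  have h1 := QuotientGroup.eq.1 (hy.symm.trans hy')
  -- the two coordinates differ by the stabiliser
  have h2 : upMat (a⁻¹ * a') (((a⁻¹ : Fˣ) : F) * (x' - x)) ∈ klein S v := by
    have e : upMat (a⁻¹ * a') (((a⁻¹ : Fˣ) : F) * (x' - x))
        = k * ((upMat a x * k)⁻¹ * (upMat a' x' * k')) * k'⁻¹ := by
      rw [show k * ((upMat a x * k)⁻¹ * (upMat a' x' * k')) * k'⁻¹ =
        (upMat a x)⁻¹ * upMat a' x' by group, upMat_inv, upMat_mul]
      congr 1
      ring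
    rw [e]
    exact klein_mul h3 (klein_mul h3 hk (lev_subset_klein h3 h1)) (klein_inv h3 hk')
  obtain ⟨hu, hr, hS⟩ := val_of_upMat_mem_klein h3 h2
  set u := a⁻¹ * a' with hudef
  set r := ((a⁻¹ : Fˣ) : F) * (x' - x) with hrdef
  have ha' : a' = a * u := by rw [hudef, mul_inv_cancel_left]
  have hx' : x' = x + (a : F) * r := by
    rw [hrdef, ← mul_assoc, Units.mul_inv, one_mul]; ring
  have hord : CFT.ord v (a' : F) = CFT.ord v (a : F) := by
    rw [ha', Units.val_mul, CFT.ord_mul v a.ne_zero u.ne_zero,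
      show CFT.ord v (u : F) = 0 by rw [CFT.ord, hu]; simp, add_zero]
  -- the radial factor is unchanged
  have hh : hfun δ c N S v a' = hfun δ c N S v a := by
    by_cases hv : v ∈ S
    · have hu1 : u ∈ N v := hN v hv u (hS hv).1
      have : a' ∈ N v ↔ a ∈ N v := by rw [ha']; exact (N v).mul_mem_cancel_right hu1
      simp only [hfun, if_pos hv, hord, this]
    · simp only [hfun, if_neg hv, hord]
  rw [hh]
  rcases eq_or_ne (hfun δ c N S v a) 0 with h0 | h0
  · rw [h0, mul_zero, mul_zero]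
  rw [hx', mul_add, Mult.psi_add, ← mul_assoc, psi_mul_eq_one δ ?_, mul_one]
  obtain ⟨hge, hge'⟩ := le_ord_of_hfun_ne_zero δ c N h0
  rw [map_mul, map_mul, CFT.valuation_eq_exp_neg_ord v δ.ne_zero,
    CFT.valuation_eq_exp_neg_ord v a.ne_zero]
  rw [eL] at hge hge'
  by_cases hv : v ∈ S
  · rcases eq_or_ne r 0 with h | hr0
    · simp [h]
    have := (hS hv).2
    rw [CFT.valuation_eq_exp_neg_ord v hr0, ← WithZero.exp_zero, WithZero.exp_lt_exp] at this
    rw [CFT.valuation_eq_exp_neg_ord v hr0, ← WithZero.exp_add, ← WithZero.exp_add,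
      ← WithZero.exp_add, ← WithZero.exp_zero, WithZero.exp_le_exp]
    omega
  · refine (mul_le_mul' le_rfl (mul_le_of_le_one_right' hr)).trans ?_
    rw [← WithZero.exp_add, ← WithZero.exp_add, ← WithZero.exp_zero, WithZero.exp_le_exp]
    have := hge' hv
    omega

/-- The local coefficient at a triangular vertex. -/
lemma locW_upMat (a : Fˣ) (x : F) :
    locW δ c N S v ((upMat a x : GL (Fin 2) F) : Vert S v)
      = psi v ((δ : F) * x) * hfun δ c N S v a :=
  locW_eq h3 δ c N hN (one_mem_klein h3) (by rw [mul_one])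

/-- A unipotent translation multiplies the local coefficient by the character. -/
lemma locW_translate (z : F) (y : Vert S v) :
    locW δ c N S v (upMat (1 : Fˣ) z • y) = psi v ((δ : F) * z) * locW δ c N S v y := by
  obtain ⟨a, x, k, hk, rfl⟩ := exists_repr h3 y
  rw [locW_eq h3 δ c N hN hk rfl, MulAction.Quotient.smul_coe, smul_eq_mul, ← mul_assoc, upMat_mul,
    locW_eq h3 δ c N hN hk rfl, one_mul, Units.val_one, one_mul, mul_add, Mult.psi_add]
  ring

/-- At an unramified place the local coefficient at the base vertex is one. -/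
lemma locW_base (hv : v ∉ S) (hδ : CFT.ord v (δ : F) = 0) (hc : cnd v = 0) :
    locW δ c N S v ((1 : GL (Fin 2) F) : Vert S v) = 1 := by
  rw [← upMat_one, locW_upMat h3 δ c N hN, mul_zero, Mult.psi_zero, one_mul, hfun, if_neg hv]
  simp [eL, hδ, hc, radial, chebU]

omit h3 hN

/-- The Chebyshev value at `2` is `n + 1`. -/
lemma chebU_two (n : ℕ) : chebU 2 n = (n : ℝ) + 1 := by
  have h : ∀ n, chebU 2 n = (n : ℝ) + 1 ∧ chebU 2 (n + 1) = (n : ℝ) + 2 := fun n => by
    induction n with
    | zero => simp [chebU]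
    | succ n ih =>
      refine ⟨by rw [ih.2]; push_cast; ring, ?_⟩
      change 2 * chebU 2 (n + 1) - chebU 2 n = _
      rw [ih.1, ih.2]; push_cast; ring
  exact (h n).1

/-- At `±2` and `0` the Chebyshev values grow at most linearly. -/
lemma abs_chebU_le {c : ℝ} (hc : c = 2 ∨ c = -2 ∨ c = 0) (n : ℕ) : |chebU c n| ≤ (n : ℝ) + 1 := by
  have hn2 : ∀ n, chebU (-2) n = (-1) ^ n * ((n : ℝ) + 1) ∧
      chebU (-2) (n + 1) = (-1) ^ (n + 1) * ((n : ℝ) + 2) := fun n => by
    induction n with
    | zero => simp [chebU]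
    | succ n ih =>
      refine ⟨by rw [ih.2]; push_cast; ring, ?_⟩
      change -2 * chebU (-2) (n + 1) - chebU (-2) n = _
      rw [ih.1, ih.2]; push_cast; ring
  have h0 : ∀ n, |chebU 0 n| ≤ 1 ∧ |chebU 0 (n + 1)| ≤ 1 := fun n => by
    induction n with
    | zero => simp [chebU]
    | succ n ih =>
      refine ⟨ih.2, ?_⟩
      change |0 * chebU 0 (n + 1) - chebU 0 n| ≤ 1
      simpa using ih.1
  rcases hc with rfl | rfl | rfl
  · rw [chebU_two, abs_of_nonneg (by positivity)]
  · rw [(hn2 n).1, abs_mul, abs_pow, abs_neg, abs_one, one_pow, one_mul,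
      abs_of_nonneg (by positivity)]
  · exact (h0 n).1.trans (by simp)

/-- The radial values are bounded by `3`, and by `1` when the residue count is at least four. -/
lemma abs_radial_le {q : ℕ} (hq : 2 ≤ q) {c : ℝ} (hc : c = 2 ∨ c = -2 ∨ c = 0) (n : ℤ) :
    |radial q c n| ≤ 3 ∧ (4 ≤ q → |radial q c n| ≤ 1) := by
  unfold radial
  split_ifs
  · simp
  set m := n.toNat
  have hs : (0 : ℝ) < Real.sqrt q := Real.sqrt_pos.2 (by exact_mod_cast (by omega : 0 < q))
  rw [abs_mul, abs_inv, abs_of_pos (pow_pos hs m)]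
  refine ⟨?_, fun h4 => ?_⟩
  · refine (inv_mul_le_iff₀ (pow_pos hs m)).2 ((abs_chebU_le hc m).trans ?_)
    have h14 : (7 / 5 : ℝ) ≤ Real.sqrt q := Real.le_sqrt_of_sq_le (by
      have : (2 : ℝ) ≤ q := by exact_mod_cast hq
      linarith)
    have hb : (1 : ℝ) + (m : ℝ) * (2 / 5) ≤ (7 / 5 : ℝ) ^ m := by
      have := one_add_mul_le_pow (by norm_num : (-2 : ℝ) ≤ 2 / 5) m
      norm_num at this ⊢
      exact this
    calc (m : ℝ) + 1 ≤ 3 * ((1 : ℝ) + (m : ℝ) * (2 / 5)) := by
          linarith [Nat.cast_nonneg (α := ℝ) m]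
      _ ≤ 3 * (7 / 5 : ℝ) ^ m := mul_le_mul_of_nonneg_left hb (by norm_num)
      _ ≤ 3 * Real.sqrt q ^ m :=
          mul_le_mul_of_nonneg_left (pow_le_pow_left₀ (by norm_num) h14 m) (by norm_num)
      _ = _ := mul_comm _ _
  · refine (inv_mul_le_iff₀ (pow_pos hs m)).2 ((abs_chebU_le hc m).trans ?_)
    have h2 : (2 : ℝ) ≤ Real.sqrt q := Real.le_sqrt_of_sq_le (by
      have : (4 : ℝ) ≤ q := by exact_mod_cast h4
      linarith)
    have hb : (m : ℝ) + 1 ≤ (2 : ℝ) ^ m := by exact_mod_cast Nat.lt_two_pow_self (n := m)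
    rw [mul_one]
    exact hb.trans (pow_le_pow_left₀ (by norm_num) h2 m)

/-- The local character has absolute value one. -/
lemma norm_psi (v : Place F) (x : F) : ‖psi v x‖ = 1 := Mult.norm_chi _

/-- The local coefficient is bounded by `3`, and by `1` for at least four residues or at
the level. -/
lemma norm_locW_le (hc : c v = 2 ∨ c v = -2 ∨ c v = 0) (y : Vert S v) :
    ‖locW δ c N S v y‖ ≤ 3 ∧ ((4 ≤ pnorm v ∨ v ∈ S) → ‖locW δ c N S v y‖ ≤ 1) := by
  unfold locW
  split_ifs with h
  swap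
  · simp
  rw [norm_mul, norm_psi, one_mul, hfun]
  have hq : 2 ≤ pnorm v := HeightOneSpectrum.one_lt_absNorm v
  by_cases hv : v ∈ S
  · rw [if_pos hv]
    split_ifs <;> simp
  · rw [if_neg hv, Complex.norm_real, Real.norm_eq_abs]
    exact ⟨(abs_radial_le hq hc _).1, fun h4 => (abs_radial_le hq hc _).2 (h4.resolve_right hv)⟩

omit [IsTotallyComplex F] in
/-- The radial values satisfy the Hecke recursion. -/
lemma radial_rec {q : ℕ} (hq : 0 < q) (c : ℝ) {n : ℤ} (hn : 0 ≤ n) :
    (q : ℝ) * radial q c (n + 1) + radial q c (n - 1) = Real.sqrt q * c * radial q c n := by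
  obtain ⟨m, rfl⟩ := Int.eq_ofNat_of_zero_le hn
  have hq' : Real.sqrt q ^ 2 = (q : ℝ) := Real.sq_sqrt (Nat.cast_nonneg q)
  rcases m with _ | m
  · simp only [radial]
    norm_num [chebU]
    field_simp
    rw [hq']
  · have e1 : ((m + 1 : ℕ) : ℤ) + 1 = ((m + 2 : ℕ) : ℤ) := by push_cast; ring
    have e2 : ((m + 1 : ℕ) : ℤ) - 1 = (m : ℤ) := by push_cast; ring
    simp only [radial, e1, e2, Int.toNat_natCast, if_neg (not_lt.2 (Int.natCast_nonneg _))]
    rw [show chebU c (m + 2) = c * chebU c (m + 1) - chebU c m from rfl, pow_succ, pow_succ]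
    field_simp
    rw [hq']
    ring

/-- The character sums to zero over residues one step beyond the conductor. -/
lemma sum_psi_residue {R : Type*} [CommRing R] [Fintype R]
    (f : (v.valuation F).integer →+* R) (hf : ∀ y, f y = 0 → v.valuation F (y : F) < 1)
    (rep : R → (v.valuation F).integer) (hrep : ∀ r, f (rep r) = r) {b : F}
    (hb : v.valuation F b = WithZero.exp ((cnd v : ℤ) + 1)) :
    ∑ r, psi v (b * (rep r : F)) = 0 := by
  have hb0 : b ≠ 0 := fun h => by rw [h, map_zero] at hb; exact WithZero.exp_ne_zero hb.symm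
  obtain ⟨x, hx, hne⟩ := Mult.exists_psi_ne v
  have hx0 : v.valuation F (x / b) ≤ 1 := by
    rw [map_div₀, hb, div_le_one₀ (WithZero.exp_pos)]; exact hx
  set r0 : (v.valuation F).integer := ⟨x / b, hx0⟩
  have hshift : ∀ r, psi v (b * (rep (r + f r0) : F)) = psi v (b * (rep r : F)) * psi v x :=
    fun r => by
    set d : (v.valuation F).integer := rep (r + f r0) - rep r - r0 with hd
    have hd1 : v.valuation F (d : F) < 1 :=
      hf d (by rw [hd, map_sub, map_sub, hrep, hrep]; abel)
    have e : b * (rep (r + f r0) : F) = (b * (rep r : F) + x) + b * (d : F) := by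
      have : (rep (r + f r0) : F) = (rep r : F) + x / b + (d : F) := by
        rw [hd]; simp [r0]
      rw [this]; field_simp
    rw [e, Mult.psi_add, Mult.psi_add, Mult.psi_of_le_cnd (x := b * (d : F)) ?_, mul_one]
    rcases eq_or_ne (d : F) 0 with h | h
    · simp [h]
    · rw [map_mul, hb, CFT.valuation_eq_exp_neg_ord v h] at *
      rw [← WithZero.exp_zero, WithZero.exp_lt_exp] at hd1
      rw [← WithZero.exp_add, WithZero.exp_le_exp]; omega
  have e := Equiv.sum_comp (Equiv.addRight (f r0)) fun r => psi v (b * (rep r : F))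
  simp only [Equiv.coe_addRight, hshift, ← Finset.sum_mul] at e
  refine (mul_eq_zero.1 (?_ : (∑ r, psi v (b * (rep r : F))) * (psi v x - 1) = 0)).resolve_right
    (sub_ne_zero.2 hne)
  rw [mul_sub, e, mul_one, sub_self]

omit [IsTotallyComplex F] in
include h3 in
/-- The neighbours of an upper triangular matrix in the tree off the level: one above and one for
each residue below. -/
lemma row_sphKer_upMat [Fintype (IsLocalRing.ResidueField (v.valuation F).valuationSubring)]
    (hv : v ∉ S) {ϖ : Fˣ} (hϖ : v.valuation F (ϖ : F) = WithZero.exp (-1 : ℤ))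
    (rep : IsLocalRing.ResidueField (v.valuation F).valuationSubring →
      (v.valuation F).valuationSubring)
    (hrep : ∀ r, IsLocalRing.residue _ (rep r) = r) (a : Fˣ) (x : F) :
    let nb : Option (IsLocalRing.ResidueField (v.valuation F).valuationSubring) → Vert S v :=
      fun o => o.elim ((upMat (a * ϖ⁻¹) x : GL (Fin 2) F) : Vert S v)
        fun r => ((upMat (a * ϖ) (x + (a : F) * (rep r : F)) : GL (Fin 2) F) : Vert S v)
    Function.Injective nb ∧
      (sphKer (S := S) hv Polynomial.X).row ((upMat a x : GL (Fin 2) F) : Vert S v)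
        = Finset.univ.image nb := by
  intro nb
  -- the candidate neighbours are distinct
  have hinj : Function.Injective nb := by
    have key : ∀ (b b' : Fˣ) (x x' : F),
        ((upMat b x : GL (Fin 2) F) : Vert S v) = ((upMat b' x' : GL (Fin 2) F) : Vert S v) →
        v.valuation F ((b⁻¹ * b' : Fˣ) : F) = 1 ∧
          v.valuation F (((b⁻¹ : Fˣ) : F) * (x' - x)) ≤ 1 := by
      intro b b' x x' h
      rw [QuotientGroup.eq] at h
      have h' := lev_subset_klein h3 h
      rw [upMat_inv, upMat_mul] at h'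
      obtain ⟨h1, h2, -⟩ := val_of_upMat_mem_klein h3 h'
      refine ⟨h1, ?_⟩
      rw [show ((b⁻¹ : Fˣ) : F) * (x' - x) = ((b⁻¹ : Fˣ) : F) * x' + -((b⁻¹ : Fˣ) : F) * x by ring]
      exact h2
    rintro (_ | r) (_ | s) h <;> simp only [nb, Option.elim] at h
    · rfl
    · exfalso
      have := (key _ _ _ _ h).1
      rw [show (a * ϖ⁻¹)⁻¹ * (a * ϖ) = ϖ * ϖ by rw [mul_inv_rev, inv_inv]; group, Units.val_mul,
        map_mul, hϖ, ← WithZero.exp_add, ← WithZero.exp_zero, WithZero.exp_inj] at this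
      omega
    · exfalso
      have := (key _ _ _ _ h).1
      rw [show (a * ϖ)⁻¹ * (a * ϖ⁻¹) = ϖ⁻¹ * ϖ⁻¹ by rw [mul_inv_rev]; group, Units.val_mul,
        map_mul, Units.val_inv_eq_inv_val, map_inv₀, hϖ, ← WithZero.exp_neg, ← WithZero.exp_add,
        ← WithZero.exp_zero, WithZero.exp_inj] at this
      omega
    · congr 1
      have h2 := (key _ _ _ _ h).2
      rw [show x + (a : F) * (rep s : F) - (x + (a : F) * (rep r : F))
        = (a : F) * ((rep s - rep r : (v.valuation F).valuationSubring) : F) by push_cast; ring,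
        ← mul_assoc, show ((((a * ϖ)⁻¹ : Fˣ) : F)) * (a : F) = (ϖ : F)⁻¹ by
          simp, map_mul, map_inv₀, hϖ, inv_mul_le_one₀ WithZero.exp_pos] at h2
      have h4 : v.valuation F ((rep s - rep r : (v.valuation F).valuationSubring) : F) < 1 :=
        lt_of_le_of_lt h2 (by rw [← WithZero.exp_zero, WithZero.exp_lt_exp]; omega)
      have h5 := (residue_eq_zero_iff_v (v.valuation F) _).2 h4
      rw [map_sub, hrep, hrep, sub_eq_zero] at h5
      exact h5.symm
  -- each is a neighbour, and the tree has exactly `q + 1` of them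
  have hrow : (sphKer (S := S) hv Polynomial.X).row ((upMat a x : GL (Fin 2) F) : Vert S v)
      = Finset.univ.image nb := by
    obtain ⟨T, hT⟩ := exists_vtree (S := S) hv
    refine (Finset.eq_of_subset_of_card_le ?_ ?_).symm
    · intro y hy
      obtain ⟨o, -, rfl⟩ := Finset.mem_image.1 hy
      rw [mem_row_sphKer_X hv]
      rcases o with _ | r <;> simp only [nb, Option.elim] <;>
        rw [vd_mk, ← isStep_iff_lvl, upMat_inv, upMat_mul]
      · refine ⟨ϖ, fun i j => ?_, ?_⟩
        · have h1 : v.valuation F (ϖ : F) ≤ 1 := by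
            rw [hϖ, ← WithZero.exp_zero, WithZero.exp_le_exp]; omega
          rw [inv_mul_cancel_left, show ((a⁻¹ : Fˣ) : F) * x + -((a⁻¹ : Fˣ) : F) * x = 0 by ring,
            Units.val_mul, scal_coe, coe_upMat, Matrix.scalar_apply, Matrix.diagonal_mul]
          fin_cases i <;> fin_cases j <;> simp [h1, ϖ.ne_zero]
        · rw [inv_mul_cancel_left, Units.val_mul, scal_coe, coe_upMat, Matrix.det_mul,
            Matrix.scalar_apply, Matrix.det_diagonal, Matrix.det_fin_two_of]
          simp [hϖ]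
          rw [← WithZero.exp_neg, ← WithZero.exp_add, ← WithZero.exp_neg]; norm_num
      · refine ⟨1, fun i j => ?_, ?_⟩
        · have h1 : v.valuation F (ϖ : F) ≤ 1 := by
            rw [hϖ, ← WithZero.exp_zero, WithZero.exp_le_exp]; omega
          rw [show scal (1 : Fˣ) = (1 : GL (Fin 2) F) by simp [scal], one_mul, inv_mul_cancel_left,
            show ((a⁻¹ : Fˣ) : F) * (x + (a : F) * (rep r : F)) + -((a⁻¹ : Fˣ) : F) * x =
                (rep r : F) by
              rw [mul_add, ← mul_assoc, Units.inv_mul, one_mul]; ring, coe_upMat]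
          fin_cases i <;> fin_cases j <;> simp [h1]
          exact (rep r).2
        · rw [show scal (1 : Fˣ) = (1 : GL (Fin 2) F) by simp [scal], one_mul, inv_mul_cancel_left,
            coe_upMat, Matrix.det_fin_two_of]
          simp [hϖ]
    · rw [Finset.card_image_of_injective _ hinj, Finset.card_univ, Fintype.card_option,
        ← Nat.card_eq_fintype_card, natCard_residue]
      refine le_of_eq ?_
      have h := T.nbr_card ((upMat a x : GL (Fin 2) F) : Vert S v)
      rw [hT] at h
      rw [← h, ← Set.ncard_coe_finset]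
      congr 1
      ext b
      simp [mem_row_sphKer_X hv]
  exact ⟨hinj, hrow⟩

omit [IsTotallyComplex F] in
/-- A lift of a translation reduces to the translation. -/
lemma red3_of_incGL_eq (hv : pnorm v = 3) {u : GL (Fin 2) (v.valuation F).integer}
    {l : (v.valuation F).integer} (hu : incGL v u = upMat (1 : Fˣ) (l : F)) {r : ZMod 3}
    (hl : res3 hv l = r) : red3 hv u = borel3 1 r := by
  refine Units.ext ?_
  rw [coe_red3_upMat hv hu (u' := 1) (by simp), map_one, hl, coe_borel3, Units.val_one]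

include h3 hN in
/-- Off the level the local coefficient is an eigenfunction of the Hecke operator. -/
theorem locW_hecke (hv : v ∉ S) {lam : ℝ} (hlam : lam = Real.sqrt (pnorm v) * c v) (y₀ : Vert S v) :
    ∑ y ∈ (sphKer (S := S) hv Polynomial.X).row y₀, locW δ c N S v y
      = (lam : ℂ) * locW δ c N S v y₀ := by
  obtain ⟨a, x, k, hk, rfl⟩ := exists_repr h3 y₀
  rw [show ((upMat a x * k : GL (Fin 2) F) : Vert S v) =
    ((upMat a x : GL (Fin 2) F) : Vert S v) from
    (QuotientGroup.eq.2 (by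
      rw [inv_mul_cancel_left, lev_of_not_mem hv]; exact klein_le_U0 hk)).symm]
  obtain ⟨ϖ₀, hϖ₀⟩ := v.valuation_exists_uniformizer F
  have hϖ0 : ϖ₀ ≠ 0 := fun h => by rw [h, map_zero] at hϖ₀; exact WithZero.exp_ne_zero hϖ₀.symm
  set ϖ : Fˣ := Units.mk0 ϖ₀ hϖ0
  have hϖ : v.valuation F (ϖ : F) = WithZero.exp (-1 : ℤ) := hϖ₀
  have hordϖ : CFT.ord v (ϖ : F) = 1 := by rw [CFT.ord, hϖ]; simp
  set κ := IsLocalRing.ResidueField (v.valuation F).valuationSubring
  let _ : Fintype κ := Fintype.ofFinite κ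
  choose rep hrep using IsLocalRing.residue_surjective
    (R := (v.valuation F).valuationSubring)
  -- the neighbours are triangular translates
  obtain ⟨hinj, hrow⟩ := row_sphKer_upMat h3 hv hϖ rep hrep a x
  rw [hrow, Finset.sum_image hinj.injOn, Fintype.sum_option]
  simp only [Option.elim, locW_upMat h3 δ c N hN]
  simp only [mul_add, Mult.psi_add, mul_assoc, ← Finset.mul_sum, ← Finset.sum_mul]
  rw [← mul_add, ← mul_left_comm]
  congr 1
  simp only [hfun, if_neg hv, Units.val_mul, Units.val_inv_eq_inv_val,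
    CFT.ord_mul v a.ne_zero ϖ.ne_zero, CFT.ord_mul v a.ne_zero (inv_ne_zero ϖ.ne_zero), CFT.ord_inv,
    hordϖ]
  -- the radial recursion
  set n := CFT.ord v (a : F) + eL δ v with hn
  rw [show CFT.ord v (a : F) + 1 + eL δ v = n + 1 by omega,
    show CFT.ord v (a : F) + -1 + eL δ v = n - 1 by omega]
  by_cases h0 : 0 ≤ n
  · have h1 : ∀ r : κ, psi v ((δ : F) * ((a : F) * (rep r : F))) = 1 := fun r => by
      rw [← mul_assoc]
      refine psi_mul_eq_one δ ?_
      rw [map_mul, map_mul, CFT.valuation_eq_exp_neg_ord v δ.ne_zero,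
        CFT.valuation_eq_exp_neg_ord v a.ne_zero]
      refine (mul_le_mul' le_rfl (mul_le_of_le_one_right' (rep r).2)).trans ?_
      rw [← WithZero.exp_add, ← WithZero.exp_add, ← WithZero.exp_zero, WithZero.exp_le_exp]
      rw [eL] at hn; omega
    simp only [h1, Finset.sum_const, Finset.card_univ, nsmul_eq_mul, mul_one]
    rw [← Nat.card_eq_fintype_card, natCard_residue, hlam]
    have h := radial_rec (q := pnorm v)
      (Nat.zero_lt_of_lt (HeightOneSpectrum.one_lt_absNorm v)) (c v) h0
    rw [add_comm]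
    exact_mod_cast h
  · have hz : radial (pnorm v) (c v) n = 0 := by simp [radial, not_le.1 h0]
    have hz' : radial (pnorm v) (c v) (n - 1) = 0 := by
      simp [radial, show n - 1 < 0 by omega]
    rw [hz, hz', Complex.ofReal_zero, zero_add, mul_zero]
    rcases eq_or_ne n (-1) with h1 | h1
    · have : ∑ r, psi v ((δ : F) * ((a : F) * (rep r : F))) = 0 := by
        simp only [← mul_assoc]
        refine sum_psi_residue (R := κ) (IsLocalRing.residue (v.valuation F).valuationSubring)
          (fun y => (residue_eq_zero_iff_v (v.valuation F) y).1) rep hrep ?_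
        rw [map_mul, CFT.valuation_eq_exp_neg_ord v δ.ne_zero,
          CFT.valuation_eq_exp_neg_ord v a.ne_zero, ← WithZero.exp_add, WithZero.exp_inj]
        rw [eL] at hn; omega
      rw [this, zero_mul]
    · rw [show radial (pnorm v) (c v) (n + 1) = 0 by simp [radial, show n + 1 < 0 by omega],
        Complex.ofReal_zero, mul_zero]

include h3 hN in
set_option maxRecDepth 2048 in -- headroom for elaboration over the group `GL (Fin 2) (ZMod 3)`
/-- At the level the local coefficient is fixed by the cuspidal idempotent. -/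
theorem locW_cusp (hvS : v ∈ S) (y₀ : Vert S v) :
    ∑ y ∈ (eKer (S := S) (h3 v hvS) hvS).row y₀, eKer (h3 v hvS) hvS y₀ y * locW δ c N S v y
      = locW δ c N S v y₀ := by
  set hv3 := h3 v hvS
  obtain ⟨a, x, k, hk, rfl⟩ := exists_repr h3 y₀
  obtain ⟨d, m, rfl, hm⟩ := exists_of_mem_klein h3 hvS hk
  rw [cls_eq hv3 hvS (upMat a x) d m]
  set g := upMat a x
  set M₀ := red3 hv3 m
  set lift := Function.surjInv (red3_surjective hv3)
  set G : GL (Fin 2) (ZMod 3) → ℂ := fun M => locW δ c N S v (cls hv3 g M) with hG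
  have hcls : ∀ b, cls (S := S) hv3 g (red3 hv3 b) = ((g * incGL v b : GL (Fin 2) F) : Vert S v) :=
    fun b => by
      rw [← cls_eq hv3 hvS g 1 b]; simp [scal]
  -- the coefficient on a coset is invariant under the Klein group
  have hQ : ∀ M q, IsQ83 q → G (M * q) = G M := by
    intro M q hq
    obtain ⟨bq, rfl⟩ := red3_surjective hv3 q
    obtain ⟨bM, rfl⟩ := red3_surjective hv3 M
    simp only [hG, ← map_mul, hcls]
    obtain ⟨a', x', k', hk', h'⟩ := exists_repr h3 ((g * incGL v bM : GL (Fin 2) F) : Vert S v)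
    rw [locW_eq h3 δ c N hN hk' h']
    rw [QuotientGroup.eq] at h'
    have h1 := lev_subset_klein h3 ((lev S v).inv_mem h')
    have h2 : incGL v bq ∈ klein S v := by
      have := (mem_klein_on hvS hv3 1 bq).2 hq
      simpa [scal] using this
    refine locW_eq h3 δ c N hN (klein_mul h3 (klein_mul h3 hk' h1) h2) ?_
    congr 1
    rw [map_mul]; group
  -- and sums to zero over the translations mod `3`
  have hU : ∀ M, ∑ r : ZMod 3, G (borel3 1 r * M) = 0 := by
    intro M
    obtain ⟨b, rfl⟩ := red3_surjective hv3 M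
    choose lr hlr using ZMod.ringHom_surjective (res3 hv3)
    have htr : ∀ r : ZMod 3, G (borel3 1 r * red3 hv3 b)
        = psi v ((δ : F) * a * (lr r : F)) * G (red3 hv3 b) := by
      intro r
      obtain ⟨u, hu⟩ : upMat (1 : Fˣ) (lr r : F) ∈ intGL (v.valuation F) :=
        upMat_mem_intGL _ (by simp) (lr r).2
      change incGL v u = _ at hu
      have hur : red3 hv3 u = borel3 1 r := red3_of_incGL_eq hv3 hu (hlr r)
      rw [← hur, ← map_mul]
      simp only [hG, hcls]
      rw [map_mul, hu, show g * (upMat 1 (lr r : F) * incGL v b)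
        = upMat 1 ((a : F) * lr r) * (g * incGL v b) by
          simp only [g, ← mul_assoc, upMat_mul]; congr 2 <;> simp [add_comm],
        ← smul_eq_mul (upMat (1 : Fˣ) ((a : F) * lr r)), ← MulAction.Quotient.smul_coe,
        locW_translate h3 δ c N hN, mul_assoc]
    simp only [htr, ← Finset.sum_mul]
    by_cases hG0 : G (red3 hv3 b) = 0
    · rw [hG0, mul_zero]
    refine mul_eq_zero_of_left ?_ _
    -- the nonvanishing pins the valuation of `a`
    obtain ⟨a', x', k', hk', h'⟩ := exists_repr h3 (cls (S := S) hv3 g (red3 hv3 b))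
    simp only [hG, locW_eq h3 δ c N hN hk' h'] at hG0
    have hh := right_ne_zero_of_mul hG0
    simp only [hfun, if_pos hvS, ne_eq, ite_eq_right_iff, one_ne_zero, imp_false, not_not] at hh
    have hmem : g⁻¹ * (upMat a' x' * k') ∈ U0 (v.valuation F) := by
      have h1 := cls_mem (S := S) hv3 g (red3 hv3 b)
      rw [h'] at h1
      obtain ⟨l, hl⟩ := QuotientGroup.mk_out_eq_mul (lev S v) (upMat a' x' * k')
      rw [hl, ← mul_assoc] at h1
      simpa using (U0 _).mul_mem h1 ((U0 _).inv_mem (lev_le_U0 S v l.2))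
    have h2 := (U0 _).mul_mem hmem ((U0 _).inv_mem (klein_le_U0 hk'))
    rw [mul_assoc, mul_inv_cancel_right, show g = upMat a x from rfl, upMat_inv, upMat_mul] at h2
    have hord : CFT.ord v (a' : F) = CFT.ord v (a : F) := by
      obtain ⟨h1, -, -⟩ := val_of_upMat_mem_klein (S := (∅ : Set (Place F))) (by simp)
        ((mem_klein_off (Set.notMem_empty v)).2 h2)
      rw [Units.val_mul, map_mul, Units.val_inv_eq_inv_val, map_inv₀,
        inv_mul_eq_one₀ ((v.valuation F).ne_zero_iff.2 a.ne_zero)] at h1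
      rw [CFT.ord, CFT.ord, h1]
    have hval : v.valuation F ((δ : F) * a) = WithZero.exp ((cnd v : ℤ) + 1) := by
      rw [map_mul, CFT.valuation_eq_exp_neg_ord v δ.ne_zero,
        CFT.valuation_eq_exp_neg_ord v a.ne_zero, ← WithZero.exp_add, WithZero.exp_inj]
      have := hh.1
      rw [hord, eL] at this; omega
    exact sum_psi_residue (res3 hv3) (fun y => (res3_eq_zero hv3 y).1) lr hlr hval
  set y := cls (S := S) hv3 g M₀
  rw [sum_coset hv3 hvS g _ _ (fun y' hy' _ => ?_) fun y' _ hne => ?_]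
  · refine Eq.trans ?_ (half_sum_e3_mul hQ hU M₀)
    congr 1
    refine Finset.sum_congr rfl fun M _ => ?_
    rw [eKer_apply, eCusp_cls_cls hv3 hvS]
  · have h1 := mem_U0_of_eKer_ne_zero hv3 (LKer.mem_row.1 hy')
    have h2 := cls_mem (S := S) hv3 g M₀
    simpa [mul_assoc, y] using (U0 _).mul_mem h2 h1
  · exact LKer.mem_row.2 (left_ne_zero_of_mul hne)

end Fermat.LT.Theta
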