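import Fermat.Agent.LT.Theta.Arch
import Fermat.Agent.LT.Theta.Expo
import Fermat.Agent.LT.Theta.LocalW

/-!
# Theta: the Fourier series with the given local coefficients

`phi D p = ∑_{α ∈ Fˣ} finW D α p.1 * archW D α p.2`; it is invariant under the Borel subgroup,
continuous, and an eigenfunction of the local and archimedean operators.
-/

set_option autoImplicit false
set_option linter.unusedSectionVars false
open NumberField IsDedekindDomain Filter MeasureTheory Topology
open scoped Classical Real

noncomputable section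

namespace Fermat.LT.Theta

open Fermat.LT.Mult (psi cnd emb chi chiF)

/-- The local data of a series. -/
structure LDat {F : Type*} [Field F] [NumberField F] (S : Set (Place F)) where
  /-- The shift of the additive character. -/
  δ : Fˣ
  /-- The normalised eigenvalues off the level. -/
  c : Place F → ℝ
  /-- The subgroup supporting the coefficient at each place of the level. -/
  N : Place F → Subgroup Fˣ
  /-- The places of the level have norm three. -/
  h3 : ∀ v ∈ S, pnorm v = 3
  /-- The subgroups contain the units congruent to one. -/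
  hN : ∀ v ∈ S, ∀ a : Fˣ, v.valuation F ((a : F) - 1) < 1 → a ∈ N v
  /-- Off the level the normalised eigenvalue is `2`, `-2` or `0`. -/
  hc : ∀ v ∉ S, c v = 2 ∨ c v = -2 ∨ c v = 0

variable {F : Type*} [Field F] [NumberField F] {S : Set (Place F)}

/-- Only finitely many places off the level have fewer than four residues. -/
lemma LDat.finite_small (S : Set (Place F)) : {v : Place F | v ∉ S ∧ pnorm v < 4}.Finite := by
  refine Set.Finite.subset
    (s := (fun v : Place F => v.asIdeal) ⁻¹' {I : Ideal (𝓞 F) | Ideal.absNorm I ≤ 4})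
    ((Ideal.finite_setOfPred_absNorm_le 4).preimage fun a _ b _ h => HeightOneSpectrum.ext h) ?_
  intro v hv
  exact hv.2.le

variable [IsTotallyComplex F] [Finite S] (D : LDat S)

/-- The local coefficient of the data. -/
abbrev LDat.W (v : Place F) (y : Vert S v) : ℂ := locW D.δ D.c D.N S v y

/-- The finite part: the product of the local coefficients at `diag(α, 1) ω`. -/
def finW (α : Fˣ) (ω : FinPt F S) : ℂ := ∏ᶠ v : Place F, D.W v (upMat α 0 • ω.1 v)

/-- The archimedean part: the product of `hW` at the frequencies `δ α`. -/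
def archW (α : Fˣ) (x : InfinitePlace F → H3) : ℂ :=
  ∏ w : InfinitePlace F, hW (w.embedding ((D.δ : F) * α)) (x w)

/-- The series: the sum over `α` of the finite times the archimedean part. -/
def phi (p : Pt F S) : ℂ := ∑' α : Fˣ, finW D α p.1 * archW D α p.2

/-- The local coefficient of the data is bounded by `3`, usually by `1`. -/
lemma norm_W_le (v : Place F) (y : Vert S v) :
    ‖D.W v y‖ ≤ if v ∉ S ∧ pnorm v < 4 then 3 else 1 := by
  by_cases hv : v ∈ S
  · rw [if_neg fun h => h.1 hv]
    unfold LDat.W locW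
    split_ifs
    · rw [norm_mul, norm_psi, one_mul, hfun, if_pos hv]
      split_ifs <;> simp
    · simp
  · have h := norm_locW_le D.δ D.c D.N (D.hc v hv) y
    split_ifs with h4
    · exact h.1
    · exact h.2 (Or.inl (not_lt.1 fun hlt => h4 ⟨hv, hlt⟩))

/-- The bound for the finite part. -/
def wBound (S : Set (Place F)) : ℝ := 3 ^ (LDat.finite_small S).toFinset.card

/-- The bound for the finite part is positive. -/
lemma wBound_pos (S : Set (Place F)) : 0 < wBound S := by unfold wBound; positivity

/-- The local coefficient is one at almost all places. -/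
lemma eventually_W_eq_one (α : Fˣ) (ω : FinPt F S) :
    ∀ᶠ v in cofinite, D.W v (upMat α 0 • ω.1 v) = 1 := by
  filter_upwards [ω.2, eventually_smul_base (S := S) (upMat α 0),
    (Set.toFinite S).compl_mem_cofinite,
    Mult.eventually_cnd_eq_zero, eventually_cofinite.2 (CFT.finite_ord_ne_zero (D.δ : F))]
    with v h1 h2 h3 h4 h5
  rw [h1, h2]
  exact locW_base D.h3 D.δ D.c D.N D.hN h3 h5 h4

/-- Only finitely many local coefficients differ from one. -/
lemma finite_mulSupport_W (α : Fˣ) (ω : FinPt F S) :
    (Function.mulSupport fun v => D.W v (upMat α 0 • ω.1 v)).Finite :=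
  eventually_cofinite.1 (eventually_W_eq_one D α ω)

/-- The finite part is bounded by `wBound`. -/
lemma norm_finW_le (α : Fˣ) (ω : FinPt F S) : ‖finW D α ω‖ ≤ wBound S := by
  set P := (LDat.finite_small S).toFinset
  set T := (finite_mulSupport_W D α ω).toFinset ∪ P
  rw [finW, finprod_eq_prod_of_mulSupport_subset (s := T) _ (fun v hv =>
    Finset.mem_union_left _ ((Set.Finite.mem_toFinset _).2 hv)), norm_prod]
  calc ∏ v ∈ T, ‖D.W v (upMat α 0 • ω.1 v)‖ ≤ ∏ v ∈ T, if v ∈ P then (3 : ℝ) else 1 :=
        Finset.prod_le_prod (fun v _ => norm_nonneg _) fun v _ => (norm_W_le D v _).trans_eq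
          (by simp [P, Set.Finite.mem_toFinset])
    _ = wBound S := by
      rw [Finset.prod_ite_mem, Finset.inter_eq_right.2 Finset.subset_union_right, Finset.prod_const]
      rfl

/-- The finite part is supported on a fractional lattice. -/
lemma exists_support (ω : FinPt F S) : ∃ M : ℕ, M ≠ 0 ∧
    ∀ α : Fˣ, finW D α ω ≠ 0 → ((D.δ : F) * α) ∈ fracLat (F := F) M := by
  choose a x k hk hy using fun v => exists_repr D.h3 (ω.1 v)
  set T := (eventually_cofinite.1 ω.2).toFinset ∪ (Set.toFinite S).toFinset ∪
    (eventually_cofinite.1 (Mult.eventually_cnd_eq_zero (F := F))).toFinset with hT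
  -- a modulus deep enough at the finitely many exceptional places
  obtain ⟨M, hM, hMv⟩ := exists_nat_small (F := F)
    (fun v => if v ∈ T then (1 + cnd v + CFT.ord v (a v : F)).toNat else 0)
    (T.finite_toSet.subset fun v hv => by by_contra h; exact hv (if_neg h))
  refine ⟨M, hM, fun α hα v => ?_⟩
  have hW : D.W v (upMat α 0 • ω.1 v) ≠ 0 := fun h => hα (finprod_eq_zero _ v h
    (finite_mulSupport_W D α ω))
  rw [map_mul]
  -- at those, read the bound off the support of the local Whittaker function
  by_cases hv : v ∈ T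
  · rw [hy v, MulAction.Quotient.smul_coe, smul_eq_mul, ← mul_assoc, upMat_mul, LDat.W,
      locW_eq D.h3 D.δ D.c D.N D.hN (hk v) rfl] at hW
    have h := (le_ord_of_hfun_ne_zero D.δ D.c D.N (right_ne_zero_of_mul hW)).1
    rw [eL, Units.val_mul, CFT.ord_mul v α.ne_zero (a v).ne_zero] at h
    have h2 := hMv v
    rw [if_pos hv] at h2
    refine (mul_le_mul' h2 le_rfl).trans ?_
    rw [CFT.valuation_eq_exp_neg_ord v (mul_ne_zero D.δ.ne_zero α.ne_zero),
      CFT.ord_mul v D.δ.ne_zero α.ne_zero, ← WithZero.exp_add, ← WithZero.exp_zero,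
        WithZero.exp_le_exp]
    omega
  -- elsewhere the data are standard
  · simp only [hT, Finset.mem_union, Set.Finite.mem_toFinset, Set.mem_ofPred_eq, not_or,
      not_not] at hv
    obtain ⟨⟨h1, hS⟩, hc⟩ := hv
    rw [h1, MulAction.Quotient.smul_coe, smul_eq_mul, mul_one, LDat.W,
      locW_upMat D.h3 D.δ D.c D.N D.hN] at hW
    have h := (le_ord_of_hfun_ne_zero D.δ D.c D.N (right_ne_zero_of_mul hW)).2 hS
    rw [eL, hc] at h
    refine (mul_le_of_le_one_left' ?_).trans ?_
    · exact_mod_cast v.valuation_le_one (K := F) (M : 𝓞 F)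
    rw [CFT.valuation_eq_exp_neg_ord v (mul_ne_zero D.δ.ne_zero α.ne_zero),
      CFT.ord_mul v D.δ.ne_zero α.ne_zero, ← WithZero.exp_zero, WithZero.exp_le_exp]
    push_cast at h
    omega

/-- The support and the majorant. -/
def major (M : ℕ) (t₀ : ℝ) : Fˣ → ℝ :=
  Set.indicator {α | ((D.δ : F) * α) ∈ fracLat (F := F) M}
    fun α => wBound S * Real.exp (-(2 * π * t₀) * ∑ w, ‖emb ((D.δ : F) * α) w‖)

/-- The majorant is nonnegative. -/
lemma major_nonneg (M : ℕ) (t₀ : ℝ) (α : Fˣ) : 0 ≤ major D M t₀ α :=
  Set.indicator_nonneg (fun _ _ => mul_nonneg (wBound_pos S).le (Real.exp_pos _).le) α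

/-- The majorant is summable. -/
lemma summable_major {M : ℕ} (hM : M ≠ 0) {t₀ : ℝ} (ht : 0 < t₀) : Summable (major D M t₀) := by
  refine (summable_subtype_iff_indicator).1 ?_
  refine (((summable_exp_fracLat (F := F) hM (c := 2 * π * t₀) (by positivity)).mul_left
    (wBound S)).comp_injective
    (i := fun a : {α : Fˣ | ((D.δ : F) * α) ∈ fracLat (F := F) M} =>
      (⟨(D.δ : F) * (a.1 : F), a.2⟩ : fracLat (F := F) M)) fun a b h => ?_)
  have h' := congrArg Subtype.val h
  exact Subtype.ext (Units.ext (mul_left_cancel₀ D.δ.ne_zero h'))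

/-- The archimedean part decays exponentially in the lattice norm. -/
lemma norm_archW_le (α : Fˣ) {x : InfinitePlace F → H3} {t₀ : ℝ}
    (hx : ∀ w, t₀ ≤ (H3.coord (x w)).2) :
    ‖archW D α x‖ ≤ Real.exp (-(2 * π * t₀) * ∑ w, ‖emb ((D.δ : F) * α) w‖) := by
  rw [archW, norm_prod, Finset.mul_sum, Real.exp_sum]
  refine Finset.prod_le_prod (fun w _ => norm_nonneg _) fun w _ => (norm_hW_le _ _).trans ?_
  rw [Mult.emb_apply, Real.exp_le_exp, neg_mul, neg_le_neg_iff, mul_assoc (2 * π),
    mul_comm t₀]
  exact mul_le_mul_of_nonneg_left (mul_le_mul_of_nonneg_left (hx w) (norm_nonneg _)) (by positivity)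

/-- The terms of the series are bounded by the majorant. -/
lemma norm_term_le (ω : FinPt F S) :
    ∃ M : ℕ, M ≠ 0 ∧ ∀ (α : Fˣ) (x : InfinitePlace F → H3) (t₀ : ℝ),
    (∀ w, t₀ ≤ (H3.coord (x w)).2) → ‖finW D α ω * archW D α x‖ ≤ major D M t₀ α := by
  obtain ⟨M, hM, hsupp⟩ := exists_support D ω
  refine ⟨M, hM, fun α x t₀ hx => ?_⟩
  rcases eq_or_ne (finW D α ω) 0 with h | h
  · rw [h, zero_mul, norm_zero]; exact major_nonneg D M t₀ α
  rw [major, Set.indicator_of_mem
    (show α ∈ {α : Fˣ | ((D.δ : F) * α) ∈ fracLat (F := F) M} from hsupp α h), norm_mul]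
  exact mul_le_mul (norm_finW_le D α ω) (norm_archW_le D α hx) (norm_nonneg _) (wBound_pos S).le

/-- The heights of a point are bounded below. -/
lemma exists_height_le (x : InfinitePlace F → H3) :
    ∃ t₀ : ℝ, 0 < t₀ ∧ ∀ w, t₀ ≤ (H3.coord (x w)).2 := by
  obtain ⟨w₀, -, h⟩ := Finset.exists_min_image (Finset.univ : Finset (InfinitePlace F))
    (fun w => (H3.coord (x w)).2) Finset.univ_nonempty
  exact ⟨_, H3.coord_pos (x w₀), fun w => h w (Finset.mem_univ w)⟩

/-- The series converges absolutely. -/
lemma summable_term (p : Pt F S) : Summable fun α : Fˣ => finW D α p.1 * archW D α p.2 := by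
  obtain ⟨M, hM, h⟩ := norm_term_le D p.1
  obtain ⟨t₀, ht, hx⟩ := exists_height_le p.2
  exact Summable.of_norm_bounded (summable_major D hM ht) fun α => h α p.2 t₀ hx

/-- Boundedness above a positive height. -/
theorem exists_bound_of_le (ω : FinPt F S) {t₀ : ℝ} (ht : 0 < t₀) :
    ∃ C : ℝ, ∀ x, (∀ w, t₀ ≤ (H3.coord (x w)).2) → ‖phi D (ω, x)‖ ≤ C := by
  obtain ⟨M, hM, h⟩ := norm_term_le D ω
  exact ⟨∑' α, major D M t₀ α, fun x hx =>
    tsum_of_norm_bounded (summable_major D hM ht).hasSum fun α => h α x t₀ hx⟩

/-- The eigenfunction is continuous. -/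
lemma continuous_hW {ζ : ℂ} (hζ : ζ ≠ 0) : Continuous (hW ζ) := by
  refine (Complex.continuous_ofReal.comp (continuousOn_archRho.comp_continuous ?_ fun y => ?_)).mul
    (continuous_eC.comp (continuous_const.mul continuous_coord.fst))
  · exact continuous_const.mul continuous_coord.snd
  · exact mul_pos (norm_pos_iff.2 hζ) (H3.coord_pos y)

/-- The frequencies do not vanish. -/
lemma emb_mul_ne_zero (α : Fˣ) (w : InfinitePlace F) : w.embedding ((D.δ : F) * α) ≠ 0 :=
  (map_ne_zero _).2 (mul_ne_zero D.δ.ne_zero α.ne_zero)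

/-- The archimedean part is continuous. -/
lemma continuous_archW (α : Fˣ) : Continuous (archW D α) :=
  continuous_finsetProd _ fun w _ =>
    (continuous_hW (emb_mul_ne_zero D α w)).comp (continuous_apply w)

/-- The series is continuous in the archimedean variables. -/
theorem continuous_phi (ω : FinPt F S) :
    Continuous fun x : InfinitePlace F → H3 => phi D (ω, x) := by
  refine continuous_iff_continuousAt.2 fun x₀ => ?_
  obtain ⟨t₀, ht, hx⟩ := exists_height_le x₀
  obtain ⟨M, hM, h⟩ := norm_term_le D ω
  set U := {x : InfinitePlace F → H3 | ∀ w, t₀ / 2 < (H3.coord (x w)).2}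
  have hU : U ∈ 𝓝 x₀ := by
    refine eventually_all.2 fun w => ?_
    exact ((continuous_coord.snd.comp (continuous_apply w)).continuousAt).eventually_const_lt
      (lt_of_lt_of_le (half_lt_self ht) (hx w))
  refine (continuousOn_tsum (s := U) (fun α =>
    (continuous_const.mul (continuous_archW D α)).continuousOn)
    (summable_major D hM (half_pos ht)) fun α x hx' => h α x _ fun w => (hx' w).le).continuousAt hU

/-! ### the Borel subgroup -/

/-- A diagonal translation multiplies the frequency. -/
lemma hW_smul_diag (ζ : ℂ) (w : InfinitePlace F) (β : Fˣ) (y : H3) :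
    hW ζ (atInf w (upMat β 0) • y) = hW (ζ * w.embedding (β : F)) y := by
  rw [hW, hW, coord_upMat_smul, map_zero, add_zero, norm_mul, InfinitePlace.norm_embedding_eq,
    mul_assoc, mul_assoc]

/-- A unipotent translation multiplies the eigenfunction by a character. -/
lemma hW_smul_unip (ζ : ℂ) (w : InfinitePlace F) (z : F) (y : H3) :
    hW ζ (atInf w (upMat 1 z) • y) = eC (ζ * w.embedding z) * hW ζ y := by
  rw [hW, hW, coord_upMat_smul, Units.val_one, map_one, map_one, one_mul, one_mul, mul_add, eC_add]
  ring

/-- The product of the local exponentials is the standard character. -/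
lemma prod_eC (z : InfinitePlace F → ℂ) : ∏ w, eC (z w) = chi z := by
  simp only [eC, ← Complex.exp_sum, ← Finset.mul_sum]
  rw [chi]
  congr 1
  change _ = 2 * (π : ℂ) * Complex.I * (((∑ w, 2 * (z w).re : ℝ)) : ℂ)
  push_cast
  rw [← Finset.mul_sum]
  ring

/-- The product of all local components of the character is the global character. -/
lemma finprod_psi (b : F) : ∏ᶠ v : Place F, psi v b = chiF b := by
  set T := (eventually_cofinite.1 (eventually_valuation_le_one b)).toFinset
  rw [finprod_eq_prod_of_mulSupport_subset (s := T) _ fun v hv => ?_]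
  · exact (Mult.chiF_eq_prod T (fun _ => b) (fun v _ => by simp) fun v hv => by
      simpa [T] using hv).symm
  · rw [Finset.mem_coe, Set.Finite.mem_toFinset, Set.mem_ofPred_eq]
    exact fun h => hv (Mult.psi_of_le_one h)

/-- The series is invariant under the rational Borel subgroup. -/
theorem phi_upMat_smul (β : Fˣ) (z : F) (p : Pt F S) : phi D (upMat β z • p) = phi D p := by
  have hdiag : ∀ q : Pt F S, phi D (upMat β 0 • q) = phi D q := fun q => by
    have e : ∀ α : Fˣ, finW D α (upMat β 0 • q).1 * archW D α (upMat β 0 • q).2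
        = finW D (α * β) q.1 * archW D (α * β) q.2 := fun α => by
      congr 1
      · refine finprod_congr fun v => ?_
        rw [Pt.smul_fst, FinPt.smul_apply, ← mul_smul, upMat_mul, mul_zero, zero_add]
      · refine Finset.prod_congr rfl fun w _ => ?_
        rw [Pt.smul_snd, hW_smul_diag, Units.val_mul, ← map_mul, ← mul_assoc (D.δ : F)]
    exact (tsum_congr e).trans ((Equiv.mulRight β).tsum_eq fun α => finW D α q.1 * archW D α q.2)
  have hunip : ∀ q : Pt F S, phi D (upMat 1 z • q) = phi D q := fun q => by
    refine tsum_congr fun α => ?_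
    set b := (D.δ : F) * ((α : F) * z)
    have h1 : finW D α (upMat 1 z • q).1 = chiF b * finW D α q.1 := by
      have e : ∀ v : Place F, D.W v (upMat α 0 • (upMat 1 z • q).1.1 v)
          = psi v b * D.W v (upMat α 0 • q.1.1 v) := fun v => by
        rw [Pt.smul_fst, FinPt.smul_apply, ← mul_smul, upMat_mul, mul_one,
          upMat_eq_unip_mul, add_zero, mul_smul]
        exact locW_translate D.h3 D.δ D.c D.N D.hN _ _
      rw [finW, finprod_congr e, finprod_mul_distrib ?_ (finite_mulSupport_W D α q.1), finprod_psi]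
      · rfl
      exact (finite_places_gt_one b).subset fun v hv => not_le.1 fun h => hv (Mult.psi_of_le_one h)
    have h2 : archW D α (upMat 1 z • q).2 = chi (emb b) * archW D α q.2 := by
      rw [archW, archW, ← prod_eC, ← Finset.prod_mul_distrib]
      refine Finset.prod_congr rfl fun w _ => ?_
      rw [Pt.smul_snd, hW_smul_unip, Mult.emb_apply, ← map_mul, mul_assoc]
    rw [h1, h2, show ∀ A B C E : ℂ, A * B * (C * E) = (A * C) * (B * E) from fun A B C E => by ring,
      chiF, ← Mult.chi_add, neg_add_cancel, Mult.chi_zero, one_mul]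
  rw [upMat_eq_unip_mul, mul_smul, hunip, hdiag]

/-! ### local operators -/

/-- The finite part away from `v`. -/
def finWne (α : Fˣ) (ω : FinPt F S) (v : Place F) : ℂ :=
  ∏ᶠ u : Place F, if u = v then 1 else D.W u (upMat α 0 • ω.1 u)

/-- Changing one component changes one factor of the finite part. -/
lemma finW_set (α : Fˣ) (ω : FinPt F S) (v : Place F) (y : Vert S v) :
    finW D α (ω.set v y) = D.W v (upMat α 0 • y) * finWne D α ω v := by
  have e : ∀ u, D.W u (upMat α 0 • (ω.set v y).1 u)
      = (if u = v then D.W v (upMat α 0 • y) else 1)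
        * (if u = v then 1 else D.W u (upMat α 0 • ω.1 u)) := fun u => by
    rcases eq_or_ne u v with rfl | h
    · rw [if_pos rfl, if_pos rfl, mul_one, FinPt.set_self]
    · rw [if_neg h, if_neg h, one_mul, FinPt.set_of_ne _ h]
  rw [finW, finprod_congr e, finprod_mul_distrib, finprod_eq_single _ v fun u hu => if_neg hu,
    if_pos rfl]
  · rfl
  · exact (Set.finite_singleton v).subset fun u hu => by
      by_contra h; exact hu (if_neg h)
  · exact (finite_mulSupport_W D α ω).subset fun u hu => by
      rcases eq_or_ne u v with rfl | h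
      · exact absurd (if_pos rfl) hu
      · rwa [Function.mem_mulSupport, if_neg h] at hu

/-- An invariant kernel commutes with translation. -/
lemma sum_row_smul {v : Place F} (k : LKer S v) (g : GL (Fin 2) F) (f : Vert S v → ℂ)
    (a : Vert S v) :
    ∑ y ∈ k.row a, k a y * f (g • y) = ∑ y ∈ k.row (g • a), k (g • a) y * f y := by
  refine Finset.sum_equiv (MulAction.toPerm g) (fun y => ?_) fun y _ => ?_
  · rw [LKer.mem_row, LKer.mem_row, MulAction.toPerm_apply, k.invariant]
  · rw [MulAction.toPerm_apply, k.invariant]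

/-- A local eigen identity passes to the series. -/
theorem locAct_phi (v : Place F) (k : LKer S v) (μ : ℂ)
    (h : ∀ y₀, ∑ y ∈ k.row y₀, k y₀ y * D.W v y = μ * D.W v y₀) (p : Pt F S) :
    locAct v k (phi D) p = μ * phi D p := by
  have h1 : ∀ y, phi D (p.1.set v y, p.2)
      = ∑' α, D.W v (upMat α 0 • y) * (finWne D α p.1 v * archW D α p.2) := fun y =>
    tsum_congr fun α => by rw [finW_set, mul_assoc]
  have hs : ∀ y, Summable fun α => k (p.1.1 v) y * (D.W v (upMat α 0 • y)
      * (finWne D α p.1 v * archW D α p.2)) := fun y => by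
    refine Summable.mul_left _ ((summable_term D (p.1.set v y, p.2)).congr fun α => ?_)
    rw [finW_set, mul_assoc]
  simp only [locAct, h1, ← tsum_mul_left]
  rw [← Summable.tsum_finsetSum fun y _ => hs y, phi, ← tsum_mul_left]
  refine tsum_congr fun α => ?_
  simp only [← mul_assoc, ← Finset.sum_mul]
  congr 1
  rw [sum_row_smul k (upMat α 0) (D.W v), h, mul_assoc, ← finW_set, FinPt.set_eq_self]

/-- The series is a Hecke eigenfunction off the level. -/
theorem hecke_phi {v : Place F} (hv : v ∉ S) {lam : ℝ} (hlam : lam = Real.sqrt (pnorm v) * D.c v)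
    (p : Pt F S) : heckeT v (phi D) p = (lam : ℂ) * phi D p := by
  rw [heckeT_eq_locAct hv]
  refine locAct_phi D v _ _ (fun y₀ => ?_) p
  rw [← locW_hecke D.h3 D.δ D.c D.N D.hN hv hlam y₀]
  refine Finset.sum_congr rfl fun y hy => ?_
  rw [sphKer_apply, kern_X, if_pos ((mem_row_sphKer_X hv).1 hy), one_mul]

/-- The series is of cuspidal type at the level. -/
theorem cusp_phi {v : Place F} (hv : v ∈ S) : IsCuspType v (phi D) := by
  rw [isCuspType_iff_locAct (D.h3 v hv) hv]
  intro p
  rw [locAct_phi D v _ 1 (fun y₀ =>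
    (locW_cusp D.h3 D.δ D.c D.N D.hN hv y₀).trans (one_mul _).symm) p, one_mul]

/-! ### the archimedean operators -/

/-- A majorised series of the archimedean terms is an eigenfunction of the operators. -/
theorem arch_tsum {e : Fˣ → ℂ} {B : Fˣ → ℝ → ℝ}
    (hbd : ∀ (α : Fˣ) (x : InfinitePlace F → H3) (t₀ : ℝ), (∀ w, t₀ ≤ (H3.coord (x w)).2) →
      ‖e α * archW D α x‖ ≤ B α t₀)
    (hsum : ∀ t₀ : ℝ, 0 < t₀ → Summable fun α => B α t₀)
    (hc : Continuous fun x : InfinitePlace F → H3 => ∑' α, e α * archW D α x)
    (w : InfinitePlace F) (k : ℝ → ℝ) (hk : Continuous k) (hs : HasCompactSupport k)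
    (x : InfinitePlace F → H3) :
    hIntegral (fun y => (k (coshd (x w) y) : ℂ) *
        ∑' α, e α * archW D α (Function.update x w y))
      = hhat0 k * ∑' α, e α * archW D α x := by
  set K := AKer.ofRadial k hk hs with hK
  obtain ⟨t₀, ht, hx⟩ := exists_height_le x
  set R := 2 * |K.range| + 2
  have hR : 0 < R := by positivity
  set t₁ := t₀ / R
  have hx1 : ∀ y, coshd (x w) y ≤ K.range → ∀ u, t₁ ≤ (H3.coord (Function.update x w y u)).2 := by
    intro y hy u
    have hR2 : (2 : ℝ) ≤ R := le_add_of_nonneg_left (by positivity)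
    rcases eq_or_ne u w with rfl | hu
    · rw [Function.update_self, div_le_iff₀ hR]
      refine (hx u).trans ((snd_le_coshd y (x u)).trans ?_)
      rw [coshd_comm, mul_comm (2 : ℝ), mul_assoc]
      refine mul_le_mul_of_nonneg_left ?_ (H3.coord_pos y).le
      have := hy.trans (le_abs_self K.range)
      change 2 * coshd (x u) y ≤ 2 * |K.range| + 2
      linarith
    · rw [Function.update_of_ne hu]
      refine le_trans ?_ (hx u)
      rw [div_le_iff₀ hR]
      nlinarith
  have hcont : Continuous fun y =>
      (k (coshd (x w) y) : ℂ) * ∑' α, e α * archW D α (Function.update x w y) :=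
    (K.continuous_right (x w)).mul
      (hc.comp (continuous_const.update w continuous_id))
  rw [hIntegral_eq_integral hcont.aestronglyMeasurable]
  set G : Fˣ → H3 → ℂ := fun α y =>
    (k (coshd (x w) y) : ℂ) * (e α * archW D α (Function.update x w y)) with hG
  -- integrate term by term, dominated on the support of the kernel
  have hGi : ∀ α, Integrable (G α) hmeas := fun α => integrable_kernel_mul hk hs (x w)
    (continuous_const.mul
      ((continuous_archW D α).comp (continuous_const.update w continuous_id))).measurable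
    fun y hy => hbd α _ t₁ (hx1 y hy)
  have hGs : Summable fun α => ∫ y, ‖G α y‖ ∂hmeas := by
    refine Summable.of_nonneg_of_le (fun α => integral_nonneg fun y => norm_nonneg _) (fun α => ?_)
      ((hsum t₁ (div_pos ht hR)).mul_left (∫ y, ‖K (x w) y‖ ∂hmeas))
    rw [← integral_mul_const]
    refine integral_mono (hGi α).norm ((K.integrable _).norm.mul_const _) fun y => ?_
    change ‖G α y‖ ≤ ‖K (x w) y‖ * B α t₁
    rw [hG, norm_mul]
    by_cases hy : coshd (x w) y ≤ K.range
    · exact mul_le_mul_of_nonneg_left (hbd α _ t₁ (hx1 y hy)) (norm_nonneg _)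
    · have : K (x w) y = 0 := K.eq_zero _ _ (not_le.1 hy)
      change ‖K (x w) y‖ * _ ≤ _
      rw [this, norm_zero, zero_mul, zero_mul]
  have ee : (fun y => (k (coshd (x w) y) : ℂ) * ∑' α, e α * archW D α (Function.update x w y))
      = fun y => ∑' α, G α y :=
    funext fun y => by rw [← tsum_mul_left]
  have : Countable Fˣ :=
    Function.Injective.countable (f := fun a : Fˣ => (a : F)) Units.val_injective
  rw [ee, ← integral_tsum_of_summable_integral_norm hGi hGs, ← tsum_mul_left]
  refine tsum_congr fun α => ?_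
  have harch : ∀ y, archW D α (Function.update x w y) = hW (w.embedding ((D.δ : F) * α)) y
      * ∏ u ∈ Finset.univ.erase w, hW (u.embedding ((D.δ : F) * α)) (x u) := fun y => by
    rw [archW, ← Finset.mul_prod_erase _ _ (Finset.mem_univ w), Function.update_self]
    congr 1
    exact Finset.prod_congr rfl fun u hu => by
      rw [Function.update_of_ne (Finset.ne_of_mem_erase hu)]
  set P := ∏ u ∈ Finset.univ.erase w, hW (u.embedding ((D.δ : F) * α)) (x u)
  have e2 : G α = fun y => e α * P
      * ((k (coshd (x w) y) : ℂ) * hW (w.embedding ((D.δ : F) * α)) y) := funext fun y => by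
    rw [hG]; simp only [harch y]; ring
  have e3 := harch (x w)
  rw [Function.update_eq_self] at e3
  rw [e2, integral_const_mul, eigen_hW (emb_mul_ne_zero D α w) hk hs, e3]
  ring

/-- The series is an eigenfunction of the archimedean operators. -/
theorem arch_phi : IsArchEigen (phi D) := by
  rintro w k hk hs ⟨ω, x⟩
  obtain ⟨M, hM, hbd⟩ := norm_term_le D ω
  exact arch_tsum D hbd (fun t₀ ht => summable_major D hM ht) (continuous_phi D ω) w k hk hs x

end Fermat.LT.Theta
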