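import Fermat.Agent.LT.Theta.LocalShell
import Fermat.Agent.LT.Theta.Series
import Fermat.Agent.CFT.Density.IdealCount

/-!
# Theta: finite adelic sums are products of local sums

`qsum_gBox` is this statement, by the Chinese remainder theorem `crt_bijective`;
`psiD_eq_one_of_global` turns global orthogonality into local.
-/

set_option autoImplicit false
set_option linter.unusedSectionVars false

noncomputable section

open NumberField IsDedekindDomain Fermat.CFT Filter
open scoped Classical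

namespace Fermat.LT.Theta

open Fermat.LT.Mult (psi chiF)

variable {F M : Type} [Field F] [NumberField F] [IsTotallyComplex F] [Field M] [NumberField M]
  [Algebra F M] [IsGalois F M] {σ : M ≃ₐ[F] M}

variable (σ) in
/-- Elements in prescribed boxes at all places. -/
def gBox (n : Pl F → ℤ × ℤ) : AddSubgroup M := ⨅ v, box σ v (n v)

/-- Membership in a global box is membership in each local one. -/
lemma mem_gBox {n : Pl F → ℤ × ℤ} {η : M} : η ∈ gBox σ n ↔ ∀ v, η ∈ box σ v (n v) := by
  simp [gBox, AddSubgroup.mem_iInf]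

variable (σ) in
/-- The covolume of a box: the residue cardinalities raised to its exponents. -/
def boxVol (v : Pl F) (m : ℤ × ℤ) : ℝ :=
  if IsNonsplit σ v then (resCard (plOver M v) : ℝ) ^ m.1
  else (resCard (plOver M v) : ℝ) ^ m.1 * (resCard (plConj σ v) : ℝ) ^ m.2

/-- Volumes of boxes do not vanish. -/
lemma boxVol_ne_zero (v : Pl F) (m : ℤ × ℤ) : boxVol σ v m ≠ 0 := by
  have h : ∀ P : Pl M, (resCard P : ℝ) ≠ 0 := fun P => by exact_mod_cast (resCard_pos P).ne'
  unfold boxVol
  split_ifs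
  · exact zpow_ne_zero _ (h _)
  · exact mul_ne_zero (zpow_ne_zero _ (h _)) (zpow_ne_zero _ (h _))

/-- For nonnegative exponents the index is the volume. -/
lemma boxCard_cast (v : Pl F) {d : ℤ × ℤ} (h1 : 0 ≤ d.1) (h2 : 0 ≤ d.2) :
    (boxCard σ v d : ℝ) = boxVol σ v d := by
  obtain ⟨a, ha⟩ := Int.eq_ofNat_of_zero_le h1
  obtain ⟨b, hb⟩ := Int.eq_ofNat_of_zero_le h2
  unfold boxCard boxVol
  rw [ha, hb]
  split_ifs <;> simp [zpow_natCast]

/-- Volumes are multiplicative in the exponents. -/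
lemma boxVol_add (v : Pl F) (m n : ℤ × ℤ) : boxVol σ v (m + n) = boxVol σ v m * boxVol σ v n := by
  have h : ∀ P : Pl M, (resCard P : ℝ) ≠ 0 := fun P => by exact_mod_cast (resCard_pos P).ne'
  unfold boxVol
  split_ifs
  · rw [Prod.fst_add, zpow_add₀ (h _)]
  · rw [Prod.fst_add, Prod.snd_add, zpow_add₀ (h _), zpow_add₀ (h _)]; ring

/-- Volumes turn differences of exponents into quotients. -/
lemma boxVol_sub (v : Pl F) (m n : ℤ × ℤ) : boxVol σ v (m - n) = boxVol σ v m / boxVol σ v n := by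
  rw [eq_div_iff (boxVol_ne_zero v n), ← boxVol_add, sub_add_cancel]

variable (M σ) in
/-- The orders of a natural number. -/
def dOrd (D : ℕ) (v : Pl F) : ℤ × ℤ :=
  (CFT.ord (plOver M v) (D : M), CFT.ord (plConj σ v) (D : M))

variable (hF : Module.finrank F M = 2) (hσ : σ ≠ 1)
include hF hσ

/-- The orders of a natural number are admissible exponents. -/
lemma adm_dOrd (D : ℕ) (v : Pl F) : Adm σ v (dOrd M σ D v) := fun h => by
  simp only [dOrd]; rw [(plConj_eq_iff hF hσ).2 h]

omit hF hσ in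
/-- Admissibility is stable under negation. -/
lemma adm_neg {v : Pl F} {m : ℤ × ℤ} (h : Adm σ v m) : Adm σ v (-m) := fun hv => by
  simp only [Prod.fst_neg, Prod.snd_neg, h hv]

/-- The global box with exponents zero consists of the integral elements. -/
lemma mem_all_of_gBox_zero {η : M} :
    η ∈ gBox σ (0 : Pl F → ℤ × ℤ) ↔ ∀ W : Pl M, W.valuation M η ≤ 1 := by
  rw [mem_gBox]
  constructor
  · intro h W
    rcases eq_or_eq_of_plUnder hF hσ (rfl : plUnder F W = plUnder F W) with e | e <;>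
      conv_lhs => rw [e]
    · simpa using (h (plUnder F W)).1
    · simpa using (h (plUnder F W)).2
  · exact fun h v => ⟨by simpa using h _, by simpa using h _⟩

/-- The box of the orders of `D` is `D 𝓞`. -/
lemma mem_gBox_dOrd {D : ℕ} (hD : D ≠ 0) {η : M} :
    η ∈ gBox σ (dOrd M σ D) ↔ ∃ l : 𝓞 M, η = (D : M) * (l : M) := by
  have hD' : (D : M) ≠ 0 := Nat.cast_ne_zero.2 hD
  have hmap : ∀ v, (box σ v 0).map (mulE hD').toAddMonoidHom = box σ v (dOrd M σ D v) := fun v => by
    rw [box_map_mulE, zero_add]; rfl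
  constructor
  · intro h
    obtain ⟨r, hr⟩ := HeightOneSpectrum.mem_integers_of_valuation_le_one M (η / (D : M))
      ((mem_all_of_gBox_zero hF hσ).1 (mem_gBox.2 fun v => by
        have := mem_gBox.1 h v
        rw [← hmap v] at this
        obtain ⟨x, hx, rfl⟩ := this
        change (D : M) * x / D ∈ _
        rwa [mul_div_cancel_left₀ _ hD']))
    exact ⟨r, by rw [show (r : M) = η / D from hr]; field_simp⟩
  · rintro ⟨l, rfl⟩
    refine mem_gBox.2 fun v => ?_
    rw [← hmap v]
    exact ⟨l, ⟨by simpa using (plOver M v).valuation_le_one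
                    l, by simpa using (plConj σ v).valuation_le_one l⟩, rfl⟩

/-- The box of minus the orders of `D` is `D⁻¹ 𝓞`. -/
lemma mem_gBox_neg_dOrd {D : ℕ} (hD : D ≠ 0) {η : M} :
    η ∈ gBox σ (fun v => -dOrd M σ D v) ↔ ∀ W : Pl M, W.valuation M ((D : M) * η) ≤ 1 := by
  have hD' : (D : M) ≠ 0 := Nat.cast_ne_zero.2 hD
  rw [← mem_all_of_gBox_zero hF hσ, mem_gBox, mem_gBox]
  refine forall_congr' fun v => ?_
  have e : box σ v 0 = (box σ v (-dOrd M σ D v)).map (mulE hD').toAddMonoidHom := by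
    rw [box_map_mulE]
    congr 1
    exact (neg_add_cancel _).symm
  simp only [Pi.zero_apply, e]
  exact ⟨fun h => ⟨η, h, rfl⟩, fun ⟨x, hx, he⟩ => mul_left_cancel₀ hD' he ▸ hx⟩

variable {lo hi : Pl F → ℤ × ℤ} {V : Finset (Pl F)}

omit hF hσ in
/-- **The Chinese remainder theorem.** A quotient of global boxes maps bijectively onto the product
of the local quotients at the places of `V`, by taking the class at each place. -/
theorem crt_bijective (hlh : ∀ v, (lo v).1 ≤ (hi v).1 ∧ (lo v).2 ≤ (hi v).2)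
    (hV : ∀ v ∉ V, lo v = 0 ∧ hi v = 0) :
    ∃ φ : gBox σ lo ⧸ (gBox σ hi).addSubgroupOf (gBox σ lo) →
        ∀ v : V, box σ v.1 (lo v) ⧸ (box σ v.1 (hi v)).addSubgroupOf (box σ v.1 (lo v)),
      Function.Bijective φ ∧ ∀ (x : gBox σ lo) (v : V),
        φ (QuotientAddGroup.mk x) v = QuotientAddGroup.mk ⟨x.1, mem_gBox.1 x.2 v.1⟩ := by
  let f : gBox σ lo →+ ∀ v : V, box σ v.1 (lo v) ⧸ (box σ v.1 (hi v)).addSubgroupOf
      (box σ v.1 (lo v)) :=
    { toFun := fun x v => QuotientAddGroup.mk ⟨x.1, mem_gBox.1 x.2 v.1⟩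
      map_zero' := funext fun v => rfl
      map_add' := fun x y => funext fun v => rfl }
  -- the kernel is the small box
  have hker : f.ker = (gBox σ hi).addSubgroupOf (gBox σ lo) := by
    ext x
    rw [AddMonoidHom.mem_ker, AddSubgroup.mem_addSubgroupOf, mem_gBox]
    constructor
    · intro h v
      by_cases hv : v ∈ V
      · exact AddSubgroup.mem_addSubgroupOf.1
          ((QuotientAddGroup.eq_zero_iff (⟨x.1, mem_gBox.1 x.2 v⟩ : box σ v (lo v))).1
          (congrFun h ⟨v, hv⟩))
      · have := mem_gBox.1 x.2 v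
        rw [(hV v hv).1] at this
        rw [(hV v hv).2]
        exact this
    · exact fun h => funext fun v => (QuotientAddGroup.eq_zero_iff _).2 (h v.1)
  -- approximation gives surjectivity
  have hsurj : Function.Surjective f := by
    intro q
    let tgt : Pl M → M := fun W => if h : plUnder F W ∈ V then ((q ⟨_, h⟩).out : box σ _ _) else 0
    obtain ⟨N, hN⟩ := Finset.bddAbove (V.image fun v => (max (hi v).1 (hi v).2).toNat)
    obtain ⟨y, hy, hy'⟩ := Fermat.LT.exists_approx (F := M) (plAbove M V) tgt N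
    have hclose : ∀ v (hv : v ∈ V), y - ((q ⟨v, hv⟩).out : box σ v (lo v)) ∈ box σ v (hi v) := by
      intro v hv
      have hle : ∀ k : ℤ, (k = (hi v).1 ∨ k = (hi v).2) → k ≤ N := fun k hk => by
        have := hN (Finset.mem_coe.2 (Finset.mem_image_of_mem _ hv))
        omega
      have htgt : ∀ W : Pl M, plUnder F W = v →
          tgt W = ((q ⟨v, hv⟩).out : box σ v (lo v)) := fun W hW => by
        subst hW
        simp [tgt, hv]
      constructor
      · refine le_trans ?_ (WithZero.exp_le_exp.2 (neg_le_neg (hle _ (Or.inl rfl))))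
        have := hy (plOver M v) (mem_plAbove.2 (by rwa [plUnder_plOver]))
        rwa [htgt _ (plUnder_plOver v)] at this
      · refine le_trans ?_ (WithZero.exp_le_exp.2 (neg_le_neg (hle _ (Or.inr rfl))))
        have := hy (plConj σ v) (mem_plAbove.2 (by rwa [plUnder_plConj]))
        rwa [htgt _ (plUnder_plConj v)] at this
    have hylo : y ∈ gBox σ lo := mem_gBox.2 fun v => by
      by_cases hv : v ∈ V
      · rw [show y = ((q ⟨v, hv⟩).out : box σ v (lo v)) +
          (y - ((q ⟨v, hv⟩).out : box σ v (lo v))) from (add_sub_cancel _ _).symm]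
        exact add_mem ((q ⟨v, hv⟩).out).2 (box_mono (hlh v).1 (hlh v).2 (hclose v hv))
      · rw [(hV v hv).1]
        exact ⟨by simpa using hy' _ (fun h => hv (by rwa [mem_plAbove, plUnder_plOver] at h)),
          by simpa using hy' _ (fun h => hv (by rwa [mem_plAbove, plUnder_plConj] at h))⟩
    refine ⟨⟨y, hylo⟩, funext fun v => ?_⟩
    conv_rhs => rw [← QuotientAddGroup.out_eq' (q v)]
    change QuotientAddGroup.mk _ = QuotientAddGroup.mk _
    rw [QuotientAddGroup.eq, AddSubgroup.mem_addSubgroupOf, ← AddSubgroup.neg_mem_iff]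
    change -(-y + ((q v).out : M)) ∈ _
    rw [show -(-y + ((q v).out : M)) = y - ((q v).out : M) by ring]
    exact hclose v.1 v.2
  let e := (QuotientAddGroup.quotientAddEquivOfEq hker.symm).trans
    (QuotientAddGroup.quotientKerEquivOfSurjective f hsurj)
  exact ⟨e, e.bijective, fun x v => rfl⟩

/-- **A global sum is the product of the local ones.** -/
theorem qsum_gBox (hlh : ∀ v, (lo v).1 ≤ (hi v).1 ∧ (lo v).2 ≤ (hi v).2)
    (hadm : ∀ v, Adm σ v (lo v) ∧ Adm σ v (hi v))
    (hV : ∀ v ∉ V, lo v = 0 ∧ hi v = 0) (g : Pl F → M → ℂ)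
    (hg : ∀ v ∈ V, Periodic (box σ v (lo v)) (box σ v (hi v)) (g v)) :
    qsum (gBox σ lo) (gBox σ hi) (fun η => ∏ v ∈ V, g v η)
      = ∏ v ∈ V, qsum (box σ v (lo v)) (box σ v (hi v)) (g v) := by
  obtain ⟨φ, hφ, hφm⟩ := crt_bijective (σ := σ) hlh hV
  have hfin : ∀ v : V,
      Finite (box σ v.1 (lo v) ⧸ (box σ v.1 (hi v)).addSubgroupOf (box σ v.1 (lo v))) :=
    fun v => Nat.finite_of_card_ne_zero
      (relIndex_box_ne_zero hF hσ (hlh _).1 (hlh _).2 (hadm _).1 (hadm _).2)
  let _ : ∀ v : V,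
      Fintype (box σ v.1 (lo v) ⧸ (box σ v.1 (hi v)).addSubgroupOf (box σ v.1 (lo v))) :=
    fun v => Fintype.ofFinite _
  let _ := Fintype.ofBijective (Equiv.ofBijective φ hφ).symm (Equiv.ofBijective φ hφ).symm.bijective
  rw [← Finset.prod_attach (s := V) (f := fun v => qsum (box σ v (lo v)) (box σ v (hi v)) (g v))]
  simp only [qsum, finsum_eq_sum_of_fintype]
  rw [Finset.prod_sum, ← Finset.univ_eq_attach, Finset.sum_congr (show Finset.univ.pi (fun v : V =>
    (Finset.univ : Finset (box σ v.1 (lo v) ⧸ (box σ v.1 (hi v)).addSubgroupOf (box σ v.1 (lo v)))))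
      = Finset.univ from Finset.eq_univ_iff_forall.2 fun p => Finset.mem_pi.2 fun v _ =>
        Finset.mem_univ _)
    fun p _ => rfl]
  refine Finset.sum_bij (fun x _ v _ => φ x v) (fun x _ => Finset.mem_univ _) (fun a _ b _ h => ?_)
    (fun p _ => ?_) fun x _ => ?_
  · exact hφ.1 (funext fun v => congrFun (congrFun h v) (Finset.mem_univ v))
  · obtain ⟨x, hx⟩ := hφ.2 fun v => p v (Finset.mem_univ v)
    exact ⟨x, Finset.mem_univ _, funext fun v => funext fun _ => congrFun hx v⟩
  · rw [← Finset.prod_attach V, ← Finset.univ_eq_attach,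
      ← Finset.prod_attach (Finset.univ : Finset V)]
    refine Finset.prod_congr rfl fun v _ => ?_
    conv_rhs => dsimp only; rw [← QuotientAddGroup.out_eq' x, hφm, (hg v.1.1 v.1.2).eq_out]

/-- The index of global boxes is the product of the local indices. -/
lemma relIndex_gBox (hlh : ∀ v, (lo v).1 ≤ (hi v).1 ∧ (lo v).2 ≤ (hi v).2)
    (hadm : ∀ v, Adm σ v (lo v) ∧ Adm σ v (hi v))
    (hV : ∀ v ∉ V, lo v = 0 ∧ hi v = 0) :
    (gBox σ hi).relIndex (gBox σ lo) = ∏ v ∈ V, boxCard σ v (hi v - lo v) := by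
  obtain ⟨φ, hφ, -⟩ := crt_bijective (σ := σ) hlh hV
  rw [AddSubgroup.relIndex, AddSubgroup.index, Nat.card_eq_of_bijective φ hφ, Nat.card_pi,
    ← Finset.prod_attach V (fun v => boxCard σ v (hi v - lo v))]
  exact Finset.prod_congr rfl fun v _ => relIndex_box hF hσ (hlh _).1 (hlh _).2
    (hadm _).1 (hadm _).2

omit hF hσ in
/-- The orders of a natural number are nonnegative. -/
lemma dOrd_nonneg (D : ℕ) (v : Pl F) : 0 ≤ (dOrd M σ D v).1 ∧ 0 ≤ (dOrd M σ D v).2 := by
  constructor <;>
  · simp only [dOrd]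
    exact_mod_cast CFT.ord_algebraMap_nonneg _ (D : 𝓞 M)

/-- The total volume of the box of `D` is `D` to the degree. -/
lemma prod_boxVol_dOrd {D : ℕ} (hD : D ≠ 0) (hVD : ∀ v ∉ V, dOrd M σ D v = 0) :
    ∏ v ∈ V, boxVol σ v (dOrd M σ D v) = (D : ℝ) ^ Module.finrank ℚ M := by
  have hhl : ∀ v, ((0 : Pl F → ℤ × ℤ) v).1 ≤ (dOrd M σ D v).1 ∧
      ((0 : Pl F → ℤ × ℤ) v).2 ≤ (dOrd M σ D v).2 :=
    fun v => dOrd_nonneg D v
  have h := relIndex_gBox hF hσ (lo := (0 : Pl F → ℤ × ℤ)) (hi := dOrd M σ D) (V := V) hhl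
    (fun v => ⟨fun _ => rfl, adm_dOrd hF hσ D v⟩) fun v hv => ⟨rfl, hVD v hv⟩
  set B := gBox σ (0 : Pl F → ℤ × ℤ)
  -- `𝓞 M` is the box at level `0`
  have hint : ∀ x : 𝓞 M, (x : M) ∈ B := fun x =>
    (mem_all_of_gBox_zero hF hσ).2 fun W => W.valuation_le_one x
  let f : 𝓞 M →+ B ⧸ (gBox σ (dOrd M σ D)).addSubgroupOf B :=
    (QuotientAddGroup.mk' _).comp
      (AddMonoidHom.codRestrict (algebraMap (𝓞 M) M).toAddMonoidHom _ hint)
  have hsurj : Function.Surjective f := fun q => by
    obtain ⟨⟨η, hη⟩, rfl⟩ := QuotientAddGroup.mk_surjective q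
    obtain ⟨r, rfl⟩ := HeightOneSpectrum.mem_integers_of_valuation_le_one M η
      ((mem_all_of_gBox_zero hF hσ).1 hη)
    exact ⟨r, rfl⟩
  -- inside it, the box at level `dOrd D` is the ideal `(D)`
  have hker : f.ker = (Ideal.span {(D : 𝓞 M)}).toAddSubgroup := by
    ext x
    simp only [f, AddMonoidHom.mem_ker, AddMonoidHom.coe_comp, Function.comp_apply,
      QuotientAddGroup.mk'_apply, QuotientAddGroup.eq_zero_iff, Submodule.mem_toAddSubgroup]
    rw [AddSubgroup.mem_addSubgroupOf, Ideal.mem_span_singleton']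
    change (x : M) ∈ gBox σ (dOrd M σ D) ↔ _
    rw [mem_gBox_dOrd hF hσ hD]
    constructor
    · rintro ⟨l, hl⟩
      exact ⟨l, RingOfIntegers.coe_injective (by push_cast; rw [mul_comm]; exact hl.symm)⟩
    · rintro ⟨l, hl⟩
      exact ⟨l, by rw [← hl]; push_cast; rw [mul_comm]⟩
  -- so the index is the norm of `(D)`
  have hcard : (gBox σ (dOrd M σ D)).relIndex B = D ^ Module.finrank ℚ M := by
    rw [← CFT.absNorm_span_natCast (K := M) D, Ideal.absNorm_apply, Submodule.cardQuot_apply,
      AddSubgroup.relIndex, AddSubgroup.index, ← Nat.card_congr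
      (QuotientAddGroup.quotientKerEquivOfSurjective f hsurj).toEquiv, hker]
    rfl
  rw [hcard] at h
  rw [← Nat.cast_pow, h, Nat.cast_prod]
  exact Finset.prod_congr rfl fun v _ => by
    rw [← boxCard_cast v (dOrd_nonneg D v).1 (dOrd_nonneg D v).2]
    simp

variable (δ : Fˣ)

omit hF hσ in
/-- Almost everywhere the dual exponents of zero are zero. -/
lemma eventually_dual_zero (hramfin : (ramPl (K := F) M).Finite) :
    ∀ᶠ v in cofinite, dual M δ v 0 = 0 := by
  filter_upwards [Mult.eventually_cnd_eq_zero, hramfin.compl_mem_cofinite,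
    eventually_cofinite.2 (CFT.finite_ord_ne_zero (δ : F))] with v h1 h2 h3
  have := plRamIdx_eq_one_of_not_ram h2 (plUnder_plOver (N := M) v)
  simp [dual, dd, this, eL, h1, h3]

omit hF hσ in
/-- Every element lies in the zero box at almost all places. -/
lemma eventually_mem_box_zero (y : M) : ∀ᶠ v in (cofinite : Filter (Pl F)), y ∈ box σ v 0 := by
  have h1 : ((fun W => plUnder F W) '' {W : Pl M | ¬ W.valuation M y ≤ 1}).Finite :=
    (eventually_cofinite.1 (eventually_valuation_le_one y)).image _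
  filter_upwards [h1.compl_mem_cofinite] with v hv
  constructor
  · simp only [Prod.fst_zero, neg_zero, WithZero.exp_zero]
    by_contra h
    exact hv ⟨plOver M v, h, plUnder_plOver v⟩
  · simp only [Prod.snd_zero, neg_zero, WithZero.exp_zero]
    by_contra h
    exact hv ⟨plConj σ v, h, plUnder_plConj v⟩

/-- **Global orthogonality implies local orthogonality**, in every residue characteristic. -/
theorem psiD_eq_one_of_global (hramfin : (ramPl (K := F) M).Finite) {D : ℕ} (hD : D ≠ 0) {y : M}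
    (hy : ∀ l : 𝓞 M, chiF ((δ : F) * pair σ ((D : M) * (l : M)) y) = 1) (v : Pl F) {l : M}
    (hl : l ∈ box σ v (dOrd M σ D v)) : psiD δ v (pair σ l y) = 1 := by
  by_contra hne
  have hev : ∀ᶠ u in cofinite, dual M δ u 0 = 0 ∧ y ∈ box σ u 0 ∧ dOrd M σ D u = 0 := by
    have h1 : ((fun W => plUnder F W) '' {W : Pl M | CFT.ord W (D : M) ≠ 0}).Finite :=
      (CFT.finite_ord_ne_zero (D : M)).image _
    filter_upwards [eventually_dual_zero δ hramfin, eventually_mem_box_zero y,
      h1.compl_mem_cofinite] with u a b c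
    refine ⟨a, b, Prod.ext ?_ ?_⟩ <;> by_contra h
    · exact c ⟨plOver M u, h, plUnder_plOver u⟩
    · exact c ⟨plConj σ u, h, plUnder_plConj u⟩
  set T : Finset (Pl F) := insert v (eventually_cofinite.1 hev).toFinset
  obtain ⟨N, hN⟩ : ∃ N : ℕ, ∀ u ∈ T, (dOrd M σ D u).1 ≤ N ∧ (dOrd M σ D u).2 ≤ N ∧
      y ∈ box σ u (dual M δ u ((N : ℤ), (N : ℤ))) := by
    let b : Pl F → ℕ := fun u => (max (max (dOrd M σ D u).1 (dOrd M σ D u).2)
      (max (-dd M δ u - CFT.ord (plOver M u) y) (-dd M δ u - CFT.ord (plConj σ u) y))).toNat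
    obtain ⟨N, hN⟩ := Finset.bddAbove (T.image b)
    refine ⟨N, fun u hu => ?_⟩
    have := hN (Finset.mem_coe.2 (Finset.mem_image_of_mem b hu))
    simp only [b] at this
    refine ⟨by omega, by omega, ?_⟩
    rcases eq_or_ne y 0 with rfl | h0
    · exact zero_mem _
    rw [mem_box_iff_ord h0]
    simp only [dual]
    omega
  -- approximate `l` at `v`, and `0` elsewhere, by a global element of the box
  obtain ⟨r, hr, hr'⟩ := Fermat.LT.exists_approx (F := M) (plAbove M T)
    (fun W => if plUnder F W = v then l else 0) N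
  have hrv : r - l ∈ box σ v ((N : ℤ), (N : ℤ)) := by
    have h1 := hr (plOver M v)
      (mem_plAbove.2 (by rw [plUnder_plOver]; exact Finset.mem_insert_self _ _))
    have h1' :=
      hr (plConj σ v) (mem_plAbove.2 (by rw [plUnder_plConj]; exact Finset.mem_insert_self _ _))
    rw [if_pos (plUnder_plOver v)] at h1
    rw [if_pos (plUnder_plConj v)] at h1'
    exact ⟨h1, h1'⟩
  have hru : ∀ u ∈ T, u ≠ v → r ∈ box σ u ((N : ℤ), (N : ℤ)) := fun u hu hne' => by
    have h1 := hr (plOver M u) (mem_plAbove.2 (by rwa [plUnder_plOver]))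
    have h1' := hr (plConj σ u) (mem_plAbove.2 (by rwa [plUnder_plConj]))
    rw [if_neg (by rwa [plUnder_plOver]), sub_zero] at h1
    rw [if_neg (by rwa [plUnder_plConj]), sub_zero] at h1'
    exact ⟨h1, h1'⟩
  have hro : ∀ u ∉ T, r ∈ box σ u 0 := fun u hu =>
    ⟨by simpa using hr' _ (fun h => hu (by rwa [mem_plAbove, plUnder_plOver] at h)),
      by simpa using hr' _ (fun h => hu (by rwa [mem_plAbove, plUnder_plConj] at h))⟩
  have hDT : ∀ u ∉ T, dOrd M σ D u = 0 := fun u hu => by
    simp only [T, Finset.mem_insert, Set.Finite.mem_toFinset, Set.mem_ofPred_eq, not_or,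
      not_not] at hu
    exact hu.2.2.2
  obtain ⟨l', hl'⟩ := (mem_gBox_dOrd hF hσ hD).1 (mem_gBox.2 fun u => show r ∈ _ by
    by_cases hu : u ∈ T
    · obtain ⟨hN1, hN2, -⟩ := hN u hu
      by_cases he : u = v
      · subst he
        rw [show r = l + (r - l) from (add_sub_cancel _ _).symm]
        exact add_mem hl (box_mono hN1 hN2 hrv)
      · exact box_mono hN1 hN2 (hru u hu he)
    · rw [hDT u hu]; exact hro u hu)
  -- so only the local character at `v` can be nontrivial at `pair σ r y`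
  have hone : ∀ u, u ≠ v → psiD δ u (pair σ r y) = 1 := fun u hu => by
    by_cases hT : u ∈ T
    · exact psiD_pair_eq_one δ hF hσ (hru u hT hu) (hN u hT).2.2
    · simp only [T, Finset.mem_insert, Set.Finite.mem_toFinset, Set.mem_ofPred_eq, not_or,
        not_not] at hT
      exact psiD_pair_eq_one δ hF hσ (hro u (by simp [T, hT]))
        (by rw [hT.2.1]; exact hT.2.2.1)
  have h := hy l'
  rw [← hl', ← finprod_psi,
    show (∏ᶠ u, psi u ((δ : F) * pair σ r y)) = ∏ᶠ u, psiD δ u (pair σ r y) from rfl,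
    finprod_eq_single _ v fun u hu => hone u hu] at h
  refine hne ?_
  change psiD δ v (pair σ r y) = 1 at h
  clear hone
  rwa [show r = (r - l) + l by ring, pair_add_left, psiD_add,
    psiD_pair_eq_one δ hF hσ hrv (hN v (Finset.mem_insert_self _ _)).2.2, one_mul] at h

/-- The dual box of a globally orthogonal element. -/
theorem dual_of_global (hramfin : (ramPl (K := F) M).Finite)
    (h2 : ∀ v ∈ ramPl (K := F) M, v.valuation F (2 : F) = 1) {D : ℕ} (hD : D ≠ 0) {y : M}
    (hy : ∀ l : 𝓞 M, chiF ((δ : F) * pair σ ((D : M) * (l : M)) y) = 1) (v : Pl F) :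
    y ∈ box σ v (dual M δ v (dOrd M σ D v)) := by
  by_contra hn
  obtain ⟨l, hl, hne⟩ := exists_pair_psiD_ne δ hF hσ (h2 v) (adm_dOrd hF hσ D v) hn
  exact hne (psiD_eq_one_of_global hF hσ δ hramfin hD hy v hl)

end Fermat.LT.Theta
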