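import Fermat.Agent.LT.Theta.NormFacts
import Fermat.Agent.LT.Approx
import Fermat.Agent.CFT.Kummer.LocalPower

/-!
# Reciprocity for sub-extensions of cyclotomic extensions and its transfer by norms

`autToPow_art_eq_one` is the reciprocity: an element congruent to one modulo `n` has trivial Artin
map on the `n`-th roots of unity.
-/

set_option autoImplicit false
set_option linter.unusedSectionVars false

noncomputable section

open NumberField IsDedekindDomain Fermat.CFT
open scoped Pointwise Classical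

namespace Fermat.LT.Theta

variable {E Ω : Type} [Field E] [NumberField E] [Field Ω] [NumberField Ω] [Algebra E Ω]
  [IsGalois E Ω] {n : ℕ} [NeZero n] {ζ : Ω}

/-- A Frobenius raises roots of unity of order prime to the residue characteristic to its power. -/
lemma apply_root_of_congr {g : Ω ≃ₐ[E] Ω} {W : Pl Ω} (hζ : IsPrimitiveRoot ζ n)
    (hg : Congr g W (resCard (plUnder E W))) (hn : (n : 𝓞 Ω) ∉ W.asIdeal) :
    g ζ = ζ ^ resCard (plUnder E W) := by
  let z : 𝓞 Ω := ⟨ζ, hζ.isIntegral (NeZero.pos n)⟩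
  have hcard : Nat.card (𝓞 E ⧸ W.asIdeal.under (𝓞 E)) = resCard (plUnder E W) := by
    rw [resCard, Ideal.absNorm_apply, Submodule.cardQuot_apply]; rfl
  have H : (MulSemiringAction.toAlgHom (𝓞 E) (𝓞 Ω) g).IsArithFrobAt W.asIdeal := fun x => by
    rw [hcard]; exact hg x
  have h := H.apply_of_pow_eq_one (ζ := z) (m := n)
    (RingOfIntegers.ext (show ζ ^ n = 1 from hζ.pow_eq_one)) hn
  rw [hcard] at h
  have h' := congrArg (fun y : 𝓞 Ω => (y : Ω)) h
  simp only [map_pow] at h'
  exact h'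

/-- On roots of unity Frobenius is the power of the residue count. -/
lemma autToPow_frob (hζ : IsPrimitiveRoot ζ n) {g : Ω ≃ₐ[E] Ω} {W : Pl Ω}
    (hg : Congr g W (resCard (plUnder E W))) (hn : (n : 𝓞 Ω) ∉ W.asIdeal) :
    ((hζ.autToPow E g : (ZMod n)ˣ) : ZMod n) = (resCard (plUnder E W) : ZMod n) := by
  have h1 := hζ.autToPow_spec E g
  rw [apply_root_of_congr hζ hg hn] at h1
  have h2 := pow_eq_pow_iff_modEq.mp
    (show (hζ.toRootsOfUnity : rootsOfUnity n Ω) ^ ((hζ.autToPow E g : (ZMod n)ˣ) : ZMod n).val =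
      hζ.toRootsOfUnity ^ resCard (plUnder E W) from rootsOfUnity.coe_injective (by
        simpa [rootsOfUnity.coe_pow] using! h1))
  rw [← Subgroup.orderOf_coe, ← orderOf_units, IsPrimitiveRoot.val_toRootsOfUnity_coe,
    ← hζ.eq_orderOf, ← ZMod.natCast_eq_natCast_iff, ZMod.natCast_zmod_val] at h2
  exact h2

/-- A natural number lies in a prime exactly when it lies in the prime below. -/
lemma natCast_mem_plUnder (W : Pl Ω) (m : ℕ) :
    (m : 𝓞 E) ∈ (plUnder E W).asIdeal ↔ (m : 𝓞 Ω) ∈ W.asIdeal := by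
  rw [asIdeal_plUnder, Ideal.under, Ideal.mem_comap, map_natCast]

/-- The residue cardinality of a place as a unit modulo `n`, when it is one. -/
private def resCardUnit (n : ℕ) (w : Pl E) : (ZMod n)ˣ :=
  if h : IsUnit (resCard w : ZMod n) then h.unit else 1

/-- Away from `n` the cyclotomic character of a Frobenius is the residue cardinality. -/
private lemma autToPow_frobPl (hζ : IsPrimitiveRoot ζ n) {w : Pl E} (hw : (n : 𝓞 E) ∉ w.asIdeal) :
    ((hζ.autToPow E (frobPl Ω w) : (ZMod n)ˣ) : ZMod n) = (resCard w : ZMod n) := by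
  have hn : (n : 𝓞 Ω) ∉ (plOver Ω w).asIdeal := by
    rwa [← natCast_mem_plUnder (E := E), plUnder_plOver]
  have := autToPow_frob hζ (congr_frobEl (K := E) (plOver Ω w)) hn
  rwa [plUnder_plOver] at this

/-- Away from `n` the cyclotomic character of a Frobenius is that unit. -/
private lemma autToPow_frobPl_eq (hζ : IsPrimitiveRoot ζ n) {w : Pl E}
    (hw : (n : 𝓞 E) ∉ w.asIdeal) :
    hζ.autToPow E (frobPl Ω w) = resCardUnit n w := by
  have hu : IsUnit (resCard w : ZMod n) := autToPow_frobPl hζ hw ▸ Units.isUnit _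
  refine Units.ext ?_
  simp only [resCardUnit, dif_pos hu, IsUnit.unit_spec]
  exact autToPow_frobPl hζ hw

/-- For an integer congruent to one modulo `n` the product of residue cardinalities is one. -/
private lemma finprod_resCardUnit_eq_one [IsTotallyComplex E] (hζ : IsPrimitiveRoot ζ n) {c : 𝓞 E}
    (hc : c ≠ 0) (hcn : (n : 𝓞 E) ∣ c - 1) : ∏ᶠ w, resCardUnit n w ^ CFT.ord w (c : E) = 1 := by
  have hc0 : ∀ w : Pl E, (n : 𝓞 E) ∈ w.asIdeal → CFT.ord w (c : E) = 0 := by
    intro w hw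
    refine (CFT.ord_algebraMap_eq_zero_iff w hc).mpr fun hcw => w.isPrime.ne_top ?_
    obtain ⟨d, hd⟩ := hcn
    rw [Ideal.eq_top_iff_one, show (1 : 𝓞 E) = c - (n : 𝓞 E) * d by rw [← hd]; ring]
    exact w.asIdeal.sub_mem hcw (Ideal.mul_mem_right _ _ hw)
  apply Units.ext
  rw [Units.val_one, ← Units.coeHom_apply, (Units.coeHom (ZMod n)).map_finprod
    ((CFT.finite_ord_ne_zero (c : E)).subset fun w hw h => hw (by simp [h]))]
  have h2 := finprod_resCard_pow (Nat.castRingHom (ZMod n)).toMonoidHom hc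
  have h3 : ((Algebra.norm ℤ c).natAbs : ZMod n) = 1 := by
    have := norm_intCast_eq_one hcn
    rw [← Int.natAbs_of_nonneg (norm_int_nonneg c), Int.cast_natCast] at this
    exact this
  refine (finprod_congr fun w => ?_).trans (h2.trans h3)
  have hnn := CFT.ord_algebraMap_nonneg w c
  rw [Units.coeHom_apply]
  by_cases hw : (n : 𝓞 E) ∈ w.asIdeal
  · simp [hc0 w hw]
  · rw [← Int.toNat_of_nonneg hnn, zpow_natCast, Units.val_pow_eq_pow_val,
      ← autToPow_frobPl_eq hζ hw, autToPow_frobPl hζ hw, Int.toNat_natCast]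
    rfl

/-- An integer is divisible by `n` as soon as it is so at every place. -/
private lemma natCast_dvd_of_ord_le {r : 𝓞 E}
    (hr : ∀ w : Pl E, (r : E) = 0 ∨ CFT.ord w (n : E) ≤ CFT.ord w (r : E)) : (n : 𝓞 E) ∣ r := by
  obtain ⟨q, hq⟩ := HeightOneSpectrum.mem_integers_of_valuation_le_one E ((r : E) / n) fun w => by
    rcases hr w with h | h
    · simp [h]
    · rcases eq_or_ne (r : E) 0 with h0 | h0
      · simp [h0]
      have hne : ((r : E) / n) ≠ 0 := div_ne_zero h0 (by exact_mod_cast NeZero.ne n)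
      rw [← WithZero.exp_zero, ← neg_zero, ← CFT.le_ord_iff w hne,
        CFT.ord_div w h0 (by exact_mod_cast NeZero.ne n)]
      omega
  exact ⟨q, RingOfIntegers.ext (by
    change algebraMap (𝓞 E) E r = algebraMap (𝓞 E) E ((n : 𝓞 E) * q)
    rw [map_mul, map_natCast, hq]
    field_simp [show (n : E) ≠ 0 by exact_mod_cast NeZero.ne n])⟩

/-- Away from `n` the order of `n` is zero. -/
private lemma ord_natCast_eq_zero {w : Pl E} (hw : (n : 𝓞 E) ∉ w.asIdeal) :
    CFT.ord w (n : E) = 0 := by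
  have := (CFT.ord_algebraMap_eq_zero_iff w (show (n : 𝓞 E) ≠ 0 by exact_mod_cast NeZero.ne n)).mpr
    hw
  simpa using this

/-- Some place contains `n > 1`. -/
private lemma exists_natCast_mem (hn1 : 1 < n) : ∃ w : Pl E, (n : 𝓞 E) ∈ w.asIdeal := by
  have hn0 : (n : 𝓞 E) ≠ 0 := by exact_mod_cast NeZero.ne n
  obtain ⟨M, hM, hle⟩ := Ideal.exists_le_maximal (Ideal.span {(n : 𝓞 E)}) fun h => by
    have h1 := congrArg Ideal.absNorm h
    rw [CFT.absNorm_span_natCast, Ideal.absNorm_top] at h1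
    exact (Nat.one_lt_pow Module.finrank_pos.ne' hn1).ne' h1
  have hmem := hle (Ideal.mem_span_singleton_self _)
  exact ⟨⟨M, hM.isPrime, fun h => hn0 (by simpa [h] using hmem)⟩, hmem⟩

/-- A denominator of `x` away from `n` which is congruent to one modulo `n`. -/
private lemma exists_denominator (hn1 : 1 < n) (x : E) :
    ∃ b : 𝓞 E, b ≠ 0 ∧
      (∀ w : Pl E, (n : 𝓞 E) ∈ w.asIdeal → (b : E) = 1 ∨ CFT.ord w (n : E) ≤
        CFT.ord w ((b : E) - 1)) ∧
      ∀ w : Pl E, (n : 𝓞 E) ∉ w.asIdeal → 0 ≤ CFT.ord w x + CFT.ord w (b : E) := by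
  have hn0 : (n : 𝓞 E) ≠ 0 := by exact_mod_cast NeZero.ne n
  set Sn := (CFT.finite_ord_ne_zero (n : E)).toFinset
  set Sx := (CFT.finite_ord_ne_zero x).toFinset
  -- a bound on the relevant orders
  obtain ⟨m, hm⟩ : ∃ m : ℕ, ∀ w ∈ Sn ∪ Sx, CFT.ord w (n : E) ≤ m ∧ -CFT.ord w x ≤ m := by
    obtain ⟨m, hm⟩ := Finset.bddAbove
      ((Sn ∪ Sx).image fun w => max (CFT.ord w (n : E)).toNat (-CFT.ord w x).toNat)
    refine ⟨m, fun w hw => ?_⟩
    have := hm (Finset.mem_coe.2 (Finset.mem_image_of_mem _ hw))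
    constructor <;> omega
  -- approximate `1` at the places over `n` and `0` at the poles of `x`
  obtain ⟨y, hy, hy'⟩ := Fermat.LT.exists_approx (F := E) (Sn ∪ Sx)
    (fun w => if (n : 𝓞 E) ∈ w.asIdeal then 1 else 0) (m + 1)
  have hyint : ∀ w : Pl E, w.valuation E y ≤ 1 := by
    intro w
    by_cases hw : w ∈ Sn ∪ Sx
    · have h := hy w hw
      have h1 : WithZero.exp (-((m + 1 : ℕ) : ℤ)) ≤ (1 : WithZero (Multiplicative ℤ)) := by
        rw [← WithZero.exp_zero, WithZero.exp_le_exp]; omega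
      split_ifs at h with hc
      · calc w.valuation E y = w.valuation E ((y - 1) + 1) := by ring_nf
          _ ≤ _ := (w.valuation E).map_add _ _
          _ ≤ 1 := max_le (h.trans h1) (by simp)
      · rw [sub_zero] at h; exact h.trans h1
    · exact hy' w hw
  obtain ⟨b, hb⟩ := HeightOneSpectrum.mem_integers_of_valuation_le_one E y hyint
  have hbe : (b : E) = y := hb
  have hnear : ∀ w : Pl E, (n : 𝓞 E) ∈ w.asIdeal →
      CFT.ord w (n : E) ≤ m ∧ ((b : E) = 1 ∨ ((m : ℤ) + 1 ≤ CFT.ord w ((b : E) - 1))) := by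
    intro w hw
    have hwS : w ∈ Sn ∪ Sx :=
        Finset.mem_union_left _ ((CFT.finite_ord_ne_zero _).mem_toFinset.mpr (by
      have := (CFT.ord_algebraMap_pos_iff w hn0).mpr hw
      simp only [map_natCast] at this
      exact this.ne'))
    refine ⟨(hm w hwS).1, ?_⟩
    by_cases hb1 : (b : E) = 1
    · exact Or.inl hb1
    refine Or.inr ?_
    have h := hy w hwS
    rw [if_pos hw, ← hbe] at h
    rw [CFT.le_ord_iff w (sub_ne_zero.mpr hb1)]
    simpa using h
  obtain ⟨w₀, hw₀⟩ := exists_natCast_mem (E := E) hn1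
  have hb0 : b ≠ 0 := by
    rintro rfl
    rcases (hnear w₀ hw₀).2 with h | h
    · simp at h
    · simp [zero_sub] at h; omega
  refine ⟨b, hb0, fun w hw => (hnear w hw).2.imp_right fun h => by have := (hnear w hw).1; omega,
    fun w hwn => ?_⟩
  have hbnn := CFT.ord_algebraMap_nonneg w b
  by_cases hneg : 0 ≤ CFT.ord w x
  · omega
  have hwS : w ∈ Sn ∪ Sx := Finset.mem_union_right _
    ((CFT.finite_ord_ne_zero _).mem_toFinset.mpr (show CFT.ord w x ≠ 0 by omega))
  have h := hy w hwS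
  rw [if_neg hwn, sub_zero, ← hbe, ← CFT.le_ord_iff w (by simpa using hb0)] at h
  have := (hm w hwS).2
  push_cast at h
  omega

/-- A representation `x = a / b` with `a ≡ b ≡ 1` modulo `n`. -/
private lemma exists_fraction_one_mod (hn1 : 1 < n) {x : E} (hx : x ≠ 0)
    (hx0 : ∀ w : Pl E, (n : 𝓞 E) ∈ w.asIdeal → CFT.ord w x = 0)
    (hxn : ∀ w : Pl E, (n : 𝓞 E) ∈ w.asIdeal → CFT.CloseOne w (CFT.ord w (n : E)) x) :
    ∃ b : 𝓞 E, b ≠ 0 ∧ (n : 𝓞 E) ∣ b - 1 ∧
      ∃ a : 𝓞 E, a ≠ 0 ∧ (n : 𝓞 E) ∣ a - 1 ∧ x * (b : E) = (a : E) := by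
  obtain ⟨b, hb0, hord1, hden⟩ := exists_denominator hn1 x
  have hb0' : (b : E) ≠ 0 := by simpa using hb0
  -- `b` is congruent to one
  have hbdiv : (n : 𝓞 E) ∣ b - 1 := by
    refine natCast_dvd_of_ord_le fun w => ?_
    rw [show ((b - 1 : 𝓞 E) : E) = (b : E) - 1 by simp]
    by_cases hw : (n : 𝓞 E) ∈ w.asIdeal
    · exact (hord1 w hw).imp_left (fun h => by rw [h, sub_self])
    · refine Or.inr ?_
      rw [ord_natCast_eq_zero hw]
      have := CFT.ord_algebraMap_nonneg w (b - 1)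
      simpa using this
  -- `x b` is integral
  have hxb : ∀ w : Pl E, w.valuation E (x * (b : E)) ≤ 1 := by
    intro w
    rw [← WithZero.exp_zero, ← neg_zero, ← CFT.le_ord_iff w (mul_ne_zero hx hb0'),
      CFT.ord_mul w hx hb0']
    by_cases hw : (n : 𝓞 E) ∈ w.asIdeal
    · have hbnn := CFT.ord_algebraMap_nonneg w b
      rw [hx0 w hw]
      omega
    · exact hden w hw
  obtain ⟨a, ha⟩ := HeightOneSpectrum.mem_integers_of_valuation_le_one E _ hxb
  have hae : (a : E) = x * (b : E) := ha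
  refine ⟨b, hb0, hbdiv, a, fun h => ?_, natCast_dvd_of_ord_le fun w => ?_, hae.symm⟩
  · rw [h] at hae
    exact mul_ne_zero hx hb0' (by simpa using hae.symm)
  · rw [show ((a - 1 : 𝓞 E) : E) = (a : E) - 1 by simp, hae]
    by_cases hw : (n : 𝓞 E) ∈ w.asIdeal
    · have e : x * (b : E) - 1 = (x - 1) * (b : E) + ((b : E) - 1) := by ring
      rcases eq_or_ne (x * (b : E) - 1) 0 with h0 | h0
      · exact Or.inl h0
      refine Or.inr ?_
      rw [e] at h0 ⊢
      refine CFT.ord_add_ge w h0 ?_ ((hord1 w hw).imp_left fun h => by rw [h, sub_self])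
      rcases hxn w hw with rfl | h
      · exact Or.inl (by simp)
      · rcases eq_or_ne x 1 with h1 | h1
        · exact Or.inl (by simp [h1])
        refine Or.inr ?_
        rw [CFT.ord_mul w (sub_ne_zero.mpr h1) hb0']
        have := CFT.ord_algebraMap_nonneg w b
        omega
    · refine Or.inr ?_
      rw [ord_natCast_eq_zero hw, ← hae]
      have := CFT.ord_algebraMap_nonneg w (a - 1)
      simpa using this

/-- Reciprocity for a sub-extension of a cyclotomic extension. -/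
theorem autToPow_art_eq_one [IsTotallyComplex E] (hζ : IsPrimitiveRoot ζ n) (hn1 : 1 < n)
    (T : Set (Pl E)) (hT : ∀ w : Pl E, (n : 𝓞 E) ∈ w.asIdeal → w ∈ T) {x : E} (hx : x ≠ 0)
    (hxT : ∀ w ∈ T, CFT.ord w x = 0)
    (hxn : ∀ w : Pl E, (n : 𝓞 E) ∈ w.asIdeal → CFT.CloseOne w (CFT.ord w (n : E)) x) :
    art (hζ.autToPow E) T x = 1 := by
  set F : Pl E → (ZMod n)ˣ := resCardUnit n
  obtain ⟨b, hb0, hbn, a, ha0, han, hab⟩ :=
    exists_fraction_one_mod hn1 hx (fun w hw => hxT w (hT w hw)) hxn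
  have hart : art (hζ.autToPow E) T x = ∏ᶠ w, F w ^ CFT.ord w x := by
    refine finprod_congr fun w => ?_
    by_cases hw : w ∈ T
    · simp [hw, hxT w hw]
    · rw [if_neg hw, autToPow_frobPl_eq hζ fun h => hw (hT w h)]
  have hfin : ∀ z : E, (Function.mulSupport fun w => F w ^ CFT.ord w z).Finite := fun z =>
    (CFT.finite_ord_ne_zero z).subset fun w hw h => hw (by simp [h])
  have hmul : (∏ᶠ w, F w ^ CFT.ord w x) * ∏ᶠ w, F w ^ CFT.ord w (b : E) =
      ∏ᶠ w, F w ^ CFT.ord w (a : E) := by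
    rw [← finprod_mul_distrib (hfin _) (hfin _)]
    refine finprod_congr fun w => ?_
    rw [← zpow_add, ← CFT.ord_mul w hx (by simpa using hb0), hab]
  rw [finprod_resCardUnit_eq_one hζ hb0 hbn, finprod_resCardUnit_eq_one hζ ha0 han, mul_one] at hmul
  rw [hart, hmul]

end Fermat.LT.Theta
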