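import Fermat.Agent.CFT.Kummer.LocalPower
import Fermat.Agent.LT.Theta.Artin

/-!
# The Hecke character data used to build the theta form

`HData` packs an idèle class character of order four of `M/F` as values at primes and local
components over `3`.
-/

set_option autoImplicit false

noncomputable section

open NumberField Fermat.CFT
open scoped Classical

namespace Fermat.LT.Theta

/-- A character of order four of the idèle classes of a quadratic extension `M/F`, given by its
values `th` at the primes not over `3` and its tame local components `θ` at the primes over `3`,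
inverted by the conjugation `σ`, together with the eigenvalues `lam` it induces on `F`. -/
structure HData {F M : Type} [Field F] [NumberField F] [Field M] [NumberField M] [Algebra F M]
    (σ : M ≃ₐ[F] M) (lam : Pl F → ℝ) where
  /-- `M/F` is quadratic. -/
  finrank : Module.finrank F M = 2
  /-- `M/F` is Galois. -/
  galois : IsGalois F M
  /-- `σ` is the nontrivial automorphism. -/
  σ_ne : σ ≠ 1
  /-- The residue fields over `3` have three elements. -/
  q3 : ∀ w : Pl F, (3 : 𝓞 F) ∈ w.asIdeal → resCard w = 3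
  /-- The values at the primes not over `3`. -/
  th : Pl M → ℂˣ
  /-- The values are fourth roots of unity. -/
  th_four : ∀ P, th P ^ 4 = 1
  /-- Conjugation inverts the values away from `3`. -/
  th_σ : ∀ P : Pl M, (3 : 𝓞 M) ∉ P.asIdeal → th (σ • P) = (th P)⁻¹
  /-- The value at an inert prime away from `3` is `-1`. -/
  th_inert : ∀ P : Pl M, (3 : 𝓞 M) ∉ P.asIdeal → σ • P = P → th P = -1
  /-- `M/F` is unramified away from `3`. -/
  unram : ∀ P : Pl M, (3 : 𝓞 M) ∉ P.asIdeal → plRamIdx F P = 1
  /-- The finite set of primes of `M` over `3`. -/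
  sM : Finset (Pl M)
  /-- Membership in `sM` means lying over `3`. -/
  mem_sM : ∀ u : Pl M, u ∈ sM ↔ (3 : 𝓞 M) ∈ u.asIdeal
  /-- The local components at the primes over `3`. -/
  θ : Pl M → Mˣ →* ℂˣ
  /-- The local components take fourth roots of unity as values. -/
  θ_four : ∀ u x, θ u x ^ 4 = 1
  /-- The local components are trivial on elements congruent to one. -/
  θ_one : ∀ u ∈ sM, ∀ x : Mˣ, CloseOne u 1 (x : M) → θ u x = 1
  /-- Conjugation inverts the local components. -/
  θ_σ : ∀ u ∈ sM, ∀ x : Mˣ, θ u (Units.map (σ : M →* M) x) = (θ u x)⁻¹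
  /-- Conjugation fixes the primes over `3`. -/
  stable : ∀ u ∈ sM, σ • u = u
  /-- Over `3`: inert with a unit sent to `±i`, or ramified with `θ (-1) = -1`. -/
  dich : ∀ u ∈ sM, (plRamIdx F u = 1 ∧ resCard u = 9 ∧
      ∃ y : Mˣ, ord u (y : M) = 0 ∧ θ u y ^ 2 = -1) ∨
    (plRamIdx F u = 2 ∧ resCard u = 3 ∧ θ u (-1) = -1)
  /-- Some prime over `3` is ramified. -/
  exists_ram : ∃ u ∈ sM, plRamIdx F u = 2
  /-- The character is trivial on `Mˣ`. -/
  prod : ∀ x : Mˣ, (∏ᶠ P : Pl M, if (3 : 𝓞 M) ∈ P.asIdeal then 1 else th P ^ ord P (x : M)) *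
    ∏ u ∈ sM, θ u x = 1
  /-- The induced eigenvalue at a split place is `√(N v) (th P + (th P)⁻¹)`. -/
  lam_split : ∀ P : Pl M, (3 : 𝓞 M) ∉ P.asIdeal → σ • P ≠ P →
    (lam (plUnder F P) : ℂ) =
      (Real.sqrt (resCard (plUnder F P)) : ℂ) * ((th P : ℂ) + ((th P)⁻¹ : ℂˣ))
  /-- The induced eigenvalue at an inert place is zero. -/
  lam_inert : ∀ P : Pl M, (3 : 𝓞 M) ∉ P.asIdeal → σ • P = P → lam (plUnder F P) = 0

end Fermat.LT.Theta
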