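import Fermat.Agent.LT.Theta.Product

/-!
# Reciprocity for cyclic extensions of degree `4` and of degree `2`

`exists_art_eq_one` is the reciprocity in degree four, from the norm theorem
`exists_norm_eq_of_nonNorm_eq_empty` and `exists_h90`.
-/

set_option autoImplicit false
set_option linter.unusedSectionVars false

noncomputable section

open NumberField Fermat.CFT
open scoped Classical

namespace Fermat.LT.Theta

variable {K : Type} [Field K] [NumberField K] [IsTotallyComplex K]
  {F : Type} [Field F] [NumberField F] [Algebra K F] [IsGalois K F]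

section Quadratic

variable (hF : Module.finrank K F = 2) {σ : F ≃ₐ[K] F} (hσ : σ ≠ 1)

include hF hσ

/-- The norm theorem. -/
theorem exists_norm_eq_of_nonNorm_eq_empty {x : Kˣ} (hx : nonNorm σ x = ∅) :
    ∃ y : Fˣ, Algebra.norm K (y : F) = (x : K) := by
  obtain ⟨y, hy⟩ := exists_norm_eq_of_localNorms' hF hσ (neg_one_primitive (K := K)) x.ne_zero
    fun v hv => by
      rw [Units.mk0_val]
      by_contra h
      exact (Set.eq_empty_iff_forall_notMem.mp hx v) ⟨hv, h⟩
  exact ⟨Units.mk0 y fun h => x.ne_zero (by rw [← hy, h, Algebra.norm_zero]), hy⟩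

/-- Applying the conjugation twice gives back the element. -/
lemma sigma_sigma (x : F) : σ (σ x) = x := by
  rw [← AlgEquiv.mul_apply, ← pow_two,
    show σ ^ 2 = 1 by
      rw [← orderOf_generator hF hσ]; exact pow_orderOf_eq_one σ, AlgEquiv.one_apply]

/-- Hilbert 90 to finite precision. -/
theorem exists_h90 (n : ℕ) : ∃ L : ℕ → Pl F → ℕ, ∀ w : Pl F, ∀ η : F, η ≠ 0 →
    CloseOne w (L n w : ℤ) (η * σ η) →
      ∃ z : F, z ≠ 0 ∧ σ z ≠ 0 ∧ CloseOne w (n : ℤ) (η * σ z / z) := by
  obtain ⟨α, a, hα0, hα, hσα⟩ := exists_kummer_generator hF hσ (neg_one_primitive (K := K))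
  have hσα' : σ α = -α := by rw [hσα, map_neg, map_one, neg_one_mul]
  refine ⟨fun n w => n + (CFT.ord w (2 : F)).toNat + 1, fun w η hη hcl => ?_⟩
  have h2 : (2 : F) ≠ 0 := two_ne_zero
  have h2i : 0 ≤ CFT.ord w (2 : F) := by
    have := CFT.ord_algebraMap_nonneg w (2 : 𝓞 F)
    simpa [map_ofNat] using this
  -- choose the trial element
  obtain ⟨b, hb0, hσb, hz0, hzo⟩ : ∃ b : F, b ≠ 0 ∧ (σ b = b ∨ σ b = -b) ∧
      b + η * σ b ≠ 0 ∧ CFT.ord w (b + η * σ b) ≤ CFT.ord w b + CFT.ord w (2 : F) := by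
    by_cases h : (1 + η ≠ 0 ∧ CFT.ord w (1 + η) ≤ CFT.ord w (2 : F))
    · exact ⟨1, one_ne_zero, Or.inl (map_one σ), by simpa using h.1, by simpa using h.2⟩
    refine ⟨α, hα0, Or.inr hσα', ?_⟩
    have e : α + η * σ α = α * (1 - η) := by rw [hσα']; ring
    rw [e]
    have h1 : (1 + η) = 0 ∨ CFT.ord w (2 : F) < CFT.ord w (1 + η) := by
      by_cases h0 : 1 + η = 0
      · exact Or.inl h0
      · exact Or.inr (not_le.mp fun hle => h ⟨h0, hle⟩)
    have hne : (1 : F) - η ≠ 0 ∧ CFT.ord w (1 - η) = CFT.ord w (2 : F) := by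
      have e2 : (1 : F) - η = 2 + -(1 + η) := by ring
      rcases h1 with h1 | h1
      · rw [e2, h1, neg_zero, add_zero]; exact ⟨h2, rfl⟩
      · have hlt := CFT.ord_add_eq_of_lt w (x := (2 : F)) (y := -(1 + η)) h2
          (Or.inr (by rwa [CFT.ord_neg]))
        refine ⟨fun h0 => ?_, by rw [e2, hlt]⟩
        have : -(1 + η) = -2 := by linear_combination h0
        rw [neg_inj] at this
        rw [this] at h1
        exact lt_irrefl _ h1
    exact ⟨mul_ne_zero hα0 hne.1, by rw [CFT.ord_mul w hα0 hne.1, hne.2]⟩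
  set z := b + η * σ b with hz
  have hσz : σ z = σ b + σ η * b := by rw [hz, map_add, map_mul, sigma_sigma hF hσ]
  refine ⟨z, hz0, (map_ne_zero σ).mpr hz0, ?_⟩
  have e : η * σ z = z + b * (η * σ η - 1) := by rw [hσz, hz]; ring
  rw [e, add_div, div_self hz0]
  rcases eq_or_ne (η * σ η) 1 with h1 | h1
  · exact Or.inl (by rw [h1, sub_self, mul_zero, zero_div, add_zero])
  refine Or.inr ?_
  rw [add_sub_cancel_left, CFT.ord_div w (mul_ne_zero hb0 (sub_ne_zero.mpr h1)) hz0,
    CFT.ord_mul w hb0 (sub_ne_zero.mpr h1)]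
  have h3 := hcl.resolve_left h1
  push_cast at h3
  omega

/-- If the norm of `η` is close to `1` at a place then so is `η * σ η` at the places above it. -/
lemma closeOne_mul_conj (η : Fˣ) (w : Pl F) {k n : ℕ} (hk : k ≤ n)
    (h : CloseOne (plUnder K w) (n : ℤ) (Algebra.norm K (η : F))) :
    CloseOne w (k : ℤ) ((η : F) * σ η) := by
  have hprod : (η : F) * σ η = algebraMap K F (Algebra.norm K (η : F)) := by
    rw [algebraMap_norm_eq_prod_pow hF hσ, show Finset.range 2 = {0, 1} by decide,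
      Finset.prod_pair zero_ne_one]
    simp
  rw [hprod]
  rcases h with h | h
  · exact Or.inl (by rw [h, map_one])
  · refine Or.inr ?_
    rw [← map_one (algebraMap K F), ← map_sub, CFT.ord_algebraMap_eq]
    have := plRamIdx_pos (K := K) w
    have : (1 : ℤ) ≤ plRamIdx K w := by exact_mod_cast this
    have h' : (k : ℤ) ≤ CFT.ord (plUnder K w) (Algebra.norm K (η : F) - 1) :=
      le_trans (by exact_mod_cast hk) h
    exact h'.trans (le_mul_of_one_le_left ((Int.natCast_nonneg k).trans h') this)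

/-- An element can be twisted by a coboundary into one close to `1` above `T`, if this is possible
place by place and its norm is close to `1` there. -/
lemma exists_twist_closeOne (T : Finset (Pl K)) (η : Fˣ) {m : ℕ}
    (htarget : ∀ w ∈ plAbove F T, ∃ z : Fˣ,
      CloseOne w ((m + 1 : ℕ) : ℤ) ((η : F) * σ z / (z : F)))
    (hup : ∀ w ∈ plAbove F T, CloseOne w ((m + 1 : ℕ) : ℤ) ((η : F) * σ η)) :
    ∃ η' : Fˣ, Algebra.norm K (η' : F) = Algebra.norm K (η : F) ∧
      ∀ w ∈ plAbove F T, CloseOne w ((m + 1 : ℕ) : ℤ) (η' : F) := by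
  choose! zw hzw using htarget
  -- targets agreeing on conjugate places
  set tgt : Pl F → Fˣ := fun u =>
    if σ • u = u then zw u
    else if u = plOver F (plUnder K u) then η else 1 with htgt
  obtain ⟨z, hzappr⟩ := exists_units_approx (plAbove F T) tgt (m + 1)
  set η' : Fˣ := η * Units.map (σ : F →* F) z / z with hη'
  refine ⟨η', by
    rw [hη', Units.val_div_eq_div_val, Units.val_mul, div_eq_mul_inv, map_mul, map_mul,
      Algebra.norm_inv, Units.coe_map, MonoidHom.coe_coe,
      Algebra.norm_eq_of_algEquiv σ, mul_inv_cancel_right₀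
        (Algebra.norm_ne_zero_iff.mpr z.ne_zero)], fun w hw => ?_⟩
  have hσw : σ • w ∈ plAbove F T := mem_plAbove.mpr (by rw [plUnder_smul]; exact mem_plAbove.mp hw)
  have hσσ : σ • σ • w = w := by
    rw [smul_smul, show σ * σ = 1 by
      rw [← pow_two, ← orderOf_generator hF hσ]; exact pow_orderOf_eq_one σ, one_smul]
  have hpos : (0 : ℤ) < ((m + 1 : ℕ) : ℤ) := Int.natCast_pos.mpr m.succ_pos
  have h1 := hzappr w hw
  have h2 := closeOne_smul σ (hzappr (σ • w) hσw)
  rw [hσσ, smul_div₀', AlgEquiv.smul_def, AlgEquiv.smul_def] at h2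
  have hz1 : (z : F) / (tgt w : F) ≠ 0 := div_ne_zero z.ne_zero (Units.ne_zero _)
  have h3 := h2.mul hpos (h1.inv hpos hz1) (inv_ne_zero hz1)
  have hA : CloseOne w ((m + 1 : ℕ) : ℤ) ((η : F) * σ (tgt (σ • w) : F) / (tgt w : F)) := by
    rw [htgt]
    by_cases hfix : σ • w = w
    · simp only [hfix, if_true]; exact hzw w hw
    · have hfix' : σ • σ • w ≠ σ • w := fun h => hfix (smul_left_cancel σ h)
      simp only [if_neg hfix, if_neg hfix', plUnder_smul]
      by_cases hsel : w = plOver F (plUnder K w)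
      · rw [if_pos hsel, if_neg (show σ • w ≠ plOver F (plUnder K w) by rwa [← hsel]),
          Units.val_one, map_one, mul_one, div_self η.ne_zero]
        exact Or.inl rfl
      · have hsel' : σ • w = plOver F (plUnder K w) := by
          obtain ⟨g, hg⟩ := CFT.exists_smul_eq_of_plUnder_eq
            (K := K) (w := w) (w' := plOver F (plUnder K w)) (plUnder_plOver (plUnder K w)).symm
          obtain ⟨i, hi, rfl⟩ := exists_eq_generator_pow hF hσ g
          interval_cases i
          · rw [pow_zero, one_smul] at hg; exact absurd hg hsel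
          · rwa [pow_one] at hg
        rw [if_neg hsel, if_pos hsel', Units.val_one, div_one]
        exact hup w hw
  have h4 := h3.mul hpos hA (div_ne_zero (mul_ne_zero η.ne_zero ((map_ne_zero σ).mpr
    (Units.ne_zero _))) (Units.ne_zero _))
  convert h4 using 1
  rw [hη', Units.val_div_eq_div_val, Units.val_mul, Units.coe_map, MonoidHom.coe_coe]
  field_simp [z.ne_zero, (tgt w).ne_zero, (map_ne_zero σ).mpr (tgt (σ • w)).ne_zero]

end Quadratic

variable {N : Type} [Field N] [NumberField N] [Algebra K N] [IsGalois K N] [Algebra F N]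
  [IsScalarTower K F N] (hcy : IsCyclic (N ≃ₐ[K] N))
  (hcard : Nat.card (N ≃ₐ[K] N) = 4) (hF : Module.finrank K F = 2) {σ : F ≃ₐ[K] F} (hσ : σ ≠ 1)
  (hdyF : ∀ v ∈ ramPl F, CFT.ord v ((2 : ℕ) : K) = 0)
  (hdyN : ∀ w ∈ ramPl (K := F) N, CFT.ord w ((2 : ℕ) : F) = 0)
  {T : Finset (Pl K)} (hT : ∀ u : Pl N, plUnder K u ∉ T → plRamIdx K u = 1)

include hcy hcard hF hσ hdyF hdyN hT

omit hσ hdyF hdyN in
/-- In `N / F` an element that is a local norm above `T` and a non-norm at evenly many places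
has trivial symbol. -/
lemma art_norm_eq_one_of_even {A : Type*} [CommGroup A] (χ : (N ≃ₐ[K] N) →* A) (η : Fˣ)
    (hlnorm : ∀ w ∈ plAbove F T, η ∈ lnorms N w)
    (heven : ∀ σN : N ≃ₐ[F] N, σN ≠ 1 → Even (nonNorm σN η).ncard) :
    art χ (T : Set (Pl K)) (Algebra.norm K (η : F)) = 1 := by
  have : IsGalois F N := IsGalois.tower_top_of_isGalois K F N
  have : IsTotallyComplex F := isTotallyComplex_of_algebra (F := K) (K := F)
  -- `N / F` is quadratic with nontrivial automorphism `σN`
  have hFN : Module.finrank F N = 2 := by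
    have h := Module.finrank_mul_finrank K F N
    rw [hF, ← IsGalois.card_aut_eq_finrank K N, hcard] at h
    omega
  obtain ⟨σN, hσN⟩ : ∃ τ : N ≃ₐ[F] N, τ ≠ 1 := by
    have : Nontrivial (N ≃ₐ[F] N) := Finite.one_lt_card_iff_nontrivial.mp (by
      rw [IsGalois.card_aut_eq_finrank, hFN]; norm_num)
    exact exists_ne 1
  have hc : ∀ a b : N ≃ₐ[K] N, a * b = b * a := fun a b => hcy.commGroup.mul_comm a b
  have hun : ∀ W : Pl N, plUnder K W ∉ (T : Set (Pl K)) → plRamIdx K W = 1 := fun W hW => hT W hW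
  rw [art_norm (E := F) (Ω := N) hc χ (T : Set (Pl K)) hun η.ne_zero]
  set e := MulEquiv.ofBijective (quadSgn (K := F) hFN) (by
    refine (Nat.bijective_iff_injective_and_card _).mpr ⟨fun a b h => ?_, ?_⟩
    · rw [quadSgn_apply, quadSgn_apply] at h
      by_cases ha : a = 1 <;> by_cases hb : b = 1 <;> simp [ha, hb] at h ⊢
      obtain ⟨u, -, huniq⟩ := (Nat.card_eq_two_iff' (1 : N ≃ₐ[F] N)).mp
        (by rw [IsGalois.card_aut_eq_finrank, hFN])
      rw [huniq a ha, huniq b hb]
    · rw [IsGalois.card_aut_eq_finrank, hFN, Nat.card_eq_fintype_card, Fintype.card_units_int])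
  -- so the restricted character factors through the quadratic sign
  have hfac : χ.comp (resHom K F N N) =
      ((χ.comp (resHom K F N N)).comp e.symm.toMonoidHom).comp (quadSgn (K := F) hFN) := by
    ext g
    exact congrArg (χ.comp (resHom K F N N)) (e.symm_apply_apply g).symm
  have hram : ∀ w ∈ ramPl (K := F) N, plUnder K w ∈ (T : Set (Pl K)) := fun w hw =>
    mem_of_mem_ramPl (Ω := N) (T : Set (Pl K)) hun hw
  -- its Artin symbol is a sign given by the places where `η` is no norm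
  have hart := art_eq_neg_one_pow hFN hσN (quadSgn (K := F) hFN) {w | plUnder K w ∈ T}
    (fun w hw => hram w hw) (fun w hw => by
      rw [quadSgn_apply]
      have hwr : w ∉ ramPl (K := F) N := fun h => hw (hram w h)
      by_cases h : frobPl N w = 1
      · rw [if_pos h, if_neg fun hn => (isNonsplit_iff_frobPl hFN hσN hwr).mp hn h]
      · rw [if_neg h, if_pos ((isNonsplit_iff_frobPl hFN hσN hwr).mpr h)]) η
  have hdiff : nonNorm σN η \ {w : Pl F | plUnder K w ∈ T} = nonNorm σN η :=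
    sdiff_eq_left.mpr (Set.disjoint_left.mpr fun w hw hwT =>
      hw.2 (hlnorm w (mem_plAbove.mpr hwT)))
  -- their number is even
  rw [hdiff, (heven σN hσN).neg_one_pow] at hart
  rw [hfac, ← art_comp, show ({w : Pl F | plUnder K w ∈ (T : Set (Pl K))}) =
    {w : Pl F | plUnder K w ∈ T} from rfl, hart, map_one]

/-- **Reciprocity in a cyclic extension of degree four.** -/
theorem exists_art_eq_one {A : Type*} [CommGroup A] (χ : (N ≃ₐ[K] N) →* A) :
    ∃ n : ℕ, ∀ x : Kˣ, (∀ v ∈ T, CloseOne v n (x : K)) → art χ (T : Set (Pl K)) (x : K) = 1 := by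
  have : IsGalois F N := IsGalois.tower_top_of_isGalois K F N
  have : IsTotallyComplex F := isTotallyComplex_of_algebra (F := K) (K := F)
  obtain ⟨Q, hQT, hQr, hQns, hQ⟩ := exists_not_alone hF hσ T
  set TF := plAbove F T with hTF
  obtain ⟨m, hm⟩ : ∃ m : ℕ, ∀ w ∈ TF, localLevel 2 (-1 : F) w ≤ m :=
    ⟨_, fun w hw => Finset.le_sup (f := fun w : Pl F => localLevel 2 (-1 : F) w) hw⟩
  obtain ⟨L, hL⟩ := exists_h90 hF hσ (m + 1)
  obtain ⟨n, hn, hnT⟩ : ∃ n : ℕ, (∀ w ∈ TF, L (m + 1) w + (m + 1) ≤ n) ∧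
      ∀ v ∈ T, localLevel 2 (-1 : K) v ≤ n := by
    refine ⟨TF.sup (fun w => L (m + 1) w + (m + 1)) + T.sup (fun v => localLevel 2 (-1 : K) v),
      fun w hw => le_add_right (Finset.le_sup (f := fun w => L (m + 1) w + (m + 1)) hw),
      fun v hv => le_add_left (Finset.le_sup (f := fun v : Pl K => localLevel 2 (-1 : K) v) hv)⟩
  refine ⟨n + 1, fun x₀ hx₀ => ?_⟩
  have hlev : ∀ (z : Kˣ), (∀ v ∈ T, CloseOne v ((n + 1 : ℕ) : ℤ) (z : K)) →
      ∀ v ∈ T, v ∉ nonNorm σ z := fun z hz v hv h => h.2 (mem_lnorms_of_closeOne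
        (closeOne_mono (hz v hv) (by exact_mod_cast (hnT v hv).trans (Nat.le_succ _))))
  -- kill the inert places of odd valuation
  set R := (nonNorm_finite hF hσ x₀).toFinset with hR
  have hReven : Even R.card := by
    rw [← Set.ncard_eq_toFinset_card _ (nonNorm_finite hF hσ x₀)]
    exact even_ncard_nonNorm hF hσ hdyF x₀
  obtain ⟨y, hy, hyc, hyA⟩ := exists_kill hF hσ hcy (a := 2) (by rw [hcard]; norm_num) χ hT n hQT
    hQns R fun r hr => ⟨fun hrT => hlev x₀ hx₀ r hrT ((Set.Finite.mem_toFinset _).mp hr),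
      ((Set.Finite.mem_toFinset _).mp hr).1⟩
  rw [if_pos hReven, hR, Set.Finite.coe_toFinset] at hy
  set x := x₀ * y with hx
  have hxc : ∀ v ∈ T, CloseOne v ((n + 1 : ℕ) : ℤ) (x : K) := fun v hv => by
    rw [hx, Units.val_mul]
    exact (hx₀ v hv).mul (Int.natCast_pos.mpr n.succ_pos) (hyc v hv) y.ne_zero
  suffices h : art χ (T : Set (Pl K)) (x : K) = 1 by
    rwa [hx, Units.val_mul, art_mul χ _ x₀.ne_zero y.ne_zero, hyA, mul_one] at h
  obtain ⟨η, hη⟩ := exists_norm_eq_of_nonNorm_eq_empty hF hσ (x := x) (by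
    rw [hx, nonNorm_mul hF hσ, hy, symmDiff_self]; rfl)
  -- adjust `η` so that it is a local norm from `N` above `T`
  have hupclose : ∀ w ∈ TF, ∀ k : ℕ, k ≤ n + 1 → CloseOne w (k : ℤ) ((η : F) * σ η) :=
    fun w hw k hk => closeOne_mul_conj hF hσ η w hk (hη ▸ hxc _ (mem_plAbove.mp hw))
  have htarget : ∀ w ∈ TF, ∃ z : Fˣ, CloseOne w ((m + 1 : ℕ) : ℤ) ((η : F) * σ z / (z : F)) := by
    intro w hw
    obtain ⟨z, hz0, -, hzc⟩ := hL w η η.ne_zero (hupclose w hw (L (m + 1) w)
      (by have := hn w hw; omega))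
    exact ⟨Units.mk0 z hz0, hzc⟩
  obtain ⟨η', hη'η, hclose⟩ := exists_twist_closeOne hF hσ T η htarget fun w hw =>
    hupclose w hw (m + 1) (by have := hn w hw; omega)
  have hη'N : Algebra.norm K (η' : F) = (x : K) := hη'η.trans hη
  have hlnorm : ∀ w ∈ TF, η' ∈ lnorms N w := fun w hw => mem_lnorms_of_closeOne
    (closeOne_mono (n := ((m + 1 : ℕ) : ℤ)) (hclose w hw)
      (by exact_mod_cast (hm w hw).trans (Nat.le_succ _)))
  rw [← hη'N]
  have hFN : Module.finrank F N = 2 := by
    have h := Module.finrank_mul_finrank K F N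
    rw [hF, ← IsGalois.card_aut_eq_finrank K N, hcard] at h
    omega
  exact art_norm_eq_one_of_even hcy hcard hF hT χ η' hlnorm fun σN hσN =>
    even_ncard_nonNorm hFN hσN hdyN η'

end Fermat.LT.Theta
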