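import Fermat.Agent.LT.Theta.Series
import Fermat.Agent.LT.Theta.Gal.Hecke

/-!
# Theta: the data of the series from a Hecke character of a quadratic extension

`dat` is the local data: the shift `dlt` with the parities of `exists_delta`, the normalised
eigenvalues and the local norms.
-/

set_option autoImplicit false
set_option linter.unusedSectionVars false

noncomputable section

open NumberField IsDedekindDomain Fermat.CFT
open scoped Classical

namespace Fermat.LT.Theta

open Fermat.LT.Mult (cnd)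

/-- The places over `3`. -/
def s3 (F : Type) [Field F] [NumberField F] : Set (Pl F) := {v | (3 : 𝓞 F) ∈ v.asIdeal}

/-- Membership in `s3`. -/
@[simp] lemma mem_s3 {F : Type} [Field F] [NumberField F] {v : Pl F} :
    v ∈ s3 F ↔ (3 : 𝓞 F) ∈ v.asIdeal := Iff.rfl

/-- There are finitely many places over `3`. -/
instance finite_s3 (F : Type) [Field F] [NumberField F] : Finite (s3 F) :=
  Set.finite_coe_iff.2 ((Ideal.finite_factors (I := Ideal.span {(3 : 𝓞 F)}) (by simp)).subset
    fun v hv => Ideal.dvd_iff_le.2 ((Ideal.span_singleton_le_iff_mem _).2 hv))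

/-- A congruence modulo the place is closeness to one at the first level. -/
lemma closeOne_of_valuation {F : Type} [Field F] [NumberField F] {v : Pl F} {a : F}
    (h : v.valuation F (a - 1) < 1) : CloseOne v 1 a := by
  rcases eq_or_ne a 1 with h1 | h1
  · exact Or.inl h1
  · rw [CFT.valuation_eq_exp_neg_ord v (sub_ne_zero.2 h1), ← WithZero.exp_zero,
      WithZero.exp_lt_exp] at h
    exact Or.inr (by omega)

/-- A fourth root of unity plus its inverse is `±2` or `0`. -/
lemma pow_four_eq_one_cases {z : ℂ} (h : z ^ 4 = 1) :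
    z + z⁻¹ = 2 ∨ z + z⁻¹ = -2 ∨ z + z⁻¹ = 0 := by
  have h' : (z - 1) * (z + 1) * ((z - Complex.I) * (z + Complex.I)) = 0 := by
    linear_combination h + (1 - z ^ 2) * Complex.I_sq
  rcases mul_eq_zero.1 h' with h1 | h1 <;> rcases mul_eq_zero.1 h1 with h2 | h2
  · exact Or.inl (by rw [sub_eq_zero.1 h2]; norm_num)
  · exact Or.inr (Or.inl (by rw [eq_neg_of_add_eq_zero_left h2]; norm_num))
  · exact Or.inr (Or.inr (by rw [sub_eq_zero.1 h2, Complex.inv_I, add_neg_cancel]))
  · exact Or.inr (Or.inr (by rw [eq_neg_of_add_eq_zero_left h2, inv_neg, Complex.inv_I]; ring))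

variable {F M : Type} [Field F] [NumberField F] [Field M] [NumberField M] [Algebra F M]
  [IsGalois F M] {σ : M ≃ₐ[F] M} {lam : Pl F → ℝ} (H : HData σ lam)

/-- The normalised eigenvalues. -/
def cOf (lam : Pl F → ℝ) (v : Pl F) : ℝ := lam v / Real.sqrt (pnorm v)

/-- The square root of a norm is not zero. -/
lemma sqrt_pnorm_ne_zero (v : Pl F) : Real.sqrt (pnorm v) ≠ 0 := by
  refine Real.sqrt_ne_zero'.2 ?_
  exact_mod_cast Nat.zero_lt_of_lt (HeightOneSpectrum.one_lt_absNorm v)

include H

omit H in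
/-- A prime of `M` lies over `3` iff the one below does. -/
lemma three_mem_iff {P : Pl M} : (3 : 𝓞 F) ∈ (plUnder F P).asIdeal ↔ (3 : 𝓞 M) ∈ P.asIdeal :=
  Gal.three_mem_plUnder

/-- The normalised eigenvalues take only the values `±2` and `0`. -/
lemma cOf_cases {v : Pl F} (hv : v ∉ s3 F) :
    cOf lam v = 2 ∨ cOf lam v = -2 ∨ cOf lam v = 0 := by
  obtain ⟨P, rfl⟩ := CFT.exists_plUnder_eq (F := M) v
  have h3 : (3 : 𝓞 M) ∉ P.asIdeal := fun h => hv (three_mem_iff.2 h)
  by_cases hs : σ • P = P
  · exact Or.inr (Or.inr (by rw [cOf, H.lam_inert P h3 hs, zero_div]))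
  have h := H.lam_split P h3 hs
  have hz : ((H.th P : ℂ)) ^ 4 = 1 := by rw [← Units.val_pow_eq_pow_val, H.th_four, Units.val_one]
  have hne : ((Real.sqrt (pnorm (plUnder F P)) : ℝ) : ℂ) ≠ 0 :=
    Complex.ofReal_ne_zero.2 (sqrt_pnorm_ne_zero _)
  have hc : ((cOf lam (plUnder F P) : ℝ) : ℂ) = (H.th P : ℂ) + (H.th P : ℂ)⁻¹ := by
    rw [cOf, Complex.ofReal_div, h, Units.val_inv_eq_inv_val]
    exact mul_div_cancel_left₀ _ hne
  rcases pow_four_eq_one_cases hz with e | e | e <;> rw [e] at hc
  · exact Or.inl (by exact_mod_cast hc)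
  · exact Or.inr (Or.inl (by exact_mod_cast hc))
  · exact Or.inr (Or.inr (by exact_mod_cast hc))

/-- The places below the primes over `3` do not split. -/
lemma isNonsplit_of_sM {u : Pl M} (hu : (3 : 𝓞 M) ∈ u.asIdeal) : IsNonsplit σ (plUnder F u) :=
  IsNonsplit.of_smul_eq H.finrank H.σ_ne (H.stable u ((H.mem_sM u).2 hu))

/-- Only places over `3` ramify in `M`. -/
lemma ramPl_subset : (ramPl M : Set (Pl F)) ⊆ s3 F := by
  rintro v ⟨P, rfl, hP⟩
  by_contra h
  exact hP (H.unram P fun h3 => h (three_mem_iff.2 h3))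

variable [IsTotallyComplex F]

/-- The parity required of `eL δ v = ord δ + cnd v` at an inert place. -/
def GoodPar (δ : Fˣ) (v : Pl F) : Prop :=
  (v ∉ s3 F → Even (eL δ v)) ∧ (v ∈ s3 F → Odd (eL δ v))

/-- **The shift**: even at the inert places off `3`, odd at those over `3`. -/
theorem exists_delta : ∃ δ : Fˣ,
    ∀ v : Pl F, IsNonsplit σ v → v ∉ ramPl M → GoodPar δ v := by
  have hF := H.finrank
  have hσ := H.σ_ne
  have hdy : ∀ v ∈ ramPl (K := F) M, CFT.ord v ((2 : ℕ) : F) = 0 := fun v hv =>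
    ord_two_eq_zero (ramPl_subset H hv)
  -- the inert places where `δ = 1` has the wrong parity
  set P0 : Set (Pl F) := {v | IsNonsplit σ v ∧ v ∉ ramPl M ∧
    ¬ (if v ∈ s3 F then Odd (cnd v : ℤ) else Even (cnd v : ℤ))} with hP0
  have hfin : P0.Finite := by
    refine ((Set.toFinite (s3 F)).union
      (Filter.eventually_cofinite.1 (Mult.eventually_cnd_eq_zero (F := F)))).subset fun v hv => ?_
    by_cases h : v ∈ s3 F
    · exact Or.inl h
    · refine Or.inr fun hc => hv.2.2 ?_
      rw [if_neg h, hc]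
      exact Even.zero
  -- made even in number by a ramified place
  obtain ⟨u₀, hu₀, he⟩ := H.exists_ram
  set v₀ := plUnder F u₀
  have hv₀r : v₀ ∈ ramPl (K := F) M := ⟨u₀, rfl, by omega⟩
  have hv₀ns : IsNonsplit σ v₀ := isNonsplit_of_sM H ((H.mem_sM u₀).1 hu₀)
  have hv₀n : v₀ ∉ hfin.toFinset := fun h => ((Set.Finite.mem_toFinset _).1 h).2.1 hv₀r
  set P : Finset (Pl F) :=
    if Even hfin.toFinset.card then hfin.toFinset else insert v₀ hfin.toFinset with hPdef
  have hPev : Even P.card := by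
    rw [hPdef]
    split_ifs with h
    · exact h
    · rw [Finset.card_insert_of_notMem hv₀n]; exact Nat.even_add_one.2 h
  have hPns : ∀ v ∈ P, IsNonsplit σ v := by
    intro v hv
    rw [hPdef] at hv
    split_ifs at hv
    · exact ((Set.Finite.mem_toFinset _).1 hv).1
    · rcases Finset.mem_insert.1 hv with rfl | hv
      · exact hv₀ns
      · exact ((Set.Finite.mem_toFinset _).1 hv).1
  have hPP0 : ∀ v, v ∉ ramPl M → (v ∈ P ↔ v ∈ P0) := by
    intro v hv
    rw [hPdef]
    split_ifs
    · exact Set.Finite.mem_toFinset _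
    · rw [Finset.mem_insert, Set.Finite.mem_toFinset]
      exact or_iff_right fun e => hv (e ▸ hv₀r)
  -- by reciprocity some `x` fails to be a local norm exactly at `P`
  obtain ⟨U, A, hU, -, -, -, hA⟩ := exists_relation hF hσ P
  have hPA : P ∩ A = P := by
    rw [Finset.inter_eq_left]
    intro v hv
    by_contra hvA
    obtain ⟨z, hz⟩ := (hA {v} (Finset.singleton_subset_iff.2 (hU hv)) (by simpa using hPns v hv)).2
      (by rw [Finset.singleton_inter_of_notMem hvA]; exact Even.zero)
    rw [Finset.coe_singleton] at hz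
    by_cases hr : v ∈ ramPl M
    · exact not_alone_ram hF hσ hdy hr ⟨z, hz⟩
    · exact not_alone_unram hF hσ hr (hPns v hv) ⟨z, hz⟩
  obtain ⟨x, hx⟩ := (hA P hU hPns).2 (by rwa [hPA])
  -- at an inert place a norm is an element of even valuation
  refine ⟨x, fun v hns hr => ?_⟩
  have hiff : Odd (CFT.ord v (x : F)) ↔ v ∈ P0 := by
    rw [← hPP0 v hr, ← Finset.mem_coe, ← hx, ← Int.not_even_iff_odd,
      ← mem_lnorms_iff_even hF hσ hns hr]
    exact ⟨fun h => ⟨hns, h⟩, fun h => h.2⟩
  have hiff' : Odd (CFT.ord v (x : F)) ↔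
      ¬ (if v ∈ s3 F then Odd (cnd v : ℤ) else Even (cnd v : ℤ)) :=
    hiff.trans ⟨fun h => h.2.2, fun h => ⟨hns, hr, h⟩⟩
  constructor
  · intro h
    rw [if_neg h] at hiff'
    rw [eL, Int.even_add, ← Int.not_odd_iff_even, hiff', not_not]
  · intro h
    rw [if_pos h] at hiff'
    rw [eL, Int.odd_add, hiff', ← Int.not_odd_iff_even]

/-- A chosen shift `δ` for the data. -/
def dlt : Fˣ := (exists_delta H).choose

/-- The chosen shift has the parities at the inert places. -/
lemma dlt_spec {v : Pl F} (h : IsNonsplit σ v) (h' : v ∉ ramPl M) : GoodPar (dlt H) v :=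
  (exists_delta H).choose_spec v h h'

/-- The local data of the series: shift, normalised eigenvalues, local norms. -/
def dat : LDat (s3 F) where
  δ := dlt H
  c := cOf lam
  N := lnorms M
  h3 v hv := H.q3 v hv
  hN _ hv _ ha := mem_lnorms_of_one H.finrank hv (closeOne_of_valuation ha)
  hc _ hv := cOf_cases H hv

omit H in
/-- The eigenvalue is `√(N v)` times the normalised one. -/
lemma lam_eq_sqrt_mul (v : Pl F) : lam v = Real.sqrt (pnorm v) * cOf lam v := by
  rw [cOf, mul_div_cancel₀ _ (sqrt_pnorm_ne_zero v)]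

end Fermat.LT.Theta
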