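import Fermat.Agent.LT.Theta.Term

/-!
# Theta: the coefficient at a norm as a finite sum over the exponent vectors

`finW_norm` evaluates the finite part at a norm as a constant times such a sum, bounded by
`norm_cFin_mul_card_le`.
-/

set_option autoImplicit false

noncomputable section

open NumberField IsDedekindDomain Fermat.CFT Filter
open scoped Classical

namespace Fermat.LT.Theta

open Fermat.LT.Mult (cnd)

variable {F M : Type} [Field F] [NumberField F] [IsTotallyComplex F] [Field M] [NumberField M]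
  [Algebra F M] [IsGalois F M] {σ : M ≃ₐ[F] M} {lam : Pl F → ℝ} {H : HData σ lam}
  {ω : FinPt F (s3 F)} (P : PDat H ω)

/-- All local parameters of `P` and the exponents of `ξ` are trivial at `v`. -/
structure Unexceptional (ξ : M) (v : Pl F) : Prop where
  /-- `v` does not lie over `3`. -/
  notMem : v ∉ s3 F
  /-- The conductor exponent of the additive character is zero. -/
  cnd_eq : cnd v = 0
  /-- The shift is a unit. -/
  ord_dlt : CFT.ord v (dlt H : F) = 0
  /-- The diagonal parameter is a unit. -/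
  ord_a : CFT.ord v (P.a v : F) = 0
  /-- The unipotent parameter is zero. -/
  x_eq : P.x v = 0
  /-- The box exponent at the chosen prime over `v` is zero. -/
  k1_eq : P.k1 v = 0
  /-- The box exponent at the conjugate prime is zero. -/
  k2_eq : P.k2 v = 0
  /-- The exponents of `ξ` are zero. -/
  ordV_eq : ordV σ v ξ = 0

/-- Only finitely many places carry a nontrivial local parameter. -/
lemma finite_except (ξ : M) : {v : Pl F | ¬ Unexceptional P ξ v}.Finite := by
  have h1 : ((fun W => plUnder F W) '' {W : Pl M | CFT.ord W ξ ≠ 0}).Finite :=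
    (CFT.finite_ord_ne_zero ξ).image _
  refine eventually_cofinite.1 ?_
  filter_upwards [P.fin, (Set.toFinite (s3 F)).compl_mem_cofinite, Mult.eventually_cnd_eq_zero,
    eventually_cofinite.2 (CFT.finite_ord_ne_zero (dlt H : F)), h1.compl_mem_cofinite]
    with v ⟨a1, a2, a3, a4⟩ a5 a6 a7 a8
  refine ⟨a5, a6, a7, a1, a2, a3, a4, Prod.ext ?_ ?_⟩ <;> by_contra h
  · exact a8 ⟨plOver M v, h, plUnder_plOver v⟩
  · exact a8 ⟨plConj σ v, h, plUnder_plConj v⟩

/-- The places where something happens. -/
def vSet (ξ : M) : Finset (Pl F) := (finite_except P ξ).toFinset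

/-- Outside the places where something happens all local parameters are trivial. -/
lemma of_notMem_vSet {ξ : M} {v : Pl F} (hv : v ∉ vSet P ξ) : Unexceptional P ξ v := by
  simpa [vSet] using hv

/-- The exponent `aP` vanishes outside these places. -/
lemma aP_eq_zero {ξ : M} {v : Pl F} (hv : v ∉ vSet P ξ) : aP P v = 0 := by
  obtain ⟨h1, h2, h3, h4, -⟩ := of_notMem_vSet P hv
  simp [aP, eL, h1, h2, h3, h4]

/-- The local exponent set is `{0}` outside these places. -/
lemma jSet_triv {ξ : M} {v : Pl F} (hv : v ∉ vSet P ξ) : jSet P v ξ = {0} := by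
  obtain ⟨h1, -, -, -, -, h6, h7, h8⟩ := of_notMem_vSet P hv
  rw [ordV, Prod.mk_eq_zero] at h8
  rw [jSet, h6, h7, h8.1, h8.2]
  split_ifs with hns hc
  · rfl
  · exact absurd (Or.inr ⟨h1, by simp⟩) hc
  · simp

/-- The local constant is one outside these places. -/
lemma cP_triv {ξ : M} {v : Pl F} (hv : v ∉ vSet P ξ) : cP P v = 1 := by
  have h6 := (of_notMem_vSet P hv).k1_eq
  have h7 := (of_notMem_vSet P hv).k2_eq
  rw [cP, aP_eq_zero P hv, h6, h7, show ((0 : ℤ), (0 : ℤ)) = (0 : ℤ × ℤ) from rfl, zw_zero]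
  simp [sqp]

/-- The local factor at exponent zero is one outside these places. -/
lemma locT_triv {ξ : Mˣ} {v : Pl F} (hv : v ∉ vSet P (ξ : M)) : locT P v 0 (ξ : M) = 1 := by
  have h1 := (of_notMem_vSet P hv).notMem
  have h5 := (of_notMem_vSet P hv).x_eq
  have hj : (0 : ℤ) ∈ jSet P v (ξ : M) := by rw [jSet_triv P hv]; simp
  rw [locT, if_neg (fun h => h.2 rfl), if_neg h1, neg_zero,
    show ((0 : ℤ), (0 : ℤ)) = (0 : ℤ × ℤ) from rfl, zw_zero, if_pos (mem_box_of_jSet P h1 hj), h5]
  simp

/-- The finitely many exponent vectors with entries in `jSet` at every place. -/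
def tSet (ξ : M) : Finset (Pl F →₀ ℤ) := (vSet P ξ).finsupp fun v => jSet P v ξ

/-- The product of the local factors. -/
def locA (τ : Pl F →₀ ℤ) (η : M) : ℂ := if η = 0 then 0 else ∏ᶠ v, locT P v (τ v) η

/-- The local factors are trivial outside a finite set. -/
lemma mulSupport_locT (τ : Pl F →₀ ℤ) (ξ : Mˣ) :
    (Function.mulSupport fun v => locT P v (τ v) (ξ : M)) ⊆ ↑(vSet P (ξ : M) ∪ τ.support) := by
  intro v hv
  by_contra h
  simp only [Finset.coe_union, Set.mem_union, Finset.mem_coe, Finsupp.mem_support_iff,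
    not_or, not_not] at h
  exact hv (by change locT P v (τ v) _ = 1; rw [h.2, locT_triv P h.1])

/-- The product of the local factors may be taken over any larger finite set. -/
lemma locA_eq_prod (τ : Pl F →₀ ℤ) (ξ : Mˣ) {V : Finset (Pl F)}
    (hV : vSet P (ξ : M) ∪ τ.support ⊆ V) : locA P τ (ξ : M) = ∏ v ∈ V, locT P v (τ v) (ξ : M) := by
  rw [locA, if_neg ξ.ne_zero]
  exact finprod_eq_prod_of_mulSupport_subset _
    ((mulSupport_locT P τ ξ).trans (Finset.coe_subset.2 hV))

/-- The product of the local factors vanishes outside the summation set. -/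
lemma locA_eq_zero {τ : Pl F →₀ ℤ} {ξ : Mˣ} (hτ : τ ∉ tSet P (ξ : M)) : locA P τ (ξ : M) = 0 := by
  rw [tSet, Finset.mem_finsupp_iff, not_and_or] at hτ
  rw [locA_eq_prod P τ ξ subset_rfl]
  rcases hτ with h | h
  · obtain ⟨v, hv, hv'⟩ := Finset.not_subset.1 h
    refine Finset.prod_eq_zero (Finset.mem_union_right _ hv) (locT_eq_zero P ?_)
    rw [jSet_triv P hv', Finset.mem_singleton]
    exact Finsupp.mem_support_iff.1 hv
  · push Not at h
    obtain ⟨v, hv, hv'⟩ := h
    exact Finset.prod_eq_zero (Finset.mem_union_left _ hv) (locT_eq_zero P hv')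

/-- A local factor has absolute value at most one. -/
lemma norm_locT_le (v : Pl F) (j : ℤ) (η : M) : ‖locT P v j η‖ ≤ 1 := by
  rw [locT]
  split_ifs with h1 hv
  · simp
  · rw [norm_mul, norm_zw, one_mul, phiS]
    split_ifs
    · rw [norm_mul, norm_inv, Complex.norm_eq_one_of_pow_eq_one (n := 4)
        (by rw [← Units.val_pow_eq_pow_val, H.θ_four, Units.val_one]) four_ne_zero, inv_one,
        psiD, norm_psi, mul_one]
    · simp
  · simp [norm_zw, psiD, norm_psi]
  · simp

/-- The product of the local factors has absolute value at most `1`. -/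
lemma norm_locA_le (τ : Pl F →₀ ℤ) (η : M) : ‖locA P τ η‖ ≤ 1 := by
  rcases eq_or_ne η 0 with rfl | hη
  · simp [locA]
  rw [show η = ((Units.mk0 η hη : Mˣ) : M) from rfl,
    locA_eq_prod P τ (Units.mk0 η hη) subset_rfl, norm_prod]
  exact Finset.prod_le_one (fun v _ => norm_nonneg _) fun v _ => norm_locT_le P v _ _

/-- The local characters of an element multiply to `1`. -/
lemma prod_chiV (ξ : Mˣ) : ∏ v ∈ vSet P (ξ : M), chiV H v ξ = 1 := by
  have hF := H.finrank
  have hσ := H.σ_ne
  set V := vSet P (ξ : M)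
  set f : Pl M → ℂ := fun W => if (3 : 𝓞 M) ∈ W.asIdeal then (H.θ W ξ : ℂ)
    else (H.th W : ℂ) ^ CFT.ord W (ξ : M)
  have hsM : H.sM ⊆ plAbove M V := fun u hu => by
    rw [mem_plAbove]
    by_contra h
    exact (of_notMem_vSet P h).notMem (three_mem_iff.2 ((H.mem_sM u).1 hu))
  have h0 : ∀ W : Pl M, W ∉ plAbove M V → CFT.ord W (ξ : M) = 0 := fun W hW => by
    rw [mem_plAbove] at hW
    have h8 := (of_notMem_vSet P hW).ordV_eq
    rw [ordV, Prod.mk_eq_zero] at h8
    rcases eq_or_eq_of_plUnder hF hσ (rfl : plUnder F W = plUnder F W) with e | e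
    · rw [e]; exact h8.1
    · rw [e]; exact h8.2
  -- the product formula over the places above `V`
  have hprod : ∏ W ∈ plAbove M V, f W = 1 := by
    have h := congrArg (Units.val : ℂˣ → ℂ) (H.prod ξ)
    rw [finprod_eq_prod_of_mulSupport_subset _ (s := plAbove M V) (fun W hW => by
        by_contra hn
        refine hW ?_
        change (if (3 : 𝓞 M) ∈ W.asIdeal then (1 : ℂˣ) else H.th W ^ CFT.ord W (ξ : M)) = 1
        split_ifs
        · rfl
        · rw [h0 W hn, zpow_zero]),
      Units.val_mul, Units.coe_prod, Units.coe_prod, Units.val_one] at h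
    have e : ∏ u ∈ H.sM, (H.θ u ξ : ℂ)
        = ∏ u ∈ plAbove M V, (if (3 : 𝓞 M) ∈ u.asIdeal then (H.θ u ξ : ℂ) else 1) := by
      rw [← Finset.prod_subset hsM (f := fun u => if (3 : 𝓞 M) ∈ u.asIdeal then
        (H.θ u ξ : ℂ) else 1) fun u _ hu => if_neg fun h3 => hu ((H.mem_sM u).2 h3)]
      exact Finset.prod_congr rfl fun u hu => (if_pos ((H.mem_sM u).1 hu)).symm
    rw [← h, e, ← Finset.prod_mul_distrib]
    refine Finset.prod_congr rfl fun W _ => ?_
    simp only [f]
    split_ifs <;> simp
  -- group the places by the place of `F` below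
  rw [← hprod, ← Finset.prod_fiberwise_of_maps_to (g := plUnder F) (t := V)
    fun W hW => mem_plAbove.1 hW]
  refine Finset.prod_congr rfl fun v hv => ?_
  have hfib : (plAbove M V).filter (fun W => plUnder F W = v) = {plOver M v, plConj σ v} := by
    ext W
    simp only [Finset.mem_filter, mem_plAbove, Finset.mem_insert, Finset.mem_singleton]
    constructor
    · exact fun h => eq_or_eq_of_plUnder hF hσ h.2
    · rintro (rfl | rfl)
      · rw [plUnder_plOver]; exact ⟨hv, rfl⟩
      · rw [plUnder_plConj]; exact ⟨hv, rfl⟩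
  rw [hfib, chiV]
  by_cases hs : v ∈ s3 F
  · rw [if_pos hs, (plConj_eq_iff hF hσ).2 (isNonsplit_s3 H hs), Finset.pair_eq_singleton,
      Finset.prod_singleton]
    simp only [f, if_pos ((H.mem_sM _).1 (plOver_mem_sM H hs))]
  have h3 : (3 : 𝓞 M) ∉ (plOver M v).asIdeal := fun h => hs (by
    have := (three_mem_iff (F := F)).2 h
    rwa [plUnder_plOver] at this)
  have h3' : (3 : 𝓞 M) ∉ (plConj σ v).asIdeal := fun h => hs (by
    have := (three_mem_iff (F := F)).2 h
    rwa [plUnder_plConj] at this)
  rw [if_neg hs, zw, if_neg hs, ordV]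
  split_ifs with hns
  · rw [(plConj_eq_iff hF hσ).2 hns, Finset.pair_eq_singleton, Finset.prod_singleton]
    simp only [f, if_neg h3]
  · rw [Finset.prod_pair fun e => hns ((plConj_eq_iff hF hσ).1 e.symm)]
    simp only [f, if_neg h3, if_neg h3']
    rw [zpow_sub₀ (Units.ne_zero _), div_eq_mul_inv, show plConj σ v = σ • plOver M v from rfl,
      H.th_σ _ h3, Units.val_inv_eq_inv_val, inv_zpow]

/-- The local square root factors multiply to the inverse absolute norm. -/
lemma prod_sqp (ξ : Mˣ) :
    ∏ v ∈ vSet P (ξ : M), sqp v (CFT.ord v (nrm σ ξ : F))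
      = (∏ w : InfinitePlace F, w (nrm σ ξ : F))⁻¹ := by
  set α : F := (nrm σ ξ : F)
  have hα : α ≠ 0 := Units.ne_zero _
  have hpos : 0 < ∏ w : InfinitePlace F, w α :=
    Finset.prod_pos fun w _ => InfinitePlace.pos_iff.2 hα
  have h := product_formula hα
  rw [finprod_eq_prod_of_mulSupport_subset _ (s := vSet P (ξ : M)) fun v hv => by
      by_contra hn
      refine hv ?_
      have hN := norm_ord (H := H) v ξ
      have h1 := (of_notMem_vSet P hn).notMem
      have h8 := (of_notMem_vSet P hn).ordV_eq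
      rw [h8, plRamIdx_off H h1] at hN
      change vabs v α = 1
      rw [vabs_eq v hα, show ord (v.valuation F) α = CFT.ord v α from rfl,
        show CFT.ord v α = 0 by simpa [α] using hN, neg_zero, zpow_zero],
    Finset.prod_congr rfl fun w _ => show (w α) ^ w.mult = (w α) ^ 2 by
      rw [InfinitePlace.mult,
        if_neg (InfinitePlace.not_isReal_iff_isComplex.2 (IsTotallyComplex.isComplex w))],
    Finset.prod_pow] at h
  set A := ∏ v ∈ vSet P (ξ : M), sqp v (CFT.ord v α)
  have hA : A ^ 2 = ∏ v ∈ vSet P (ξ : M), vabs v α := by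
    rw [← Finset.prod_pow]
    refine Finset.prod_congr rfl fun v _ => ?_
    rw [sqp, ← zpow_natCast, ← zpow_mul, mul_comm, zpow_mul, zpow_natCast,
      Real.sq_sqrt (Nat.cast_nonneg _), vabs_eq v hα]
    rfl
  rw [← hA, ← mul_pow] at h
  have hA0 : 0 < A := Finset.prod_pos fun v _ => sqp_pos v _
  refine (eq_inv_of_mul_eq_one_left ?_)
  nlinarith [mul_pos hA0 hpos]

/-- The constant of the finite part. -/
def cFin : ℂ := ∏ᶠ v, cP P v

/-- The finite constant is a finite product. -/
lemma cFin_eq (ξ : M) : cFin P = ∏ v ∈ vSet P ξ, cP P v :=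
  finprod_eq_prod_of_mulSupport_subset _ fun v hv => by
    by_contra h; exact hv (cP_triv P h)

/-- The finite constant does not vanish. -/
lemma cFin_ne_zero : cFin P ≠ 0 := by
  rw [cFin_eq P 0]; exact Finset.prod_ne_zero_iff.2 fun v _ => cP_ne_zero P v

/-- **The finite part at a norm.** At the norm of `ξ` the finite part is a constant over the
archimedean absolute values times the sum over `tSet` of the local products `locA`. -/
theorem finW_norm (ξ : Mˣ) :
    finW (dat H) (nrm σ ξ) ω = ((∏ w : InfinitePlace F, w (nrm σ ξ : F))⁻¹ : ℝ) * cFin P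
      * ∑ τ ∈ tSet P (ξ : M), locA P τ (ξ : M) := by
  set V := vSet P (ξ : M)
  have hs : ∀ v ∉ V, CFT.ord v (nrm σ ξ : F) = 0 := fun v hv => by
    have hN := norm_ord (H := H) v ξ
    have h1 := (of_notMem_vSet P hv).notMem
    have h8 := (of_notMem_vSet P hv).ordV_eq
    rw [h8, plRamIdx_off H h1] at hN
    simpa using hN
  rw [finW, finprod_congr fun v => W_norm P v ξ,
    finprod_eq_prod_of_mulSupport_subset _ (s := V) fun v hv => ?_]
  swap
  · by_contra hn
    refine hv ?_
    have h1 := (of_notMem_vSet P hn).notMem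
    have h8 := (of_notMem_vSet P hn).ordV_eq
    change _ * _ * _ * _ = _
    rw [hs v hn, cP_triv P hn, jSet_triv P hn, Finset.sum_singleton, locT_triv P hn, chiV,
      if_neg h1, h8, zw_zero]
    simp [sqp]
  rw [Finset.prod_mul_distrib, Finset.prod_mul_distrib, Finset.prod_mul_distrib, prod_chiV, mul_one,
    ← cFin_eq, ← Complex.ofReal_prod, prod_sqp, Finset.prod_sum, tSet, Finset.finsupp,
      Finset.sum_map]
  congr 1
  refine Finset.sum_congr rfl fun p hp => ?_
  have hsub : (Finsupp.indicator V p).support ⊆ V := Finsupp.support_indicator_subset _ _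
  change _ = locA P (Finsupp.indicator V p) (ξ : M)
  rw [locA_eq_prod P _ ξ (Finset.union_subset subset_rfl hsub), ← Finset.prod_attach V]
  exact Finset.prod_congr rfl fun v _ => by rw [Finsupp.indicator_of_mem v.2]

/-- The size of the summation set is the product of the local sizes. -/
lemma card_tSet (ξ : M) : (tSet P ξ).card = ∏ v ∈ vSet P ξ, (jSet P v ξ).card := by
  rw [tSet, Finset.card_finsupp]

/-- The number of local exponents times the size factor is at most `3`, usually `1`. -/
lemma card_mul_sqp_le (v : Pl F) (ξ : Mˣ) :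
    ((jSet P v (ξ : M)).card : ℝ) * (sqp v (CFT.ord v (nrm σ ξ : F)) * sqp v (aP P v))
      ≤ if v ∉ s3 F ∧ pnorm v < 4 then 3 else 1 := by
  have hord := norm_ord (H := H) v ξ
  have h1 : (1 : ℝ) ≤ if v ∉ s3 F ∧ pnorm v < 4 then 3 else 1 := by split_ifs <;> norm_num
  rw [← sqp_add]
  have hsqrt : (1 : ℝ) ≤ Real.sqrt (pnorm v) := Real.one_le_sqrt.2 (by
    exact_mod_cast (HeightOneSpectrum.one_lt_absNorm v).le)
  simp only [ordV] at hord
  -- the nonsplit places
  by_cases hns : IsNonsplit σ v
  · have hQ := nonsplit_ord (H := H) hns (ξ : M)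
    rw [jSet, if_pos hns]
    by_cases hc : (v ∈ s3 F ∧ CFT.ord (plOver M v) (ξ : M) + P.k1 v = 0) ∨
      (v ∉ s3 F ∧ 0 ≤ CFT.ord (plOver M v) (ξ : M) + P.k1 v)
    swap
    · rw [if_neg hc, Finset.card_empty, Nat.cast_zero, zero_mul]; exact zero_le_one.trans h1
    rw [if_pos hc, Finset.card_singleton, Nat.cast_one, one_mul, sqp]
    refine (zpow_le_one_of_nonpos₀ hsqrt (neg_nonpos.2 ?_)).trans h1
    rcases hc with ⟨hs, h0⟩ | ⟨hs, h0⟩
    · have hk := P.kon v hs
      have he : (1 : ℤ) ≤ plRamIdx F (plOver M v) := by exact_mod_cast plRamIdx_pos _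
      rw [aP, if_pos hs, coe_nrm]
      nlinarith
    · have hk := P.koff v hs
      have := P.adm v hns
      rw [plRamIdx_off H hs, Nat.cast_one, one_mul] at hord
      rw [aP, if_neg hs, coe_nrm]
      omega
  -- the split places: the size factor is a radial function
  have hs : v ∉ s3 F := fun h => hns (isNonsplit_s3 H h)
  have hk := P.koff v hs
  rw [plRamIdx_off H hs, Nat.cast_one, one_mul] at hord
  rw [jSet, if_neg hns, Int.card_Icc, aP, if_neg hs, coe_nrm, add_zero]
  set m := CFT.ord v (Algebra.norm F (ξ : M)) + (CFT.ord v (P.a v : F) + eL (dlt H) v)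
  rw [show CFT.ord (plConj σ v) (ξ : M) + P.k2 v +
    1 - -(CFT.ord (plOver M v) (ξ : M) + P.k1 v) = m + 1 by omega]
  by_cases hm : m < 0
  · rw [show (m + 1).toNat = 0 by omega, Nat.cast_zero, zero_mul]; exact zero_le_one.trans h1
  obtain ⟨n, hn⟩ := Int.eq_ofNat_of_zero_le (not_lt.1 hm)
  have hb := abs_radial_le (q := pnorm v) (HeightOneSpectrum.one_lt_absNorm v) (c := 2)
    (Or.inl rfl) m
  have hr : radial (pnorm v) 2 m = ((m + 1).toNat : ℝ) * sqp v m := by
    rw [radial, if_neg hm, hn, Int.toNat_natCast, chebU_two, sqp, zpow_neg, zpow_natCast,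
      show ((n : ℤ) + 1).toNat = n + 1 by omega]
    push_cast; ring
  rw [← hr]
  refine (le_abs_self _).trans ?_
  split_ifs with h4
  · exact hb.1
  · exact hb.2 (not_lt.1 fun h => h4 ⟨hs, h⟩)

/-- The finite coefficient is bounded by a constant independent of the element. -/
lemma norm_cFin_mul_card_le (ξ : Mˣ) :
    (∏ w : InfinitePlace F, w (nrm σ ξ : F))⁻¹ * ‖cFin P‖ * (tSet P (ξ : M)).card ≤
    wBound (s3 F) := by
  rw [card_tSet, cFin_eq P (ξ : M), norm_prod, ← prod_sqp P, Nat.cast_prod,
    ← Finset.prod_mul_distrib, ← Finset.prod_mul_distrib]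
  set Sm := (LDat.finite_small (s3 F)).toFinset
  calc _ ≤ ∏ v ∈ vSet P (ξ : M), if v ∈ Sm then (3 : ℝ) else 1 := by
        refine Finset.prod_le_prod (fun v _ =>
          mul_nonneg (mul_nonneg (sqp_pos v _).le (norm_nonneg _))
          (Nat.cast_nonneg _)) fun v _ => ?_
        rw [cP, norm_mul, norm_zw, mul_one, Complex.norm_real, Real.norm_of_nonneg (sqp_pos v _).le,
          mul_comm]
        exact (card_mul_sqp_le P v ξ).trans_eq (by simp [Sm, Set.Finite.mem_toFinset])
    _ ≤ wBound (s3 F) := by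
      rw [Finset.prod_ite_mem, Finset.prod_const, wBound]
      exact pow_le_pow_right₀ (by norm_num) (Finset.card_le_card Finset.inter_subset_right)

/-- The support of the coefficients. -/
lemma exists_fracLat_of_tSet : ∃ N : ℕ, N ≠ 0 ∧ ∀ ξ : Mˣ, (tSet P (ξ : M)).Nonempty →
    ((dlt H : F) * (nrm σ ξ : F)) ∈ fracLat (F := F) N := by
  set W := vSet P (1 : M)
  -- `N` absorbs the finitely many exceptional places.
  obtain ⟨N, hN, hNv⟩ := exists_nat_small (F := F)
    (fun v => if v ∈ W then (1 + cnd v + |CFT.ord v (P.a v : F)|).toNat else 0)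
    (W.finite_toSet.subset fun v hv => by by_contra h; exact hv (if_neg h))
  refine ⟨N, hN, fun ξ ⟨τ, hτ⟩ v => ?_⟩
  have hne : (jSet P v (ξ : M)).Nonempty := by
    by_cases hv : v ∈ vSet P (ξ : M)
    · exact ⟨τ v, (Finset.mem_finsupp_iff.1 hτ).2 v hv⟩
    · rw [jSet_triv P hv]; exact Finset.singleton_nonempty _
  have hord := norm_ord (H := H) v ξ
  simp only [ordV] at hord
  -- A nonempty local support bounds the order of the norm below.
  have key : -1 ≤ CFT.ord v (nrm σ ξ : F) + CFT.ord v (P.a v : F) + eL (dlt H) v ∧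
      (v ∉ s3 F → 0 ≤ CFT.ord v (nrm σ ξ : F) + CFT.ord v (P.a v : F) + eL (dlt H) v) := by
    rw [coe_nrm]
    obtain ⟨j, hj⟩ := hne
    by_cases hs : v ∈ s3 F
    · have hns := isNonsplit_s3 H hs
      have hQ := nonsplit_ord (H := H) hns (ξ : M)
      rw [jSet, if_pos hns] at hj
      split_ifs at hj with hc
      swap
      · simp at hj
      have hk := P.kon v hs
      have he : (1 : ℤ) ≤ plRamIdx F (plOver M v) := by exact_mod_cast plRamIdx_pos _
      have h0 := (hc.resolve_right fun h => h.1 hs).2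
      exact ⟨by nlinarith, fun h => absurd hs h⟩
    have hm := mem_box_of_jSet P hs hj
    rw [mem_box_iff_ord ξ.ne_zero] at hm
    simp only [mBox] at hm
    have hk := P.koff v hs
    rw [plRamIdx_off H hs, Nat.cast_one, one_mul] at hord
    exact ⟨by omega, fun _ => by omega⟩
  -- Outside those places it is integral.
  rw [map_mul, valuation_eq_exp_neg_ord v (mul_ne_zero (dlt H).ne_zero (Units.ne_zero _)),
    CFT.ord_mul v (dlt H).ne_zero (Units.ne_zero _)]
  rw [eL] at key
  refine (mul_le_mul' (hNv v) le_rfl).trans ?_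
  rw [← WithZero.exp_add, ← WithZero.exp_zero, WithZero.exp_le_exp]
  by_cases hv : v ∈ W
  · rw [if_pos hv]
    have := le_abs_self (CFT.ord v (P.a v : F))
    omega
  · rw [if_neg hv]
    obtain ⟨h1, h2, h3, h4, -⟩ := of_notMem_vSet P hv
    have := key.2 h1
    omega

end Fermat.LT.Theta
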