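import Fermat.Agent.LT.Theta.Transform

/-!
# Theta: the functional equation of the part over the norms

`exists_phi1_jMat` gives the constant by which the Fourier matrix `jMat` transforms this part.
-/

set_option autoImplicit false
set_option linter.unusedSectionVars false

open NumberField MeasureTheory Filter Fermat.CFT
open scoped Classical ComplexConjugate

noncomputable section

namespace Fermat.LT.Theta

variable {F M : Type} [Field F] [NumberField F] [IsTotallyComplex F] [Field M] [NumberField M]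
  [Algebra F M] [IsGalois F M] {σ : M ≃ₐ[F] M} {lam : Pl F → ℝ}

/-- The inversion in coordinates. -/
lemma coord_jMat (w : InfinitePlace F) (y : H3) :
    H3.coord (atInf w (jMat F) • y)
      = (-conj (H3.coord y).1 / ((Complex.normSq (H3.coord y).1 + (H3.coord y).2 ^ 2 : ℝ) : ℂ),
        (H3.coord y).2 / (Complex.normSq (H3.coord y).1 + (H3.coord y).2 ^ 2)) := by
  have ht := H3.coord_pos y
  conv_lhs => rw [← H3.mk_coord y, H3.mk_of_pos _ ht]
  rw [MulAction.Quotient.smul_coe, H3.coord_mk, zc, tc, smul_eq_mul, herm_eq, herm_eq]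
  have e1 : ((atInf w (jMat F) : GL (Fin 2) ℂ) : Matrix (Fin 2) (Fin 2) ℂ) = !![0, 1; -1, 0] := by
    change (jMat F : Matrix (Fin 2) (Fin 2) F).map w.embedding = _
    rw [coe_jMat]
    ext i j
    fin_cases i <;> fin_cases j <;> simp
  simp only [Units.val_mul, e1, coe_triMat, Matrix.det_mul, Matrix.det_fin_two_of]
  simp [Matrix.mul_apply, Fin.sum_univ_two, Complex.normSq_apply, abs_of_pos ht]
  refine ⟨?_, ?_⟩
  · rw [← Complex.normSq_eq_conj_mul_self.trans (mul_comm _ _)] at *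
    congr 1
    push_cast [Complex.normSq_apply]
    ring
  · congr 1
    ring

/-- The inversion transforms the heights by `tJ`. -/
lemma tOf_jMat (x : InfinitePlace F → H3) :
    tOf (fun w => atInf w (jMat F) • x w) = tJ (tOf x) (zOf x) :=
  funext fun w => by rw [tOf, coord_jMat]; rfl

/-- The inversion transforms the translations by `zJ`. -/
lemma zOf_jMat (x : InfinitePlace F → H3) :
    zOf (fun w => atInf w (jMat F) • x w) = zJ (tOf x) (zOf x) :=
  funext fun w => by rw [zOf, coord_jMat]; rfl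

/-- The Fourier matrix squares to the scalar `-1`. -/
lemma jMat_mul_self : jMat F * jMat F = scal (-1 : Fˣ) := by
  refine Units.ext ?_
  simp only [Units.val_mul, coe_jMat, scal_coe]
  ext i j
  fin_cases i <;> fin_cases j <;> simp [Matrix.mul_apply, Fin.sum_univ_two, Matrix.scalar_apply]

/-- Two inversions fix every point. -/
lemma jMat_smul_jMat (p : Pt F (s3 F)) : jMat F • jMat F • p = p := by
  rw [← mul_smul, jMat_mul_self, Pt.scal_smul]

/-! ### the constants -/

variable (H : HData σ lam)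

/-- The universal local constant. -/
def kfin (v : Pl F) : ℂ :=
  if v ∈ s3 F then (resCard v : ℂ) ^ (eL (dlt H) v + 1) / (resCard (plOver M v) : ℂ)
    * gammaS σ (dlt H) v (H.θ (plOver M v))
  else (resCard v : ℂ) ^ eL (dlt H) v

variable {H} {ω : FinPt F (s3 F)} (P : PDat H ω)

/-- The square root factor as a power of `√q_v`. -/
lemma sqp_cast (v : Pl F) (n : ℤ) :
    ((sqp v n : ℝ) : ℂ) = ((Real.sqrt (resCard v) : ℝ) : ℂ) ^ (-n) := by
  rw [sqp, Complex.ofReal_zpow]; rfl

/-- `q_v = (√q_v)²`. -/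
lemma resCard_eq_sq (v : Pl F) : (resCard v : ℂ) = ((Real.sqrt (resCard v) : ℝ) : ℂ) ^ (2 : ℤ) := by
  rw [zpow_two, ← Complex.ofReal_mul, Real.mul_self_sqrt (Nat.cast_nonneg _),
    Complex.ofReal_natCast]

/-- Over `3` the power `q_P ^ (k1 - 1)` is `q_v ^ (ord a + e + 1) / q_P`. -/
lemma resCard_pow_s3 {v : Pl F} (hs : v ∈ s3 F) :
    (resCard (plOver M v) : ℂ) ^ (P.k1 v - 1)
      = (resCard v : ℂ) ^ (CFT.ord v (P.a v : F) + eL (dlt H) v + 1) /
        (resCard (plOver M v) : ℂ) := by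
  have hq := H.q3 v hs
  have hk := P.kon v hs
  set A := CFT.ord v (P.a v : F) + eL (dlt H) v
  have h0 : (resCard (plOver M v) : ℂ) ≠ 0 := by exact_mod_cast (resCard_pos _).ne'
  rw [zpow_sub_one₀ h0, div_eq_mul_inv]
  congr 1
  rcases H.dich _ (plOver_mem_sM H hs) with ⟨he, h9, -⟩ | ⟨he, h3, -⟩
  · rw [he] at hk
    rw [h9, hq, show A + 1 = 2 * P.k1 v by push_cast at hk; omega, zpow_mul]
    norm_num
  · rw [he] at hk
    rw [h3, hq, show A + 1 = P.k1 v by push_cast at hk; omega]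

/-- The local constants combine. -/
lemma cP_mul_cLoc (v : Pl F) : cP P v * cLoc P v = kfin H v * cP P.inv v := by
  by_cases hs : v ∈ s3 F
  -- at the level
  · rw [cP, cP, cLoc, if_pos hs, kfin, if_pos hs, resCard_pow_s3 P hs, zw, if_pos hs, zw, if_pos hs,
      sqp_cast, sqp_cast, aP, aP, if_pos hs,
      show ((P.inv.a v : Fˣ) : F) = ((P.a v : Fˣ) : F)⁻¹ by
        rw [show P.inv.a v = (P.a v)⁻¹ from if_pos hs, Units.val_inv_eq_inv_val], CFT.ord_inv]
    rw [resCard_eq_sq v]
    set r := ((Real.sqrt (resCard v) : ℝ) : ℂ)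
    have hr : r ≠ 0 := Complex.ofReal_ne_zero.2 (sqrt_pnorm_ne_zero v)
    set A := CFT.ord v (P.a v : F)
    set e := eL (dlt H) v
    rw [← zpow_mul, ← zpow_mul, mul_one, mul_one]
    have e1 : r ^ (-(A + e + 1)) * r ^ (2 * (A + e + 1))
        = r ^ (2 * (e + 1)) * r ^ (-(-A + e + 1)) := by
      rw [← zpow_add₀ hr, ← zpow_add₀ hr]; congr 1; ring
    linear_combination (((resCard (plOver M v) : ℂ))⁻¹ * gammaS σ (dlt H) v (H.θ (plOver M v))) * e1
  -- off the level: compare the exponents of `P` and `P.inv`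
  have hk := P.koff v hs
  have hd := dd_off H hs
  rw [cP, cP, cLoc, if_neg hs, kfin, if_neg hs, sqp_cast, sqp_cast, aP, aP, if_neg hs,
    add_zero, add_zero, resCard_eq_sq v]
  simp only [← zpow_mul]
  set r := ((Real.sqrt (resCard v) : ℝ) : ℂ)
  have hr : r ≠ 0 := Complex.ofReal_ne_zero.2 (sqrt_pnorm_ne_zero v)
  set A := CFT.ord v (P.a v : F) with hA
  set e := eL (dlt H) v with he
  have hpar : IsNonsplit σ v → Even A := fun hns => by
    have h1 : Even e := (dlt_spec H hns (notMem_ramPl H hs)).1 hs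
    have h2 := P.adm v hns
    rw [show A = 2 * P.k1 v - e by omega]
    exact (even_two_mul _).sub h1
  by_cases hx : P.x v = 0
  · rw [if_pos hx,
      show ((P.inv.a v : Fˣ) : F) = ((P.a v : Fˣ) : F)⁻¹ by
        simp only [PDat.inv, if_neg hs, dif_pos hx, Units.val_inv_eq_inv_val], CFT.ord_inv, ← hA]
    have hz : zw H v (P.k1 v, P.k2 v) = zw H v (P.inv.k1 v, P.inv.k2 v) := by
      have h1 : P.inv.k1 v = e - P.k2 v := by
        simp only [PDat.inv, if_pos (Or.inr hx), if_neg hs, hd, he]; ring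
      have h2 : P.inv.k2 v = e - P.k1 v := by
        simp only [PDat.inv, if_pos (Or.inr hx), if_neg hs, hd, he]; ring
      rw [h1, h2, show (P.k1 v, P.k2 v) = (e - P.k2 v, e - P.k1 v) + (A, A) by
        rw [Prod.mk_add_mk]; congr 1 <;> omega, zw_add]
      refine mul_eq_left₀ (zw_ne_zero H v _) |>.2 ?_
      rw [zw, if_neg hs]
      split_ifs with hns
      · rw [(cOf_inert (H := H) hs hns).2, (hpar hns).neg_one_zpow]
      · rw [sub_self, zpow_zero]
    have e1 : r ^ (-(A + e)) * r ^ (2 * (A + e)) = r ^ (2 * e) * r ^ (-(-A + e)) := by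
      rw [← zpow_add₀ hr, ← zpow_add₀ hr]; congr 1; ring
    rw [hz]
    linear_combination (zw H v (P.inv.k1 v, P.inv.k2 v)) * e1
  · rw [if_neg hx,
      show ((P.inv.a v : Fˣ) : F) = (P.a v : F) * ((P.x v) ^ 2)⁻¹ by
        simp only [PDat.inv, if_neg hs, dif_neg hx]; simp,
      CFT.ord_mul v (P.a v).ne_zero (inv_ne_zero (pow_ne_zero _ hx)), CFT.ord_inv,
        CFT.ord_pow, ← hA]
    set X := CFT.ord v (P.x v) with hX
    have hz : zw H v (P.k1 v, P.k2 v) * (if IsNonsplit σ v then (-1 : ℂ) else 1) ^ (A - X)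
        = zw H v (P.inv.k1 v, P.inv.k2 v) := by
      have h1 : P.inv.k1 v = P.k1 v - X := by simp only [PDat.inv, if_neg (not_or.2 ⟨hs, hx⟩), hX]
      have h2 : P.inv.k2 v = P.k2 v - X := by simp only [PDat.inv, if_neg (not_or.2 ⟨hs, hx⟩), hX]
      rw [h1, h2, show (P.k1 v - X, P.k2 v - X) = (P.k1 v, P.k2 v) + (-X, -X) by
        rw [Prod.mk_add_mk]; rfl, zw_add]
      congr 1
      rw [zw, if_neg hs]
      split_ifs with hns
      · rw [(cOf_inert (H := H) hs hns).2, zpow_sub₀ (by norm_num : (-1 : ℂ) ≠ 0),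
          (hpar hns).neg_one_zpow, one_div, zpow_neg]
      · rw [sub_self, zpow_zero, one_zpow]
    have e1 : r ^ (-(A + e)) * r ^ (2 * (e + X)) = r ^ (2 * e) * r ^ (-(A + -(2 * X) + e)) := by
      rw [← zpow_add₀ hr, ← zpow_add₀ hr]; congr 1; ring
    rw [← hz]
    push_cast
    linear_combination (zw H v (P.k1 v, P.k2 v)
      * (if IsNonsplit σ v then (-1 : ℂ) else 1) ^ (A - X)) * e1

/-- All local constants are one at almost all places. -/
lemma eventually_const_one : ∀ᶠ v in cofinite,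
    cP P v = 1 ∧ cP P.inv v = 1 ∧ cLoc P v = 1 ∧ kfin H v = 1 := by
  filter_upwards [P.fin, P.inv.fin, (Set.toFinite (s3 F)).compl_mem_cofinite,
    Mult.eventually_cnd_eq_zero, eventually_cofinite.2 (CFT.finite_ord_ne_zero (dlt H : F))]
    with v ⟨a1, a2, a3, a4⟩ ⟨b1, b2, b3, b4⟩ h5 h6 h7
  have hs : v ∉ s3 F := h5
  have he : eL (dlt H) v = 0 := by simp [eL, h6, h7]
  have hz : ((0 : ℤ), (0 : ℤ)) = (0 : ℤ × ℤ) := rfl
  refine ⟨?_, ?_, ?_, ?_⟩
  · rw [cP, aP, a1, a3, a4, he, if_neg hs, hz, zw_zero]; simp [sqp]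
  · rw [cP, aP, b1, b3, b4, he, if_neg hs, hz, zw_zero]; simp [sqp]
  · rw [cLoc, if_neg hs, if_pos a2, a1, he]; simp
  · rw [kfin, if_neg hs, he]; simp

variable (H) in
/-- The universal finite constant. -/
def kGlob : ℂ := ∏ᶠ v, kfin H v

/-- `cFin · cGlob` is the universal constant times the finite constant of the inverted data. -/
lemma cFin_mul_cGlob : cFin P * cGlob P = kGlob H * cFin P.inv := by
  set V := (eventually_cofinite.1 (eventually_const_one P)).toFinset
  have hV : ∀ v ∉ V, cP P v = 1 ∧ cP P.inv v = 1 ∧ cLoc P v = 1 ∧ kfin H v = 1 := fun v hv =>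
    not_not.1 fun h => hv ((Set.Finite.mem_toFinset _).2 h)
  have e : ∀ f : Pl F → ℂ, (∀ v ∉ V, f v = 1) → ∏ᶠ v, f v = ∏ v ∈ V, f v := fun f hf =>
    finprod_eq_prod_of_mulSupport_subset _ fun v hv => by
      by_contra h; exact hv (hf v h)
  rw [cFin, cGlob, kGlob, cFin, e _ fun v hv => (hV v hv).1, e _ fun v hv => (hV v hv).2.1,
    e _ fun v hv => (hV v hv).2.2.1, e _ fun v hv => (hV v hv).2.2.2, ← Finset.prod_mul_distrib,
    ← Finset.prod_mul_distrib]
  exact Finset.prod_congr rfl fun v _ => cP_mul_cLoc P v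

/-! ### near points -/

omit P in
/-- Over `3` the Fourier matrix exchanges triangular points up to the Klein subgroup. -/
lemma exists_jMat_near (H : HData σ lam) {v : Pl F} (hs : v ∈ s3 F) {a : Fˣ} {x : F}
    (hx : v.valuation F x ≤ v.valuation F (a : F)) :
    ∃ k ∈ klein (s3 F) v, jMat F * upMat a x = upMat a⁻¹ (x / (a : F) ^ 2) * k ∧
      v.valuation F (x / (a : F) ^ 2) ≤ v.valuation F ((a⁻¹ : Fˣ) : F) := by
  set r := ((a⁻¹ : Fˣ) : F) * x with hr
  have ha0 : v.valuation F (a : F) ≠ 0 := (v.valuation F).ne_zero_iff.2 a.ne_zero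
  have hra : v.valuation F r ≤ 1 := by
    rw [hr, Units.val_inv_eq_inv_val, map_mul, map_inv₀]
    exact inv_mul_le_one_of_le₀ hx zero_le
  have h3 : ∀ u ∈ s3 F, pnorm u = 3 := fun u hu => H.q3 u hu
  refine ⟨_, klein_mul h3 (scal_mem_klein h3 v a) (upper_jMat_mem_klein h3 hs hra), ?_, ?_⟩
  · rw [show upMat a x = upMat a 0 * upMat 1 r by
        rw [upMat_mul, mul_one, hr, ← mul_assoc, Units.mul_inv, one_mul, add_zero],
      ← mul_assoc, jMat_mul_upMat_zero,
      show upMat a⁻¹ (x / (a : F) ^ 2) = upMat a⁻¹ 0 * upMat 1 r by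
        rw [upMat_mul, mul_one, hr, add_zero, Units.val_inv_eq_inv_val]; congr 1; field_simp]
    simp only [mul_assoc]
    congr 1
    rw [← mul_assoc (upMat (1 : Fˣ) r) (scal a), ← scal_comm, mul_assoc]
    congr 1
    rw [← mul_assoc (upMat 1 r) (upMat 1 (-r)), upMat_mul, one_mul, Units.val_one, one_mul,
      neg_add_cancel, upMat_one, one_mul]
  · rw [map_div₀, map_pow, Units.val_inv_eq_inv_val, map_inv₀, sq]
    refine (div_le_div_of_nonneg_right hx zero_le).trans_eq ?_
    field_simp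

include H in
omit P in
/-- The inversion preserves nearness. -/
lemma IsNear.jMat_smul {ω : FinPt F (s3 F)} (h : IsNear ω) : IsNear (jMat F • ω) := fun v hv => by
  obtain ⟨a, x, hx, k, hk, he⟩ := h v hv
  obtain ⟨k', hk', hJ, hx'⟩ := exists_jMat_near H hv hx
  refine ⟨a⁻¹, x / (a : F) ^ 2, hx', k' * k, klein_mul (fun u hu => H.q3 u hu) hk' hk, ?_⟩
  rw [FinPt.smul_apply, he, MulAction.Quotient.smul_coe, smul_eq_mul, ← mul_assoc, hJ, mul_assoc]

omit P in
/-- Diagonal translation preserves nearness. -/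
lemma IsNear.diag_smul {ω : FinPt F (s3 F)} (h : IsNear ω) (c : Fˣ) :
    IsNear (upMat c 0 • ω) := fun v hv => by
  obtain ⟨a, x, hx, k, hk, he⟩ := h v hv
  refine ⟨c * a, (c : F) * x, ?_, k, hk, ?_⟩
  · rw [Units.val_mul, map_mul, map_mul]; exact mul_le_mul_right hx _
  · rw [FinPt.smul_apply, he, MulAction.Quotient.smul_coe, smul_eq_mul, ← mul_assoc,
      upMat_mul, add_zero]

/-- The constant of the functional equation. -/
theorem exists_phi1_jMat (H : HData σ lam) : ∃ K : ℂ, ∀ p : Pt F (s3 F), IsNear p.1 →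
    phi1 H p = K * phi1 H (jMat F • p) := by
  obtain ⟨κ, hκ⟩ := exists_lattice_transform H
  refine ⟨kGlob H * ((κ * ∏ w : InfinitePlace F, 1 / (4 * w (dlt H : F) ^ 2) : ℝ) : ℂ),
    fun p hp => ?_⟩
  obtain ⟨ω, x⟩ := p
  -- both sides vanish without data at `ω`
  have hzero : ∀ (ω' : FinPt F (s3 F)) (x' : InfinitePlace F → H3), IsNear ω' →
      ¬ Nonempty (PDat H ω') → phi1 H (ω', x') = 0 := fun ω' x' h hne => by
    refine (tsum_congr fun n => ?_).trans tsum_zero
    rw [((exists_pdat_or_zero H h).resolve_left hne) n n.2, zero_mul]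
  by_cases hne : Nonempty (PDat H ω)
  swap
  · rw [hzero ω x hp hne]
    refine (mul_eq_zero_of_right _ (hzero _ _ (hp.jMat_smul (H := H)) ?_)).symm
    rintro ⟨Q⟩
    refine hne ⟨?_⟩
    have e : jMat F • jMat F • ω = ω := congrArg Prod.fst (jMat_smul_jMat ((ω, x) : Pt F (s3 F)))
    exact e ▸ Q.inv
  obtain ⟨P⟩ := hne
  set y := fun w => atInf w (jMat F) • x w
  have hJ : jMat F • ((ω, x) : Pt F (s3 F)) = (jMat F • ω, y) := rfl
  rw [hJ, phi1_eq P x, phi1_eq P.inv y]
  -- transform the lattice sum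
  have hth : ∀ (τ : Pl F →₀ ℤ) (u : InfinitePlace F → ℝ), thSum P x τ u
      = ((κ * jacG (dlt H) (tOf x) (zOf x) : ℝ) : ℂ) * cGlob P * thSum P.inv y τ u := fun τ u => by
    simp only [thSum, thTerm, gU, tOf_jMat, zOf_jMat, y]
    exact hκ P τ (tOf x) (fun w => Real.exp (u w)) (tOf_pos x) (fun w => Real.exp_pos _) (zOf x)
  -- compare the global constants
  have hfac : cTot P x * (((κ * jacG (dlt H) (tOf x) (zOf x) : ℝ) : ℂ) * cGlob P)
      = kGlob H * ((κ * ∏ w : InfinitePlace F, 1 / (4 * w (dlt H : F) ^ 2) : ℝ) : ℂ) *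
          cTot P.inv y := by
    have hreal : (∏ w : InfinitePlace F, w (dlt H : F) * tOf x w) *
        (κ * jacG (dlt H) (tOf x) (zOf x))
        = (κ * ∏ w : InfinitePlace F, 1 / (4 * w (dlt H : F) ^ 2))
          * ∏ w : InfinitePlace F, w (dlt H : F) * tOf y w := by
      rw [jacG, mul_left_comm, mul_assoc κ, ← Finset.prod_mul_distrib, ← Finset.prod_mul_distrib]
      congr 1
      refine Finset.prod_congr rfl fun w _ => ?_
      rw [show tOf y w = tJ (tOf x) (zOf x) w from congrFun (tOf_jMat x) w, tJ,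
        InfinitePlace.norm_embedding_eq]
      have := (InfinitePlace.pos_iff (w := w)).2 (dlt H).ne_zero
      have hT : 0 < Complex.normSq (zOf x w) + tOf x w ^ 2 :=
        add_pos_of_nonneg_of_pos (Complex.normSq_nonneg _) (pow_pos (tOf_pos x w) 2)
      field_simp
    have hr := congrArg (fun r : ℝ => (r : ℂ)) hreal
    simp only [Complex.ofReal_mul] at hr
    rw [cTot, cTot]
    push_cast at hr ⊢
    linear_combination (cFin P * cGlob P) * hr
      + ((((κ : ℂ)) * ∏ w : InfinitePlace F, 1 / (4 * ((w (dlt H : F) : ℝ) : ℂ) ^ 2))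
        * ∏ w : InfinitePlace F, ((w (dlt H : F) : ℝ) : ℂ) * ((tOf y w : ℝ) : ℂ)) * cFin_mul_cGlob P
  set C := ((κ * jacG (dlt H) (tOf x) (zOf x) : ℝ) : ℂ) * cGlob P
  have e : (fun τ : Pl F →₀ ℤ => ∫ u, (wt M τ u : ℂ) * thSum P x τ u)
      = fun τ => C * ∫ u, (wt M τ u : ℂ) * thSum P.inv y τ u := funext fun τ => by
    rw [← integral_const_mul]
    refine integral_congr_ae (Eventually.of_forall fun u => ?_)
    simp only [hth]; ring
  rw [e, tsum_mul_left, ← mul_assoc, hfac, mul_assoc]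

end Fermat.LT.Theta
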