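import Fermat.Agent.LT.Theta.Artin
import Fermat.Agent.LT.Approx
import Fermat.Agent.CFT.Kummer.NormTheorem

/-!
# The norm residue symbols of a quadratic extension of a totally complex field

`nonNorm σ x` is the set of places where `x` is not a local norm; `exists_relation` relates the
symbols and `exists_not_alone` gives places never alone.
-/

set_option autoImplicit false
set_option linter.unusedSectionVars false

noncomputable section

open NumberField Fermat.CFT
open scoped Classical symmDiff

namespace Fermat.LT.Theta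

variable {K : Type} [Field K] [NumberField K] {F : Type} [Field F] [NumberField F] [Algebra K F]
  [IsGalois K F]

/-- `-1` is a primitive square root of unity. -/
lemma neg_one_primitive : IsPrimitiveRoot (-1 : K) 2 := IsPrimitiveRoot.neg_one 0 (by norm_num)

variable (F) in
/-- The local norms at `v`. -/
def lnorms (v : Pl K) : Subgroup Kˣ := localNorms 2 (-1 : K) F v

/-- The places at which `x` is not a local norm. -/
def nonNorm (σ : F ≃ₐ[K] F) (x : Kˣ) : Set (Pl K) := {v | IsNonsplit σ v ∧ x ∉ lnorms F v}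

variable (F) in
/-- The places ramified in `F`. -/
def ramPl : Set (Pl K) := {v | ∃ w : Pl F, plUnder K w = v ∧ plRamIdx K w ≠ 1}

/-- Places outside `ramPl` are unramified. -/
lemma plRamIdx_eq_one_of_not_ram {v : Pl K} (hv : v ∉ ramPl F) {w : Pl F} (hw : plUnder K w = v) :
    plRamIdx K w = 1 := by
  by_contra h; exact hv ⟨w, hw, h⟩

/-- Closeness to one weakens as the level falls. -/
lemma closeOne_mono {v : Pl K} {n m : ℤ} {z : K} (h : CloseOne v n z) (hmn : m ≤ n) :
    CloseOne v m z :=
  h.imp_right fun h => hmn.trans h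

/-- Elements close to one are local norms. -/
lemma mem_lnorms_of_closeOne {v : Pl K} {x : Kˣ}
    (h : CloseOne v (localLevel 2 (-1 : K) v) (x : K)) : x ∈ lnorms F v :=
  Subgroup.mem_sup_right ⟨1, by simpa using h⟩

/-- Simultaneous approximation of units. -/
lemma exists_units_approx (T : Finset (Pl K)) (u : Pl K → Kˣ) (n : ℕ) :
    ∃ y : Kˣ, ∀ v ∈ T, CloseOne v n ((y : K) / (u v : K)) := by
  rcases T.eq_empty_or_nonempty with rfl | hT
  · exact ⟨1, by simp⟩
  obtain ⟨M, hM⟩ : ∃ M : ℕ, ∀ v ∈ T, (n : ℤ) + CFT.ord v (u v : K) + 1 ≤ M := by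
    obtain ⟨M, hM⟩ := Finset.bddAbove (T.image fun v => ((n : ℤ) + CFT.ord v (u v : K) + 1).toNat)
    refine ⟨M, fun v hv => ?_⟩
    have := hM (Finset.mem_coe.2 (Finset.mem_image_of_mem _ hv))
    omega
  obtain ⟨y, hy, -⟩ := Fermat.LT.exists_approx (F := K) T (fun v => (u v : K)) M
  have hy0 : y ≠ 0 := by
    rintro rfl
    obtain ⟨v, hv⟩ := hT
    have h := hy v hv
    rw [zero_sub, Valuation.map_neg, ← CFT.le_ord_iff v (u v).ne_zero] at h
    have := hM v hv
    omega
  refine ⟨Units.mk0 y hy0, fun v hv => ?_⟩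
  rcases eq_or_ne (y : K) (u v : K) with h | h
  · exact Or.inl (by simp [h])
  refine Or.inr ?_
  have h1 := hy v hv
  rw [← CFT.le_ord_iff v (sub_ne_zero.mpr h)] at h1
  rw [Units.val_mk0, show y / (u v : K) - 1 = (y - u v) / (u v : K) by
    field_simp [(u v).ne_zero], CFT.ord_div v (sub_ne_zero.mpr h) (u v).ne_zero]
  have := hM v hv
  omega

variable [IsTotallyComplex K] (hF : Module.finrank K F = 2) {σ : F ≃ₐ[K] F} (hσ : σ ≠ 1)

include hF hσ

/-- The local norms have index two at a non-split place. -/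
lemma index_lnorms {v : Pl K} (hv : IsNonsplit σ v) : (lnorms F v).index = 2 :=
  index_localNorms' hF hσ neg_one_primitive hv

/-- A product is a local norm when both or neither factor is. -/
lemma mul_mem_lnorms_iff {v : Pl K} (hv : IsNonsplit σ v) (x y : Kˣ) :
    x * y ∈ lnorms F v ↔ (x ∈ lnorms F v ↔ y ∈ lnorms F v) :=
  Subgroup.mul_mem_iff_of_index_two (index_lnorms hF hσ hv)

/-- At an unramified place the local norms are the elements of even valuation. -/
theorem mem_lnorms_iff_even {v : Pl K} (hv : IsNonsplit σ v) (hram : v ∉ ramPl F) (x : Kˣ) :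
    x ∈ lnorms F v ↔ Even (CFT.ord v (x : K)) := by
  have hle : ∀ z ∈ lnorms F v, Even (CFT.ord v (z : K)) := by
    intro z hz
    obtain ⟨y, l, hl, h⟩ := mem_localNorms.mp hz
    obtain ⟨w, rfl⟩ := CFT.exists_plUnder_eq (F := F) v
    have h1 : (2 : ℤ) ∣ CFT.ord (plUnder K w) (Algebra.norm K (y : F)) :=
      dvd_ord_norm hF hσ (p := 2) hv
        (plRamIdx_eq_one_of_not_ram hram rfl) y.ne_zero
    have h2 : (2 : ℤ) ∣ CFT.ord (plUnder K w) (l : K) := dvd_ord_of_mem_localPowers hl
    rw [h, CFT.ord_mul _ (Algebra.norm_ne_zero_iff.mpr y.ne_zero) l.ne_zero]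
    exact even_iff_two_dvd.mpr (dvd_add h1 h2)
  refine ⟨hle x, fun hx => ?_⟩
  obtain ⟨π, hπ0, hπ⟩ := CFT.exists_ord_eq_one v
  have hπn : Units.mk0 π hπ0 ∉ lnorms F v := fun h => by
    have := hle _ h
    rw [Units.val_mk0, hπ] at this
    exact Int.not_even_one this
  by_contra hxn
  have := hle _ ((mul_mem_lnorms_iff hF hσ hv x (Units.mk0 π hπ0)).mpr (iff_of_false hxn hπn))
  rw [Units.val_mul, CFT.ord_mul v x.ne_zero (Units.ne_zero _), Units.val_mk0, hπ] at this
  exact Int.not_even_one ((Int.even_add.mp this).mp hx)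

/-- At a non-split place some element is not a local norm. -/
lemma exists_not_mem_lnorms {v : Pl K} (hv : IsNonsplit σ v) : ∃ x : Kˣ, x ∉ lnorms F v := by
  by_contra h
  push Not at h
  have h1 := index_lnorms hF hσ hv
  rw [(eq_top_iff.mpr fun x _ => h x : lnorms F v = ⊤), Subgroup.index_top] at h1
  exact absurd h1 (by norm_num)

/-- At an unramified place the order of a norm is the sum of the orders at the conjugate primes. -/
lemma ord_norm_eq {v : Pl K} (hram : v ∉ ramPl F) {w : Pl F} (hw : plUnder K w = v) {y : F}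
    (hy : y ≠ 0) :
    CFT.ord v (Algebra.norm K y) = CFT.ord w y + CFT.ord (σ • w) y := by
  have h := congrArg (CFT.ord w) (algebraMap_norm_eq_prod_pow hF hσ y)
  rw [CFT.ord_algebraMap_eq, plRamIdx_eq_one_of_not_ram hram hw, hw, Nat.cast_one, one_mul,
    show Finset.range 2 = {0, 1} by decide, Finset.prod_pair zero_ne_one] at h
  simp only [pow_zero, AlgEquiv.one_apply, pow_one] at h
  rw [h, CFT.ord_mul w hy ((map_ne_zero σ).mpr hy)]
  congr 1
  have hinv : σ⁻¹ = σ := by
    have h2 : σ ^ 2 = 1 := by rw [← orderOf_generator hF hσ]; exact pow_orderOf_eq_one σ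
    exact inv_eq_of_mul_eq_one_right (by rw [← pow_two]; exact h2)
  have h' := CFT.ord_smul σ (σ⁻¹ • w) y
  rw [smul_inv_smul, hinv] at h'
  exact h'

omit [IsTotallyComplex K] in
/-- Finitely many places ramify in a quadratic extension. -/
lemma finite_ramPl [IsTotallyComplex K] : (ramPl F : Set (Pl K)).Finite := by
  obtain ⟨U, -, hU, -⟩ := exists_normResidue_set' hF hσ neg_one_primitive ∅
  refine U.finite_toSet.subset ?_
  rintro v ⟨w, rfl, hw⟩
  by_contra h
  exact hw (hU w h)

/-- An element is a non-norm at only finitely many places. -/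
lemma nonNorm_finite (x : Kˣ) : (nonNorm σ x).Finite := by
  refine ((finite_ramPl hF hσ).union (CFT.finite_ord_ne_zero (x : K))).subset fun v hv => ?_
  by_cases hr : v ∈ ramPl F
  · exact Or.inl hr
  · refine Or.inr fun h0 => hv.2 ((mem_lnorms_iff_even hF hσ hv.1 hr x).mpr ?_)
    rw [h0]; exact Even.zero

/-- The non-norm set is additive for symmetric difference. -/
lemma nonNorm_mul (x y : Kˣ) : nonNorm σ (x * y) = nonNorm σ x ∆ nonNorm σ y := by
  ext v
  simp only [nonNorm, Set.mem_symmDiff, Set.mem_ofPred_eq]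
  by_cases hv : IsNonsplit σ v
  · simp only [hv, true_and, mul_mem_lnorms_iff hF hσ hv]
    tauto
  · simp [hv]

omit hF hσ in
/-- `1` is a local norm everywhere. -/
lemma nonNorm_one : nonNorm σ (1 : Kˣ) = ∅ :=
  Set.eq_empty_iff_forall_notMem.mpr fun _ hv => hv.2 (one_mem _)

/-- The classes of the chosen non-norms at the places of `P`. -/
private def nonNormVec {ns : Finset (Pl K)} (c : ns → Kˣ) (P : Finset (Pl K)) :
    LocN 2 (-1 : K) F ns :=
  fun v => Additive.ofMul (QuotientGroup.mk (if v.1 ∈ P then c v else 1))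

/-- Elements are congruent when both or neither are local norms. -/
private lemma mk_eq_mk_of_iff {v : Pl K} (hv : IsNonsplit σ v) {x y : Kˣ}
    (h : x ∈ lnorms F v ↔ y ∈ lnorms F v) :
    (QuotientGroup.mk x : Kˣ ⧸ localNorms 2 (-1 : K) F v) = QuotientGroup.mk y := by
  rw [QuotientGroup.eq]
  refine (mul_mem_lnorms_iff hF hσ hv _ _).mpr ?_
  rwa [inv_mem_iff]

omit hF hσ in
/-- Membership in a subgroup of index two is decided by a parity. -/
private lemma nonNormVec_mem_iff {ns : Finset (Pl K)} (c : ns → Kˣ)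
    {R : AddSubgroup (LocN 2 (-1 : K) F ns)} (hidx : R.index = 2) :
    ∀ P ⊆ ns, (nonNormVec c P ∈ R ↔ Even (P ∩ ns.filter fun v => nonNormVec c {v} ∉ R).card) := by
  set A := ns.filter fun v => nonNormVec c {v} ∉ R
  intro P
  induction P using Finset.induction with
  | empty =>
    intro _
    have : nonNormVec (F := F) c ∅ = 0 := funext fun v => by simp [nonNormVec]; rfl
    simp [this, zero_mem]
  | @insert v P hv ih =>
    intro hP
    rw [Finset.insert_subset_iff] at hP
    have hsum : nonNormVec (F := F) c (insert v P) = nonNormVec c {v} + nonNormVec c P := by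
      funext u
      change (Additive.ofMul (QuotientGroup.mk (if u.1 ∈ insert v P then c u else 1)) :
          Additive (Kˣ ⧸ localNorms 2 (-1 : K) F u.1)) =
        Additive.ofMul (QuotientGroup.mk (if u.1 ∈ ({v} : Finset (Pl K)) then c u else 1)) +
          Additive.ofMul (QuotientGroup.mk (if u.1 ∈ P then c u else 1))
      rw [← ofMul_mul, ← QuotientGroup.mk_mul]
      by_cases huv : u.1 = v
      · have : u.1 ∉ P := huv ▸ hv
        simp [huv, hv]
      · simp [huv]
    rw [hsum, AddSubgroup.add_mem_iff_of_index_two hidx, ih hP.2]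
    by_cases hvR : nonNormVec c {v} ∈ R
    · have : insert v P ∩ A = P ∩ A := by
        rw [Finset.insert_inter_of_notMem]
        exact fun h => (Finset.mem_filter.mp h).2 hvR
      simp [this, hvR]
    · have hvA : v ∈ A := Finset.mem_filter.mpr ⟨hP.1, hvR⟩
      rw [Finset.insert_inter_of_mem hvA, Finset.card_insert_of_notMem
        (fun h => hv (Finset.mem_inter.mp h).1), Nat.even_add_one]
      simp [hvR]

/-- Every class comes from a set of places. -/
private lemma exists_nonNormVec_eq {ns : Finset (Pl K)} (hns : ∀ v ∈ ns, IsNonsplit σ v)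
    {c : ns → Kˣ} (hc : ∀ v : ns, c v ∉ lnorms F v.1) (f : LocN 2 (-1 : K) F ns) :
    ∃ P ⊆ ns, nonNormVec c P = f := by
  choose r hr using fun v : ns => QuotientGroup.mk_surjective (Additive.toMul (f v))
  refine ⟨ns.filter fun v => ∃ h : v ∈ ns, r ⟨v, h⟩ ∉ lnorms F v, Finset.filter_subset _ _,
    funext fun v => ?_⟩
  change Additive.ofMul _ = _
  rw [← ofMul_toMul (f v), ← hr v]
  refine congrArg _ (mk_eq_mk_of_iff hF hσ (hns v v.2) ?_)
  by_cases hrv : r v ∈ lnorms F v.1
  · simp [hrv]
  · simp [hrv, v.2, hc v]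

/-- A norm absorbs the valuations outside `U`. -/
private lemma exists_norm_absorbing {U : Finset (Pl K)} {SF : Finset (Pl F)}
    (hSF : GeneratesClassGroup (SF : Set (Pl F))) (hS : SF.image (plUnder K) ⊆ U)
    (hunrU : ∀ v ∉ U, v ∉ ramPl F) {x : Kˣ} (hxU : ∀ v ∈ nonNorm σ x, v ∈ U) :
    ∃ η : Fˣ, ∀ v ∉ U,
      CFT.ord v ((x * (Units.map (Algebra.norm K : F →* K) η)⁻¹ : Kˣ) : K) = 0 := by
  choose wsec hwsec using CFT.exists_plUnder_eq (K := K) (F := F)
  -- prescribe orders at one place over each `v`, halved where `v` does not split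
  let m : Pl F → ℤ := fun w =>
    if plUnder K w ∉ U ∧ w = wsec (plUnder K w) then
      (if IsNonsplit σ (plUnder K w) then CFT.ord (plUnder K w) (x : K) / 2
        else CFT.ord (plUnder K w) (x : K))
    else 0
  obtain ⟨η, hη0, hη⟩ := hSF m (by
    refine ((CFT.finite_ord_ne_zero (x : K)).image wsec).subset fun w hw => ?_
    simp only [m, Set.mem_ofPred_eq] at hw
    split_ifs at hw with h h' <;> try exact absurd rfl hw
    · exact ⟨plUnder K w, fun h0 => hw (by simp [h0]), h.2.symm⟩
    · exact ⟨plUnder K w, hw, h.2.symm⟩)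
  refine ⟨Units.mk0 η hη0, fun v hv => ?_⟩
  have hwU : ∀ w : Pl F, plUnder K w = v → w ∉ (SF : Set (Pl F)) := by
    intro w hw hwS
    exact hv (hw ▸ hS (Finset.mem_image_of_mem _ hwS))
  -- then `N η` has the order of `x` at `v`
  have h1 : CFT.ord v (Algebra.norm K η) = CFT.ord v (x : K) := by
    rw [ord_norm_eq hF hσ (hunrU v hv) (hwsec v) hη0, hη _ (hwU _ (hwsec v)),
      hη _ (hwU _ (by rw [plUnder_smul]; exact hwsec v))]
    simp only [m, plUnder_smul, hwsec, hv, not_false_eq_true, true_and, if_true]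
    by_cases hsp : IsNonsplit σ v
    · rw [if_pos (hsp _ (hwsec v)), if_pos hsp]
      have heven : Even (CFT.ord v (x : K)) := by
        rw [← mem_lnorms_iff_even hF hσ hsp (hunrU v hv)]
        by_contra hn
        exact hv (hxU v ⟨hsp, hn⟩)
      obtain ⟨k, hk⟩ := heven
      omega
    · rw [if_neg fun h => hsp (hwsec v ▸ IsNonsplit.of_smul_eq hF hσ h), if_neg hsp, add_zero]
  rw [Units.val_mul, Units.val_inv_eq_inv_val, CFT.ord_mul v x.ne_zero
    (inv_ne_zero (Units.ne_zero _)), CFT.ord_inv]
  simp [h1]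

/-- A `U`-unit with the classes of `P` fails to be a local norm exactly at `P`. -/
private lemma nonNorm_eq_of_normResidue {U P : Finset (Pl K)} (hPU : P ⊆ U)
    (hPns : ∀ v ∈ P, IsNonsplit σ v) (hunrU : ∀ v ∉ U, v ∉ ramPl F)
    {c : U.filter (IsNonsplit σ) → Kˣ} (hc : ∀ v, c v ∉ lnorms F v.1)
    {e : Additive (sUnits K (U : Set (Pl K)))}
    (he : normResidue 2 (-1 : K) F (U.filter (IsNonsplit σ)) U e = nonNormVec c P) :
    nonNorm σ (Additive.toMul e).1 = ↑P := by
  refine Set.ext fun v => ?_
  by_cases hv : v ∈ U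
  · by_cases hsp : IsNonsplit σ v
    · have hvns : v ∈ U.filter (IsNonsplit σ) := Finset.mem_filter.mpr ⟨hv, hsp⟩
      have h := congrArg Additive.toMul (congrFun he ⟨v, hvns⟩)
      change (QuotientGroup.mk (Additive.toMul e).1 : Kˣ ⧸ localNorms 2 (-1 : K) F v) =
        QuotientGroup.mk (if v ∈ P then c ⟨v, hvns⟩ else 1) at h
      simp only [nonNorm, Set.mem_ofPred_eq, hsp, true_and, Finset.mem_coe]
      by_cases hvP : v ∈ P
      · rw [if_pos hvP, QuotientGroup.eq] at h
        simp only [hvP, iff_true]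
        intro hmem
        exact hc ⟨v, hvns⟩ (by
          have := (mul_mem_lnorms_iff hF hσ hsp _ _).mp h
          rw [inv_mem_iff] at this
          exact this.mp hmem)
      · rw [if_neg hvP, QuotientGroup.mk_one, QuotientGroup.eq_one_iff] at h
        simp only [hvP, iff_false, not_not]
        exact h
    · simp only [nonNorm, Set.mem_ofPred_eq, hsp, false_and, Finset.mem_coe, false_iff]
      exact fun h => hsp (hPns v h)
  · simp only [Finset.mem_coe, show v ∉ P from fun h => hv (hPU h), iff_false]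
    rintro ⟨hsp, hn⟩
    refine hn ((mem_lnorms_iff_even hF hσ hsp (hunrU v hv) _).mpr ?_)
    rw [(Additive.toMul e).2 v hv]
    exact Even.zero

/-- **The relation between the symbols.** Some places contain `S₀` and a nonempty set `A` of
non-split ones such that a set of non-split places among them is a `nonNorm` exactly when it meets
`A` evenly. -/
theorem exists_relation (S₀ : Finset (Pl K)) :
    ∃ U A : Finset (Pl K), S₀ ⊆ U ∧ A ⊆ U ∧ (∀ v ∈ A, IsNonsplit σ v) ∧ A.Nonempty ∧
      ∀ P : Finset (Pl K), P ⊆ U → (∀ v ∈ P, IsNonsplit σ v) →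
        ((∃ x : Kˣ, nonNorm σ x = ↑P) ↔ Even (P ∩ A).card) := by
  obtain ⟨SF, hSF⟩ := CFT.exists_finset_generatesClassGroup F
  -- Norm residues at a large set `U` have range of index two among all symbol vectors.
  obtain ⟨U, hS, hunr, -, hidx, -⟩ :=
    exists_normResidue_set' hF hσ neg_one_primitive (S₀ ∪ SF.image (plUnder K))
  set ns := U.filter (IsNonsplit σ) with hns
  set R := (normResidue 2 (-1 : K) F ns U).range with hR
  have hnsp : ∀ v ∈ ns, IsNonsplit σ v := fun v hv => (Finset.mem_filter.mp hv).2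
  choose c hc using fun v : ns => exists_not_mem_lnorms hF hσ (hnsp v v.2)
  have hunrU : ∀ v ∉ U, v ∉ ramPl F := by
    rintro v hv ⟨w, rfl, hw⟩
    exact hw (hunr w hv)
  -- `A`: the places whose unit vector is outside the range; evenness on `A` tests membership.
  set A := ns.filter fun v => nonNormVec c {v} ∉ R with hA
  refine ⟨U, A, (Finset.union_subset_left hS), (Finset.filter_subset _ _).trans
    (Finset.filter_subset _ _), fun v hv => hnsp v (Finset.mem_filter.mp hv).1,
    ?_, fun P hPU hPns => ?_⟩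
  · by_contra hA0
    rw [Finset.not_nonempty_iff_eq_empty] at hA0
    have hall' : R = ⊤ := eq_top_iff.mpr fun f _ => by
      obtain ⟨P, hP, rfl⟩ := exists_nonNormVec_eq hF hσ hnsp hc f
      rw [nonNormVec_mem_iff c hidx P hP, ← hA, hA0, Finset.inter_empty, Finset.card_empty]
      exact Even.zero
    rw [hall', AddSubgroup.index_top] at hidx
    exact absurd hidx (by norm_num)
  have hP : P ⊆ ns := fun v hv => Finset.mem_filter.mpr ⟨hPU hv, hPns v hv⟩
  rw [← nonNormVec_mem_iff c hidx P hP]
  constructor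
  -- An element not a norm exactly at `P` becomes a `U`-unit after removing a norm.
  · rintro ⟨x, hx⟩
    obtain ⟨η, hzero⟩ := exists_norm_absorbing hF hσ hSF (Finset.union_subset_right hS) hunrU
      (x := x) fun v hv => hPU (by rwa [hx] at hv)
    set Nη : Kˣ := Units.map (Algebra.norm K : F →* K) η with hNη
    refine ⟨Additive.ofMul ⟨x * Nη⁻¹, hzero⟩, funext fun u =>
      congrArg Additive.ofMul (mk_eq_mk_of_iff hF hσ (hnsp u u.2) ?_)⟩
    have hN : Nη⁻¹ ∈ lnorms F u.1 := inv_mem (norm_mem_localNorms (y := η) (by simp [hNη]))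
    change x * Nη⁻¹ ∈ lnorms F u.1 ↔ _
    rw [mul_mem_lnorms_iff hF hσ (hnsp u u.2), iff_true_right hN]
    have hu : u.1 ∈ P ↔ x ∉ lnorms F u.1 := by
      rw [← Finset.mem_coe, ← hx]
      exact ⟨fun h => h.2, fun h => ⟨hnsp u u.2, h⟩⟩
    by_cases h : u.1 ∈ P
    · simp [h, hu.mp h, hc u]
    · simp [h, not_not.mp (mt hu.mpr h)]
  · rintro ⟨e, he⟩
    exact ⟨_, nonNorm_eq_of_normResidue hF hσ hPU hPns hunrU hc he⟩

/-- Some element fails to be a local norm at `v` and nowhere else. -/
def Alone (σ : F ≃ₐ[K] F) (v : Pl K) : Prop := ∃ x : Kˣ, nonNorm σ x = {v}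

/-- A finite set of `Alone` places is the non-norm set of some element. -/
lemma exists_nonNorm_of_alone (R : Finset (Pl K)) (hR : ∀ v ∈ R, Alone σ v) :
    ∃ x : Kˣ, nonNorm σ x = ↑R := by
  induction R using Finset.induction with
  | empty => exact ⟨1, by simp [nonNorm_one]⟩
  | @insert v R hv ih =>
    obtain ⟨x, hx⟩ := ih fun u hu => hR u (Finset.mem_insert_of_mem hu)
    obtain ⟨z, hz⟩ := hR v (Finset.mem_insert_self _ _)
    refine ⟨z * x, ?_⟩
    rw [nonNorm_mul hF hσ, hx, hz, Finset.coe_insert, Set.insert_eq]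
    exact (Set.disjoint_singleton_left.mpr (by simpa using hv)).symmDiff_eq_sup

/-- There are unramified non-split places outside any finite set with no `Alone` witness. -/
theorem exists_not_alone (T : Finset (Pl K)) :
    ∃ v, v ∉ T ∧ v ∉ ramPl F ∧ IsNonsplit σ v ∧ ¬ Alone σ v := by
  set T' := T ∪ (finite_ramPl hF hσ).toFinset with hT'
  by_contra hno
  have hno' : ∀ v ∉ T', IsNonsplit σ v → Alone σ v := fun v hv hsp => by
    by_contra h
    simp only [hT', Finset.mem_union, Set.Finite.mem_toFinset, not_or] at hv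
    exact hno ⟨v, hv.1, hv.2, hsp, h⟩
  obtain ⟨U, A, -, hAU, hAns, ⟨v, hvA⟩, hP⟩ := exists_relation hF hσ T'
  -- the nonsplit place `v` of a relation cannot be alone
  have hv : ¬ Alone σ v := fun ⟨x, hx⟩ => by
    have h := (hP {v} (by simpa using hAU hvA) (by simpa using hAns v hvA)).mp
      ⟨x, by simpa using hx⟩
    rw [Finset.singleton_inter_of_mem hvA, Finset.card_singleton] at h
    exact Nat.not_even_one h
  -- approximate a local non-norm at `v` and `1` on `T'`
  obtain ⟨u, hu⟩ := exists_not_mem_lnorms hF hσ (hAns v hvA)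
  obtain ⟨L, hL⟩ : ∃ L : ℕ, ∀ r ∈ T' ∪ {v}, (localLevel 2 (-1 : K) r) ≤ L :=
    ⟨_, fun r hr => Finset.le_sup (f := fun r : Pl K => localLevel 2 (-1 : K) r) hr⟩
  obtain ⟨y, hy⟩ := exists_units_approx (T' ∪ {v}) (fun r => if r = v then u else 1) L
  have hvy : v ∈ nonNorm σ y := by
    refine ⟨hAns v hvA, fun h => hu ?_⟩
    have h1 := hy v (Finset.mem_union_right _ (Finset.mem_singleton_self v))
    rw [if_pos rfl, ← Units.val_div_eq_div_val] at h1
    have h2 : y / u ∈ lnorms F v := mem_lnorms_of_closeOne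
      (closeOne_mono h1 (by exact_mod_cast hL v (by simp)))
    have := div_mem h h2
    rwa [div_div_cancel] at this
  -- the other non-norm places of `y` can be removed by `z`
  set R := ((nonNorm_finite hF hσ y).toFinset).erase v with hR
  obtain ⟨z, hz⟩ := exists_nonNorm_of_alone hF hσ R fun r hr => by
    obtain ⟨hrv, hr⟩ := Finset.mem_erase.mp hr
    rw [Set.Finite.mem_toFinset] at hr
    refine hno' r (fun hrT => hr.2 ?_) hr.1
    have h1 := hy r (Finset.mem_union_left _ hrT)
    rw [if_neg hrv, Units.val_one, div_one] at h1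
    exact mem_lnorms_of_closeOne (closeOne_mono h1 (by exact_mod_cast hL r (by simp [hrT])))
  -- then `z * y` makes `v` alone
  refine hv ⟨z * y, ?_⟩
  rw [nonNorm_mul hF hσ, hz, hR, Finset.coe_erase, Set.Finite.coe_toFinset]
  ext r
  simp only [Set.mem_symmDiff, Set.mem_sdiff, Set.mem_singleton_iff]
  constructor
  · rintro (⟨⟨h1, -⟩, h⟩ | ⟨h1, h2⟩)
    · exact absurd h1 h
    · by_contra h; exact h2 ⟨h1, h⟩
  · rintro rfl
    exact Or.inr ⟨hvy, fun h => h.2 rfl⟩

end Fermat.LT.Theta
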