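import Fermat.Agent.CFT.Kummer.Auxiliary
import Fermat.Agent.LT.Theta.Symbol

/-!
# Adjusting by norms; the Artin map of a quadratic extension in terms of symbols

`exists_adjust` adjusts by a norm; `art_eq_neg_one_pow` counts the symbols.
-/

set_option autoImplicit false
set_option linter.unusedSectionVars false

noncomputable section

open NumberField Fermat.CFT
open scoped Classical

namespace Fermat.LT.Theta

variable {K : Type} [Field K] [NumberField K] {F : Type} [Field F] [NumberField F] [Algebra K F]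
  [IsGalois K F]

/-- Congruences upstairs descend. -/
lemma closeOne_of_algebraMap {v : Pl K} {w : Pl F} (hw : plUnder K w = v) {n : ℕ} {z : K}
    (h : CloseOne w ((plRamIdx K w * n : ℕ) : ℤ) (algebraMap K F z)) : CloseOne v n z := by
  rcases h with h | h
  · exact Or.inl ((algebraMap K F).injective (by rw [h, map_one]))
  · refine Or.inr ?_
    rw [← map_one (algebraMap K F), ← map_sub, CFT.ord_algebraMap_eq, hw] at h
    push_cast at h
    exact le_of_mul_le_mul_left h (Int.natCast_pos.mpr (plRamIdx_pos (K := K) w))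

/-- Galois automorphisms transport closeness to one. -/
lemma closeOne_smul {G : Type} [Group G] [MulSemiringAction G F] (g : G) {w : Pl F} {n : ℤ} {z : F}
    (h : CloseOne w n z) : CloseOne (g • w) n (g • z) := by
  rcases h with rfl | h
  · exact Or.inl (smul_one g)
  · refine Or.inr ?_
    rwa [show g • z - 1 = g • (z - 1) by rw [smul_sub, smul_one], CFT.ord_smul]

/-- Norms in Galois extensions preserve congruences to `1`. -/
lemma closeOne_norm {E : Type} [Field E] [NumberField E] [Algebra K E] [IsGalois K E] {v : Pl K}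
    {n : ℕ} (hn : 0 < n) {z : E} (hz : z ≠ 0)
    (h : ∀ w : Pl E, plUnder K w = v → CloseOne w ((plRamIdx K w * n : ℕ) : ℤ) z) :
    CloseOne v n (Algebra.norm K z) := by
  obtain ⟨w, hw⟩ := CFT.exists_plUnder_eq (F := E) v
  refine closeOne_of_algebraMap hw ?_
  rw [Algebra.norm_eq_prod_automorphisms]
  refine CloseOne.prod (Int.natCast_pos.mpr (Nat.mul_pos (plRamIdx_pos w) hn)) _ _
    (fun g _ => (map_ne_zero g).mpr hz) (fun g _ => ?_)
  have hw' : plUnder K (g⁻¹ • w) = v := by rw [plUnder_smul]; exact hw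
  have he : plRamIdx K (g⁻¹ • w) = plRamIdx K w := by
    obtain ⟨π, -, hπ⟩ := CFT.exists_ord_eq_one v
    have h1 := CFT.ord_algebraMap_eq (g⁻¹ • w) π
    have h2 := CFT.ord_algebraMap_eq w π
    rw [hw', hπ, mul_one] at h1
    rw [hw, hπ, mul_one] at h2
    rw [show algebraMap K E π = g⁻¹ • algebraMap K E π from (g⁻¹.commutes π).symm, CFT.ord_smul,
      h2] at h1
    exact_mod_cast h1.symm
  have h1 := closeOne_smul g (h _ hw')
  rw [smul_inv_smul, he] at h1
  exact h1

variable [IsTotallyComplex K] (hF : Module.finrank K F = 2) {σ : F ≃ₐ[K] F} (hσ : σ ≠ 1)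

include hF hσ

/-- At a split place every element is a local norm. -/
theorem lnorms_eq_top_of_split {v : Pl K} (hv : ¬ IsNonsplit σ v) : lnorms F v = ⊤ := by
  refine eq_top_iff.mpr fun x _ => ?_
  obtain ⟨w, hw⟩ := CFT.exists_plUnder_eq (F := F) v
  have hne : σ • w ≠ w := fun h => hv (hw ▸ IsNonsplit.of_smul_eq hF hσ h)
  set n := localLevel 2 (-1 : K) v with hn
  set m := plRamIdx K w * n with hm
  obtain ⟨y, hy⟩ := exists_units_approx ({w, σ • w} : Finset (Pl F))
    (fun u => if u = w then Units.map (algebraMap K F : K →* F) x else 1) m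
  refine mem_localNorms.mpr ⟨y, x / Units.map (Algebra.norm K : F →* K) y, ?_, ?_⟩
  · refine ⟨1, ?_⟩
    rw [Units.val_one, one_pow, div_one]
    have h0 : CloseOne v n (((x / Units.map (Algebra.norm K : F →* K) y)⁻¹ : Kˣ) : K) := by
      refine closeOne_of_algebraMap hw ?_
      rw [inv_div, Units.val_div_eq_div_val, map_div₀, Units.coe_map]
      rw [algebraMap_norm_eq_prod_pow hF hσ, show Finset.range 2 = {0, 1} by decide,
        Finset.prod_pair zero_ne_one]
      simp only [pow_zero, AlgEquiv.one_apply, pow_one]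
      rw [mul_div_right_comm]
      have h1 := hy w (Finset.mem_insert_self _ _)
      rw [if_pos rfl] at h1
      refine h1.mul (Int.natCast_pos.mpr (Nat.mul_pos (plRamIdx_pos w) (Nat.succ_pos _))) ?_
        ((map_ne_zero σ).mpr y.ne_zero)
      have h2 := hy (σ • w) (Finset.mem_insert_of_mem (Finset.mem_singleton_self _))
      rw [if_neg hne, Units.val_one, div_one] at h2
      have h3 := closeOne_smul σ h2
      rwa [smul_smul, show σ * σ = 1 by
        rw [← pow_two, ← orderOf_generator hF hσ]; exact pow_orderOf_eq_one σ, one_smul] at h3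
    have h1 := h0.inv (localLevel_pos 2 (-1 : K) v) (Units.ne_zero _)
    rwa [Units.val_inv_eq_inv_val, inv_inv] at h1
  · rw [Units.val_div_eq_div_val, Units.coe_map]
    field_simp [Algebra.norm_ne_zero_iff.mpr y.ne_zero]

/-- Make a local norm close to `1` at finitely many places, without changing the symbols. -/
theorem exists_adjust (T : Finset (Pl K)) (n : ℕ) (x : Kˣ) (hx : ∀ v ∈ T, x ∈ lnorms F v) :
    ∃ x' : Kˣ, nonNorm σ x' = nonNorm σ x ∧ ∀ v ∈ T, CloseOne v n (x' : K) := by
  -- local data: a norm times a square near `x`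
  have hdata : ∀ v : Pl K, ∃ (y : Fˣ) (z : Kˣ), v ∈ T → CloseOne v (n + 1 : ℕ)
      ((x : K) / (Algebra.norm K (y : F) * (z : K) ^ 2)) := by
    intro v
    by_cases hv : v ∈ T
    swap
    · exact ⟨1, 1, fun h => absurd h hv⟩
    obtain ⟨y, l, ⟨z, hz⟩, h⟩ := mem_localNorms.mp (hx v hv)
    obtain ⟨s, hs0, hs⟩ := exists_pow_close neg_one_primitive v
      (div_ne_zero l.ne_zero (pow_ne_zero _ z.ne_zero)) hz (n + 1)
    refine ⟨y, z * Units.mk0 s hs0, fun _ => ?_⟩
    refine closeOne_mono ?_ (le_add_of_nonneg_left (Int.natCast_nonneg (localLevel 2 (-1 : K) v)))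
    convert hs using 1
    rw [h, Units.val_mul, Units.val_mk0, mul_pow, div_div]
    field_simp [Algebra.norm_ne_zero_iff.mpr y.ne_zero, z.ne_zero, hs0]
  choose y z hyz using hdata
  obtain ⟨M, hM⟩ : ∃ M : ℕ, ∀ w ∈ plAbove F T, plRamIdx K w * (n + 1) ≤ M :=
    ⟨_, fun w hw => Finset.le_sup (f := fun w : Pl F => plRamIdx K w * (n + 1)) hw⟩
  -- approximate the local data globally
  obtain ⟨η, hη⟩ := exists_units_approx (plAbove F T) (fun w => y (plUnder K w)) M
  obtain ⟨ζ₀, hζ⟩ := exists_units_approx T z (n + 1)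
  set Nη : Kˣ := Units.map (Algebra.norm K : F →* K) η
  refine ⟨x / (Nη * ζ₀ ^ 2), ?_, fun v hv => ?_⟩
  · ext v
    simp only [nonNorm, Set.mem_ofPred_eq, and_congr_right_iff]
    intro hsp
    rw [not_iff_not, div_eq_mul_inv, mul_mem_lnorms_iff hF hσ hsp]
    refine iff_true_right (inv_mem (mul_mem (norm_mem_localNorms (y := η) (by simp [Nη])) ?_))
    exact Subgroup.mem_sup_right (pow_mem_localPowers v ζ₀)
  · have hpos : (0 : ℤ) < ((n + 1 : ℕ) : ℤ) := Int.natCast_pos.mpr (Nat.succ_pos _)
    have h1 := closeOne_norm (v := v) (Nat.succ_pos n) (z := (η : F) / (y v : F))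
      (div_ne_zero η.ne_zero (y v).ne_zero) fun w hw => by
        have hwT : w ∈ plAbove F T := mem_plAbove.mpr (hw ▸ hv)
        have := hη w hwT
        rw [hw] at this
        exact closeOne_mono this (by exact_mod_cast hM w hwT)
    have hη0 : Algebra.norm K (η : F) ≠ 0 := Algebra.norm_ne_zero_iff.mpr η.ne_zero
    have hy0 : Algebra.norm K (y v : F) ≠ 0 := Algebra.norm_ne_zero_iff.mpr (y v).ne_zero
    rw [div_eq_mul_inv, map_mul, Algebra.norm_inv, ← div_eq_mul_inv] at h1
    have h2 := hζ v hv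
    have hdiv : ((ζ₀ : K) / (z v : K)) ≠ 0 := div_ne_zero ζ₀.ne_zero (z v).ne_zero
    have h3 := (h1.mul hpos (h2.mul hpos h2 hdiv) (mul_ne_zero hdiv hdiv)).inv hpos
      (mul_ne_zero (div_ne_zero hη0 hy0) (mul_ne_zero hdiv hdiv))
    have h4 := (hyz v hv).mul hpos h3
      (inv_ne_zero (mul_ne_zero (div_ne_zero hη0 hy0) (mul_ne_zero hdiv hdiv)))
    refine closeOne_mono (n := ((n + 1 : ℕ) : ℤ)) ?_ (by push_cast; omega)
    convert h4 using 1
    simp only [Nη, Units.val_div_eq_div_val, Units.val_mul, Units.val_pow_eq_pow_val, Units.coe_map]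
    field_simp [hη0, hy0, ζ₀.ne_zero, (z v).ne_zero]

omit [IsTotallyComplex K] in
/-- At an unramified place, non-split means nontrivial Frobenius. -/
lemma isNonsplit_iff_congr {v : Pl K} {w : Pl F} (hw : plUnder K w = v) (hram : plRamIdx K w = 1)
    {g : F ≃ₐ[K] F} (hg : Congr g w (resCard v)) : IsNonsplit σ v ↔ g ≠ 1 := by
  subst hw
  obtain ⟨-, hzp⟩ := congr_pow_stabilizer w hram hg
  constructor
  · rintro hns rfl
    have : σ ∈ MulAction.stabilizer (F ≃ₐ[K] F) w := hns w rfl
    rw [← hzp, Subgroup.zpowers_one_eq_bot, Subgroup.mem_bot] at this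
    exact hσ this
  · intro hg1
    refine IsNonsplit.of_smul_eq hF hσ ?_
    change σ ∈ MulAction.stabilizer (F ≃ₐ[K] F) w
    rw [← hzp]
    exact mem_zpowers_of_prime_card (card_aut_eq hF) hg1

/-- Unramified non-split places are those with nontrivial Frobenius. -/
lemma isNonsplit_iff_frobPl {v : Pl K} (hram : v ∉ ramPl F) :
    IsNonsplit σ v ↔ frobPl F v ≠ 1 := by
  refine isNonsplit_iff_congr hF hσ (plUnder_plOver (N := F) v)
    (plRamIdx_eq_one_of_not_ram hram (plUnder_plOver v)) ?_
  have := congr_frobEl (K := K) (plOver F v)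
  rwa [plUnder_plOver] at this

/-- The Artin map of a quadratic character counts the symbols. -/
theorem art_eq_neg_one_pow {Ω : Type} [Field Ω] [NumberField Ω] [Algebra K Ω] [IsGalois K Ω]
    (φ : (Ω ≃ₐ[K] Ω) →* ℤˣ) (T : Set (Pl K)) (hT : ∀ v ∈ ramPl F, v ∈ T)
    (hφ : ∀ v ∉ T, φ (frobPl Ω v) = if IsNonsplit σ v then -1 else 1) (x : Kˣ) :
    art φ T (x : K) = (-1) ^ (nonNorm σ x \ T).ncard := by
  have hfin : (nonNorm σ x \ T).Finite := (nonNorm_finite hF hσ x).subset Set.sdiff_subset
  rw [Set.ncard_eq_toFinset_card _ hfin, art]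
  have hterm : ∀ v : Pl K, (if v ∈ T then (1 : ℤˣ) else φ (frobPl Ω v) ^ CFT.ord v (x : K)) =
      if v ∈ nonNorm σ x \ T then -1 else 1 := by
    intro v
    by_cases hvT : v ∈ T
    · simp [hvT]
    rw [if_neg hvT, hφ v hvT]
    by_cases hsp : IsNonsplit σ v
    · rw [if_pos hsp]
      have h := mem_lnorms_iff_even hF hσ hsp (fun h => hvT (hT v h)) x
      rcases Int.even_or_odd (CFT.ord v (x : K)) with he | ho
      · rw [he.neg_one_zpow, if_neg fun hm => hm.1.2 (h.mpr he)]
      · rw [ho.neg_one_zpow,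
          if_pos ⟨⟨hsp, fun hm => (Int.not_even_iff_odd.mpr ho) (h.mp hm)⟩, hvT⟩]
    · rw [if_neg hsp, one_zpow, if_neg fun hm => hsp hm.1.1]
  rw [finprod_congr hterm, finprod_eq_prod_of_mulSupport_subset (s := hfin.toFinset) _
    (by intro v hv; by_contra h; exact hv (if_neg (by simpa using h))),
    Finset.prod_congr rfl fun v hv => if_pos (hfin.mem_toFinset.mp hv), Finset.prod_const]

end Fermat.LT.Theta
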