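import Fermat.Agent.LT.Theta.Arch

/-!
# Theta: the Fourier transform of a twisted Gaussian on `ℂ × ℂ`

`integral_gW`: the transform changes height and translation as the inversion of `H3` does.
-/

set_option autoImplicit false

open MeasureTheory Filter Topology
open scoped Real ComplexConjugate

noncomputable section

namespace Fermat.LT.Theta

/-- `exp (-2π|c| t (q |a|² + |b|²/q)) exp (4πi re (c z a b))`. -/
def gW (c : ℂ) (t q : ℝ) (z : ℂ) (u : ℂ × ℂ) : ℂ :=
  ((Real.exp (-(2 * π * ‖c‖ * t * (q * ‖u.1‖ ^ 2 + ‖u.2‖ ^ 2 / q))) : ℝ) : ℂ) *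
    eC (c * z * u.1 * u.2)

/-- The symmetric pairing. -/
def pW (c : ℂ) (u y : ℂ × ℂ) : ℂ := eC (c * (u.1 * y.2 + u.2 * y.1))

/-- The twisted Gaussian is continuous. -/
lemma continuous_gW (c : ℂ) (t q : ℝ) (z : ℂ) : Continuous (gW c t q z) := by
  unfold gW; fun_prop

/-- The pairing is continuous in the first variable. -/
lemma continuous_pW (c : ℂ) (y : ℂ × ℂ) : Continuous fun u => pW c u y := by unfold pW; fun_prop

/-- The pairing has absolute value one. -/
lemma norm_pW (c : ℂ) (u y : ℂ × ℂ) : ‖pW c u y‖ = 1 := norm_eC _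

/-- The modulus of the twisted Gaussian. -/
lemma norm_gW (c : ℂ) (t q : ℝ) (z : ℂ) (u : ℂ × ℂ) :
    ‖gW c t q z u‖ = Real.exp (-(2 * π * ‖c‖ * t * (q * ‖u.1‖ ^ 2 + ‖u.2‖ ^ 2 / q))) := by
  rw [gW, norm_mul, norm_eC, mul_one, Complex.norm_real, Real.norm_of_nonneg (Real.exp_pos _).le]

variable {c : ℂ} (hc : c ≠ 0) {t q : ℝ} (ht : 0 < t) (hq : 0 < q) (z : ℂ)
include hc ht hq

/-- The twisted Gaussian is integrable. -/
lemma integrable_gW : Integrable (gW c t q z) := by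
  have h1 := integrable_gauss (b := 2 * π * ‖c‖ * t * q) (by positivity)
  have h2 := integrable_gauss (b := 2 * π * ‖c‖ * t / q) (by positivity)
  refine (h1.mul_prod h2).mono' (continuous_gW c t q z).aestronglyMeasurable
    (Eventually.of_forall fun u => le_of_eq ?_)
  rw [norm_gW, ← Real.exp_add]
  congr 1
  ring

/-- The twisted Gaussian times the pairing is integrable. -/
lemma integrable_gW_mul (y : ℂ × ℂ) : Integrable fun u => gW c t q z u * pW c u y :=
  (integrable_gW hc ht hq z).mul_bdd (c := 1) (continuous_pW c y).aestronglyMeasurable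
    (Eventually.of_forall fun u => (norm_pW c u y).le)

/-- **The transform**: the height and the translation change as under the inversion of `H3`. -/
theorem integral_gW (y : ℂ × ℂ) :
    ∫ u : ℂ × ℂ, gW c t q z u * pW c u y
      = ((1 / (4 * ‖c‖ ^ 2 * (Complex.normSq z + t ^ 2)) : ℝ) : ℂ)
        * gW c (t / (Complex.normSq z + t ^ 2)) q
          (-conj z / ((Complex.normSq z + t ^ 2 : ℝ) : ℂ)) y := by
  obtain ⟨y1, y2⟩ := y
  set m := 2 * π * ‖c‖ with hm
  have hm0 : 0 < m := by positivity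
  set T := Complex.normSq z + t ^ 2 with hT
  have hT0 : 0 < T := add_pos_of_nonneg_of_pos (Complex.normSq_nonneg z) (by positivity)
  set A := m * t * q with hA
  have hA0 : 0 < A := by positivity
  have gauss0 : ∀ (ζ : ℂ) (B : ℝ), 0 < B →
      ∫ ξ : ℂ, ((Real.exp (-(B * ‖ξ‖ ^ 2)) : ℝ) : ℂ) * eC (ζ * ξ)
        = (π : ℂ) * ((B⁻¹ * Real.exp (-4 * π ^ 2 * ‖ζ‖ ^ 2 / B) : ℝ) : ℂ) := fun ζ B hB => by
    have := gauss_shift ζ (u := 0) le_rfl hB 0
    simpa [eC] using this
  rw [Measure.volume_eq_prod, integral_prod_symm _ (by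
    rw [← Measure.volume_eq_prod]; exact integrable_gW_mul hc ht hq z (y1, y2))]
  -- the inner integral
  have inner_eq : ∀ b : ℂ, ∫ a : ℂ, gW c t q z (a, b) * pW c (a, b) (y1, y2)
      = (((π / A) * Real.exp (-(m * t / q) * ‖b‖ ^ 2 + -(m / (t * q)) * ‖z * b + y2‖ ^ 2) : ℝ) : ℂ)
        * eC (c * y1 * b) := by
    intro b
    have e : (fun a : ℂ => gW c t q z (a, b) * pW c (a, b) (y1, y2))
        = fun a => ((Real.exp (-(A * ‖a‖ ^ 2)) : ℝ) : ℂ) * eC (c * (z * b + y2) * a)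
          * (((Real.exp (-(m * t / q) * ‖b‖ ^ 2) : ℝ) : ℂ) * eC (c * y1 * b)) := by
      funext a
      simp only [gW, pW]
      rw [show -(2 * π * ‖c‖ * t * (q * ‖a‖ ^ 2 + ‖b‖ ^ 2 / q))
        = -(A * ‖a‖ ^ 2) + -(m * t / q) * ‖b‖ ^ 2 by rw [hA, hm]; ring, Real.exp_add,
        show c * (a * y2 + b * y1) = c * y2 * a + c * y1 * b by ring, eC_add,
        show c * (z * b + y2) * a = c * z * a * b + c * y2 * a by ring, eC_add]
      push_cast
      ring
    rw [e, integral_mul_const, gauss0 _ A hA0, Real.exp_add, norm_mul,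
      show -4 * π ^ 2 * (‖c‖ * ‖z * b + y2‖) ^ 2 / A = -(m / (t * q)) * ‖z * b + y2‖ ^ 2 by
        rw [hA, hm]; field_simp; ring]
    push_cast
    ring
  simp only [inner_eq]
  -- complete the square
  set B := m * T / (t * q) with hB
  have hB0 : 0 < B := by positivity
  set s₀ : ℂ := conj z * y2 / (T : ℂ) with hs0
  have hsq : ∀ b : ℂ, -(m * t / q) * ‖b‖ ^ 2 + -(m / (t * q)) * ‖z * b + y2‖ ^ 2
      = -(B * ‖b + s₀‖ ^ 2) + -(m * t / (q * T) * ‖y2‖ ^ 2) := by
    intro b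
    simp only [← Complex.normSq_eq_norm_sq, hs0, Complex.normSq_apply, Complex.add_re,
      Complex.add_im,
      Complex.mul_re, Complex.mul_im, Complex.div_ofReal_re, Complex.div_ofReal_im, Complex.conj_re,
      Complex.conj_im, hB]
    have hT' : T = z.re * z.re + z.im * z.im + t ^ 2 := by rw [hT, Complex.normSq_apply]
    field_simp
    rw [hT']
    ring
  simp only [hsq]
  rw [← integral_add_right_eq_self _ (-s₀)]
  have e : (fun b : ℂ =>
        ((π / A * Real.exp (-(B * ‖b + -s₀ + s₀‖ ^ 2) + -(m * t / (q * T) * ‖y2‖ ^ 2)) : ℝ) : ℂ)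
        * eC (c * y1 * (b + -s₀)))
      = fun b => ((Real.exp (-(B * ‖b‖ ^ 2)) : ℝ) : ℂ) * eC (c * y1 * b)
        * (((π / A * Real.exp (-(m * t / (q * T) * ‖y2‖ ^ 2)) : ℝ) : ℂ) * eC (c * y1 * (-s₀))) := by
    funext b
    rw [neg_add_cancel_right, Real.exp_add, mul_add (c * y1), eC_add]
    push_cast
    ring
  rw [e, integral_mul_const, gauss0 _ B hB0]
  simp only [gW]
  rw [show c * y1 * -s₀ = c * (-conj z / (T : ℂ)) * y1 * y2 by rw [hs0]; ring,
    show -(2 * π * ‖c‖ * (t / T) * (q * ‖y1‖ ^ 2 + ‖y2‖ ^ 2 / q))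
      = -4 * π ^ 2 * ‖c * y1‖ ^ 2 / B + -(m * t / (q * T) * ‖y2‖ ^ 2) by
      rw [norm_mul, hB, hm]; field_simp; ring, Real.exp_add,
    show (1 / (4 * ‖c‖ ^ 2 * T) : ℝ) = π * B⁻¹ * (π / A) by rw [hA, hB, hm]; field_simp; ring]
  push_cast
  ring

end Fermat.LT.Theta
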