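import Fermat.Agent.LT.Theta.Nonzero

/-!
# Theta: invariance of the series under the whole group

`isInvariant_phi`: the series `phi` is invariant, by the inversion `phi_jMat` and the Bruhat
decomposition `eq_borel_or_bruhat`.
-/

set_option autoImplicit false

open NumberField MeasureTheory Filter Fermat.CFT
open scoped Classical

noncomputable section

namespace Fermat.LT.Theta

section General

variable {F : Type*} [Field F] [NumberField F] [IsTotallyComplex F] {S : Set (Place F)} [Finite S]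
  (D : LDat S)

/-- Translation by `diag (β, 1)` multiplies the index of a term by `β`. -/
lemma term_diag (α β : Fˣ) (q : Pt F S) :
    finW D α (upMat β 0 • q).1 * archW D α (upMat β 0 • q).2
      = finW D (α * β) q.1 * archW D (α * β) q.2 := by
  congr 1
  · refine finprod_congr fun v => ?_
    rw [Pt.smul_fst, FinPt.smul_apply, ← mul_smul, upMat_mul, mul_zero, zero_add]
  · refine Finset.prod_congr rfl fun w _ => ?_
    rw [Pt.smul_snd, hW_smul_diag, Units.val_mul, ← map_mul, ← mul_assoc (D.δ : F)]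

end General

variable {F : Type} [Field F] [NumberField F]

/-- The Weyl element as a word in itself, translations by `s` and `s⁻¹` and `diag (s⁻², 1)`, up to
a scalar. -/
lemma jMat_eq_word (s : Fˣ) :
    jMat F = scal (-s) * upMat (s ^ 2)⁻¹ 0 * (upMat 1 (s : F) *
      (jMat F * (upMat 1 ((s⁻¹ : Fˣ) : F) * (jMat F * upMat 1 (s : F))))) := by
  refine Units.ext ?_
  have hs := s.ne_zero
  simp only [Units.val_mul, coe_jMat, coe_upMat, scal_coe]
  ext i j
  fin_cases i <;> fin_cases j <;>
    simp [Matrix.mul_apply, Fin.sum_univ_two, Matrix.scalar_apply]; field_simp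

/-- The Weyl element times the unit translation has order three. -/
lemma jMat_mul_one_cube :
    (jMat F * upMat 1 1) * ((jMat F * upMat 1 1) * (jMat F * upMat 1 1)) = 1 := by
  refine Units.ext ?_
  simp only [Units.val_mul, coe_jMat, coe_upMat, Units.val_one]
  ext i j
  fin_cases i <;> fin_cases j <;> simp [Matrix.mul_apply, Fin.sum_univ_two]

/-- Every matrix is, up to scalars, triangular or in the big Bruhat cell. -/
lemma eq_borel_or_bruhat (g : GL (Fin 2) F) :
    (∃ (c a : Fˣ) (x : F), g = scal c * upMat a x) ∨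
      ∃ (c a : Fˣ) (x y : F), g = upMat a x * jMat F * upMat 1 y * scal c := by
  have hd : (g : Matrix (Fin 2) (Fin 2) F).det ≠ 0 := (Matrix.GeneralLinearGroup.det g).ne_zero
  rw [Matrix.det_fin_two] at hd
  set a := (g : Matrix (Fin 2) (Fin 2) F) 0 0 with ha
  set b := (g : Matrix (Fin 2) (Fin 2) F) 0 1 with hb
  set c := (g : Matrix (Fin 2) (Fin 2) F) 1 0 with hc
  set d := (g : Matrix (Fin 2) (Fin 2) F) 1 1 with hd'
  by_cases h : c = 0
  · rw [h, mul_zero, sub_zero, mul_ne_zero_iff] at hd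
    refine Or.inl ⟨Units.mk0 d hd.2, Units.mk0 (a / d) (div_ne_zero hd.1 hd.2), b / d, Units.ext ?_⟩
    simp only [Units.val_mul, coe_upMat, scal_coe]
    ext i j
    fin_cases i <;> fin_cases j <;>
      simp [Matrix.mul_apply, Fin.sum_univ_two, Matrix.scalar_apply, ← ha, ← hb, ← hc, ← hd', h] <;>
      (rw [← mul_div_assoc] at *; simp [hd.2])
  · refine Or.inr ⟨Units.mk0 (-c) (neg_ne_zero.2 h),
      Units.mk0 ((a * d - b * c) / c ^ 2) (div_ne_zero hd (pow_ne_zero _ h)), a / c,
        d / c, Units.ext ?_⟩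
    simp only [Units.val_mul, coe_upMat, coe_jMat, scal_coe]
    ext i j
    fin_cases i <;> fin_cases j <;>
      simp [Matrix.mul_apply, Fin.sum_univ_two, Matrix.scalar_apply, ← ha, ← hb, ← hc, ← hd'] <;>
      field_simp
    all_goals ring

/-- Matrices in `U0` at the level preserve standard points. -/
lemma IsStd.smul {S : Set (Pl F)} [Finite S] {ω : FinPt F S} (h : IsStd ω)
    {g : GL (Fin 2) F} (hg : ∀ v ∈ S, g ∈ U0 (v.valuation F)) : IsStd (g • ω) := fun v hv => by
  obtain ⟨k, hk, he⟩ := h v hv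
  exact ⟨g * k,
    mul_mem (hg v hv) hk, by rw [FinPt.smul_apply, he, MulAction.Quotient.smul_coe, smul_eq_mul]⟩

variable [IsTotallyComplex F] {M : Type} [Field M] [NumberField M]
  [Algebra F M] [IsGalois F M] {σ : M ≃ₐ[F] M} {lam : Pl F → ℝ} (H : HData σ lam)
include H

/-- Standard points are near. -/
lemma IsStd.isNear {ω : FinPt F (s3 F)} (h : IsStd ω) : IsNear ω := fun v hv => by
  obtain ⟨g, hg, hgω⟩ := h v hv
  obtain ⟨a, x, k, hk, he⟩ := exists_repr (dat H).h3 (ω.1 v)
  refine ⟨a, x, ?_, k, hk, he⟩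
  rw [hgω] at he
  have h1 : g⁻¹ * (upMat a x * k) ∈ lev (s3 F) v := QuotientGroup.eq.1 he
  have h2 : g⁻¹ * (upMat a x * k) ∈ U0 (v.valuation F) :=
    klein_le_U0 (lev_subset_klein (dat H).h3 h1)
  have h3 : upMat a x ∈ U0 (v.valuation F) := by
    have h4 := mul_mem (mul_mem hg h2) (inv_mem (klein_le_U0 hk))
    rwa [mul_inv_cancel_left, mul_inv_cancel_right] at h4
  obtain ⟨h5, h6, -⟩ :=
    val_of_upMat_mem_klein (S := (∅ : Set (Pl F))) (fun u hu => absurd hu (Set.notMem_empty u))
    ((mem_klein_off (Set.notMem_empty v)).2 h3)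
  rw [h5]; exact h6

/-- The part over the norms is invariant under `diag` of a norm. -/
lemma phi1_diag_mul {n : Fˣ} (hn : n ∈ normUnits F M) (a : Fˣ) (p : Pt F (s3 F)) :
    phi1 H (upMat (a * n) 0 • p) = phi1 H (upMat a 0 • p) := by
  simp only [phi1, term_diag]
  conv_rhs => rw [← (Equiv.mulRight (⟨n, hn⟩ : normUnits F M)).tsum_eq]
  refine tsum_congr fun m => ?_
  simp only [Equiv.coe_mulRight, Subgroup.coe_mul]
  rw [mul_assoc (m : Fˣ) n a, mul_comm n a]

/-- The series is the sum of the translates of its part over the norms. -/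
lemma phi_eq_tsum (p : Pt F (s3 F)) :
    phi (dat H) p = ∑' c : Fˣ ⧸ normUnits F M, phi1 H (upMat c.out 0 • p) := by
  let e : (Fˣ ⧸ normUnits F M) × normUnits F M ≃ Fˣ :=
    { toFun := fun q => q.1.out * (q.2 : Fˣ)
      invFun := fun α => ((α : Fˣ ⧸ normUnits F M),
        ⟨(α : Fˣ ⧸ normUnits F M).out⁻¹ * α, QuotientGroup.eq.1 (α : Fˣ ⧸ normUnits F M).out_eq'⟩)
      left_inv := fun q => by
        have h1 : ((q.1.out * (q.2 : Fˣ) : Fˣ) : Fˣ ⧸ normUnits F M) = q.1 := by
          rw [QuotientGroup.mk_mul_of_mem _ q.2.2]; exact q.1.out_eq'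
        refine Prod.ext h1 (Subtype.ext ?_)
        simp only [h1, inv_mul_cancel_left]
      right_inv := fun α => by simp }
  set f : Fˣ → ℂ := fun α => finW (dat H) α p.1 * archW (dat H) α p.2
  have hf : Summable (f ∘ e) := e.summable_iff.2 (summable_term (dat H) p)
  change ∑' α, f α = _
  rw [← e.tsum_eq f]
  refine (hf.tsum_prod).trans (tsum_congr fun c => ?_)
  simp only [phi1, term_diag]
  refine tsum_congr fun n => ?_
  simp only [Function.comp_apply, e, Equiv.coe_fn_mk, f]
  rw [mul_comm (n : Fˣ) c.out]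

/-- At near points the series is a constant multiple of the series at the inverted point. -/
lemma exists_phi_jMat :
    ∃ K : ℂ, ∀ p : Pt F (s3 F), IsNear p.1 → phi (dat H) p = K * phi (dat H) (jMat F • p) := by
  obtain ⟨K, hK⟩ := exists_phi1_jMat H
  refine ⟨K, fun p hp => ?_⟩
  have hJ : ∀ (a : Fˣ) (q : Pt F (s3 F)), jMat F • upMat a 0 • q = upMat a⁻¹ 0 • jMat F • q :=
      fun a q => by
    rw [← mul_smul, jMat_mul_upMat_zero, mul_smul, mul_smul, Pt.scal_smul]
  rw [phi_eq_tsum, phi_eq_tsum, ← tsum_mul_left]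
  conv_rhs => rw [← (Equiv.inv (Fˣ ⧸ normUnits F M)).tsum_eq]
  refine tsum_congr fun c => ?_
  have hn : c.out * (c⁻¹).out ∈ normUnits F M := by
    have h : (((c.out)⁻¹ : Fˣ) : Fˣ ⧸ normUnits F M) = ((c⁻¹).out : Fˣ ⧸ normUnits F M) := by
      rw [QuotientGroup.mk_inv, QuotientGroup.out_eq', QuotientGroup.out_eq']
    simpa using QuotientGroup.eq.1 h
  rw [Equiv.inv_apply, show (c⁻¹).out = c.out⁻¹ * (c.out * (c⁻¹).out) by rw [inv_mul_cancel_left],
    phi1_diag_mul H hn, ← hJ]
  exact hK _ (hp.diag_smul c.out)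

/-- **The inversion at a near point.** The series `phi` is invariant under `jMat` at the points
`IsNear` at the places over `3`. -/
theorem phi_jMat_of_near {p : Pt F (s3 F)} (hp : IsNear p.1) :
    phi (dat H) (jMat F • p) = phi (dat H) p := by
  obtain ⟨K, hK⟩ := exists_phi_jMat H
  obtain ⟨p₀, hs₀, hne⟩ := exists_std_phi_ne_zero H
  have hJU : ∀ v ∈ s3 F, jMat F ∈ U0 (v.valuation F) :=
    fun v _ => le_withScalars _ (jMat_mem_intGL v)
  have hMU : ∀ v ∈ s3 F, jMat F * upMat 1 1 ∈ U0 (v.valuation F) := fun v hv =>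
    mul_mem (hJU v hv) (le_withScalars _ (upMat_mem_intGL _ (by simp) (by simp)))
  have hnU : ∀ v ∈ s3 F, upMat (1 : Fˣ) (1 : F) ∈ U0 (v.valuation F) := fun v _ =>
    le_withScalars _ (upMat_mem_intGL _ (by simp) (by simp))
  have hM : ∀ q : Pt F (s3 F), IsStd q.1 →
      phi (dat H) q = K * phi (dat H) ((jMat F * upMat 1 1) • q) := fun q hq => by
    rw [mul_smul, ← hK (upMat 1 1 • q) ((hq.smul hnU).isNear H), phi_upMat_smul]
  -- at a non-vanishing standard point the orders two and three give `K ^ 2 = K ^ 3 = 1`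
  have h1 := hM _ hs₀
  have h2 := hM ((jMat F * upMat 1 1) • p₀) (hs₀.smul hMU)
  have h3 := hM ((jMat F * upMat 1 1) • (jMat F * upMat 1 1) • p₀) ((hs₀.smul hMU).smul hMU)
  rw [← mul_smul, ← mul_smul] at h3
  rw [← mul_smul] at h2
  rw [jMat_mul_one_cube, one_smul] at h3
  rw [h2, h3] at h1
  have h4 := hK _ (hs₀.isNear H)
  rw [hK (jMat F • p₀) ((hs₀.smul hJU).isNear H), jMat_smul_jMat] at h4
  have hK3 : K ^ 3 = 1 := mul_right_cancel₀ hne (by linear_combination -h1)
  have hK2 : K ^ 2 = 1 := mul_right_cancel₀ hne (by linear_combination -h4)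
  have hK1 : K = 1 := by linear_combination hK3 - K * hK2
  rw [hK p hp, hK1, one_mul]

/-- **The series is invariant under the inversion** `jMat`. -/
theorem phi_jMat (p : Pt F (s3 F)) : phi (dat H) (jMat F • p) = phi (dat H) p := by
  choose a x k hk he using fun v => exists_repr (dat H).h3 (p.1.1 v)
  set T := (Set.toFinite (s3 F)).toFinset
  set τ : Pl F → F := fun v =>
    if x v ≠ 0 ∧ v.valuation F (a v : F) ≤ v.valuation F (x v) then -x v else (a v : F) with hτ
  obtain ⟨n, hn⟩ : ∃ n : ℕ, ∀ v ∈ T, WithZero.exp (-(n : ℤ)) < v.valuation F (a v : F) := by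
    obtain ⟨n, hn⟩ := Finset.bddAbove (T.image fun v => (CFT.ord v (a v : F)).toNat + 1)
    refine ⟨n, fun v hv => ?_⟩
    rw [valuation_eq_exp_neg_ord v (Units.ne_zero _), WithZero.exp_lt_exp]
    have := hn (Finset.mem_coe.2 (Finset.mem_image_of_mem _ hv))
    omega
  -- a translation `s` after which both `p₁` and `p₃` are near
  obtain ⟨s, hs, -⟩ := exists_approx T τ n
  -- the two conditions
  have hloc : ∀ v ∈ s3 F, v.valuation F (a v : F) ≤ v.valuation F s ∧
      v.valuation F (x v + s) ≤ v.valuation F (a v : F) ∧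
      v.valuation F ((x v + s) * s + (a v : F) ^ 2) ≤ v.valuation F (a v : F) *
          v.valuation F s := by
    intro v hv
    have hvT := (Set.Finite.mem_toFinset (hs := Set.toFinite (s3 F))).2 hv
    have hδ : v.valuation F (s - τ v) < v.valuation F (a v : F) := (hs v hvT).trans_lt (hn v hvT)
    simp only [hτ] at hδ
    have hsplit : ∀ e : F, v.valuation F (a v : F) ≤ v.valuation F s →
        v.valuation F e ≤ v.valuation F (a v : F) →
        v.valuation F (e * s + (a v : F) ^ 2) ≤ v.valuation F (a v : F) * v.valuation F s :=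
            fun e h1 h2 => by
      refine ((v.valuation F).map_add _ _).trans (max_le ?_ ?_)
      · rw [map_mul]; exact mul_le_mul_left h2 _
      · rw [map_pow, sq]; exact mul_le_mul_right h1 _
    by_cases hc : x v ≠ 0 ∧ v.valuation F (a v : F) ≤ v.valuation F (x v)
    · rw [if_pos hc] at hδ
      have h0 : v.valuation F s = v.valuation F (x v) := by
        rw [← Valuation.map_neg _ (x v)]
        exact (v.valuation F).map_eq_of_sub_lt (by rw [Valuation.map_neg]; exact hδ.trans_le hc.2)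
      rw [sub_neg_eq_add, add_comm] at hδ
      have h1 := hc.2.trans h0.ge
      exact ⟨h1, hδ.le, hsplit _ h1 hδ.le⟩
    · rw [if_neg hc] at hδ
      have h0 : v.valuation F s = v.valuation F (a v : F) :=
        (v.valuation F).map_eq_of_sub_lt hδ
      have hx : v.valuation F (x v) ≤ v.valuation F (a v : F) := by
        by_cases hx0 : x v = 0
        · rw [hx0, map_zero]; exact zero_le
        · exact (lt_of_not_ge fun h => hc ⟨hx0, h⟩).le
      have h2 : v.valuation F (x v + s) ≤ v.valuation F (a v : F) :=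
        ((v.valuation F).map_add _ _).trans (max_le hx h0.le)
      exact ⟨h0.ge, h2, hsplit _ h0.ge h2⟩
  have hs0 : s ≠ 0 := by
    obtain ⟨u, hu, -⟩ := H.exists_ram
    have hv : plUnder F u ∈ s3 F := three_mem_iff.2 ((H.mem_sM u).1 hu)
    intro h
    have := (hloc _ hv).1
    rw [h, map_zero, le_zero_iff, map_eq_zero] at this
    exact Units.ne_zero _ this
  set s' := Units.mk0 s hs0
  set p₁ := upMat (1 : Fˣ) s • p with hp₁
  have hr1 : ∀ v, p₁.1.1 v = ((upMat (a v) (x v + s) * k v : GL (Fin 2) F) : Vert (s3 F) v) :=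
      fun v => by
    rw [hp₁, Pt.smul_fst, FinPt.smul_apply, he v, MulAction.Quotient.smul_coe,
      smul_eq_mul, ← mul_assoc, upMat_mul, one_mul, Units.val_one, one_mul]
  have hn1 : IsNear p₁.1 := fun v hv => ⟨a v, x v + s, (hloc v hv).2.1, k v, hk v, hr1 v⟩
  set p₃ := upMat (1 : Fˣ) ((s'⁻¹ : Fˣ) : F) • jMat F • p₁ with hp₃
  have hn3 : IsNear p₃.1 := fun v hv => by
    obtain ⟨k', hk', hJ, hx'⟩ := exists_jMat_near H hv (a := a v) (hloc v hv).2.1
    refine ⟨(a v)⁻¹, (x v + s) / (a v : F) ^ 2 + ((s'⁻¹ : Fˣ) : F), ?_, k' * k v,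
      klein_mul (fun u hu => H.q3 u hu) hk' (hk v), ?_⟩
    · have ha0 : (a v : F) ≠ 0 := Units.ne_zero _
      have hva : v.valuation F (a v : F) ≠ 0 := (v.valuation F).ne_zero_iff.2 ha0
      have hvs : v.valuation F s ≠ 0 := (v.valuation F).ne_zero_iff.2 hs0
      rw [show (x v + s) / (a v : F) ^ 2 + ((s'⁻¹ : Fˣ) : F)
          = ((x v + s) * s + (a v : F) ^ 2) / ((a v : F) ^ 2 * s) by
        rw [Units.val_inv_eq_inv_val, Units.val_mk0]; field_simp, map_div₀, map_mul, map_pow,
        Units.val_inv_eq_inv_val, map_inv₀]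
      refine (div_le_div_of_nonneg_right (hloc v hv).2.2 zero_le).trans_eq ?_
      field_simp
    · rw [hp₃, Pt.smul_fst, Pt.smul_fst, FinPt.smul_apply, FinPt.smul_apply, hr1 v,
        MulAction.Quotient.smul_coe, MulAction.Quotient.smul_coe, smul_eq_mul, smul_eq_mul,
        ← mul_assoc (jMat F), hJ, mul_assoc, ← mul_assoc (upMat 1 _) (upMat _ _),
          upMat_mul, one_mul,
        Units.val_one, one_mul]
  conv_lhs => rw [jMat_eq_word s']
  rw [mul_smul, mul_smul, Pt.scal_smul, phi_upMat_smul, mul_smul, phi_upMat_smul,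
    mul_smul, mul_smul, mul_smul]
  change phi (dat H) (jMat F • p₃) = _
  rw [phi_jMat_of_near H hn3, hp₃, phi_upMat_smul, phi_jMat_of_near H hn1, hp₁, phi_upMat_smul]

/-- **Invariance.** The theta series `phi` is invariant under all of `GL₂(F)`. -/
theorem isInvariant_phi : IsInvariant (phi (dat H)) := by
  rw [isInvariant_iff]
  intro g p
  rcases eq_borel_or_bruhat g with ⟨c, a, x, rfl⟩ | ⟨c, a, x, y, rfl⟩
  · rw [mul_smul, Pt.scal_smul, phi_upMat_smul]
  · rw [mul_smul, Pt.scal_smul, mul_smul, mul_smul, phi_upMat_smul, phi_jMat, phi_upMat_smul]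

end Fermat.LT.Theta
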