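import Fermat.Agent.LT.Theta.Crt
import Fermat.Agent.LT.Theta.Poisson

/-!
# Theta: Poisson summation for periodic functions with compact support

A function on `M` that lives on the fractional lattice `Lo = D⁻¹` and is periodic modulo
`Hi = D` has its Gaussian sum exchanged with that of its finite Fourier transform.
-/

set_option autoImplicit false

open NumberField MeasureTheory Filter
open scoped Pointwise

noncomputable section

namespace Fermat.LT.Theta

open Fermat.LT.Mult (chiF)

/-- A sum over `A × B` with `A` finite is a finite sum of sums over `B`. -/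
lemma tsum_eq_sum_tsum {A B X : Type*} [Fintype A] (e : A × B ≃ X) {g : X → ℂ} (hg : Summable g) :
    ∑' x, g x = ∑ a, ∑' b, g (e (a, b)) := by
  have hs : Summable fun p => g (e p) := e.summable_iff.2 hg
  rw [← e.tsum_eq g, hs.tsum_prod, tsum_fintype]

variable {F M : Type} [Field F] [NumberField F] [IsTotallyComplex F] [Field M] [NumberField M]
  [Algebra F M] [IsGalois F M] {σ : M ≃ₐ[F] M} (hF : Module.finrank F M = 2) (hσ : σ ≠ 1)
  (δ : Fˣ)

/-- A class of `Lo` modulo the multiples of `D` and an integer of `M` parametrise `Lo`. -/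
lemma bijective_coset_param {Lo Hi : AddSubgroup M} {D : ℕ} (hD : D ≠ 0)
    (hHi : ∀ {η : M}, η ∈ Hi ↔ ∃ l : 𝓞 M, η = (D : M) * (l : M))
    (hmem : ∀ (a : Lo ⧸ Hi.addSubgroupOf Lo) (l : 𝓞 M),
      ((Quotient.out a : Lo) : M) + (D : M) * (l : M) ∈ Lo) :
    Function.Bijective fun p : (Lo ⧸ Hi.addSubgroupOf Lo) × 𝓞 M =>
      (⟨((Quotient.out p.1 : Lo) : M) + (D : M) * (p.2 : M), hmem p.1 p.2⟩ : Lo) := by
  have hD' : (D : M) ≠ 0 := Nat.cast_ne_zero.2 hD
  constructor
  · rintro ⟨a, l⟩ ⟨b, l'⟩ h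
    have h' : ((Quotient.out a : Lo) : M) + (D : M) * (l : M)
        = ((Quotient.out b : Lo) : M) + (D : M) * (l' : M) := congrArg Subtype.val h
    have hab : a = b := by
      rw [← QuotientAddGroup.out_eq' a, ← QuotientAddGroup.out_eq' b, QuotientAddGroup.eq,
        AddSubgroup.mem_addSubgroupOf]
      change -((Quotient.out a : Lo) : M) + ((Quotient.out b : Lo) : M) ∈ Hi
      rw [show -((Quotient.out a : Lo) : M) + ((Quotient.out b : Lo) : M)
        = (D : M) * (l : M) - (D : M) * (l' : M) by linear_combination -h']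
      exact sub_mem (hHi.2 ⟨l, rfl⟩) (hHi.2 ⟨l', rfl⟩)
    subst hab
    exact Prod.ext rfl (RingOfIntegers.coe_injective (mul_left_cancel₀ hD' (add_left_cancel h')))
  · intro η
    set a : Lo ⧸ Hi.addSubgroupOf Lo := QuotientAddGroup.mk η
    have hd : (η : M) - ((Quotient.out a : Lo) : M) ∈ Hi := by
      have h := QuotientAddGroup.eq.1 (QuotientAddGroup.out_eq' a)
      rw [AddSubgroup.mem_addSubgroupOf] at h
      have h' : -((Quotient.out a : Lo) : M) + (η : M) ∈ Hi := h
      rwa [neg_add_eq_sub] at h'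
    obtain ⟨l, hl⟩ := hHi.1 hd
    exact ⟨(a, l), Subtype.ext (by change _ + _ = _; rw [← hl]; abel)⟩

include hF hσ in
/-- **Poisson summation for periodic functions.** -/
theorem exists_periodic_poisson : ∃ κ : ℝ, ∀ {D : ℕ}, D ≠ 0 → ∀ (f fhat : M → ℂ) (C : ℂ),
    Periodic (gBox σ fun v => -dOrd M σ D v) (gBox σ (dOrd M σ D)) f →
    (∀ η, f η ≠ 0 → η ∈ gBox σ fun v => -dOrd M σ D v) →
    (gBox σ (dOrd M σ D)).relIndex (gBox σ fun v => -dOrd M σ D v) ≠ 0 →
    (∀ η, ‖f η‖ ≤ 1) → (∀ y, ‖fhat y‖ ≤ 1) →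
    (∀ y, fhat y ≠ 0 → y ∈ Set.range (dualY σ δ D)) →
    (∀ k, qsum (gBox σ fun v => -dOrd M σ D v) (gBox σ (dOrd M σ D))
        (fun η => f η * chiF ((δ : F) * pair σ η (dualY σ δ D k)))
      = (((D : ℝ) ^ Module.finrank ℚ M : ℝ) : ℂ) * C * fhat (dualY σ δ D k)) →
    ∀ t q : InfinitePlace F → ℝ, (∀ w, 0 < t w) → (∀ w, 0 < q w) → ∀ z : InfinitePlace F → ℂ,
    ∑' η : M, f η * gE δ t q z (jj σ η)
      = (κ * jacG δ t z : ℝ) * C * ∑' y : M, fhat y * gE δ (tJ t z) q (zJ t z) (jj σ y)
    ∧ Summable fun y : M => fhat y * gE δ (tJ t z) q (zJ t z) (jj σ y) := by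
  obtain ⟨κ, hκ⟩ := exists_poisson hF hσ δ
  refine ⟨κ, fun {D} hD f fhat C hper hsf hrel hf hfh hsupp hft t q ht hq z => ?_⟩
  set Lo := gBox σ fun v => -dOrd M σ D v
  set Hi := gBox σ (dOrd M σ D)
  set G : M → ℂ := fun η => gE δ t q z (jj σ η)
  set G' : M → ℂ := fun η => gE δ (tJ t z) q (zJ t z) (jj σ η)
  -- summability on the lattice
  have hfs : Summable fun η : Lo => f η * G η := by
    have h := summable_gE hF hσ δ ht hq z hD
    have hi : Function.Injective fun η : Lo =>
        (⟨(η : M), (mem_gBox_neg_dOrd hF hσ hD).1 η.2⟩ : fracLat (F := M) D) :=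
      fun a b hab => Subtype.ext (Subtype.mk_eq_mk.1 hab)
    refine Summable.of_norm_bounded (h.comp_injective hi) fun η => ?_
    rw [norm_mul]
    exact mul_le_of_le_one_left (norm_nonneg _) (hf _)
  -- the cosets
  have hint : ∀ l : 𝓞 M, (D : M) * (l : M) ∈ Hi := fun l => (mem_gBox_dOrd hF hσ hD).2 ⟨l, rfl⟩
  have hle : Hi ≤ Lo := fun η hη => mem_gBox.2 fun v => by
    have := dOrd_nonneg D v (σ := σ)
    exact box_mono (by simp; omega) (by simp; omega) (mem_gBox.1 hη v)
  let Q := Lo ⧸ Hi.addSubgroupOf Lo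
  let ψ : Q × 𝓞 M → Lo := fun p => ⟨((Quotient.out p.1 : Lo) : M) + (D : M) * (p.2 : M),
    add_mem (Quotient.out p.1).2 (hle (hint _))⟩
  have hψ : Function.Bijective ψ := bijective_coset_param hD (mem_gBox_dOrd hF hσ hD)
    fun a _ => add_mem (Quotient.out a).2 (hle (hint _))
  have : Finite Q := Nat.finite_of_card_ne_zero hrel
  let _ := Fintype.ofFinite Q
  set c : ℂ := ((κ / (D : ℝ) ^ Module.finrank ℚ M * jacG δ t z : ℝ) : ℂ)
  have hsy := summable_dual hF hσ δ hD (tJ_pos ht z) hq (zJ t z)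
  have hrsum : Summable fun y : M => fhat y * G' y := by
    refine ((dualY_injective hF hσ δ hD).summable_iff fun y hy => ?_).1 ?_
    · by_contra h
      exact hy (hsupp y (left_ne_zero_of_mul h))
    · refine Summable.of_norm_bounded hsy fun k => ?_
      rw [Function.comp_apply, norm_mul]
      exact mul_le_of_le_one_left (norm_nonneg _) (hfh _)
  refine ⟨?_, hrsum⟩
  have hterm : ∀ a : Q, Summable fun k : Mult.BIdx M → ℤ =>
      f ((Quotient.out a : Lo) : M) *
        (chiF ((δ : F) * pair σ ((Quotient.out a : Lo) : M) (dualY σ δ D k))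
        * G' (dualY σ δ D k)) := fun a => by
    refine Summable.of_norm_bounded hsy fun k => ?_
    rw [norm_mul, norm_mul, chiF, Mult.norm_chi, one_mul]
    exact mul_le_of_le_one_left (norm_nonneg _) (hf _)
  calc ∑' η : M, f η * G η = ∑' η : Lo, f η * G η :=
        (tsum_subtype_eq_of_support_subset (f := fun η => f η * G η) (s := (Lo : Set M))
          fun η hη => hsf η (left_ne_zero_of_mul hη)).symm
    _ = ∑ a : Q, ∑' l : 𝓞 M, f (ψ (a, l) : M) * G (ψ (a, l) : M) :=
        tsum_eq_sum_tsum (Equiv.ofBijective ψ hψ) hfs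
    _ = ∑ a : Q, c * ∑' k : Mult.BIdx M → ℤ, f ((Quotient.out a : Lo) : M)
          * (chiF ((δ : F) * pair σ ((Quotient.out a : Lo) : M) (dualY σ δ D k)) *
              G' (dualY σ δ D k)) := by
        refine Finset.sum_congr rfl fun a _ => ?_
        have e : ∀ l : 𝓞 M, f (ψ (a, l) : M) * G (ψ (a, l) : M) = f ((Quotient.out a : Lo) : M)
            * G (((Quotient.out a : Lo) : M) + (D : M) * (l : M)) := fun l => by
          simp only [ψ]
          rw [hper _ (Quotient.out a).2 _ (hint l)]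
        rw [tsum_congr e, tsum_mul_left, hκ D hD t q ht hq z, tsum_mul_left]
        simp only [c]
        ring
    _ = c * ∑' k : Mult.BIdx M → ℤ,
          qsum Lo Hi (fun η => f η * chiF ((δ : F) * pair σ η (dualY σ δ D k)))
            * G' (dualY σ δ D k) := by
        rw [← Finset.mul_sum, ← Summable.tsum_finsetSum fun a _ => hterm a]
        congr 1
        refine tsum_congr fun k => ?_
        rw [qsum, finsum_eq_sum_of_fintype, Finset.sum_mul]
        exact Finset.sum_congr rfl fun a _ => (mul_assoc _ _ _).symm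
    _ = c * ((((D : ℝ) ^ Module.finrank ℚ M : ℝ) : ℂ) * C
          * ∑' k : Mult.BIdx M → ℤ, fhat (dualY σ δ D k) * G' (dualY σ δ D k)) := by
        congr 1
        rw [← tsum_mul_left]
        refine tsum_congr fun k => ?_
        rw [hft k]
        ring
    _ = ((κ * jacG δ t z : ℝ) : ℂ) * C * ∑' y : M, fhat y * G' y := by
        rw [Function.Injective.tsum_eq (f := fun y => fhat y * G' y)
          (dualY_injective hF hσ δ hD) fun y hy => hsupp y (left_ne_zero_of_mul hy)]
        have hDn : (((D : ℝ) ^ Module.finrank ℚ M : ℝ) : ℂ) ≠ 0 :=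
          Complex.ofReal_ne_zero.2 (pow_ne_zero _ (Nat.cast_ne_zero.2 hD))
        simp only [c]
        push_cast at hDn ⊢
        field_simp

end Fermat.LT.Theta
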