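import Fermat.Agent.LT.Theta.Boxes
import Fermat.Agent.LT.Theta.LocalW
import Fermat.Agent.LT.Theta.Symbol

/-!
# Theta: the local trace pairing on a quadratic extension and its orthogonals

`pair` is the pairing and `dual` gives the exponents of the orthogonal box, whose maximality is
`exists_pair_psiD_ne`.
-/

set_option autoImplicit false
set_option linter.unusedSectionVars false

noncomputable section

open NumberField IsDedekindDomain Fermat.CFT
open scoped Classical

namespace Fermat.LT.Theta

open Fermat.LT.Mult (psi)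

variable {F M : Type} [Field F] [NumberField F] [IsTotallyComplex F] [Field M] [NumberField M]
  [Algebra F M] [IsGalois F M] {σ : M ≃ₐ[F] M}

/-- The shifted local character. -/
def psiD (δ : Fˣ) (v : Pl F) (b : F) : ℂ := psi v ((δ : F) * b)

/-- The shifted character is additive. -/
lemma psiD_add (δ : Fˣ) (v : Pl F) (a b : F) : psiD δ v (a + b) = psiD δ v a * psiD δ v b := by
  rw [psiD, mul_add, Mult.psi_add]; rfl

/-- The shifted character at zero is one. -/
@[simp] lemma psiD_zero (δ : Fˣ) (v : Pl F) : psiD δ v 0 = 1 := by simp [psiD]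

/-- The shifted character is trivial up to its exponent. -/
lemma psiD_of_le (δ : Fˣ) {v : Pl F} {b : F} (h : v.valuation F b ≤ WithZero.exp (eL δ v)) :
    psiD δ v b = 1 := by
  refine Mult.psi_of_le_cnd ?_
  rw [map_mul, valuation_eq_exp_neg_ord v δ.ne_zero]
  refine (mul_le_mul' le_rfl h).trans ?_
  rw [← WithZero.exp_add, WithZero.exp_le_exp, eL]
  omega

/-- The shifted character is nontrivial one step beyond its exponent. -/
lemma exists_psiD_ne (δ : Fˣ) (v : Pl F) :
    ∃ x : F, x ≠ 0 ∧ CFT.ord v x = -eL δ v - 1 ∧ psiD δ v x ≠ 1 := by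
  obtain ⟨x, hx, hne⟩ := Mult.exists_psi_ne v
  set y := x / (δ : F) with hy
  have hxy : psiD δ v y ≠ 1 := by rw [psiD, hy, mul_div_cancel₀ _ δ.ne_zero]; exact hne
  have hy0 : y ≠ 0 := fun h => hxy (by rw [h, psiD_zero])
  refine ⟨y, hy0, ?_, hxy⟩
  have h1 : ¬ v.valuation F y ≤ WithZero.exp (eL δ v) := fun h => hxy (psiD_of_le δ h)
  rw [valuation_eq_exp_neg_ord v hy0, WithZero.exp_le_exp] at h1
  have hx0 : x ≠ 0 := fun h => hne (by rw [h, Mult.psi_zero])
  rw [valuation_eq_exp_neg_ord v hx0, WithZero.exp_le_exp] at hx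
  have h2 : CFT.ord v y = CFT.ord v x - CFT.ord v (δ : F) := by rw [hy, ord_div v hx0 δ.ne_zero]
  rw [eL] at h1 ⊢
  omega

variable (M) in
/-- The exponent of the orthogonal of the integers. -/
def dd (δ : Fˣ) (v : Pl F) : ℤ := plRamIdx F (plOver M v) * (eL δ v + 1) - 1

variable (M) in
/-- The exponents of the orthogonal box. -/
def dual (δ : Fˣ) (v : Pl F) (m : ℤ × ℤ) : ℤ × ℤ := (-dd M δ v - m.2, -dd M δ v - m.1)

/-- The pairing `tr (η σ y)`. -/
def pair (σ : M ≃ₐ[F] M) (η y : M) : F := Algebra.trace F M (η * σ y)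

/-- The pairing is additive in the first variable. -/
lemma pair_add_left (η₁ η₂ y : M) : pair σ (η₁ + η₂) y = pair σ η₁ y + pair σ η₂ y := by
  rw [pair, add_mul, map_add]; rfl

variable (δ : Fˣ) (hF : Module.finrank F M = 2) (hσ : σ ≠ 1)
include hF hσ

omit hF hσ in
/-- The two places over `v` have the same ramification index. -/
lemma plRamIdx_plConj (v : Pl F) : plRamIdx F (plConj σ v) = plRamIdx F (plOver M v) := by
  obtain ⟨π, -, hπ⟩ := CFT.exists_ord_eq_one v
  have h1 := CFT.ord_algebraMap_eq (plConj σ v) π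
  have h2 := CFT.ord_algebraMap_eq (plOver M v) π
  rw [plUnder_plConj, hπ, mul_one] at h1
  rw [plUnder_plOver, hπ, mul_one] at h2
  rw [show algebraMap F M π = σ • algebraMap F M π from (σ.commutes π).symm, plConj, CFT.ord_smul,
    h2] at h1
  exact_mod_cast h1.symm

omit hF hσ in
/-- An element of `F` lies in the box scaled by the ramification index. -/
lemma algebraMap_mem_box {v : Pl F} {b : F} {k : ℤ} (hb : v.valuation F b ≤ WithZero.exp (-k)) :
    algebraMap F M b ∈ box σ v
      (plRamIdx F (plOver M v) * k, plRamIdx F (plOver M v) * k) := by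
  have e : WithZero.exp (-((plRamIdx F (plOver M v) : ℤ) * k))
      = (WithZero.exp (-k)) ^ plRamIdx F (plOver M v) := by
    rw [← WithZero.exp_nsmul, nsmul_eq_mul, mul_neg]
  refine ⟨?_, ?_⟩
  · rw [val_algebraMap, plUnder_plOver, e]; exact pow_le_pow_left₀ zero_le hb _
  · rw [val_algebraMap, plUnder_plConj, plRamIdx_plConj, e]
    exact pow_le_pow_left₀ zero_le hb _

/-- The character of the trace is trivial on the orthogonal of the integers. -/
lemma psiD_trace_eq_one {v : Pl F} {z : M} (hz : z ∈ box σ v (-dd M δ v, -dd M δ v)) :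
    psiD δ v (Algebra.trace F M z) = 1 := by
  refine psiD_of_le δ ?_
  rcases eq_or_ne (Algebra.trace F M z) 0 with h | h
  · simp [h]
  have h1 : algebraMap F M (Algebra.trace F M z) ∈ box σ v (-dd M δ v, -dd M δ v) := by
    rw [trace_eq hF hσ]
    exact add_mem hz ((smul_mem_box_iff hF hσ).2 hz)
  have h2 := h1.1
  rw [val_algebraMap, plUnder_plOver, valuation_eq_exp_neg_ord v h, ← WithZero.exp_nsmul,
    WithZero.exp_le_exp, nsmul_eq_mul, neg_neg, mul_neg] at h2
  rw [valuation_eq_exp_neg_ord v h, WithZero.exp_le_exp]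
  simp only [dd] at h2
  by_contra hc
  nlinarith [not_le.1 hc]

/-- A box and its orthogonal box pair trivially. -/
lemma psiD_pair_eq_one {v : Pl F} {m : ℤ × ℤ} {η y : M} (hη : η ∈ box σ v m)
    (hy : y ∈ box σ v (dual M δ v m)) : psiD δ v (pair σ η y) = 1 := by
  refine psiD_trace_eq_one δ hF hσ ?_
  have := mul_mem_box hη ((smul_mem_box_iff hF hσ (m := ((dual M δ v m).2, (dual M δ v m).1))).2 hy)
  convert this using 2
  ext <;> simp [dual]

/-- An element with unit trace, small at the first place when the place splits. -/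
lemma exists_unit_trace {v : Pl F} (h2 : v ∈ ramPl (K := F) M → v.valuation F (2 : F) = 1) (N : ℕ) :
    ∃ y : M, y ∈ box σ v (if IsNonsplit σ v then 0 else ((N : ℤ), 0)) ∧
      v.valuation F (Algebra.trace F M y) = 1 := by
  set P := plOver M v
  set Q := plConj σ v
  -- a nonsplit place: an element moved by `σ` modulo the place
  by_cases hns : IsNonsplit σ v
  · rw [if_pos hns]
    by_cases h : v.valuation F (2 : F) = 1
    · refine ⟨algebraMap F M (2⁻¹ : F), ?_, ?_⟩
      · have := algebraMap_mem_box (σ := σ) (M := M) (b := (2⁻¹ : F)) (v := v) (k := 0)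
          (by rw [map_inv₀, h, inv_one, neg_zero, WithZero.exp_zero])
        rw [mul_zero] at this
        exact this
      · rw [Algebra.trace_algebraMap, hF, two_nsmul, show (2⁻¹ : F) + 2⁻¹ = 1 by norm_num, map_one]
    have hram : plRamIdx F P = 1 :=
      plRamIdx_eq_one_of_not_ram (fun hr => h (h2 hr)) (plUnder_plOver v)
    have hQP : Q = P := (plConj_eq_iff hF hσ).2 hns
    obtain ⟨x, hx⟩ : ∃ x : 𝓞 M, σ • x - x ∉ P.asIdeal := by
      by_contra hn
      push Not at hn
      exact hσ (Congr.eq_of_congr (q := 1) hram (fun x => by rw [pow_one]; exact hn x) Congr.one)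
    have hxP : ∀ x : 𝓞 M, P.valuation M (x : M) ≤ 1 := P.valuation_le_one
    refine ⟨(x : M),
      ⟨by simpa using hxP x, by rw [show plConj σ v = P from hQP]; simpa using hxP x⟩, ?_⟩
    have h2' : v.valuation F (2 : F) < 1 :=
      lt_of_le_of_ne (by exact_mod_cast v.valuation_le_one (K := F) ((2 : ℕ) : 𝓞 F)) h
    have h2P : P.valuation M (2 : M) < 1 := by
      rw [show (2 : M) = algebraMap F M 2 from (map_ofNat _ 2).symm, val_algebraMap, plUnder_plOver,
        hram, pow_one]
      exact h2'
    have hd : P.valuation M ((σ • x - x : 𝓞 M) : M) = 1 := by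
      refine le_antisymm (hxP _) (not_lt.1 fun hlt => hx ?_)
      rwa [HeightOneSpectrum.valuation_lt_one_iff_mem] at hlt
    have e : P.valuation M (algebraMap F M (Algebra.trace F M (x : M))) = 1 := by
      rw [trace_eq hF hσ, show (x : M) + σ (x : M) = ((σ • x - x : 𝓞 M) : M) + 2 * (x : M) by
        change _ = σ (x : M) - (x : M) + _; ring, (P.valuation M).map_add_eq_of_lt_left, hd]
      rw [hd, map_mul]
      exact lt_of_le_of_lt (mul_le_of_le_one_right' (hxP x)) h2P
    rwa [val_algebraMap, plUnder_plOver, hram, pow_one] at e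
  · -- a split place: approximate `(0, 1)`
    rw [if_neg hns]
    have hne : Q ≠ P := fun h => hns ((plConj_eq_iff hF hσ).1 h)
    obtain ⟨y, hy, -⟩ := Fermat.LT.exists_approx (F := M) {P, Q}
      (fun W => if W = P then 0 else 1) (N + 1)
    have hyP := hy P (Finset.mem_insert_self _ _)
    have hyQ := hy Q (Finset.mem_insert_of_mem (Finset.mem_singleton_self _))
    rw [if_pos rfl, sub_zero] at hyP
    rw [if_neg hne] at hyQ
    have hQ1 : Q.valuation M y = 1 := by
      rw [show y = 1 + (y - 1) by ring, (Q.valuation M).map_add_eq_of_lt_left, map_one]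
      rw [map_one]
      refine lt_of_le_of_lt hyQ ?_
      rw [← WithZero.exp_zero, WithZero.exp_lt_exp]; omega
    refine ⟨y, ⟨hyP.trans (WithZero.exp_le_exp.2 (by push_cast; omega)), by
      rw [show plConj σ v = Q from rfl, hQ1]; simp⟩, ?_⟩
    have hs : P.valuation M (σ y) = 1 := by
      have := val_smul_pl σ Q y
      rwa [smul_plConj hF hσ, hQ1] at this
    have e : P.valuation M (algebraMap F M (Algebra.trace F M y)) = 1 := by
      rw [trace_eq hF hσ, add_comm, (P.valuation M).map_add_eq_of_lt_left, hs]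
      rw [hs]
      refine lt_of_le_of_lt hyP ?_
      rw [← WithZero.exp_zero, WithZero.exp_lt_exp]; omega
    rw [val_algebraMap, plUnder_plOver] at e
    exact (pow_eq_one_iff.1 e).resolve_right (plRamIdx_pos _).ne'

variable {v : Pl F} (h2 : v ∈ ramPl (K := F) M → v.valuation F (2 : F) = 1)
include h2

/-- The character of the trace is nontrivial on any larger box. -/
lemma exists_trace_psiD_ne {n : ℤ × ℤ} (hn : Adm σ v n)
    (h : n.1 ≤ -dd M δ v - 1 ∨ n.2 ≤ -dd M δ v - 1) :
    ∃ z ∈ box σ v n, psiD δ v (Algebra.trace F M z) ≠ 1 := by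
  set D := dd M δ v
  obtain ⟨x, hx0, hxo, hne⟩ := exists_psiD_ne δ v
  obtain ⟨N, hN⟩ : ∃ N : ℕ, n.1 + D + 1 ≤ N ∧ n.2 + D + 1 ≤ N :=
    ⟨(max (n.1 + D + 1) (n.2 + D + 1)).toNat, by omega, by omega⟩
  obtain ⟨y, hy, htr⟩ := exists_unit_trace hF hσ h2 N
  set t := Algebra.trace F M y
  have ht0 : t ≠ 0 := fun h => by simp [h] at htr
  have hc : algebraMap F M (x / t) ∈ box σ v (-D - 1, -D - 1) := by
    have := algebraMap_mem_box (σ := σ) (M := M) (v := v) (b := x / t) (k := -eL δ v - 1) (by
      rw [map_div₀, htr, div_one, valuation_eq_exp_neg_ord v hx0, hxo])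
    convert this using 2
    ext <;> simp only [D, dd] <;> ring
  set z := algebraMap F M (x / t) * y
  have hz : Algebra.trace F M z = x := by
    rw [show z = (x / t) • y from (Algebra.smul_def _ _).symm, map_smul, smul_eq_mul,
      div_mul_cancel₀ x ht0]
  have hzb := mul_mem_box hc hy
  by_cases hns : IsNonsplit σ v
  · rw [if_pos hns, add_zero] at hzb
    have := hn hns
    exact ⟨z, box_mono (by simp only; omega) (by simp only; omega) hzb, by rwa [hz]⟩
  rw [if_neg hns] at hzb
  by_cases h1 : n.2 ≤ -D - 1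
  · exact ⟨z, box_mono (by simp; omega) (by simp; omega) hzb, by rwa [hz]⟩
  · have h1' := h.resolve_right h1
    refine ⟨σ z, (smul_mem_box_iff hF hσ).2 (box_mono ?_ ?_ hzb),
      by rwa [Algebra.trace_eq_of_algEquiv σ, hz]⟩
    · simp; omega
    · simp; omega

/-- **The orthogonal of a box.** An element outside the dual of a box pairs nontrivially with some
element of the box. -/
lemma exists_pair_psiD_ne {m : ℤ × ℤ} (hm : Adm σ v m) {y : M}
    (hy : y ∉ box σ v (dual M δ v m)) : ∃ l ∈ box σ v m, psiD δ v (pair σ l y) ≠ 1 := by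
  have hy0 : y ≠ 0 := fun h => hy (h ▸ zero_mem _)
  have hsy : σ y ≠ 0 := (map_ne_zero σ).2 hy0
  have o1 : CFT.ord (plOver M v) (σ y) = CFT.ord (plConj σ v) y := by
    conv_lhs => rw [← smul_plConj hF hσ v]
    exact CFT.ord_smul σ _ y
  have o2 : CFT.ord (plConj σ v) (σ y) = CFT.ord (plOver M v) y := CFT.ord_smul σ _ y
  obtain ⟨z, hz, hne⟩ := exists_trace_psiD_ne δ hF hσ h2
    (n := m + (CFT.ord (plConj σ v) y, CFT.ord (plOver M v) y)) (fun hns => by
      have := hm hns
      simp only [Prod.fst_add, Prod.snd_add, (plConj_eq_iff hF hσ).2 hns]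
      omega) (by
      rw [mem_box_iff_ord hy0, not_and_or, not_le, not_le] at hy
      simp only [dual, Prod.fst_add, Prod.snd_add] at hy ⊢
      omega)
  refine ⟨z / σ y, ?_, by rwa [pair, div_mul_cancel₀ _ hsy]⟩
  have hinv : (σ y)⁻¹ ∈ box σ v (-CFT.ord (plConj σ v) y, -CFT.ord (plOver M v) y) :=
    (mem_box_iff_ord (inv_ne_zero hsy)).2 ⟨by rw [CFT.ord_inv, o1], by rw [CFT.ord_inv, o2]⟩
  have := mul_mem_box hz hinv
  rw [← div_eq_mul_inv] at this
  convert this using 2
  ext <;> simp

end Fermat.LT.Theta
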