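import Fermat.Agent.LT.Theta.PoissonPi
import Fermat.Agent.LT.Theta.GaussPair
import Fermat.Agent.LT.Theta.Expo
import Fermat.Agent.LT.Theta.LocalPair

/-!
# Theta: Poisson summation over the integers of a quadratic extension inside `(ℂ × ℂ) ^ r`

`gE` is the Gaussian on `(ℂ × ℂ) ^ r`; `tJ` and `zJ` give the coordinates of the inverted point,
and `summable_gE` the convergence.
-/

set_option autoImplicit false
set_option linter.unusedSectionVars false

open NumberField MeasureTheory Filter Topology Module Fermat.CFT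
open scoped Real ComplexConjugate Pointwise

noncomputable section

namespace Fermat.LT.Theta

open Fermat.LT.Mult (emb chi chiF BIdx)

variable {F M : Type} [Field F] [NumberField F] [Field M] [NumberField M] [Algebra F M]
  [IsGalois F M] {σ : M ≃ₐ[F] M}

/-- An embedding of `M` over the embedding of `F`. -/
def jw (M : Type) [Field M] [NumberField M] [Algebra F M] (w : InfinitePlace F) : M →+* ℂ :=
  ComplexEmbedding.lift M w.embedding

/-- `jw` extends the embedding of `F`. -/
lemma jw_algebraMap (w : InfinitePlace F) (x : F) : jw M w (algebraMap F M x) = w.embedding x :=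
  ComplexEmbedding.lift_algebraMap_apply _ _ _

/-- `η` in `(ℂ × ℂ) ^ r`. -/
def jj (σ : M ≃ₐ[F] M) : M →+ (InfinitePlace F → ℂ × ℂ) where
  toFun η w := (jw M w η, jw M w (σ η))
  map_zero' := funext fun w => by simp
  map_add' a b := funext fun w => by simp [map_add]

/-- The coordinates of `η`. -/
lemma jj_apply (σ : M ≃ₐ[F] M) (η : M) (w : InfinitePlace F) :
    jj σ η w = (jw M w η, jw M w (σ η)) := rfl

/-- Scaling by a natural number scales the coordinates. -/
lemma jj_natCast_mul (σ : M ≃ₐ[F] M) (D : ℕ) (η : M) : jj σ ((D : M) * η) = (D : ℝ) • jj σ η := by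
  funext w
  simp [jj_apply, Complex.real_smul]

/-- The product over the infinite places of the Gaussians `gW`. -/
def gE (δ : Fˣ) (t q : InfinitePlace F → ℝ) (z : InfinitePlace F → ℂ)
    (U : InfinitePlace F → ℂ × ℂ) : ℂ :=
  ∏ w, gW (w.embedding (δ : F)) (t w) (q w) (z w) (U w)

/-- The pairing on `(ℂ × ℂ) ^ r`. -/
def bE (δ : Fˣ) (Y : InfinitePlace F → ℂ × ℂ) : (InfinitePlace F → ℂ × ℂ) →ₗ[ℝ] ℝ where
  toFun U := ∑ w, 2 * (w.embedding (δ : F) * ((U w).1 * (Y w).2 + (U w).2 * (Y w).1)).re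
  map_add' U V := by
    rw [← Finset.sum_add_distrib]
    refine Finset.sum_congr rfl fun w _ => ?_
    simp only [Pi.add_apply, Prod.fst_add, Prod.snd_add]
    simp [Complex.add_re, Complex.mul_re, Complex.add_im, Complex.mul_im]
    ring
  map_smul' r U := by
    rw [RingHom.id_apply, smul_eq_mul, Finset.mul_sum]
    refine Finset.sum_congr rfl fun w _ => ?_
    simp only [Pi.smul_apply, Prod.smul_fst, Prod.smul_snd, Complex.real_smul]
    simp [Complex.mul_re, Complex.mul_im]
    ring

/-- The product of the local pairings is the exponential of the global pairing. -/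
lemma prod_pW (δ : Fˣ) (U Y : InfinitePlace F → ℂ × ℂ) :
    ∏ w, pW (w.embedding (δ : F)) (U w) (Y w)
      = Complex.exp (2 * π * Complex.I * ((bE δ Y U : ℝ) : ℂ)) := by
  simp only [pW, eC, ← Complex.exp_sum]
  congr 1
  rw [show bE δ Y U = ∑ w,
    2 * (w.embedding (δ : F) * ((U w).1 * (Y w).2 + (U w).2 * (Y w).1)).re from rfl]
  push_cast
  rw [Finset.mul_sum]
  exact Finset.sum_congr rfl fun w _ => by ring

variable (hF : Module.finrank F M = 2) (hσ : σ ≠ 1)
include hF hσ

/-- Every place of `M` is bounded by the two coordinates at the place below it. -/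
lemma exists_jw (W : InfinitePlace M) : ∃ w : InfinitePlace F,
    ∀ η : M, W η ≤ ‖jw M w η‖ + ‖jw M w (σ η)‖ := by
  refine ⟨W.comap (algebraMap F M), fun η => ?_⟩
  set w := W.comap (algebraMap F M)
  have h : (InfinitePlace.mk (jw M w)).comap (algebraMap F M) = W.comap (algebraMap F M) := by
    rw [jw, InfinitePlace.comap_mk_lift, InfinitePlace.mk_embedding]
  obtain ⟨τ, hτ'⟩ := InfinitePlace.exists_smul_eq_of_comap_eq h
  rw [← hτ', InfinitePlace.smul_apply, InfinitePlace.apply]
  obtain ⟨i, hi, hτ⟩ := exists_eq_generator_pow hF hσ τ⁻¹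
  change ‖jw M w (τ⁻¹ η)‖ ≤ _
  rw [← hτ]
  interval_cases i
  · simp
  · simp

variable [IsTotallyComplex F]

/-- The pairing of two embedded elements is a rational trace. -/
lemma bE_jj (δ : Fˣ) (a b : M) :
    bE δ (jj σ b) (jj σ a) = ((Algebra.trace ℚ F ((δ : F) * pair σ a b) : ℚ) : ℝ) := by
  rw [← Mult.trS_emb]
  change ∑ w, _ = ∑ w, _
  refine Finset.sum_congr rfl fun w => ?_
  intro _
  congr 2
  rw [Mult.emb_apply, map_mul, ← jw_algebraMap (M := M) w (pair σ a b), pair,
    trace_eq hF hσ, map_add, map_mul σ, sigma_apply_apply hF hσ, map_mul, map_mul]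
  rfl

/-- The pairing of two embedded elements is the standard character of their trace pairing. -/
lemma chi_bE (δ : Fˣ) (a b : M) :
    Complex.exp (2 * π * Complex.I * ((bE δ (jj σ b) (jj σ a) : ℝ) : ℂ)) =
      chi (emb ((δ : F) * pair σ a b)) := by
  rw [bE_jj hF hσ, ← Mult.trS_emb]
  rfl

omit hF hσ in
/-- The trace of the pairing as a trace from `M`. -/
lemma trace_pair (δ : Fˣ) (a b : M) :
    Algebra.trace ℚ F ((δ : F) * pair σ a b)
      = Algebra.trace ℚ M (a * (algebraMap F M (δ : F) * σ b)) := by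
  rw [show a * (algebraMap F M (δ : F) * σ b) = (δ : F) • (a * σ b) by rw [Algebra.smul_def]; ring,
    ← Algebra.trace_trace (S := F) ((δ : F) • (a * σ b)), map_smul, smul_eq_mul, pair]

omit hF hσ

/-- The combination with coefficients `k` of the dual family of the integral basis for the
pairing. -/
def dualY (σ : M ≃ₐ[F] M) (δ : Fˣ) (D : ℕ) (k : BIdx M → ℤ) : M :=
  σ ((algebraMap F M (δ : F) * (D : M))⁻¹ *
    ∑ i, (k i : ℚ) • (Algebra.traceForm ℚ M).dualBasis (traceForm_nondegenerate ℚ M)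
      (integralBasis M) i)

include hF hσ

/-- The dual family is dual to the scaled integral basis. -/
lemma trace_dualY (δ : Fˣ) {D : ℕ} (hD : D ≠ 0) (k : BIdx M → ℤ) (j : BIdx M) :
    Algebra.trace ℚ F ((δ : F) * pair σ ((D : M) * (RingOfIntegers.basis M j : M)) (dualY σ δ D k))
      = k j := by
  rw [trace_pair, dualY, sigma_apply_apply hF hσ]
  set b' := (Algebra.traceForm ℚ M).dualBasis (traceForm_nondegenerate ℚ M) (integralBasis M)
  rw [show (D : M) * (RingOfIntegers.basis M j : M) * (algebraMap F M (δ : F)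
      * ((algebraMap F M (δ : F) * (D : M))⁻¹ * ∑ i, (k i : ℚ) • b' i))
    = (∑ i, (k i : ℚ) • b' i) * integralBasis M j by
      rw [integralBasis_apply]; field_simp, Finset.sum_mul, map_sum]
  simp only [smul_mul_assoc, map_smul, smul_eq_mul]
  have e2 : ∀ i, Algebra.trace ℚ M (b' i * integralBasis M j) = if j = i then 1 else 0 :=
      fun i => by
    rw [← Algebra.traceForm_apply]
    exact LinearMap.BilinForm.apply_dualBasis_left _ _ _ _
  rw [integralBasis_apply] at e2
  simp [e2]

/-- The dual family is injective. -/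
lemma dualY_injective (δ : Fˣ) {D : ℕ} (hD : D ≠ 0) : Function.Injective (dualY σ δ D) := by
  intro k k' h
  funext j
  have h1 := trace_dualY hF hσ δ hD k j
  rw [h, trace_dualY hF hσ δ hD k' j] at h1
  exact_mod_cast h1.symm

/-- The dual family annihilates the scaled integers under the character. -/
lemma chiF_pair_dualY (δ : Fˣ) {D : ℕ} (hD : D ≠ 0) (k : BIdx M → ℤ) (l : 𝓞 M) :
    chiF ((δ : F) * pair σ ((D : M) * (l : M)) (dualY σ δ D k)) = 1 := by
  refine (Mult.chiF_eq_one_iff _).2 ⟨∑ j, (RingOfIntegers.basis M).repr l j * k j, ?_⟩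
  conv_lhs => rw [← (RingOfIntegers.basis M).sum_repr l]
  push_cast
  simp only [zsmul_eq_mul, Finset.mul_sum]
  rw [trace_pair, Finset.sum_mul, map_sum]
  refine Finset.sum_congr rfl fun j _ => ?_
  rw [← trace_dualY hF hσ δ hD k j, trace_pair]
  set A := (RingOfIntegers.basis M).repr l j
  rw [show (D : M) * ((A : M) * (RingOfIntegers.basis M j : M)) *
    (algebraMap F M (δ : F) * σ (dualY σ δ D k))
    = (A : ℚ) •
        ((D : M) * (RingOfIntegers.basis M j : M) * (algebraMap F M (δ : F) * σ (dualY σ δ D k))) by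
      rw [Algebra.smul_def, map_intCast]; ring, map_smul, smul_eq_mul]

/-- Every element annihilating the scaled integers lies in the dual family. -/
lemma exists_dualY_eq (δ : Fˣ) {D : ℕ} (hD : D ≠ 0) {y : M}
    (hy : ∀ l : 𝓞 M, chiF ((δ : F) * pair σ ((D : M) * (l : M)) y) = 1) :
    ∃ k, dualY σ δ D k = y := by
  choose n hn using fun j => (Mult.chiF_eq_one_iff _).1 (hy (RingOfIntegers.basis M j))
  refine ⟨n, ?_⟩
  set b' := (Algebra.traceForm ℚ M).dualBasis (traceForm_nondegenerate ℚ M) (integralBasis M)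
  have h0 : algebraMap F M (δ : F) * (D : M) ≠ 0 :=
    mul_ne_zero ((map_ne_zero _).2 δ.ne_zero) (Nat.cast_ne_zero.2 hD)
  rw [dualY, ← sigma_apply_apply hF hσ y]
  congr 1
  rw [inv_mul_eq_iff_eq_mul₀ h0]
  conv_rhs => rw [← b'.sum_repr (algebraMap F M (δ : F) * (D : M) * σ y)]
  refine Finset.sum_congr rfl fun j _ => ?_
  rw [LinearMap.BilinForm.dualBasis_repr_apply, Algebra.traceForm_apply, integralBasis_apply]
  congr 1
  rw [← hn j, trace_pair]
  congr 1
  ring

omit hσ in
/-- The ambient space has the dimension of `M` over `ℚ`. -/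
lemma finrank_ambient : finrank ℝ (InfinitePlace F → ℂ × ℂ) = Fintype.card (BIdx M) := by
  have h1 : finrank ℚ M = Fintype.card (BIdx M) := finrank_eq_card_basis (integralBasis M)
  have h2 : finrank ℚ F = finrank ℝ (InfinitePlace F → ℂ) := by
    rw [finrank_eq_card_basis (Mult.basisR (F := F)), finrank_eq_card_basis (integralBasis F)]
  have h3 : finrank ℚ M = 2 * finrank ℚ F := by rw [← finrank_mul_finrank ℚ F M, hF, mul_comm]
  rw [← h1, h3, h2, finrank_pi_fintype, finrank_pi_fintype]
  simp [Module.finrank_prod]; ring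

/-- The real span of the lattice. -/
lemma exists_lattice_equiv (δ : Fˣ) : ∃ Λ : (BIdx M → ℝ) ≃L[ℝ] (InfinitePlace F → ℂ × ℂ),
    ∀ s, Λ s = ∑ i, s i • jj σ (RingOfIntegers.basis M i : M) := by
  let L : (BIdx M → ℝ) →ₗ[ℝ] (InfinitePlace F → ℂ × ℂ) :=
    Fintype.linearCombination ℝ (fun i => jj σ (RingOfIntegers.basis M i : M))
  have hinj : Function.Injective L := by
    rw [injective_iff_map_eq_zero]
    intro s hs
    funext j
    set k : BIdx M → ℤ := Pi.single j 1
    have h := congrArg (bE δ (jj σ (dualY σ δ 1 k))) hs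
    rw [Fintype.linearCombination_apply, map_sum, map_zero] at h
    simp only [map_smul, smul_eq_mul, bE_jj hF hσ] at h
    have e : ∀ i,
        Algebra.trace ℚ F ((δ : F) * pair σ (RingOfIntegers.basis M i : M) (dualY σ δ 1 k))
        = k i := fun i => by
      have := trace_dualY hF hσ δ one_ne_zero k i
      rwa [Nat.cast_one, one_mul] at this
    simp only [e, k] at h
    simpa [Pi.single_apply, apply_ite ((↑) : ℤ → ℚ), apply_ite ((↑) : ℚ → ℝ)] using h
  have hdim : finrank ℝ (BIdx M → ℝ) = finrank ℝ (InfinitePlace F → ℂ × ℂ) := by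
    rw [finrank_ambient hF, finrank_fintype_fun_eq_card]
  exact ⟨(LinearMap.linearEquivOfInjective L hinj hdim).toContinuousLinearEquiv, fun s =>
    Fintype.linearCombination_apply ℝ _ s⟩

/-- The squared norm of `η` at all places is bounded by a multiple of that of its image. -/
lemma sum_places_le (η : M) :
    ∑ W : InfinitePlace M, ‖emb (F := M) η W‖ ^ 2
      ≤ 2 * Fintype.card (InfinitePlace M) * ∑ w, (‖(jj σ η w).1‖ ^ 2 + ‖(jj σ η w).2‖ ^ 2) := by
  calc _ ≤ ∑ _W : InfinitePlace M, 2 * ∑ w, (‖(jj σ η w).1‖ ^ 2 + ‖(jj σ η w).2‖ ^ 2) := by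
        refine Finset.sum_le_sum fun W _ => ?_
        obtain ⟨w, hw⟩ := exists_jw hF hσ W
        rw [Mult.emb_apply, InfinitePlace.norm_embedding_eq]
        refine (pow_le_pow_left₀ (apply_nonneg W η) (hw η) 2).trans (add_sq_le.trans ?_)
        exact mul_le_mul_of_nonneg_left (Finset.single_le_sum
          (f := fun w => ‖(jj σ η w).1‖ ^ 2 + ‖(jj σ η w).2‖ ^ 2) (fun w _ => by positivity)
          (Finset.mem_univ w)) zero_le_two
    _ = _ := by rw [Finset.sum_const, Finset.card_univ, nsmul_eq_mul]; ring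

variable (δ : Fˣ) {t q : InfinitePlace F → ℝ} (ht : ∀ w, 0 < t w) (hq : ∀ w, 0 < q w)
  (z : InfinitePlace F → ℂ)
include ht hq

omit hF hσ in
/-- The Gaussian on the ambient space is dominated by a standard one. -/
lemma exists_gE_le : ∃ c : ℝ, 0 < c ∧ ∀ U : InfinitePlace F → ℂ × ℂ,
    ‖gE δ t q z U‖ ≤ Real.exp (-c * ∑ w, (‖(U w).1‖ ^ 2 + ‖(U w).2‖ ^ 2)) := by
  obtain ⟨w₀, -, h₀⟩ := Finset.exists_min_image (Finset.univ : Finset (InfinitePlace F))
    (fun w => 2 * π * ‖w.embedding (δ : F)‖ * t w * min (q w) (q w)⁻¹) Finset.univ_nonempty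
  set c := 2 * π * ‖w₀.embedding (δ : F)‖ * t w₀ * min (q w₀) (q w₀)⁻¹
  have hd : ∀ w : InfinitePlace F, 0 < ‖w.embedding (δ : F)‖ := fun w =>
    norm_pos_iff.2 ((map_ne_zero _).2 δ.ne_zero)
  refine ⟨c, mul_pos (mul_pos (mul_pos (by positivity) (hd _)) (ht _))
    (lt_min (hq _) (inv_pos.2 (hq _))), fun U => ?_⟩
  rw [gE, norm_prod, Finset.mul_sum, Real.exp_sum]
  refine Finset.prod_le_prod (fun w _ => norm_nonneg _) fun w _ => ?_
  rw [norm_gW, Real.exp_le_exp, neg_mul, neg_le_neg_iff]
  refine (mul_le_mul_of_nonneg_right (h₀ w (Finset.mem_univ w)) (by positivity)).trans ?_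
  rw [mul_assoc (2 * π * ‖w.embedding (δ : F)‖ * t w)]
  refine mul_le_mul_of_nonneg_left ?_ (mul_pos (mul_pos (by positivity) (hd w)) (ht w)).le
  rw [mul_add, div_eq_inv_mul]
  exact add_le_add (mul_le_mul_of_nonneg_right (min_le_left _ _) (sq_nonneg _))
    (mul_le_mul_of_nonneg_right (min_le_right _ _) (sq_nonneg _))

omit hF hσ in
/-- The Gaussian on the ambient space is integrable. -/
lemma integrable_gE : Integrable (gE δ t q z) := by
  have h : ∀ w, Integrable (gW (w.embedding (δ : F)) (t w) (q w) (z w))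
      (volume : Measure (ℂ × ℂ)) :=
    fun w => integrable_gW ((map_ne_zero _).2 δ.ne_zero) (ht w) (hq w) (z w)
  have h' := Integrable.fintype_prod (μ := fun _ : InfinitePlace F => (volume : Measure (ℂ × ℂ))) h
  rw [← volume_pi] at h'
  exact h'

omit hF hσ ht hq in
/-- The Gaussian is continuous. -/
lemma continuous_gE : Continuous (gE δ t q z) :=
  continuous_finsetProd _ fun w _ => (continuous_gW _ _ _ _).comp (continuous_apply w)

/-- The height of the image of `(z, t)` under the inversion. -/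
def tJ (t : InfinitePlace F → ℝ) (z : InfinitePlace F → ℂ) (w : InfinitePlace F) : ℝ :=
  t w / (Complex.normSq (z w) + t w ^ 2)

/-- The horizontal coordinate of the image of `(z, t)` under the inversion. -/
def zJ (t : InfinitePlace F → ℝ) (z : InfinitePlace F → ℂ) (w : InfinitePlace F) : ℂ :=
  -conj (z w) / ((Complex.normSq (z w) + t w ^ 2 : ℝ) : ℂ)

omit hF hσ hq in
/-- The transformed height is positive. -/
lemma tJ_pos (w : InfinitePlace F) : 0 < tJ t z w :=
  div_pos (ht w) (add_pos_of_nonneg_of_pos (Complex.normSq_nonneg _) (pow_pos (ht w) 2))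

/-- The Gaussian is absolutely summable over fractional lattices. -/
lemma summable_gE {Den : ℕ} (hDen : Den ≠ 0) :
    Summable fun a : fracLat (F := M) Den => ‖gE δ t q z (jj σ (a.1 : M))‖ := by
  have := isTotallyComplex_of_algebra (F := F) (K := M)
  obtain ⟨c, hc, hb⟩ := exists_gE_le δ ht hq z
  have hN : (0 : ℝ) < 2 * Fintype.card (InfinitePlace M) := by
    have := Fintype.card_pos (α := InfinitePlace M); positivity
  refine Summable.of_nonneg_of_le (fun _ => norm_nonneg _) (fun a => (hb _).trans ?_)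
    (summable_gauss_fracLat hDen (F := M) (c := c / (2 * Fintype.card (InfinitePlace M)))
      (div_pos hc hN))
  rw [Real.exp_le_exp, neg_mul, neg_mul, neg_le_neg_iff]
  refine (mul_le_mul_of_nonneg_left (sum_places_le hF hσ (a.1 : M)) (div_pos hc hN).le).trans_eq ?_
  field_simp

omit hF hσ in
/-- Bounded translates of the Gaussian are uniformly dominated. -/
lemma exists_gE_shift_le (R : ℝ) : ∃ c C : ℝ, 0 < c ∧ 0 ≤ C ∧ ∀ V U : InfinitePlace F → ℂ × ℂ,
    ‖V‖ ≤ R → ‖gE δ t q z (V + U)‖
      ≤ C * Real.exp (-c * ∑ w, (‖(U w).1‖ ^ 2 + ‖(U w).2‖ ^ 2)) := by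
  obtain ⟨c, hc, hb⟩ := exists_gE_le δ ht hq z
  refine ⟨c / 2, Real.exp (c * (Fintype.card (InfinitePlace F) * (2 * R ^ 2))), half_pos hc,
    (Real.exp_pos _).le, fun V U hV => (hb _).trans ?_⟩
  rw [← Real.exp_add, Real.exp_le_exp]
  have key : ∀ a b : ℂ, ‖b‖ ≤ R → ‖a‖ ^ 2 / 2 ≤ ‖b + a‖ ^ 2 + R ^ 2 := fun a b hb => by
    have h1 : ‖a‖ ≤ ‖b + a‖ + R := by
      have := norm_sub_le (b + a) b
      rw [add_sub_cancel_left] at this
      linarith
    nlinarith [sq_nonneg (‖b + a‖ - R), norm_nonneg a, norm_nonneg (b + a)]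
  have hsum : ∑ w, (‖(U w).1‖ ^ 2 + ‖(U w).2‖ ^ 2) / 2
      ≤ ∑ w, (‖((V + U) w).1‖ ^ 2 + ‖((V + U) w).2‖ ^ 2 + 2 * R ^ 2) := by
    refine Finset.sum_le_sum fun w _ => ?_
    have hw := (norm_le_pi_norm V w).trans hV
    have h1 := key (U w).1 (V w).1 ((norm_fst_le _).trans hw)
    have h2 := key (U w).2 (V w).2 ((norm_snd_le _).trans hw)
    simp only [Pi.add_apply, Prod.fst_add, Prod.snd_add]
    linarith
  rw [Finset.sum_add_distrib, Finset.sum_const, Finset.card_univ, nsmul_eq_mul,
    ← Finset.sum_div] at hsum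
  nlinarith [mul_le_mul_of_nonneg_left hsum hc.le]

end Fermat.LT.Theta
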