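import Fermat.Agent.LT.Theta.Data
import Fermat.Agent.LT.Theta.LocalPair

/-!
# Theta: units at a place over `3` and their norms modulo the place

`norm_of_theta_sq`: where the character is real a unit has norm one modulo the place;
`exists_theta_ne` gives one of norm one where it is nontrivial.
-/

set_option autoImplicit false
set_option linter.unusedSectionVars false

noncomputable section

open NumberField Fermat.CFT

namespace Fermat.LT.Theta

section Residue

variable {E : Type} [Field E] [NumberField E]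

/-- An element of order zero has valuation one. -/
lemma val_eq_one_of_ord {W : Pl E} {z : E} (hz : z ≠ 0) (h : CFT.ord W z = 0) :
    W.valuation E z = 1 := by
  rw [valuation_eq_exp_neg_ord W hz, h]; simp

/-- Units with the same residue have a quotient close to one. -/
lemma closeOne_div_of_residue {W : Pl E} {z w : (W.valuation E).valuationSubring}
    (hw : W.valuation E (w : E) = 1) (h : IsLocalRing.residue _ z = IsLocalRing.residue _ w) :
    CloseOne W 1 ((z : E) / (w : E)) := by
  refine closeOne_of_valuation ?_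
  have hw0 : (w : E) ≠ 0 := fun h0 => by rw [h0, map_zero] at hw; exact zero_ne_one hw
  rw [div_sub_one hw0, map_div₀, hw, div_one]
  have := (residue_eq_zero_iff_v (W.valuation E) (z - w)).1 (by rw [map_sub, h, sub_self])
  exact this

/-- Of two units and their product one is a square modulo the place. -/
lemma exists_sq_close (W : Pl E) (h2 : W.valuation E (2 : E) = 1) (z y : Eˣ)
    (hz : CFT.ord W (z : E) = 0) (hy : CFT.ord W (y : E) = 0) :
    ∃ w : Eˣ, CFT.ord W (w : E) = 0 ∧ (CloseOne W 1 ((z / w ^ 2 : Eˣ) : E) ∨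
      CloseOne W 1 ((y / w ^ 2 : Eˣ) : E) ∨ CloseOne W 1 ((z * y / w ^ 2 : Eˣ) : E)) := by
  set O := (W.valuation E).valuationSubring
  let _ := Fintype.ofFinite (IsLocalRing.ResidueField O)
  have hz1 := val_eq_one_of_ord z.ne_zero hz
  have hy1 := val_eq_one_of_ord y.ne_zero hy
  let z' : O := ⟨z, hz1.le⟩
  let y' : O := ⟨y, hy1.le⟩
  have hne : ∀ x : O, W.valuation E (x : E) = 1 → IsLocalRing.residue O x ≠ 0 := fun x hx h => by
    have := (residue_eq_zero_iff_v (W.valuation E) x).1 h
    rw [hx] at this
    exact lt_irrefl _ this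
  have hchar : ringChar (IsLocalRing.ResidueField O) ≠ 2 := fun h => by
    have h0 : IsLocalRing.residue O ((2 : ℕ) : O) = 0 := by
      rw [map_natCast, ← h]; exact ringChar.Nat.cast_ringChar
    exact hne _ (by push_cast; exact h2) h0
  -- a square residue gives a close square
  have main : ∀ x : O, W.valuation E (x : E) = 1 → IsSquare (IsLocalRing.residue O x) →
      ∀ xu : Eˣ, (xu : E) = x →
        ∃ w : Eˣ, CFT.ord W (w : E) = 0 ∧ CloseOne W 1 ((xu / w ^ 2 : Eˣ) : E) := by
    intro x hx hsq xu hxu
    obtain ⟨r, hr⟩ := hsq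
    obtain ⟨w, rfl⟩ := IsLocalRing.residue_surjective r
    have hw1 : W.valuation E (w : E) = 1 := by
      refine le_antisymm w.2 (not_lt.1 fun hlt => hne x hx ?_)
      rw [hr, (residue_eq_zero_iff_v (W.valuation E) w).2 hlt, mul_zero]
    have hw0 : (w : E) ≠ 0 := fun h => by rw [h, map_zero] at hw1; exact zero_ne_one hw1
    refine ⟨Units.mk0 _ hw0, by rw [Units.val_mk0, CFT.ord, hw1]; simp, ?_⟩
    have := closeOne_div_of_residue (z := x) (w := w * w) (by simp [map_mul, hw1])
      (by rw [map_mul, hr])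
    rw [Units.val_div_eq_div_val, Units.val_pow_eq_pow_val, Units.val_mk0, sq, hxu]
    simpa using this
  set a := IsLocalRing.residue O z'
  set b := IsLocalRing.residue O y'
  have ha : a ≠ 0 := hne z' hz1
  have hb : b ≠ 0 := hne y' hy1
  -- one of `z`, `y`, `z y` is a square modulo the place
  rcases em (IsSquare a) with h | h
  · obtain ⟨w, hw, hc⟩ := main z' hz1 h z rfl
    exact ⟨w, hw, Or.inl hc⟩
  rcases em (IsSquare b) with h' | h'
  · obtain ⟨w, hw, hc⟩ := main y' hy1 h' y rfl
    exact ⟨w, hw, Or.inr (Or.inl hc)⟩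
  obtain ⟨w, hw, hc⟩ := main (z' * y') (by simp [z', y', map_mul, hz1, hy1]) (by
    rw [map_mul, FiniteField.isSquare_iff hchar (mul_ne_zero ha hb), mul_pow]
    rw [FiniteField.isSquare_iff hchar ha] at h
    rw [FiniteField.isSquare_iff hchar hb] at h'
    rw [(FiniteField.pow_dichotomy hchar ha).resolve_left h,
      (FiniteField.pow_dichotomy hchar hb).resolve_left h', neg_one_mul, neg_neg]) (z * y) rfl
  exact ⟨w, hw, Or.inr (Or.inr hc)⟩

/-- With three residues every unit is close to `1` or to `-1`. -/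
lemma closeOne_pm_of_three {W : Pl E} (h3 : pnorm W = 3) {z : Eˣ} (hz : CFT.ord W (z : E) = 0) :
    CloseOne W 1 (z : E) ∨ CloseOne W 1 ((-z : Eˣ) : E) := by
  have hz1 := val_eq_one_of_ord z.ne_zero hz
  let z' : (W.valuation E).integer := ⟨z, hz1.le⟩
  have h0 : res3 h3 z' ≠ 0 := fun h => by
    have := (res3_eq_zero h3 z').1 h
    exact lt_irrefl (1 : WithZero (Multiplicative ℤ)) (hz1 ▸ this)
  have hc : res3 h3 z' = 1 ∨ res3 h3 z' = -1 := by
    revert h0; generalize res3 h3 z' = t; revert t; decide
  rcases hc with h | h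
  · refine Or.inl (closeOne_of_valuation ?_)
    simpa [z'] using (res3_eq_zero h3 (z' - 1)).1 (by rw [map_sub, map_one, h, sub_self])
  · refine Or.inr (closeOne_of_valuation ?_)
    simpa [z'] using (res3_eq_zero h3 (-z' - 1)).1
      (by rw [map_sub, map_one, map_neg, h, neg_neg, sub_self])

/-- With three residues every unit squares to a principal unit. -/
lemma val_sq_sub_one {W : Pl E} (h3 : pnorm W = 3) {x : E} (hx : W.valuation E x = 1) :
    W.valuation E (x ^ 2 - 1) < 1 := by
  let x' : (W.valuation E).integer := ⟨x, hx.le⟩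
  have h0 : res3 h3 x' ≠ 0 := fun h => by
    have := (res3_eq_zero h3 x').1 h
    exact lt_irrefl (1 : WithZero (Multiplicative ℤ)) (hx ▸ this)
  have hc : res3 h3 x' ^ 2 = 1 := by
    revert h0; generalize res3 h3 x' = t; revert t; decide
  exact (res3_eq_zero h3 (x' ^ 2 - 1)).1 (by rw [map_sub, map_pow, map_one, hc, sub_self])

end Residue

variable {F M : Type} [Field F] [NumberField F] [Field M] [NumberField M] [Algebra F M]
  [IsGalois F M] {σ : M ≃ₐ[F] M} {lam : Pl F → ℝ}

/-- At a non-split place norms of principal units are principal. -/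
lemma val_norm_sub_one (hF : Module.finrank F M = 2) (hσ : σ ≠ 1) {v : Pl F} (hns : IsNonsplit σ v)
    {z : M} (hz : CloseOne (plOver M v) 1 z) :
    v.valuation F (Algebra.norm F z - 1) < 1 := by
  set u := plOver M v
  rcases eq_or_ne z 1 with rfl | h1
  · simp
  have hlt : u.valuation M (z - 1) < 1 := by
    rw [valuation_eq_exp_neg_ord u (sub_ne_zero.2 h1), ← WithZero.exp_zero, WithZero.exp_lt_exp]
    have := hz.resolve_left h1
    omega
  have hs : u.valuation M (σ z - 1) < 1 := by
    have h := val_smul_pl σ u (z - 1)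
    rw [map_sub σ, map_one σ, show σ • u = u from (plConj_eq_iff hF hσ).2 hns] at h
    rwa [h]
  have hzv : u.valuation M (σ z) ≤ 1 := by
    rw [show σ z = (σ z - 1) + 1 by ring]
    exact (Valuation.map_add _ _ _).trans (max_le hs.le (by simp))
  have h : u.valuation M (algebraMap F M (Algebra.norm F z - 1)) < 1 := by
    rw [map_sub, map_one, norm_eq hF hσ, show z * σ z - 1 = (z - 1) * σ z + (σ z - 1) by ring]
    refine lt_of_le_of_lt (Valuation.map_add _ _ _) (max_lt ?_ hs)
    rw [map_mul]
    exact lt_of_le_of_lt (mul_le_of_le_one_right' hzv) hlt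
  rw [val_algebraMap, plUnder_plOver] at h
  exact (pow_lt_one_iff (plRamIdx_pos _).ne').1 h

variable [IsTotallyComplex F] (H : HData σ lam) {v : Pl F} (hv : v ∈ s3 F)
include H hv

/-- Over `3` the norm of a unit is a unit. -/
lemma val_norm_unit {z : Mˣ} (hz : CFT.ord (plOver M v) (z : M) = 0) :
    v.valuation F (Algebra.norm F (z : M)) = 1 := by
  have hns : IsNonsplit σ v := by
    have hu : (3 : 𝓞 M) ∈ (plOver M v).asIdeal := by
      rw [← three_mem_iff (F := F), plUnder_plOver]; exact hv
    have := isNonsplit_of_sM H hu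
    rwa [plUnder_plOver] at this
  have h : (plOver M v).valuation M (algebraMap F M (Algebra.norm F (z : M))) = 1 := by
    rw [norm_eq H.finrank H.σ_ne, map_mul, val_eq_one_of_ord z.ne_zero hz, one_mul]
    have h := val_smul_pl σ (plOver M v) (z : M)
    rw [show σ • plOver M v = plOver M v from (plConj_eq_iff H.finrank H.σ_ne).2 hns] at h
    rw [h, val_eq_one_of_ord z.ne_zero hz]
  rw [val_algebraMap, plUnder_plOver] at h
  exact (pow_eq_one_iff.1 h).resolve_right (plRamIdx_pos _).ne'

/-- A principal unit times the square of a unit has norm `1` modulo the place. -/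
lemma norm_of_sq {z w : Mˣ} (hw : CFT.ord (plOver M v) (w : M) = 0) (hns : IsNonsplit σ v)
    (hc : CloseOne (plOver M v) 1 ((z / w ^ 2 : Mˣ) : M)) :
    v.valuation F (Algebra.norm F (z : M) - 1) < 1 := by
  have h1 := val_norm_sub_one H.finrank H.σ_ne hns hc
  set A := Algebra.norm F ((z / w ^ 2 : Mˣ) : M)
  set B := Algebra.norm F (w : M)
  have hA : Algebra.norm F (z : M) = A * B ^ 2 := by
    rw [← map_pow (Algebra.norm F), ← map_mul, ← Units.val_pow_eq_pow_val, ← Units.val_mul,
      div_mul_cancel]
  have hB := val_norm_unit H hv hw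
  rw [hA, show A * B ^ 2 - 1 = (A - 1) * B ^ 2 + (B ^ 2 - 1) by ring]
  refine lt_of_le_of_lt (Valuation.map_add _ _ _) (max_lt ?_ (val_sq_sub_one (H.q3 v hv) hB))
  rwa [map_mul, map_pow, hB, one_pow, mul_one]

/-- A unit on which the character takes real values has norm `1` modulo the place. -/
theorem norm_of_theta_sq {z : Mˣ} (hz : CFT.ord (plOver M v) (z : M) = 0)
    (hθ : H.θ (plOver M v) z ^ 2 = 1) : v.valuation F (Algebra.norm F (z : M) - 1) < 1 := by
  set u := plOver M v with hu
  have hu3 : (3 : 𝓞 M) ∈ u.asIdeal := by rw [← three_mem_iff (F := F), plUnder_plOver]; exact hv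
  have huS : u ∈ H.sM := (H.mem_sM u).2 hu3
  have hns : IsNonsplit σ v := by
    have := isNonsplit_of_sM H hu3
    rwa [plUnder_plOver] at this
  rcases H.dich u huS with ⟨-, -, y, hy, hy2⟩ | ⟨-, hq, -⟩
  · have h2 : u.valuation M (2 : M) = 1 := by
      have h := ord_two_eq_zero (E := M) hu3
      rw [Nat.cast_ofNat] at h
      exact val_eq_one_of_ord two_ne_zero h
    have hne : ((-1 : ℂˣ)) ≠ 1 := fun h => by
      have := congrArg Units.val h
      norm_num at this
    have hsqv : ∀ w : Mˣ, ∀ x : Mˣ, CloseOne u 1 ((x / w ^ 2 : Mˣ) : M) → H.θ u x ^ 2 = 1 :=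
      fun w x h => by
        have := H.θ_one u huS _ h
        rw [map_div, div_eq_one, map_pow] at this
        rw [this, ← pow_mul, H.θ_four]
    obtain ⟨w, hw, hc | hc | hc⟩ := exists_sq_close u h2 z y hz hy
    · exact norm_of_sq H hv hw hns hc
    · exact absurd (hy2.symm.trans (hsqv w y hc)) hne
    · have := hsqv w (z * y) hc
      rw [map_mul, mul_pow, hθ, one_mul, hy2] at this
      exact absurd this hne
  · have hN : ∀ w : Mˣ, Algebra.norm F ((-w : Mˣ) : M) = Algebra.norm F (w : M) := fun w => by
      refine (algebraMap F M).injective ?_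
      rw [norm_eq H.finrank H.σ_ne, norm_eq H.finrank H.σ_ne, Units.val_neg, map_neg, neg_mul_neg]
    rcases closeOne_pm_of_three (W := u) hq hz with h | h
    · exact val_norm_sub_one H.finrank H.σ_ne hns h
    · rw [← hN]; exact val_norm_sub_one H.finrank H.σ_ne hns h

/-- A unit of norm `1` modulo the place where the character is not trivial. -/
theorem exists_theta_ne : ∃ μ : Mˣ, CFT.ord (plOver M v) (μ : M) = 0 ∧
    H.θ (plOver M v) μ ≠ 1 ∧ v.valuation F (Algebra.norm F (μ : M) - 1) < 1 := by
  set u := plOver M v with hu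
  have hu3 : (3 : 𝓞 M) ∈ u.asIdeal := by rw [← three_mem_iff (F := F), plUnder_plOver]; exact hv
  have hne : ((-1 : ℂˣ)) ≠ 1 := fun h => by
    have := congrArg Units.val h
    norm_num at this
  rcases H.dich u ((H.mem_sM u).2 hu3) with ⟨-, -, y, hy, hy2⟩ | ⟨-, -, hθ⟩
  · refine ⟨y ^ 2, by rw [Units.val_pow_eq_pow_val, CFT.ord_pow, hy, mul_zero],
      by rw [map_pow, hy2]; exact hne,
           norm_of_theta_sq H hv (by rw [Units.val_pow_eq_pow_val, CFT.ord_pow, hy, mul_zero]) ?_⟩
    rw [map_pow, hy2, neg_one_sq]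
  · refine ⟨-1, by simp [CFT.ord_neg], by rw [hθ]; exact hne, ?_⟩
    have : Algebra.norm F ((-1 : Mˣ) : M) = 1 := by
      refine (algebraMap F M).injective ?_
      rw [norm_eq H.finrank H.σ_ne, map_one]; simp
    rw [this]; simp

end Fermat.LT.Theta
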