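import Fermat.Agent.LT.Theta.Unfold
import Fermat.Agent.LT.Theta.Crt
import Fermat.Agent.LT.Theta.LocalS

/-!
# Theta: the local factors are exchanged by the local transforms

`ft_loc` is the exchange, with constant `cLoc`, for exponent vectors large at the place (`Big`).
-/

set_option autoImplicit false

noncomputable section

open NumberField Fermat.CFT Filter
open scoped Classical

namespace Fermat.LT.Theta

variable {F M : Type} [Field F] [NumberField F] [IsTotallyComplex F] [Field M] [NumberField M]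
  [Algebra F M] [IsGalois F M] {σ : M ≃ₐ[F] M} {lam : Pl F → ℝ} {H : HData σ lam}
  {ω : FinPt F (s3 F)} (P : PDat H ω)

/-- A common bound for all exponents at `v`. -/
def bnd (v : Pl F) (j : ℤ) : ℤ :=
  2 * (|P.k1 v| + |P.k2 v| + |j| + |CFT.ord v (P.a v : F)| + |CFT.ord v (P.x v)|
    + |eL (dlt H) v| + |dd M (dlt H) v| + (if v ∈ s3 F then 1 else 0))

/-- The exponent vector is large at `v`. -/
def Big (v : Pl F) (j : ℤ) (hi : ℤ × ℤ) : Prop :=
  Adm σ v hi ∧ bnd P v j ≤ hi.1 ∧ bnd P v j ≤ hi.2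

/-- The local constant of the transform. -/
def cLoc (v : Pl F) : ℂ :=
  if v ∈ s3 F then (resCard (plOver M v) : ℂ) ^ (P.k1 v - 1)
      * gammaS σ (dlt H) v (H.θ (plOver M v))
  else if P.x v = 0 then (resCard v : ℂ) ^ (CFT.ord v (P.a v : F) + eL (dlt H) v)
  else (resCard v : ℂ) ^ (eL (dlt H) v + CFT.ord v (P.x v))
    * (if IsNonsplit σ v then (-1 : ℂ) else 1) ^ (CFT.ord v (P.a v : F) - CFT.ord v (P.x v))

variable {P}

/-- A large exponent vector dominates twice the sum of the absolute values of all parameters. -/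
lemma bnd_le {v : Pl F} {j : ℤ} {hi : ℤ × ℤ} (hb : Big P v j hi) :
    (|P.k1 v| + |P.k2 v| + |j| + |CFT.ord v (P.a v : F)| + |CFT.ord v (P.x v)|
      + |eL (dlt H) v| + |dd M (dlt H) v| + (if v ∈ s3 F then 1 else 0) : ℤ) * 2 ≤ hi.1 ∧
    (|P.k1 v| + |P.k2 v| + |j| + |CFT.ord v (P.a v : F)| + |CFT.ord v (P.x v)|
      + |eL (dlt H) v| + |dd M (dlt H) v| + (if v ∈ s3 F then 1 else 0) : ℤ) * 2 ≤ hi.2 := by
  obtain ⟨-, h1, h2⟩ := hb
  unfold bnd at h1 h2
  constructor <;> linarith

/-- The exponents of the support box of the local factor are admissible. -/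
lemma adm_mBox {v : Pl F} {j : ℤ} (hj : ¬ (IsNonsplit σ v ∧ j ≠ 0)) :
    Adm σ v (mBox P v j) := fun hns => by
  have h0 : j = 0 := by by_contra h; exact hj ⟨hns, h⟩
  have := P.adm v hns
  simp only [mBox, h0]; omega

/-- Ramified places have residue characteristic different from `2`. -/
lemma h2_s3 (H : HData σ lam) {v : Pl F} (h : v ∈ ramPl (K := F) M) : v.valuation F (2 : F) = 1 :=
  val_two_of_ram (ramPl_subset H h)

/-- For large exponents the local factor is supported in the big box. -/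
lemma locT_supp {v : Pl F} {j : ℤ} {hi : ℤ × ℤ} (hb : Big P v j hi) {η : M}
    (h : locT P v j η ≠ 0) : η ∈ box σ v (-hi) := by
  obtain ⟨b1, b2⟩ := bnd_le hb
  rw [locT] at h
  split_ifs at h with h1 hs hm
  · exact absurd rfl h
  · rw [mul_ne_zero_iff, mul_ne_zero_iff, phiS] at h
    obtain ⟨-, h, -⟩ := h
    split_ifs at h with hc
    · refine box_mono ?_ ?_ hc.1 <;> simp <;> (rw [if_pos hs] at b1 b2) <;>
        linarith [le_abs_self (P.k1 v), abs_nonneg (P.k1 v), abs_nonneg (P.k2 v), abs_nonneg j,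
          abs_nonneg (CFT.ord v (P.a v : F)),
          abs_nonneg (CFT.ord v (P.x v)), abs_nonneg (eL (dlt H) v), abs_nonneg (dd M (dlt H) v)]
    · exact absurd rfl h
  · refine box_mono ?_ ?_ hm <;> simp only [mBox, Prod.fst_neg, Prod.snd_neg] <;>
      rw [if_neg hs] at b1 b2 <;>
      linarith [le_abs_self (P.k1 v), le_abs_self (P.k2 v), le_abs_self j, neg_abs_le j,
        abs_nonneg (P.k1 v), abs_nonneg (P.k2 v), abs_nonneg j,
        abs_nonneg (CFT.ord v (P.a v : F)), abs_nonneg (CFT.ord v (P.x v)),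
          abs_nonneg (eL (dlt H) v),
        abs_nonneg (dd M (dlt H) v)]
  · simp at h

/-- For large exponents the local factor is periodic modulo the small box. -/
lemma periodic_locT {v : Pl F} {j : ℤ} {hi : ℤ × ℤ} (hb : Big P v j hi) :
    Periodic (box σ v (-hi)) (box σ v hi) (locT P v j) := by
  have hF := H.finrank
  have hσ := H.σ_ne
  obtain ⟨b1, b2⟩ := bnd_le hb
  intro η _ h hh
  by_cases h1 : IsNonsplit σ v ∧ j ≠ 0
  · rw [locT, locT, if_pos h1, if_pos h1]
  rw [locT, locT, if_neg h1, if_neg h1]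
  congr 1
  -- at the places above three
  by_cases hs : v ∈ s3 F
  · rw [if_pos hs, if_pos hs]
    rw [if_pos hs] at b1 b2
    have hns := isNonsplit_s3 H hs
    set k := -P.k1 v
    have hk1 : k + 1 ≤ hi.1 ∧ k + 1 ≤ hi.2 := by
      simp only [k]
      constructor <;> linarith [neg_abs_le (P.k1 v), abs_nonneg (P.k1 v),
        abs_nonneg (P.k2 v), abs_nonneg j,
        abs_nonneg (CFT.ord v (P.a v : F)), abs_nonneg (CFT.ord v (P.x v)),
          abs_nonneg (eL (dlt H) v),
        abs_nonneg (dd M (dlt H) v)]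
    have hh' : h ∈ box σ v (k + 1, k + 1) := box_mono hk1.1 hk1.2 hh
    have hone : ∀ z : Mˣ, CloseOne (plOver M v) 1 (z : M) → H.θ (plOver M v) z = 1 :=
      fun z hz => H.θ_one _ (plOver_mem_sM H hs) z hz
    have e1 := periodic_phiS hF hσ hns hone (lo := ⊤) k η trivial h hh'
    rw [e1]
    by_cases hm : η ∈ box σ v (k, k)
    swap
    · rw [phiS, dif_neg fun h' => hm h'.1, zero_mul, zero_mul]
    congr 1
    have hk : 2 * k = -(plRamIdx F (plOver M v) * (CFT.ord v (P.a v : F) + eL (dlt H) v + 1)) := by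
      have := P.kon v hs; simp only [k]; linarith
    rw [norm_add_eq hF hσ, add_assoc, mul_add, psiD_add,
      psiD_mul_eq_one (dlt H) hF hσ hns (P.xon v hs) hk
        (d := pair σ h η + Algebra.norm F h) ?_, mul_one]
    rw [map_add, pair, trace_eq hF hσ, norm_eq hF hσ, map_mul σ, sigma_apply_apply hF hσ]
    have hmσ : ∀ {i : ℤ} {z : M}, z ∈ box σ v (i, i) → σ z ∈ box σ v (i, i) := fun hz =>
      (smul_mem_box_iff hF hσ).2 hz
    refine add_mem (add_mem (box_mono ?_ ?_ (mul_mem_box hh' (hmσ hm)))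
      (box_mono ?_ ?_ (mul_mem_box (hmσ hh') hm))) (box_mono ?_ ?_ (mul_mem_box hh' (hmσ hh'))) <;>
      simp <;> omega
  · -- elsewhere
    rw [if_neg hs, if_neg hs]
    rw [if_neg hs] at b1 b2
    have hv := notMem_ramPl H hs
    set m := mBox P v j with hmdef
    have hA := abs_nonneg (P.k1 v)
    have hD := abs_nonneg (CFT.ord v (P.a v : F))
    have hI := abs_nonneg (dd M (dlt H) v)
    have := le_abs_self (P.k1 v); have := le_abs_self (P.k2 v); have := le_abs_self j
    have := neg_abs_le (P.k1 v); have := neg_abs_le (P.k2 v); have := neg_abs_le j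
    have := le_abs_self (CFT.ord v (P.x v)); have := neg_abs_le (CFT.ord v (P.x v))
    have := le_abs_self (eL (dlt H) v); have := neg_abs_le (eL (dlt H) v)
    have hh' : h ∈ box σ v m :=
      box_mono (by simp only [hmdef, mBox]; omega) (by simp only [hmdef, mBox]; omega) hh
    by_cases hm : η ∈ box σ v m
    swap
    · rw [if_neg hm, if_neg fun h' => hm (((box σ v m).add_mem_cancel_right hh').1 h')]
      simp
    rw [if_pos hm, if_pos (add_mem hm hh'), one_mul, one_mul]
    refine periodic_norm (dlt H) hF hσ hv (k := CFT.ord v (P.x v)) (m := m) (n := hi) ?_ ?_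
      ?_ ?_ η hm h hh
    · rcases eq_or_ne (P.x v) 0 with h0 | h0
      · simp [h0]
      · rw [valuation_eq_exp_neg_ord v h0]
    all_goals try simp only [hmdef, mBox]
    all_goals omega

/-- The local exponents of the inverted point stay in the dual range. -/
lemma locT_inv_supp {v : Pl F} {j : ℤ} {hi : ℤ × ℤ} (hb : Big P v j hi) {y : M}
    (h : locT P.inv v j y ≠ 0) : y ∈ box σ v (dual M (dlt H) v hi) := by
  obtain ⟨b1, b2⟩ := bnd_le hb
  have hA := abs_nonneg (P.k1 v); have hB := abs_nonneg (P.k2 v)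
  have hD := abs_nonneg (CFT.ord v (P.a v : F))
  have hG := abs_nonneg (eL (dlt H) v)
  have := le_abs_self (P.k1 v); have := le_abs_self (P.k2 v); have := le_abs_self j
  have := neg_abs_le (P.k1 v); have := neg_abs_le (P.k2 v); have := neg_abs_le j
  have := le_abs_self (CFT.ord v (P.x v)); have := neg_abs_le (CFT.ord v (P.x v))
  have := le_abs_self (dd M (dlt H) v); have := neg_abs_le (dd M (dlt H) v)
  rw [locT] at h
  split_ifs at h with h1 hs hm
  · exact absurd rfl h
  · rw [mul_ne_zero_iff, mul_ne_zero_iff, phiS] at h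
    obtain ⟨-, h, -⟩ := h
    split_ifs at h with hc
    · rw [if_pos hs] at b1 b2
      refine box_mono ?_ ?_ hc.1 <;> simp only [PDat.inv, if_pos (Or.inl hs),
        if_pos hs, dual] <;> omega
    · exact absurd rfl h
  · rw [if_neg hs] at b1 b2
    refine box_mono ?_ ?_ hm <;> simp only [mBox, PDat.inv, dual, if_neg hs] <;> split_ifs <;> omega
  · simp at h

/-- Off the level the volume of a box is a power of the residue count. -/
lemma boxVol_off (H : HData σ lam) {v : Pl F} (hs : v ∉ s3 F) {d : ℤ × ℤ} (hd : Adm σ v d) :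
    boxVol σ v d = (resCard v : ℝ) ^ (d.1 + d.2) := by
  have hF := H.finrank
  have hσ := H.σ_ne
  have hq : (resCard v : ℝ) ≠ 0 := by exact_mod_cast (resCard_pos v).ne'
  obtain ⟨n, hn1, hn2⟩ : ∃ n : ℕ, 0 ≤ d.1 + n ∧ 0 ≤ d.2 + n :=
    ⟨(max (-d.1) (-d.2)).toNat, by omega, by omega⟩
  have hu := plRamIdx_off H hs
  have hc : ∀ e : ℤ × ℤ, 0 ≤ e.1 → 0 ≤ e.2 → Adm σ v e →
      boxVol σ v e = (resCard v : ℝ) ^ (e.1 + e.2) := fun e h1 h2 he => by
    rw [← boxCard_cast v h1 h2, boxCard_eq hF hσ hu h1 h2 he]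
    obtain ⟨a, ha⟩ := Int.eq_ofNat_of_zero_le (add_nonneg h1 h2)
    rw [ha]; simp
  have h := boxVol_sub (σ := σ) v (d + ((n : ℤ), (n : ℤ))) ((n : ℤ), (n : ℤ))
  rw [add_sub_cancel_right, hc (d + ((n : ℤ), (n : ℤ))) hn1 hn2 (fun h' => by simp [hd h']),
    hc ((n : ℤ), (n : ℤ)) (Int.natCast_nonneg n) (Int.natCast_nonneg n) fun _ => rfl,
      ← zpow_sub₀ hq] at h
  rw [h]; congr 1; simp; ring

/-- **The local transform of the local factors.** -/
theorem ft_loc {v : Pl F} {j : ℤ} {hi : ℤ × ℤ} (hb : Big P v j hi) {y : M}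
    (hy : y ∈ box σ v (dual M (dlt H) v hi)) :
    qsum (box σ v (-hi)) (box σ v hi) (fun η => locT P v j η * psiD (dlt H) v (pair σ η y))
      = (boxVol σ v hi : ℂ) * cLoc P v * locT P.inv v j y := by
  have hF := H.finrank
  have hσ := H.σ_ne
  obtain ⟨b1, b2⟩ := bnd_le hb
  have hadm := hb.1
  have hA := abs_nonneg (P.k1 v); have hB := abs_nonneg (P.k2 v); have hC := abs_nonneg j
  have hD := abs_nonneg (CFT.ord v (P.a v : F)); have hE := abs_nonneg (CFT.ord v (P.x v))
  have hI := abs_nonneg (dd M (dlt H) v)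
  have := le_abs_self (P.k1 v); have := le_abs_self (P.k2 v); have := le_abs_self j
  have := neg_abs_le (P.k1 v); have := neg_abs_le (P.k2 v); have := neg_abs_le j
  have := le_abs_self (CFT.ord v (P.a v : F)); have := neg_abs_le (CFT.ord v (P.a v : F))
  have := le_abs_self (CFT.ord v (P.x v)); have := neg_abs_le (CFT.ord v (P.x v))
  have := le_abs_self (eL (dlt H) v); have := neg_abs_le (eL (dlt H) v)
  have := le_abs_self (dd M (dlt H) v); have := neg_abs_le (dd M (dlt H) v)
  by_cases h1 : IsNonsplit σ v ∧ j ≠ 0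
  · simp [qsum, locT, if_pos h1]
  by_cases hs : v ∈ s3 F
  -- at the level: the transform of the character on a shell
  · have hns := isNonsplit_s3 H hs
    have hu3 := plOver_mem_sM H hs
    have hone : ∀ z : Mˣ, CloseOne (plOver M v) 1 (z : M) → H.θ (plOver M v) z = 1 :=
      fun z hz => H.θ_one _ hu3 z hz
    rw [if_pos hs] at b1 b2
    obtain ⟨i, rfl⟩ : ∃ i : ℤ, hi = (i, i) := ⟨hi.1, Prod.ext rfl (hadm hns).symm⟩
    set k := -P.k1 v with hkdef
    have hk : 2 * k = -(plRamIdx F (plOver M v) * (CFT.ord v (P.a v : F) + eL (dlt H) v + 1)) := by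
      have := P.kon v hs; omega
    have hft := ft_shell (dlt H) hF hσ hns hone (val_two_of_ram hs) (H.θ_σ _ hu3) (H.θ_four _)
      (fun r hr => val_sq_sub_one (H.q3 v hs) hr) (exists_theta_ne H hs)
      (fun z hz hθ => norm_of_theta_sq H hs hz hθ) (P.xon v hs) (lo := -i) (hi := i) hk
      (by omega) (by omega) hy
    rw [qsum_congr (g := fun η => zw H v (j, -j) * (phiS σ v (H.θ (plOver M v)) k η
        * (psiD (dlt H) v (P.x v * Algebra.norm F η) * psiD (dlt H) v (pair σ η y)))) fun η _ => by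
      rw [locT, if_neg h1, if_pos hs]; ring, qsum_smul, show (-(i, i) : ℤ × ℤ) =
        (-i, -i) from rfl, hft]
    rw [locT, if_neg h1, if_pos hs, cLoc, if_pos hs]
    have e1 : -dd M (dlt H) v - 1 - k = -(P.inv.k1 v) := by
      simp only [PDat.inv, if_pos (Or.inl hs), if_pos hs, hkdef, P.adm v hns]; ring
    have e2 : P.inv.x v = P.x v / (P.a v : F) ^ 2 := by simp only [PDat.inv, if_pos hs]
    rw [e1, e2]
    have hcard : ((boxCard σ v ((i, i) - (k + 1, k + 1)) : ℕ) : ℂ)
        = (boxVol σ v (i, i) : ℂ) * (resCard (plOver M v) : ℂ) ^ (P.k1 v - 1) := by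
      have hr := boxCard_cast (σ := σ) v (d := (i, i) - (k + 1, k + 1)) (by simp; omega)
        (by simp; omega)
      rw [← Complex.ofReal_natCast, hr, boxVol_sub, div_eq_mul_inv, Complex.ofReal_mul]
      congr 1
      rw [boxVol, if_pos hns, Complex.ofReal_inv, Complex.ofReal_zpow, ← zpow_neg,
        Complex.ofReal_natCast]
      congr 1; omega
    rw [hcard]
    ring
  -- off the level: the transform of a box, twisted by the norm form unless `P.x v = 0`
  rw [if_neg hs] at b1 b2
  have hv := notMem_ramPl H hs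
  have hde := dd_off H hs
  have hk := P.koff v hs
  set m := mBox P v j with hm
  have hmA : Adm σ v m := adm_mBox h1
  rw [qsum_congr (g := fun η => zw H v (j, -j) * ((if η ∈ box σ v m then 1 else 0)
      * (psiD (dlt H) v (P.x v * Algebra.norm F η) * psiD (dlt H) v (pair σ η y)))) fun η _ => by
    rw [locT, if_neg h1, if_neg hs]; ring, qsum_smul]
  rw [locT, if_neg h1, if_neg hs, cLoc, if_neg hs]
  by_cases hx : P.x v = 0
  · rw [if_pos hx, hx]
    simp only [zero_mul, psiD_zero, one_mul]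
    rw [ft_box (dlt H) hF hσ (fun h => h2_s3 H h) (by simp only [hm, mBox, Prod.fst_neg]; omega)
      (by simp only [hm, mBox, Prod.snd_neg]; omega) (by simp only [hm, mBox]; omega)
      (by simp only [hm, mBox]; omega) hmA hadm hy]
    have e1 : dual M (dlt H) v m = mBox P.inv v j := by
      simp only [hm, mBox, dual, PDat.inv, if_pos (Or.inr hx), if_neg hs, hde]
      ext <;> simp <;> ring
    have e2 : P.inv.x v = 0 := by simp [PDat.inv, hx]
    rw [e1, e2, zero_mul, psiD_zero, mul_one]
    have hcard : ((boxCard σ v (hi - m) : ℕ) : ℂ)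
        = (boxVol σ v hi : ℂ) * (resCard v : ℂ) ^ (CFT.ord v (P.a v : F) + eL (dlt H) v) := by
      rw [← Complex.ofReal_natCast, boxCard_cast (σ := σ) v (by simp [hm, mBox]; omega)
        (by simp [hm, mBox]; omega), boxVol_sub, boxVol_off H hs hmA, div_eq_mul_inv,
        Complex.ofReal_mul, Complex.ofReal_inv, Complex.ofReal_zpow, ← zpow_neg,
          Complex.ofReal_natCast]
      congr 2
      simp only [hm, mBox]; omega
    rw [hcard]
    ring
  · rw [if_neg hx]
    have hlt := (P.xoff v hs).resolve_left hx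
    obtain ⟨d, hd⟩ :=
      Int.eq_ofNat_of_zero_le (show 0 ≤ CFT.ord v (P.a v : F) - CFT.ord v (P.x v) by omega)
    rw [ft_normBox (dlt H) hF hσ hv hx (d := d) (by simp only [hm, mBox]; omega)
      (by simp only [hm, mBox, Prod.fst_neg]; omega) (by simp only [hm, mBox, Prod.snd_neg]; omega)
      (by simp only [hm, mBox]; omega) (by simp only [hm, mBox]; omega) hmA hadm hy]
    have e1 : m + (CFT.ord v (P.x v), CFT.ord v (P.x v)) = mBox P.inv v j := by
      simp only [hm, mBox, PDat.inv, if_neg (not_or.2 ⟨hs, hx⟩)]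
      ext <;> simp <;> ring
    have e2 : P.inv.x v = -(P.x v)⁻¹ := by simp only [PDat.inv, if_neg hs]
    rw [e1, e2]
    have hcard : ((boxCard σ v (hi - (m + ((d : ℤ), (d : ℤ)))) : ℕ) : ℂ)
        * (if IsNonsplit σ v then -(resCard v : ℂ) else (resCard v : ℂ)) ^ d
        = (boxVol σ v hi : ℂ) * ((resCard v : ℂ) ^ (eL (dlt H) v + CFT.ord v (P.x v))
          * (if IsNonsplit σ v then (-1 : ℂ) else 1) ^
              (CFT.ord v (P.a v : F) - CFT.ord v (P.x v))) := by
      rw [hd, zpow_natCast,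
        show (if IsNonsplit σ v then -(resCard v : ℂ) else (resCard v : ℂ))
          = (resCard v : ℂ) * (if IsNonsplit σ v then (-1 : ℂ) else 1) by
            split_ifs <;> ring, mul_pow,
        ← Complex.ofReal_natCast (boxCard σ v _),
          boxCard_cast (σ := σ) v (by simp [hm, mBox]; omega)
        (by simp [hm, mBox]; omega), boxVol_sub,
        boxVol_off H hs (d := m + ((d : ℤ), (d : ℤ))) (fun h => by simp [hmA h]), div_eq_mul_inv,
        Complex.ofReal_mul, Complex.ofReal_inv, Complex.ofReal_zpow, ← zpow_neg,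
          Complex.ofReal_natCast]
      rw [mul_assoc, ← mul_assoc _ ((resCard v : ℂ) ^ d), ← zpow_natCast (resCard v : ℂ) d,
        ← zpow_add₀ (by exact_mod_cast (resCard_pos v).ne')]
      congr 3
      simp only [hm, mBox, Prod.fst_add, Prod.snd_add]; omega
    rw [← mul_assoc, ← mul_assoc, mul_assoc (zw H v (j, -j)), hcard]
    ring

end Fermat.LT.Theta
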