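import Fermat.Agent.LT.Theta.LocalPair

/-!
# Theta: the local transforms off the level

`ft_box` transforms the indicator of a box and `ft_normBox` a character of the norm on a box, by the
Gauss sums `gauss_eq`.
-/

set_option autoImplicit false
set_option linter.unusedSectionVars false

noncomputable section

open NumberField IsDedekindDomain Fermat.CFT
open scoped Pointwise Classical

namespace Fermat.LT.Theta

section General

variable {A : Type*} [AddCommGroup A] {lo K hi S0 : AddSubgroup A} {f : A → ℂ}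

/-- Averaging over translates by a subgroup multiplies a finite sum by the index. -/
lemma qsum_average (hK : K ≤ lo) (hfin : hi.relIndex lo ≠ 0) (hfK : hi.relIndex K ≠ 0)
    (hf : Periodic lo hi f) :
    qsum lo hi (fun x => qsum K hi fun l => f (x + l)) = hi.relIndex K * qsum lo hi f := by
  have : Finite (lo ⧸ hi.addSubgroupOf lo) := Nat.finite_of_card_ne_zero hfin
  have : Finite (K ⧸ hi.addSubgroupOf K) := Nat.finite_of_card_ne_zero hfK
  let _ := Fintype.ofFinite (lo ⧸ hi.addSubgroupOf lo)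
  let _ := Fintype.ofFinite (K ⧸ hi.addSubgroupOf K)
  have e : ∀ l : K ⧸ hi.addSubgroupOf K,
      ∑ x : lo ⧸ hi.addSubgroupOf lo, f ((Quotient.out x : lo) + ((Quotient.out l : K) : A))
        = qsum lo hi f := fun l => by
    rw [← qsum_shift hf (hK (Quotient.out l).2), qsum, finsum_eq_sum_of_fintype]
  simp only [qsum, finsum_eq_sum_of_fintype]
  rw [Finset.sum_comm, Finset.sum_congr rfl fun l _ => e l, Finset.sum_const, Finset.card_univ,
    nsmul_eq_mul, ← Nat.card_eq_fintype_card]
  simp only [qsum, finsum_eq_sum_of_fintype]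
  rfl

/-- Only the classes fixed by the translations survive. -/
lemma qsum_kill (hK : K ≤ lo) (hS : S0 ≤ lo) (hfin : hi.relIndex lo ≠ 0)
    (hfK : hi.relIndex K ≠ 0) (hf : Periodic lo hi f) (χ : A → A → ℂ)
    (hmul : ∀ x ∈ lo, ∀ l ∈ K, ∀ l' ∈ K, χ x (l + l') = χ x l * χ x l')
    (hone : ∀ x ∈ lo, ∀ h ∈ hi, χ x h = 1) (hhK : hi ≤ K)
    (htr : ∀ x ∈ lo, ∀ l ∈ K, f (x + l) = f x * χ x l)
    (hS1 : ∀ x ∈ S0, ∀ l ∈ K, χ x l = 1)
    (hS2 : ∀ x ∈ lo, x ∉ S0 → ∃ l ∈ K, χ x l ≠ 1) :
    qsum lo hi f = qsum S0 hi f := by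
  have hχ : ∀ x ∈ lo, Periodic K hi (χ x) := fun x hx l hl h hh => by
    rw [hmul x hx l hl h (hhK hh), hone x hx h hh, mul_one]
  set g := fun x => qsum K hi fun l => f (x + l)
  have hg : ∀ x ∈ lo, g x = f x * qsum K hi (χ x) := fun x hx => by
    rw [← qsum_smul]; exact qsum_congr fun l hl => htr x hx l hl
  have hgp : Periodic lo hi g := fun x hx h hh => qsum_congr fun l hl => by
    rw [add_right_comm]; exact hf _ (lo.add_mem hx (hK hl)) h hh
  have h1 := qsum_average hK hfin hfK hf
  rw [qsum_restrict hS hgp fun x hx hxS => ?_] at h1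
  · rw [qsum_congr (g := fun x => (hi.relIndex K : ℂ) * f x) fun x hx => ?_, qsum_smul] at h1
    · exact (mul_left_cancel₀ (Nat.cast_ne_zero.2 hfK) h1).symm
    · show g x = _
      rw [hg x (hS hx), qsum_const 1 (hS1 x hx) hfK, mul_one, mul_comm]
  · obtain ⟨l, hl, hne⟩ := hS2 x hx hxS
    show g x = 0
    rw [hg x hx, qsum_eq_zero (hχ x hx) hl hne fun l' hl' => by
      rw [hmul x hx l' hl' l hl, mul_comm], mul_zero]

/-- Multiplying by the indicator of `K` restricts a finite sum to `K`. -/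
lemma qsum_ind (hmid : K ≤ lo) (hhK : hi ≤ K) (hf : Periodic K hi f) :
    qsum lo hi (fun x => (if x ∈ K then 1 else 0) * f x) = qsum K hi f := by
  rw [qsum_restrict hmid ?_ fun x _ hx => by rw [if_neg hx, zero_mul]]
  · exact qsum_congr fun x hx => by rw [if_pos hx, one_mul]
  · intro x _ h hh
    simp only [K.add_mem_cancel_right (hhK hh)]
    by_cases hx : x ∈ K
    · rw [hf x hx h hh]
    · rw [if_neg hx, zero_mul, zero_mul]

end General

variable {F M : Type} [Field F] [NumberField F] [IsTotallyComplex F] [Field M] [NumberField M]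
  [Algebra F M] [IsGalois F M] {σ : M ≃ₐ[F] M}

/-- The integers at `v` modulo a power. -/
def fBox (v : Pl F) (k : ℤ) : AddSubgroup F where
  carrier := {t | v.valuation F t ≤ WithZero.exp (-k)}
  zero_mem' := by simp
  add_mem' := fun {a b} ha hb => by
    rw [Set.mem_ofPred_eq] at ha hb ⊢
    exact (Valuation.map_add _ a b).trans (max_le ha hb)
  neg_mem' := fun {a} ha => by rw [Set.mem_ofPred_eq, Valuation.map_neg]; exact ha

/-- Membership in `fBox`, unfolded. -/
lemma mem_fBox {v : Pl F} {t : F} {k : ℤ} : t ∈ fBox v k ↔ v.valuation F t ≤ WithZero.exp (-k) :=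
  Iff.rfl

/-- The valuation of a product is bounded by the sum of the exponents. -/
lemma val_mul_le_exp {v : Pl F} {c t : F} {a b k : ℤ} (hc : v.valuation F c = WithZero.exp a)
    (ht : v.valuation F t ≤ WithZero.exp b) (hk : a + b = k) :
    v.valuation F (c * t) ≤ WithZero.exp k := by
  rw [map_mul, hc, ← hk, WithZero.exp_add]
  exact mul_le_mul' le_rfl ht

variable (δ : Fˣ) (hF : Module.finrank F M = 2) (hσ : σ ≠ 1)
include hF hσ

/-- Indices between admissible boxes are nonzero. -/
lemma relIndex_box_ne_zero {v : Pl F} {lo hi : ℤ × ℤ} (h1 : lo.1 ≤ hi.1) (h2 : lo.2 ≤ hi.2)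
    (hlo : Adm σ v lo) (hhi : Adm σ v hi) : (box σ v hi).relIndex (box σ v lo) ≠ 0 := by
  rw [relIndex_box hF hσ h1 h2 hlo hhi]
  exact (boxCard_pos v _).ne'

/-- The character of the pairing with an element of the dual box is periodic modulo the box. -/
lemma periodic_pair {v : Pl F} {lo : AddSubgroup M} {hi : ℤ × ℤ} {y : M}
    (hy : y ∈ box σ v (dual M δ v hi)) :
    Periodic lo (box σ v hi) fun η => psiD δ v (pair σ η y) := fun η _ h hh => by
  change psiD δ v (pair σ (η + h) y) = psiD δ v (pair σ η y)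
  rw [pair_add_left, psiD_add, psiD_pair_eq_one δ hF hσ hh hy, mul_one]

/-- **The transform of a box.** The sum over a box quotient of the indicator of a box times a
character is the number of its classes times the indicator of the dual box. -/
theorem ft_box {v : Pl F} (h2 : v ∈ ramPl (K := F) M → v.valuation F (2 : F) = 1) {lo m hi : ℤ × ℤ}
    (hlm1 : lo.1 ≤ m.1) (hlm2 : lo.2 ≤ m.2) (hmh1 : m.1 ≤ hi.1) (hmh2 : m.2 ≤ hi.2)
    (hm : Adm σ v m) (hhi : Adm σ v hi) {y : M} (hy : y ∈ box σ v (dual M δ v hi)) :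
    qsum (box σ v lo) (box σ v hi)
        (fun η => (if η ∈ box σ v m then 1 else 0) * psiD δ v (pair σ η y))
      = boxCard σ v (hi - m) * (if y ∈ box σ v (dual M δ v m) then 1 else 0) := by
  rw [qsum_ind (box_mono hlm1 hlm2) (box_mono hmh1 hmh2) (periodic_pair δ hF hσ hy)]
  split_ifs with h
  · rw [qsum_const 1 (fun η hη => psiD_pair_eq_one δ hF hσ hη h)
      (relIndex_box_ne_zero hF hσ hmh1 hmh2 hm hhi), relIndex_box hF hσ hmh1 hmh2 hm hhi]
  · obtain ⟨l, hl, hne⟩ := exists_pair_psiD_ne δ hF hσ h2 hm h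
    rw [mul_zero, qsum_eq_zero (periodic_pair δ hF hσ hy) hl hne fun x _ => by
      rw [pair_add_left, psiD_add, mul_comm]]

omit δ in
/-- The norm of a sum in terms of the trace pairing. -/
lemma norm_add_eq (a b : M) : Algebra.norm F (a + b)
    = Algebra.norm F a + pair σ b a + Algebra.norm F b :=
  (algebraMap F M).injective (by
    simp only [map_add, norm_eq hF hσ, pair, trace_eq hF hσ]
    rw [map_mul σ, sigma_apply_apply hF hσ]
    ring)

variable {v : Pl F} (hv : v ∉ ramPl (K := F) M)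
include hv

omit hF hσ in
/-- Off the ramified places the exponent of the orthogonal of the integers is `eL`. -/
lemma dd_eq : dd M δ v = eL δ v := by
  rw [dd, plRamIdx_eq_one_of_not_ram hv (plUnder_plOver v)]; simp

/-- The norm of an element of a box has order at least the sum of the exponents. -/
lemma valuation_norm_le_of_mem_box {l : M} {n : ℤ × ℤ} (hl : l ∈ box σ v n) :
    v.valuation F (Algebra.norm F l) ≤ WithZero.exp (-(n.1 + n.2)) := by
  have h : algebraMap F M (Algebra.norm F l) ∈ box σ v (n + (n.2, n.1)) := by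
    rw [norm_eq hF hσ]; exact mul_mem_box hl ((smul_mem_box_iff hF hσ).2 hl)
  have := h.1
  rwa [val_algebraMap, plUnder_plOver, plRamIdx_eq_one_of_not_ram hv (plUnder_plOver v), pow_one,
    Prod.fst_add] at this

/-- `ψ (x N l) = 1` on a box whose exponents are large enough. -/
lemma psiD_mul_norm_eq_one {x : F} {k : ℤ} (hx : v.valuation F x ≤ WithZero.exp (-k)) {l : M}
    {n : ℤ × ℤ} (hl : l ∈ box σ v n) (hk : -eL δ v ≤ k + n.1 + n.2) :
    psiD δ v (x * Algebra.norm F l) = 1 := by
  refine psiD_of_le δ ?_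
  rw [map_mul]
  refine (mul_le_mul' hx (valuation_norm_le_of_mem_box hF hσ hv hl)).trans ?_
  rw [← WithZero.exp_add, WithZero.exp_le_exp]
  omega

omit hF hσ in
/-- Multiplying by an element of `F` shifts the exponents of a box. -/
lemma mul_algebraMap_mem {x : F} {k : ℤ} (hx : v.valuation F x ≤ WithZero.exp (-k)) {η : M}
    {m : ℤ × ℤ} (hη : η ∈ box σ v m) : algebraMap F M x * η ∈ box σ v (m + (k, k)) := by
  have h := mul_mem_box (algebraMap_mem_box (M := M) hx) hη
  rw [plRamIdx_eq_one_of_not_ram hv (plUnder_plOver v), Nat.cast_one, one_mul] at h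
  rwa [add_comm m]

/-- Translation in `ψ (x N η)`. -/
lemma psiD_norm_add {x : F} {k : ℤ} (hx : v.valuation F x ≤ WithZero.exp (-k)) (η : M) {l : M}
    {n : ℤ × ℤ} (hl : l ∈ box σ v n) (hk : -eL δ v ≤ k + n.1 + n.2) :
    psiD δ v (x * Algebra.norm F (η + l))
      = psiD δ v (x * Algebra.norm F η) * psiD δ v (pair σ l (algebraMap F M x * η)) := by
  rw [norm_add_eq hF hσ, mul_add, mul_add, psiD_add, psiD_add,
    psiD_mul_norm_eq_one δ hF hσ hv hx hl hk, mul_one]
  congr 2
  rw [pair, pair, show l * σ (algebraMap F M x * η) = x • (l * σ η) by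
    rw [map_mul, AlgEquiv.commutes, Algebra.smul_def]; ring, map_smul, smul_eq_mul]

/-- A character of a scaled norm is periodic between suitable boxes. -/
lemma periodic_norm {x : F} {k : ℤ} (hx : v.valuation F x ≤ WithZero.exp (-k)) {m n : ℤ × ℤ}
    (hk : -eL δ v ≤ k + n.1 + n.2) (h1 : -eL δ v ≤ k + m.1 + n.2) (h2 : -eL δ v ≤ k + m.2 + n.1) :
    Periodic (box σ v m) (box σ v n) fun η => psiD δ v (x * Algebra.norm F η) := fun η hη h hh => by
  change psiD δ v _ = psiD δ v _
  rw [psiD_norm_add δ hF hσ hv hx η hh hk, psiD_pair_eq_one δ hF hσ hh, mul_one]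
  refine box_mono ?_ ?_ (mul_algebraMap_mem hv hx hη) <;>
    simp [dual, dd_eq δ hv] <;> omega

/-- The quadratic Gauss sum. -/
def gaussQ (σ : M ≃ₐ[F] M) (δ : Fˣ) (v : Pl F) (c : F) (d : ℕ) : ℂ :=
  qsum (box σ v 0) (box σ v ((d : ℤ), (d : ℤ))) fun ζ => psiD δ v (c * Algebra.norm F ζ)

omit hF hσ hv in
/-- Equal natural exponents are admissible. -/
lemma adm_nat (d : ℕ) : Adm σ v ((d : ℤ), (d : ℤ)) := fun _ => rfl

omit hF hσ hv in
/-- Zero exponents are admissible. -/
lemma adm_zero : Adm σ v (0 : ℤ × ℤ) := fun _ => rfl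

/-- The summand of the Gauss sum is periodic. -/
lemma periodic_gauss {c : F} {d : ℕ} (hc : v.valuation F c ≤ WithZero.exp (eL δ v + d)) :
    Periodic (box σ v 0) (box σ v ((d : ℤ), (d : ℤ))) fun ζ => psiD δ v (c * Algebra.norm F ζ) :=
  periodic_norm δ hF hσ hv (k := -eL δ v - d) (hc.trans_eq (by ring_nf)) (by simp) (by simp)
    (by simp)

/-- Reduction: only the classes in a box survive. -/
lemma gauss_kill {c : F} (hc : c ≠ 0) {d : ℕ} (hcd : CFT.ord v c = -eL δ v - d) {n s : ℤ × ℤ}
    (hn : Adm σ v n) (hnd : n.1 ≤ d ∧ n.2 ≤ d)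
    (hN : (d : ℤ) ≤ n.1 + n.2) (e1 : s.1 = d - n.2) (e2 : s.2 = d - n.1) :
    gaussQ σ δ v c d
      = qsum (box σ v s) (box σ v ((d : ℤ), (d : ℤ))) fun ζ => psiD δ v (c * Algebra.norm F ζ) := by
  have hval : v.valuation F c ≤ WithZero.exp (-(-eL δ v - (d : ℤ))) := by
    rw [valuation_eq_exp_neg_ord v hc, hcd]
  have hdual : dual M δ v n = s + (-eL δ v - (d : ℤ), -eL δ v - (d : ℤ)) := by
    ext <;> simp [dual, dd_eq δ hv] <;> omega
  have hn0 : 0 ≤ n.1 ∧ 0 ≤ n.2 := by omega
  have hs : 0 ≤ s.1 ∧ 0 ≤ s.2 := by omega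
  refine qsum_kill (K := box σ v n) (box_mono hn0.1 hn0.2) (box_mono hs.1 hs.2)
    (relIndex_box_ne_zero hF hσ (by simp) (by simp) (adm_zero) (adm_nat d))
    (relIndex_box_ne_zero hF hσ hnd.1 hnd.2 hn (adm_nat d))
    (periodic_gauss δ hF hσ hv (hval.trans_eq (by ring_nf)))
    (fun x l => psiD δ v (pair σ l (algebraMap F M c * x)))
    (fun x _ l _ l' _ => by rw [pair_add_left, psiD_add]) (fun x hx h hh => ?_)
    (box_mono hnd.1 hnd.2) (fun x _ l hl => psiD_norm_add δ hF hσ hv hval x hl (by omega))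
    (fun x hx l hl => ?_) fun x hx hxs => ?_
  · refine psiD_pair_eq_one δ hF hσ hh (box_mono ?_ ?_ (mul_algebraMap_mem hv hval hx)) <;>
      simp [dual, dd_eq δ hv]
  · refine psiD_pair_eq_one δ hF hσ hl ?_
    rw [hdual]
    exact mul_algebraMap_mem hv hval hx
  · refine exists_pair_psiD_ne δ hF hσ (fun h => absurd h hv) hn fun h => hxs ?_
    rw [hdual] at h
    have hinv : v.valuation F c⁻¹ ≤ WithZero.exp (-(eL δ v + (d : ℤ))) := by
      rw [valuation_eq_exp_neg_ord v (inv_ne_zero hc), CFT.ord_inv, hcd, WithZero.exp_le_exp]; omega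
    have h' := mul_algebraMap_mem hv hinv h
    rw [← mul_assoc, ← map_mul, inv_mul_cancel₀ hc, map_one, one_mul] at h'
    convert h' using 2
    ext <;> simp <;> omega

/-- The Gauss sum at a split place is a power of the residue count. -/
lemma gauss_split (hs : ¬ IsNonsplit σ v) {c : F} (hc : c ≠ 0) {d : ℕ}
    (hcd : CFT.ord v c = -eL δ v - d) : gaussQ σ δ v c d = (resCard v : ℂ) ^ d := by
  rw [gauss_kill δ hF hσ hv hc hcd (n := ((d : ℤ), 0)) (s := ((d : ℤ), 0)) (fun h => absurd h hs)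
    (by simp) (by simp) (by simp) (by simp),
    qsum_const 1 (fun ζ hζ => psiD_mul_norm_eq_one δ hF hσ hv (k := -eL δ v - d)
      (by rw [valuation_eq_exp_neg_ord v hc, hcd]) hζ (by simp))
      (relIndex_box_ne_zero hF hσ (by simp) (by simp) (fun h => absurd h hs) (adm_nat d)),
    relIndex_box hF hσ (by simp) (by simp) (fun h => absurd h hs) (adm_nat d),
    boxCard_eq hF hσ (plRamIdx_eq_one_of_not_ram hv (plUnder_plOver v)) (by simp) (by simp)
      (fun h => absurd h hs), mul_one]
  simp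

omit hF hσ hv in
/-- The first box of integers has index the residue count. -/
lemma relIndex_fBox : (fBox v 1).relIndex (fBox v 0) = resCard v := by
  have hint : ∀ x : 𝓞 F, (x : F) ∈ fBox v 0 := fun x => by
    rw [mem_fBox]; simpa using v.valuation_le_one x
  -- `𝓞 F` maps onto `fBox v 0` modulo `fBox v 1`, with kernel `v`
  let f : 𝓞 F →+ fBox v 0 ⧸ (fBox v 1).addSubgroupOf (fBox v 0) :=
    (QuotientAddGroup.mk' _).comp
      (AddMonoidHom.codRestrict (algebraMap (𝓞 F) F).toAddMonoidHom _ hint)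
  have hker : f.ker = v.asIdeal.toAddSubgroup := by
    ext x
    simp only [f, AddMonoidHom.mem_ker, AddMonoidHom.coe_comp, Function.comp_apply,
      QuotientAddGroup.mk'_apply, QuotientAddGroup.eq_zero_iff, Submodule.mem_toAddSubgroup]
    rw [AddSubgroup.mem_addSubgroupOf]
    change v.valuation F (x : F) ≤ WithZero.exp (-1 : ℤ) ↔ _
    rw [HeightOneSpectrum.valuation_of_algebraMap,
      show (-1 : ℤ) = -((1 : ℕ) : ℤ) by
        simp, HeightOneSpectrum.intValuation_le_pow_iff_mem, pow_one]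
  have hsurj : Function.Surjective f := by
    intro q
    obtain ⟨⟨t, ht⟩, rfl⟩ := QuotientAddGroup.mk_surjective q
    -- surjective by weak approximation
    obtain ⟨y, hy, hy'⟩ := Fermat.LT.exists_approx (F := F) {v} (fun _ => t) 1
    have hy1 := hy v (Finset.mem_singleton_self v)
    have hyint : ∀ w : Pl F, w.valuation F y ≤ 1 := fun w => by
      by_cases hw : w ∈ ({v} : Finset (Pl F))
      · rw [Finset.mem_singleton.1 hw, show y = (y - t) + t by ring]
        refine ((v.valuation F).map_add _ _).trans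
          (max_le (hy1.trans ?_) (by simpa [mem_fBox] using ht))
        rw [← WithZero.exp_zero, WithZero.exp_le_exp]; omega
      · exact hy' w hw
    obtain ⟨r, rfl⟩ := IsDedekindDomain.HeightOneSpectrum.mem_integers_of_valuation_le_one F y hyint
    refine ⟨r, ?_⟩
    simp only [f, AddMonoidHom.coe_comp, Function.comp_apply, QuotientAddGroup.mk'_apply]
    rw [QuotientAddGroup.eq, AddSubgroup.mem_addSubgroupOf]
    change -(r : F) + t ∈ fBox v 1
    rw [← AddSubgroup.neg_mem_iff, show -(-(r : F) + t) = (r : F) - t by ring]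
    exact hy1
  rw [AddSubgroup.relIndex, AddSubgroup.index, ← Nat.card_congr
    (QuotientAddGroup.quotientKerEquivOfSurjective f hsurj).toEquiv, hker, resCard,
    Ideal.absNorm_apply, Submodule.cardQuot_apply]
  rfl

/-- At a non-split place every unit is a norm modulo the place. -/
lemma exists_norm_close (hns : IsNonsplit σ v) {t : F} (ht : v.valuation F t = 1) :
    ∃ ν : M, ν ≠ 0 ∧ CFT.ord (plOver M v) ν = 0 ∧ CFT.ord (plConj σ v) ν = 0 ∧
      v.valuation F (t - Algebra.norm F ν) ≤ WithZero.exp (-1 : ℤ) := by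
  have ht0 : t ≠ 0 := fun h => by simp [h] at ht
  have hord : CFT.ord v t = 0 := by rw [CFT.ord, ht]; simp
  have hmem :=
    (mem_lnorms_iff_even hF hσ hns hv (Units.mk0 t ht0)).2 (by rw [Units.val_mk0, hord]; simp)
  obtain ⟨y, l, ⟨z, hz⟩, hl⟩ := mem_localNorms.mp hmem
  rw [Units.val_mk0] at hl
  set ν := (y : M) * algebraMap F M (z : F)
  have hν : ν ≠ 0 := mul_ne_zero y.ne_zero ((map_ne_zero _).2 z.ne_zero)
  have hN : Algebra.norm F ν = Algebra.norm F (y : M) * (z : F) ^ 2 := by
    rw [map_mul, Algebra.norm_algebraMap, hF]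
  have hN0 : Algebra.norm F ν ≠ 0 := Algebra.norm_ne_zero_iff.2 hν
  have hzl : t / Algebra.norm F ν = (l : F) / (z : F) ^ 2 := by
    rw [hl, hN, mul_div_mul_left _ _ (Algebra.norm_ne_zero_iff.2 y.ne_zero)]
  have h1 : CloseOne v 1 (t / Algebra.norm F ν) := by
    rw [hzl]; exact closeOne_mono hz (by exact_mod_cast localLevel_pos 2 (-1 : F) v)
  have h0 : CFT.ord v (t / Algebra.norm F ν) = 0 := h1.ord_eq_zero one_pos
  rw [CFT.ord_div v ht0 hN0, hord, ord_norm_eq hF hσ hv (plUnder_plOver v) hν] at h0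
  have hPQ := (plConj_eq_iff hF hσ).2 hns
  rw [show σ • plOver M v = plConj σ v from rfl, hPQ] at h0
  refine ⟨ν, hν, by omega, by rw [hPQ]; omega, ?_⟩
  rcases h1 with h1 | h1
  · rw [(div_eq_one_iff_eq hN0).1 h1]; simp
  have e : t - Algebra.norm F ν = Algebra.norm F ν * (t / Algebra.norm F ν - 1) := by
    field_simp
  rcases eq_or_ne (t / Algebra.norm F ν - 1) 0 with h | h
  · rw [e, h]; simp
  rw [e, map_mul, valuation_eq_exp_neg_ord v hN0, valuation_eq_exp_neg_ord v h, ← WithZero.exp_add,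
    WithZero.exp_le_exp, ord_norm_eq hF hσ hv (plUnder_plOver v) hν,
    show σ • plOver M v = plConj σ v from rfl, hPQ]
  omega

/-- Summing over the residues of `F` keeps only the elements of the first box. -/
lemma qsum_residue_psiD (hns : IsNonsplit σ v) {c : F} (hc : c ≠ 0)
    (hcd : CFT.ord v c = -eL δ v - 1) {ζ : M} (hζ : ζ ∈ box σ v 0) :
    qsum (fBox v 0) (fBox v 1) (fun t => psiD δ v (c * t * Algebra.norm F ζ))
      = (resCard v : ℂ) * (if ζ ∈ box σ v (((1 : ℕ) : ℤ), ((1 : ℕ) : ℤ)) then 1 else 0) := by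
  have hcv : v.valuation F c = WithZero.exp (eL δ v + 1) := by
    rw [valuation_eq_exp_neg_ord v hc, hcd]; congr 1; ring
  have hfF : (fBox v 1).relIndex (fBox v 0) ≠ 0 := by
    rw [relIndex_fBox]; exact (resCard_pos v).ne'
  split_ifs with h
  -- inside the smaller box the character is trivial
  · rw [qsum_const 1 (fun t ht => psiD_mul_norm_eq_one δ hF hσ hv
      (k := -eL δ v - ((1 : ℕ) : ℤ)) (val_mul_le_exp hcv ht (by push_cast; ring)) h (by simp)) hfF,
      relIndex_fBox]
  · rw [mul_zero]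
    -- outside, translating by `l` multiplies the sum by a nontrivial root of unity
    have hζ0 : ζ ≠ 0 := fun h' => h (h' ▸ zero_mem _)
    have hN0 : Algebra.norm F ζ ≠ 0 := Algebra.norm_ne_zero_iff.2 hζ0
    obtain ⟨x, hx0, hxo, hne⟩ := exists_psiD_ne δ v
    have ho : CFT.ord v (Algebra.norm F ζ) = 0 := by
      rw [ord_norm_eq hF hσ hv (plUnder_plOver v) hζ0,
        show σ • plOver M v = plConj σ v from rfl, (plConj_eq_iff hF hσ).2 hns]
      rw [mem_box_iff_ord hζ0, (plConj_eq_iff hF hσ).2 hns] at h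
      rw [mem_box_iff_ord hζ0] at hζ
      simp at h hζ ⊢
      omega
    refine qsum_eq_zero (fun t _ k hk => ?_)
      (l := x / (c * Algebra.norm F ζ)) ?_ hne fun t _ => ?_
    · change psiD δ v (c * (t + k) * _) = psiD δ v _
      rw [mul_add, add_mul, psiD_add, psiD_mul_norm_eq_one δ hF hσ hv (x := c * k) (k := -eL δ v)
        (val_mul_le_exp hcv hk (by ring)) hζ (by simp), mul_one]
    · rw [mem_fBox, valuation_eq_exp_neg_ord v (div_ne_zero hx0 (mul_ne_zero hc hN0)),
        CFT.ord_div v hx0 (mul_ne_zero hc hN0), CFT.ord_mul v hc hN0, hxo, hcd, ho,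
        WithZero.exp_le_exp]
      omega
    · rw [mul_comm (psiD δ v x), ← psiD_add]
      congr 1
      field_simp

/-- The first Gauss sum at an inert place is minus the residue count. -/
lemma gauss_one_inert (hns : IsNonsplit σ v) {c : F} (hc : c ≠ 0)
    (hcd : CFT.ord v c = -eL δ v - 1) : gaussQ σ δ v c 1 = -(resCard v : ℂ) := by
  have he := plRamIdx_eq_one_of_not_ram hv (plUnder_plOver (N := M) v)
  set q := resCard v with hq
  have hcv : v.valuation F c = WithZero.exp (eL δ v + 1) := by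
    rw [valuation_eq_exp_neg_ord v hc, hcd]; congr 1; ring
  set B1 := box σ v (((1 : ℕ) : ℤ), ((1 : ℕ) : ℤ))
  have hfin : B1.relIndex (box σ v 0) ≠ 0 :=
    relIndex_box_ne_zero hF hσ (by simp) (by simp) (adm_zero) (adm_nat 1)
  have hB1le : B1 ≤ box σ v 0 := box_mono (by simp) (by simp)
  have hfF : (fBox v 1).relIndex (fBox v 0) ≠ 0 := by
    rw [relIndex_fBox]; exact (resCard_pos v).ne'
  -- the sums over the residues of `F`
  set G := fun t : F => gaussQ σ δ v (c * t) 1
  have hG1 : ∀ t ∈ fBox v 1, G t = (q : ℂ) ^ 2 := fun t ht => by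
    change gaussQ σ δ v (c * t) 1 = _
    rw [gaussQ, qsum_const 1 (fun ζ hζ => psiD_mul_norm_eq_one δ hF hσ hv (k := -eL δ v) ?_ hζ
      (by simp)) hfin, relIndex_box hF hσ (by simp) (by
        simp) (adm_zero) (adm_nat 1),
      boxCard_eq hF hσ he (by simp) (by simp) (fun _ => by simp), mul_one, hq]
    · simp
    · exact val_mul_le_exp hcv ht (by ring)
  have hG0 : ∀ t ∈ fBox v 0, t ∉ fBox v 1 → G t = gaussQ σ δ v c 1 := fun t ht ht1 => by
    have htv : v.valuation F t = 1 := by
      rcases eq_or_ne t 0 with rfl | h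
      · exact absurd (zero_mem _) ht1
      rw [mem_fBox, valuation_eq_exp_neg_ord v h, WithZero.exp_le_exp] at ht ht1
      rw [valuation_eq_exp_neg_ord v h, ← WithZero.exp_zero]; congr 1; omega
    obtain ⟨ν, hν, o1, o2, hclose⟩ := exists_norm_close hF hσ hv hns htv
    have hmap : ∀ k : ℤ × ℤ, (box σ v k).map (mulE hν).toAddMonoidHom = box σ v k := fun k => by
      rw [box_map_mulE, o1, o2]; simp [show ((0 : ℤ), (0 : ℤ)) = (0 : ℤ × ℤ) from rfl]
    have hp := periodic_gauss δ hF hσ hv (d := 1) (c := c) hcv.le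
    change gaussQ σ δ v (c * t) 1 = _
    rw [gaussQ, gaussQ]
    conv_rhs => rw [← hmap 0, ← hmap (((1 : ℕ) : ℤ), ((1 : ℕ) : ℤ)),
      qsum_map (mulE hν) (by rwa [hmap, hmap])]
    refine qsum_congr fun ζ hζ => ?_
    rw [Function.comp_apply, mulE_apply, map_mul (Algebra.norm F),
      show c * t * Algebra.norm F ζ = c * (Algebra.norm F ν * Algebra.norm F ζ)
        + (c * (t - Algebra.norm F ν)) * Algebra.norm F ζ by ring, psiD_add,
      psiD_mul_norm_eq_one δ hF hσ hv (k := -eL δ v) ?_ hζ (by simp), mul_one]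
    exact val_mul_le_exp hcv hclose (by ring)
  have hf1 : fBox v 1 ≤ fBox v 0 :=
    fun t ht => (mem_fBox.1 ht).trans (WithZero.exp_le_exp.2 (by omega))
  have : Finite (fBox v 0 ⧸ (fBox v 1).addSubgroupOf (fBox v 0)) := Nat.finite_of_card_ne_zero hfF
  -- first evaluation
  have e1 : qsum (fBox v 0) (fBox v 1) G
      = q * gaussQ σ δ v c 1 + ((q : ℂ) ^ 2 - gaussQ σ δ v c 1) := by
    have hsplit : ∀ t ∈ fBox v 0, G t
        = gaussQ σ δ v c 1 + ((q : ℂ) ^ 2 - gaussQ σ δ v c 1) *
            (if t ∈ fBox v 1 then 1 else 0) := by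
      intro t ht
      split_ifs with h
      · rw [hG1 t h]; ring
      · rw [hG0 t ht h]; ring
    rw [qsum_congr hsplit]
    rw [qsum, finsum_add_distrib (Set.toFinite _) (Set.toFinite _)]
    change qsum (fBox v 0) (fBox v 1) (fun _ => gaussQ σ δ v c 1)
      + qsum (fBox v 0) (fBox v 1) (fun t => ((q : ℂ) ^ 2 - gaussQ σ δ v c 1)
        * (if t ∈ fBox v 1 then 1 else 0)) = _
    rw [qsum_const _ (fun _ _ => rfl) hfF, qsum_smul, qsum_indicator le_rfl hf1 hfF,
      relIndex_fBox, AddSubgroup.relIndex_self]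
    simp [hq]
  -- second evaluation
  have e2 : qsum (fBox v 0) (fBox v 1) G = q := by
    have : Finite (box σ v 0 ⧸ B1.addSubgroupOf (box σ v 0)) := Nat.finite_of_card_ne_zero hfin
    let _ := Fintype.ofFinite (fBox v 0 ⧸ (fBox v 1).addSubgroupOf (fBox v 0))
    let _ := Fintype.ofFinite (box σ v 0 ⧸ B1.addSubgroupOf (box σ v 0))
    change qsum (fBox v 0) (fBox v 1) (fun t => gaussQ σ δ v (c * t) 1) = _
    simp only [qsum, gaussQ, finsum_eq_sum_of_fintype]
    rw [Finset.sum_comm]
    have h3 := qsum_indicator (A := M) le_rfl hB1le hfin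
    rw [AddSubgroup.relIndex_self, Nat.cast_one] at h3
    have hinner := fun ζ hζ => qsum_residue_psiD δ hF hσ hv hns hc hcd (ζ := ζ) hζ
    simp only [qsum, finsum_eq_sum_of_fintype] at h3 hinner
    rw [Finset.sum_congr rfl fun x _ => hinner _ (Quotient.out x).2, ← Finset.mul_sum, h3, mul_one]
  have hq1 : (q : ℂ) - 1 ≠ 0 := by
    rw [sub_ne_zero]; exact_mod_cast (one_lt_resCard v).ne'
  have := e1.symm.trans e2
  refine mul_left_cancel₀ hq1 ?_
  linear_combination this

/-- The Gauss sum at an inert place is a power of minus the residue count. -/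
lemma gauss_inert (hns : IsNonsplit σ v) : ∀ (d : ℕ) {c : F}, c ≠ 0 →
    CFT.ord v c = -eL δ v - d → gaussQ σ δ v c d = (-(resCard v : ℂ)) ^ d
  | 0, c, hc, hcd => by
    rw [gaussQ, qsum_const 1 (fun ζ hζ => psiD_mul_norm_eq_one δ hF hσ hv (k := -eL δ v) (by
      rw [valuation_eq_exp_neg_ord v hc, hcd]; simp) hζ (by simp))
      (relIndex_box_ne_zero hF hσ (by simp) (by simp) (adm_zero) (adm_nat 0))]
    simp [AddSubgroup.relIndex_self, show ((0 : ℤ), (0 : ℤ)) = (0 : ℤ × ℤ) from rfl]
  | 1, c, hc, hcd => by rw [gauss_one_inert δ hF hσ hv hns hc (by simpa using hcd), pow_one]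
  | d + 2, c, hc, hcd => by
    -- step down by two: rescale `c` by a square of the uniformiser
    obtain ⟨π, hπ0, hπ⟩ := CFT.exists_ord_eq_one v
    have he := plRamIdx_eq_one_of_not_ram hv (plUnder_plOver (N := M) v)
    have ha : algebraMap F M π ≠ 0 := (map_ne_zero _).2 hπ0
    have o1 : CFT.ord (plOver M v) (algebraMap F M π) = 1 := by
      rw [CFT.ord_algebraMap_eq, plUnder_plOver, he, hπ]; simp
    have o2 : CFT.ord (plConj σ v) (algebraMap F M π) = 1 := by
      rw [CFT.ord_algebraMap_eq, plUnder_plConj, plRamIdx_plConj, he, hπ]; simp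
    have hm1 : box σ v ((1 : ℤ), (1 : ℤ)) = (box σ v 0).map (mulE ha).toAddMonoidHom := by
      rw [box_map_mulE, o1, o2, zero_add]
    have hm2 : box σ v (((d + 2 : ℕ) : ℤ), ((d + 2 : ℕ) : ℤ))
        = (box σ v (((d + 1 : ℕ) : ℤ), ((d + 1 : ℕ) : ℤ))).map (mulE ha).toAddMonoidHom := by
      rw [box_map_mulE, o1, o2]; congr 1
    set c' := c * π ^ 2 with hc'def
    have hc' : c' ≠ 0 := mul_ne_zero hc (pow_ne_zero _ hπ0)
    have hcd' : CFT.ord v c' = -eL δ v - d := by
      rw [hc'def, CFT.ord_mul v hc (pow_ne_zero _ hπ0), CFT.ord_pow, hπ, hcd]; push_cast; ring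
    have hval : v.valuation F c ≤ WithZero.exp (eL δ v + ((d + 2 : ℕ) : ℤ)) := by
      rw [valuation_eq_exp_neg_ord v hc, hcd, WithZero.exp_le_exp]; omega
    have hval' : v.valuation F c' ≤ WithZero.exp (eL δ v + ((d : ℕ) : ℤ)) := by
      rw [valuation_eq_exp_neg_ord v hc', hcd', WithZero.exp_le_exp]; omega
    rw [gauss_kill δ hF hσ hv hc hcd (n := ((d : ℤ) + 1, (d : ℤ) + 1)) (s := (1, 1)) (fun _ => rfl)
      ⟨by simp, by simp⟩ (by simp; omega)
      (by simp) (by simp), hm1, hm2,
      qsum_map (mulE ha) (by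
        rw [← hm1, ← hm2]
        exact (periodic_gauss δ hF hσ hv hval).mono (box_mono (by simp) (by simp)) le_rfl),
      qsum_congr (g := fun ζ => psiD δ v (c' * Algebra.norm F ζ)) (fun ζ _ => by
        rw [Function.comp_apply, mulE_apply, map_mul, Algebra.norm_algebraMap,
          hF, hc'def]; ring_nf),
      qsum_coarse (mid := box σ v ((d : ℤ), (d : ℤ))) (box_mono (by simp) (by simp))
        (box_mono (by simp) (by simp))
        (relIndex_box_ne_zero hF hσ (by simp; omega) (by simp; omega) (adm_zero)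
          (adm_nat (d + 1)))
        (periodic_gauss δ hF hσ hv hval'),
      relIndex_box hF hσ (by simp) (by simp) (adm_nat d) (adm_nat (d + 1)),
      boxCard_eq hF hσ he (by simp) (by simp) (fun _ => by simp)]
    change _ * gaussQ σ δ v c' d = _
    rw [gauss_inert hns d hc' hcd', pow_add _ d 2, neg_sq]
    simp
    ring

/-- The Gauss sum is `(± q_v)^d`, with sign `-` exactly at inert places. -/
lemma gauss_eq {c : F} (hc : c ≠ 0) {d : ℕ} (hcd : CFT.ord v c = -eL δ v - d) :
    gaussQ σ δ v c d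
      = (if IsNonsplit σ v then -(resCard v : ℂ) else (resCard v : ℂ)) ^ d := by
  split_ifs with h
  · exact gauss_inert δ hF hσ hv h d hc hcd
  · exact gauss_split δ hF hσ hv h hc hcd

/-- **The transform of a quadratic character on a box.** -/
theorem ft_normBox {lo m hi : ℤ × ℤ} {x : F} (hx : x ≠ 0) {d : ℕ}
    (hxd : CFT.ord v x + m.1 + m.2 = -eL δ v - d) (hlm1 : lo.1 ≤ m.1) (hlm2 : lo.2 ≤ m.2)
    (hmh1 : m.1 + d ≤ hi.1) (hmh2 : m.2 + d ≤ hi.2) (hm : Adm σ v m) (hhi : Adm σ v hi)
    {y : M} (hy : y ∈ box σ v (dual M δ v hi)) :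
    qsum (box σ v lo) (box σ v hi) (fun η => (if η ∈ box σ v m then 1 else 0)
        * (psiD δ v (x * Algebra.norm F η) * psiD δ v (pair σ η y)))
      = boxCard σ v (hi - (m + ((d : ℤ), (d : ℤ))))
        * (if IsNonsplit σ v then -(resCard v : ℂ) else (resCard v : ℂ)) ^ d
        * ((if y ∈ box σ v (m + (CFT.ord v x, CFT.ord v x)) then 1 else 0)
          * psiD δ v (-x⁻¹ * Algebra.norm F y)) := by
  set k := CFT.ord v x with hk
  set md := m + ((d : ℤ), (d : ℤ))
  have hmd : Adm σ v md := fun h => by simp [md, hm h]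
  have hval : v.valuation F x ≤ WithZero.exp (-k) := (valuation_eq_exp_neg_ord v hx).le
  have hdual : dual M δ v md = m + (k, k) := by
    ext <;> simp [dual, dd_eq δ hv, md] <;> omega
  have hperN : Periodic (box σ v m) (box σ v md) fun η => psiD δ v (x * Algebra.norm F η) :=
    periodic_norm δ hF hσ hv hval (by simp [md]; omega) (by simp [md]; omega) (by simp [md]; omega)
  have hper : Periodic (box σ v m) (box σ v hi)
      fun η => psiD δ v (x * Algebra.norm F η) * psiD δ v (pair σ η y) := fun η hη h hh => by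
    change _ * _ = _ * _
    have e1 : psiD δ v (x * Algebra.norm F (η + h)) = psiD δ v (x * Algebra.norm F η) :=
      hperN η hη h (box_mono (by simpa [md] using hmh1) (by simpa [md] using hmh2) hh)
    rw [e1, pair_add_left, psiD_add, psiD_pair_eq_one δ hF hσ hh hy, mul_one]
  -- restrict to the box `m`; off the dual of `md` the sum over a translate vanishes
  rw [qsum_ind (box_mono hlm1 hlm2) (box_mono (by omega) (by omega)) hper]
  by_cases h : y ∈ box σ v (m + (k, k))
  swap
  · rw [if_neg h, zero_mul, mul_zero]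
    obtain ⟨l, hl, hne⟩ := exists_pair_psiD_ne δ hF hσ (fun h' => absurd h' hv) hmd (hdual ▸ h)
    have hlm : l ∈ box σ v m := box_mono (by simp [md]) (by simp [md]) hl
    refine qsum_eq_zero hper hlm hne fun η hη => ?_
    have e1 : psiD δ v (x * Algebra.norm F (η + l)) = psiD δ v (x * Algebra.norm F η) :=
      hperN η hη l hl
    rw [e1, pair_add_left, psiD_add]
    ring
  rw [if_pos h, one_mul]
  have hper2 : Periodic (box σ v m) (box σ v md)
      fun η => psiD δ v (x * Algebra.norm F η) * psiD δ v (pair σ η y) := fun η hη l hl => by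
    change _ * _ = _ * _
    have e1 : psiD δ v (x * Algebra.norm F (η + l)) = psiD δ v (x * Algebra.norm F η) :=
      hperN η hη l hl
    rw [e1, pair_add_left, psiD_add, psiD_pair_eq_one δ hF hσ hl (hdual.symm ▸ h), mul_one]
  rw [qsum_coarse (mid := box σ v md)
    (box_mono (by simpa [md] using hmh1) (by simpa [md] using hmh2))
    (box_mono (by simp [md]) (by simp [md]))
    (relIndex_box_ne_zero hF hσ (by omega) (by omega) hm hhi) hper2,
    relIndex_box hF hσ (by simpa [md] using hmh1) (by simpa [md] using hmh2) hmd hhi, mul_assoc]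
  congr 1
  -- completing the square
  set z := algebraMap F M x⁻¹ * y with hzdef
  have hz : z ∈ box σ v m := by
    have h1 : v.valuation F x⁻¹ ≤ WithZero.exp (-(-k)) := by
      rw [valuation_eq_exp_neg_ord v (inv_ne_zero hx), CFT.ord_inv]
    convert mul_algebraMap_mem hv h1 h using 2
    ext <;> simp
  have hsq : ∀ η : M, psiD δ v (x * Algebra.norm F η) * psiD δ v (pair σ η y)
      = psiD δ v (-x⁻¹ * Algebra.norm F y) * psiD δ v (x * Algebra.norm F (η + z)) := fun η => by
    rw [← psiD_add, ← psiD_add]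
    congr 1
    apply (algebraMap F M).injective
    simp only [map_add, map_mul, map_neg, norm_eq hF hσ, pair, trace_eq hF hσ, hzdef,
      sigma_apply_apply hF hσ, AlgEquiv.commutes]
    have : algebraMap F M x * algebraMap F M x⁻¹ = 1 := by
      rw [← map_mul, mul_inv_cancel₀ hx, map_one]
    linear_combination (-(η * σ y) - σ η * y - algebraMap F M x⁻¹ * (y * σ y)) * this
  rw [qsum_congr fun η _ => hsq η, qsum_smul, qsum_shift hperN hz, mul_comm]
  congr 1
  -- scale `m` to the unit box: a quadratic Gauss sum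
  obtain ⟨η₀, hη₀, o1, o2⟩ := exists_ord_pair hF hσ hm
  have hm0 : box σ v m = (box σ v 0).map (mulE hη₀).toAddMonoidHom := by
    rw [box_map_mulE, o1, o2, zero_add]
  have hmd0 : box σ v md = (box σ v ((d : ℤ), (d : ℤ))).map (mulE hη₀).toAddMonoidHom := by
    rw [box_map_mulE, o1, o2]; congr 1; rw [add_comm]
  have hN0 : Algebra.norm F η₀ ≠ 0 := Algebra.norm_ne_zero_iff.2 hη₀
  conv_lhs => rw [hm0, hmd0, qsum_map (mulE hη₀) (by rwa [← hm0, ← hmd0])]
  rw [← gauss_eq δ hF hσ hv (c := x * Algebra.norm F η₀) (mul_ne_zero hx hN0) (d := d) (by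
    rw [CFT.ord_mul v hx hN0, ord_norm_eq hF hσ hv (plUnder_plOver v) hη₀,
      show σ • plOver M v = plConj σ v from rfl, o1, o2]
    omega)]
  exact qsum_congr fun ζ _ => by rw [Function.comp_apply, mulE_apply, map_mul, ← mul_assoc]

end Fermat.LT.Theta
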