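import Fermat.Agent.LT.Theta.LocalGauss

/-!
# Theta: the local transform at the level

`ft_shell` transforms a character on a shell twisted by the norm form, with the Gauss sum
`gammaS`.
-/

set_option autoImplicit false
set_option linter.unusedSectionVars false

noncomputable section

open NumberField Fermat.CFT
open scoped Classical

namespace Fermat.LT.Theta

variable {F M : Type} [Field F] [NumberField F] [IsTotallyComplex F] [Field M] [NumberField M]
  [Algebra F M] [IsGalois F M] {σ : M ≃ₐ[F] M}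

/-- The inverse of a character on a shell. -/
def phiS (σ : M ≃ₐ[F] M) (v : Pl F) (θ : Mˣ →* ℂˣ) (k : ℤ) (η : M) : ℂ :=
  if h : η ∈ box σ v (k, k) ∧ η ∉ box σ v (k + 1, k + 1) then
    ((θ (Units.mk0 η fun h0 => h.2 (by rw [h0]; exact zero_mem _)) : ℂˣ) : ℂ)⁻¹
  else 0

/-- The local Gauss sum of a character. -/
def gammaS (σ : M ≃ₐ[F] M) (δ : Fˣ) (v : Pl F) (θ : Mˣ →* ℂˣ) : ℂ :=
  qsum (box σ v (-dd M δ v - 1, -dd M δ v - 1)) (box σ v (-dd M δ v, -dd M δ v))
    fun ζ => phiS σ v θ (-dd M δ v - 1) ζ * psiD δ v (Algebra.trace F M ζ)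

variable (δ : Fˣ) (hF : Module.finrank F M = 2) (hσ : σ ≠ 1) {v : Pl F} (hns : IsNonsplit σ v)
include hF hσ hns

/-- Membership in a diagonal box is a bound on one order. -/
lemma mem_box_diag {η : M} (hη : η ≠ 0) {k : ℤ} :
    η ∈ box σ v (k, k) ↔ k ≤ CFT.ord (plOver M v) η := by
  rw [mem_box_iff_ord hη, (plConj_eq_iff hF hσ).2 hns, and_self]

/-- Multiplication shifts diagonal boxes by the order of the multiplier. -/
lemma box_diag_map {a : M} (ha : a ≠ 0) (k : ℤ) :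
    (box σ v (k, k)).map (mulE ha).toAddMonoidHom
      = box σ v (k + CFT.ord (plOver M v) a, k + CFT.ord (plOver M v) a) := by
  rw [box_map_mulE, (plConj_eq_iff hF hσ).2 hns]
  rfl

/-- Multiplication shifts the shell of an inverse character. -/
lemma phiS_mul (θ : Mˣ →* ℂˣ) {a : M} (ha : a ≠ 0) (k : ℤ) (η : M) :
    phiS σ v θ (k + CFT.ord (plOver M v) a) (a * η)
      = ((θ (Units.mk0 a ha) : ℂˣ) : ℂ)⁻¹ * phiS σ v θ k η := by
  have h : ∀ j : ℤ, a * η ∈ box σ v (j + CFT.ord (plOver M v) a, j + CFT.ord (plOver M v) a)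
      ↔ η ∈ box σ v (j, j) := fun j => by
    rw [← box_diag_map hF hσ hns ha]
    exact ⟨fun ⟨x, hx, he⟩ => mul_left_cancel₀ ha he ▸ hx, fun hx => ⟨η, hx, rfl⟩⟩
  have h1 := h (k + 1)
  rw [add_right_comm] at h1
  unfold phiS
  by_cases hc : η ∈ box σ v (k, k) ∧ η ∉ box σ v (k + 1, k + 1)
  · rw [dif_pos hc, dif_pos ⟨(h k).2 hc.1, fun h' => hc.2 (h1.1 h')⟩, ← mul_inv,
      ← Units.val_mul, ← map_mul]
    congr 3
    exact Units.ext rfl
  · rw [dif_neg hc, dif_neg fun h' => hc ⟨(h k).1 h'.1, fun h'' => h'.2 (h1.2 h'')⟩, mul_zero]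

variable {θ : Mˣ →* ℂˣ} (hone : ∀ x : Mˣ, CloseOne (plOver M v) 1 (x : M) → θ x = 1)
include hone

/-- A character on a shell is periodic modulo the next box. -/
lemma periodic_phiS {lo : AddSubgroup M} (k : ℤ) :
    Periodic lo (box σ v (k + 1, k + 1)) (phiS σ v θ k) := by
  intro η _ h hh
  have hk : h ∈ box σ v (k, k) := box_mono (by simp) (by simp) hh
  unfold phiS
  by_cases hc : η ∈ box σ v (k, k) ∧ η ∉ box σ v (k + 1, k + 1)
  swap
  · rw [dif_neg hc, dif_neg fun h' => hc ⟨((box σ v (k, k)).add_mem_cancel_right hk).1 h'.1,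
      fun h'' => h'.2 (add_mem h'' hh)⟩]
  have hc' : η + h ∈ box σ v (k, k) ∧ η + h ∉ box σ v (k + 1, k + 1) :=
    ⟨add_mem hc.1 hk, fun h' => hc.2 (((box σ v (k + 1, k + 1)).add_mem_cancel_right hh).1 h')⟩
  have hη : η ≠ 0 := fun h0 => hc.2 (by rw [h0]; exact zero_mem _)
  have hηh : η + h ≠ 0 := fun h0 => hc'.2 (by rw [h0]; exact zero_mem _)
  rw [dif_pos hc, dif_pos hc']
  congr 2
  rw [← div_eq_one, ← map_div]
  refine hone _ ?_
  rw [Units.val_div_eq_div_val, Units.val_mk0, Units.val_mk0]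
  rcases eq_or_ne h 0 with rfl | h0
  · exact Or.inl (by rw [add_zero, div_self hη])
  refine Or.inr ?_
  rw [add_div, div_self hη, add_sub_cancel_left, CFT.ord_div _ h0 hη]
  rw [mem_box_diag hF hσ hns h0] at hh
  rw [mem_box_diag hF hσ hns hη, mem_box_diag hF hσ hns hη] at hc
  omega

omit hns hone in
/-- Sums over diagonal boxes are additive. -/
lemma qsum_add_box {lo hi : ℤ} (h : lo ≤ hi) (f g : M → ℂ) :
    qsum (box σ v (lo, lo)) (box σ v (hi, hi)) (fun η => f η + g η)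
      = qsum (box σ v (lo, lo)) (box σ v (hi, hi)) f + qsum (box σ v (lo, lo))
        (box σ v (hi, hi)) g := by
  have : Finite (box σ v (lo, lo) ⧸ (box σ v (hi, hi)).addSubgroupOf (box σ v (lo, lo))) :=
    Nat.finite_of_card_ne_zero (relIndex_box_ne_zero hF hσ (by simpa using h) (by simpa using h)
      (fun _ => rfl) (fun _ => rfl))
  exact finsum_add_distrib (Set.toFinite _) (Set.toFinite _)

omit hone in
/-- A small norm is killed by the additive character. -/
lemma psiD_mul_eq_one {a : Fˣ} {x d : F} (hx : v.valuation F x ≤ v.valuation F (a : F)) {k : ℤ}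
    (hk : 2 * k = -(plRamIdx F (plOver M v) * (CFT.ord v (a : F) + eL δ v + 1)))
    (hd : algebraMap F M d ∈ box σ v (2 * k + 1, 2 * k + 1)) : psiD δ v (x * d) = 1 := by
  rcases eq_or_ne d 0 with rfl | hd0
  · rw [mul_zero, psiD_zero]
  refine psiD_of_le δ ?_
  rw [mem_box_diag hF hσ hns ((map_ne_zero _).2 hd0), CFT.ord_algebraMap_eq, plUnder_plOver] at hd
  have h1 : -(CFT.ord v (a : F) + eL δ v) ≤ CFT.ord v d := by
    by_contra hc
    nlinarith [not_le.1 hc]
  rw [map_mul]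
  refine (mul_le_mul' hx le_rfl).trans ?_
  rw [valuation_eq_exp_neg_ord v a.ne_zero, valuation_eq_exp_neg_ord v hd0, ← WithZero.exp_add,
    WithZero.exp_le_exp]
  omega

omit hone in
/-- Matching orders make the normalised norm a unit. -/
lemma val_norm_div_eq_one {y : M} (hy0 : y ≠ 0) {a : Fˣ} {ρ : F} (hρ0 : ρ ≠ 0)
    (h : 2 * CFT.ord (plOver M v) y
      = plRamIdx F (plOver M v) * (CFT.ord v (a : F) + CFT.ord v ρ)) :
    v.valuation F (Algebra.norm F y / ((a : F) * ρ)) = 1 := by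
  have hsy : σ y ≠ 0 := (map_ne_zero σ).2 hy0
  have hN0 : Algebra.norm F y ≠ 0 := Algebra.norm_ne_zero_iff.2 hy0
  have hP : σ • plOver M v = plOver M v := (plConj_eq_iff hF hσ).2 hns
  have hoN : (plRamIdx F (plOver M v) : ℤ) * CFT.ord v (Algebra.norm F y)
      = 2 * CFT.ord (plOver M v) y := by
    have h' := CFT.ord_algebraMap_eq (plOver M v) (Algebra.norm F y)
    rw [plUnder_plOver, norm_eq hF hσ, CFT.ord_mul _ hy0 hsy] at h'
    rw [← h', show σ y = σ • y from rfl]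
    conv_lhs => arg 2; rw [← hP]
    rw [CFT.ord_smul, two_mul]
  rw [valuation_eq_exp_neg_ord v (div_ne_zero hN0 (mul_ne_zero a.ne_zero hρ0)),
    CFT.ord_div v hN0 (mul_ne_zero a.ne_zero hρ0), CFT.ord_mul v a.ne_zero hρ0,
    ← WithZero.exp_zero, WithZero.exp_inj]
  have he : (plRamIdx F (plOver M v) : ℤ) ≠ 0 := by exact_mod_cast (plRamIdx_pos _).ne'
  refine (mul_eq_zero.1 (?_ : (plRamIdx F (plOver M v) : ℤ) * _ = 0)).resolve_left he
  linear_combination -hoN - h

omit hns hone in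
/-- The involution keeps the diagonal boxes. -/
lemma sigma_mem_box_diag {i : ℤ} {η : M} : σ η ∈ box σ v (i, i) ↔ η ∈ box σ v (i, i) :=
  smul_mem_box_iff hF hσ

omit hone in
/-- On a shell the additive twist by the norm is periodic. -/
lemma psiD_norm_shell_add {a : Fˣ} {x : F} (hx : v.valuation F x ≤ v.valuation F (a : F)) {k : ℤ}
    (hk : 2 * k = -(plRamIdx F (plOver M v) * (CFT.ord v (a : F) + eL δ v + 1)))
    {η h : M} (hη : η ∈ box σ v (k, k)) (hh : h ∈ box σ v (k + 1, k + 1)) :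
    psiD δ v (x * Algebra.norm F (η + h)) = psiD δ v (x * Algebra.norm F η) := by
  rw [norm_add_eq hF hσ, add_assoc, mul_add, psiD_add,
    psiD_mul_eq_one δ hF hσ hns hx hk (d := pair σ h η + Algebra.norm F h) ?_, mul_one]
  rw [map_add, pair, trace_eq hF hσ, norm_eq hF hσ, map_mul σ, sigma_apply_apply hF hσ]
  refine add_mem (add_mem (box_mono ?_ ?_ (mul_mem_box hh ((sigma_mem_box_diag hF hσ).2 hη)))
    (box_mono ?_ ?_ (mul_mem_box ((sigma_mem_box_diag hF hσ).2 hh) hη)))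
    (box_mono ?_ ?_ (mul_mem_box hh ((sigma_mem_box_diag hF hσ).2 hh))) <;> simp <;> omega

omit hone in
/-- A small multiple of a norm on the shell is killed by the additive character. -/
lemma psiD_mul_shell_small {a : Fˣ} {x : F} (hx : v.valuation F x ≤ v.valuation F (a : F)) {k : ℤ}
    (hk : 2 * k = -(plRamIdx F (plOver M v) * (CFT.ord v (a : F) + eL δ v + 1)))
    {c d : F} (hc : algebraMap F M c ∈ box σ v (k + k, k + k)) (hd : v.valuation F d < 1) :
    psiD δ v (x * (c * d)) = 1 := by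
  refine psiD_mul_eq_one δ hF hσ hns hx hk ?_
  have h1 : v.valuation F d ≤ WithZero.exp (-(1 : ℤ)) := by
    rcases eq_or_ne d 0 with rfl | h0
    · simp
    rw [valuation_eq_exp_neg_ord v h0, ← WithZero.exp_zero, WithZero.exp_lt_exp] at hd
    rw [valuation_eq_exp_neg_ord v h0, WithZero.exp_le_exp]
    omega
  rw [map_mul]
  have he : (1 : ℤ) ≤ plRamIdx F (plOver M v) := by exact_mod_cast plRamIdx_pos _
  refine box_mono ?_ ?_ (mul_mem_box hc (algebraMap_mem_box h1)) <;> simp <;> omega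

/-- A character on a shell times the norm twist is periodic. -/
lemma phiS_psiD_norm_add {a : Fˣ} {x : F} (hx : v.valuation F x ≤ v.valuation F (a : F)) {k : ℤ}
    (hk : 2 * k = -(plRamIdx F (plOver M v) * (CFT.ord v (a : F) + eL δ v + 1)))
    (η : M) {h : M} (hh : h ∈ box σ v (k + 1, k + 1)) :
    phiS σ v θ k (η + h) * psiD δ v (x * Algebra.norm F (η + h))
      = phiS σ v θ k η * psiD δ v (x * Algebra.norm F η) := by
  rw [periodic_phiS hF hσ hns hone (lo := ⊤) k η trivial h hh]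
  by_cases hm : η ∈ box σ v (k, k)
  · rw [psiD_norm_shell_add δ hF hσ hns hx hk hm hh]
  · rw [phiS, dif_neg fun h' => hm h'.1, zero_mul, zero_mul]

/-- The twisted character on a shell is periodic where the linear twist is trivial. -/
lemma periodic_shell_twist {a : Fˣ} {x : F} (hx : v.valuation F x ≤ v.valuation F (a : F)) {k : ℤ}
    (hk : 2 * k = -(plRamIdx F (plOver M v) * (CFT.ord v (a : F) + eL δ v + 1)))
    {i : ℤ} (hi : k + 1 ≤ i) {y : M} (hy : y ∈ box σ v (dual M δ v (i, i))) {lo : AddSubgroup M} :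
    Periodic lo (box σ v (i, i))
      fun η => phiS σ v θ k η * (psiD δ v (x * Algebra.norm F η) * psiD δ v (pair σ η y)) :=
  fun η _ h hh => by
    simp only [← mul_assoc]
    rw [phiS_psiD_norm_add δ hF hσ hns hone hx hk η
      (box_mono (by simpa using hi) (by simpa using hi) hh),
      pair_add_left, psiD_add, psiD_pair_eq_one δ hF hσ hh hy, mul_one]

/-- Without a linear twist the sum over a shell vanishes. -/
lemma qsum_shell_norm_eq_zero
    (hμ : ∃ μ : Mˣ, CFT.ord (plOver M v) (μ : M) = 0 ∧ θ μ ≠ 1 ∧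
      v.valuation F (Algebra.norm F (μ : M) - 1) < 1)
    {a : Fˣ} {x : F} (hx : v.valuation F x ≤ v.valuation F (a : F)) {k : ℤ}
    (hk : 2 * k = -(plRamIdx F (plOver M v) * (CFT.ord v (a : F) + eL δ v + 1))) :
    qsum (box σ v (k, k)) (box σ v (k + 1, k + 1))
      (fun η => phiS σ v θ k η * psiD δ v (x * Algebra.norm F η)) = 0 := by
  obtain ⟨μ, hμ0, hμ1, hμN⟩ := hμ
  have hmap : ∀ i : ℤ, (box σ v (i, i)).map (mulE μ.ne_zero).toAddMonoidHom = box σ v (i, i) :=
    fun i => by rw [box_diag_map hF hσ hns μ.ne_zero, hμ0, add_zero]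
  set g : M → ℂ := fun η => phiS σ v θ k η * psiD δ v (x * Algebra.norm F η)
  have e := qsum_map (mulE μ.ne_zero) (lo := box σ v (k, k)) (hi := box σ v (k + 1, k + 1))
    (f := g) (by rw [hmap, hmap]; exact fun η _ h hh =>
                   phiS_psiD_norm_add δ hF hσ hns hone hx hk η hh)
  rw [hmap, hmap] at e
  have e2 : qsum (box σ v (k, k)) (box σ v (k + 1, k + 1)) (g ∘ mulE μ.ne_zero)
      = ((θ μ : ℂˣ) : ℂ)⁻¹ * qsum (box σ v (k, k)) (box σ v (k + 1, k + 1)) g := by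
    rw [← qsum_smul]
    refine qsum_congr fun η hη => ?_
    have := phiS_mul hF hσ hns θ μ.ne_zero k η
    rw [hμ0, add_zero, Units.mk0_val] at this
    simp only [g, Function.comp_apply, mulE_apply, this, map_mul (Algebra.norm F)]
    rw [show x * (Algebra.norm F (μ : M) * Algebra.norm F η) = x * Algebra.norm F η
      + x * (Algebra.norm F η * (Algebra.norm F (μ : M) - 1)) by ring, psiD_add,
      psiD_mul_shell_small δ hF hσ hns hx hk
        (by rw [norm_eq hF hσ]; exact mul_mem_box hη ((sigma_mem_box_diag hF hσ).2 hη)) hμN,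
      mul_one, mul_assoc]
  rw [e2] at e
  by_contra h0
  refine hμ1 (Units.ext ?_)
  have := (mul_eq_right₀ h0).1 e.symm
  rwa [inv_eq_one] at this

omit hns hone in
/-- Twice a sum over a layer is the sum symmetrised by the involution. -/
lemma two_mul_qsum_box_eq {lo hi : ℤ} (h : lo ≤ hi) {u : M → ℂ}
    (hu : Periodic (box σ v (lo, lo)) (box σ v (hi, hi)) u) :
    2 * qsum (box σ v (lo, lo)) (box σ v (hi, hi)) u
      = qsum (box σ v (lo, lo)) (box σ v (hi, hi)) (fun ζ => u ζ + u (σ ζ)) := by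
  have hmap : ∀ i : ℤ, (box σ v (i, i)).map (σ : M ≃+ M).toAddMonoidHom = box σ v (i, i) :=
      fun i => by
    ext η
    constructor
    · rintro ⟨z, hz, rfl⟩
      exact (sigma_mem_box_diag hF hσ).2 hz
    · exact fun hη => ⟨σ η, (sigma_mem_box_diag hF hσ).2 hη, sigma_apply_apply hF hσ η⟩
  rw [qsum_add_box hF hσ h, two_mul]
  congr 1
  have e := qsum_map (σ : M ≃+ M) (lo := box σ v (lo, lo)) (hi := box σ v (hi, hi)) (f := u)
    (by rwa [hmap, hmap])
  rw [hmap, hmap] at e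
  exact e

omit hns hone in
/-- A character of order four cancels against its conjugate where it is not quadratic. -/
lemma phiS_add_phiS_sigma (hθσ : ∀ x : Mˣ, θ (Units.map (σ : M →* M) x) = (θ x)⁻¹)
    (hθ4 : ∀ x, θ x ^ 4 = 1) {m : ℤ} {ζ : M} (hζ0 : ζ ≠ 0) (hζ : ζ ∈ box σ v (m, m))
    (hs : ζ ∉ box σ v (m + 1, m + 1)) (hθ : θ (Units.mk0 ζ hζ0) ^ 2 ≠ 1) :
    phiS σ v θ m ζ + phiS σ v θ m (σ ζ) = 0 := by
  rw [phiS, dif_pos ⟨hζ, hs⟩, phiS, dif_pos ⟨(sigma_mem_box_diag hF hσ).2 hζ, fun h => hs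
    ((sigma_mem_box_diag hF hσ).1 h)⟩]
  have e : θ (Units.mk0 (σ ζ) ((map_ne_zero σ).2 hζ0)) = (θ (Units.mk0 ζ hζ0))⁻¹ := by
    rw [← hθσ]; exact congrArg θ (Units.ext rfl)
  rw [e, Units.val_inv_eq_inv_val, inv_inv]
  have h4 : ((θ (Units.mk0 ζ hζ0) : ℂˣ) : ℂ) ^ 2 = -1 := by
    have h := congrArg Units.val (hθ4 (Units.mk0 ζ hζ0))
    push_cast at h
    refine (mul_eq_zero.1 (show (((θ (Units.mk0 ζ hζ0) : ℂˣ) : ℂ) ^ 2 - 1)
      * (((θ (Units.mk0 ζ hζ0) : ℂˣ) : ℂ) ^ 2 + 1) = 0 by linear_combination h)).elim (fun h1 => ?_)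
      fun h1 => by linear_combination h1
    exact absurd (Units.ext (by push_cast; linear_combination h1)) hθ
  field_simp
  linear_combination h4

omit hone in
/-- After symmetrisation the norm twist on a shell is constant. -/
lemma symm_shell_twist (hθσ : ∀ x : Mˣ, θ (Units.map (σ : M →* M) x) = (θ x)⁻¹)
    (hθ4 : ∀ x, θ x ^ 4 = 1)
    (hsq : ∀ z : Mˣ, CFT.ord (plOver M v) (z : M) = 0 → θ z ^ 2 = 1 →
      v.valuation F (Algebra.norm F (z : M) - 1) < 1)
    {x c ρ : F} (hρ0 : ρ ≠ 0) {m : ℤ} (hρ : CFT.ord (plOver M v) (algebraMap F M ρ) = m)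
    (hsmall : ∀ d : F, v.valuation F d < 1 → psiD δ v (x * (c * ρ ^ 2 * d)) = 1)
    {ζ : M} (hζ : ζ ∈ box σ v (m, m)) :
    phiS σ v θ m ζ * psiD δ v (Algebra.trace F M ζ) * psiD δ v (x * (c * Algebra.norm F ζ))
        + phiS σ v θ m (σ ζ) * psiD δ v (Algebra.trace F M (σ ζ))
          * psiD δ v (x * (c * Algebra.norm F (σ ζ)))
      = psiD δ v (x * (c * ρ ^ 2)) * (phiS σ v θ m ζ * psiD δ v (Algebra.trace F M ζ)
        + phiS σ v θ m (σ ζ) * psiD δ v (Algebra.trace F M (σ ζ))) := by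
  rw [Algebra.norm_eq_of_algEquiv σ ζ, Algebra.trace_eq_of_algEquiv σ, ← add_mul, ← add_mul]
  -- inner points contribute nothing
  by_cases hs : ζ ∈ box σ v (m + 1, m + 1)
  · simp [phiS, hs, sigma_mem_box_diag hF hσ]
  have hζ0 : ζ ≠ 0 := fun h => hs (h ▸ zero_mem _)
  by_cases hθ : θ (Units.mk0 ζ hζ0) ^ 2 = 1
  swap
  · rw [phiS_add_phiS_sigma hF hσ hθσ hθ4 hζ0 hζ hs hθ]; ring
  -- on the shell with `θ ^ 2 = 1` normalise by `ρ`
  set ρu : Mˣ := Units.mk0 (algebraMap F M ρ) ((map_ne_zero _).2 hρ0) with hρu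
  have hρθ : θ ρu ^ 2 = 1 := by
    have h := hθσ ρu
    rw [show Units.map (σ : M →* M) ρu = ρu from Units.ext (σ.commutes ρ)] at h
    rw [sq]
    nth_rewrite 2 [h]
    exact mul_inv_cancel _
  set z : Mˣ := Units.mk0 ζ hζ0 / ρu
  have hz0 : CFT.ord (plOver M v) (z : M) = 0 := by
    rw [mem_box_diag hF hσ hns hζ0] at hζ hs
    rw [Units.val_div_eq_div_val, Units.val_mk0, hρu, Units.val_mk0,
      CFT.ord_div _ hζ0 ((map_ne_zero _).2 hρ0), hρ]
    omega
  have hNz := hsq z hz0 (by rw [map_div, div_pow, hθ, hρθ, div_one])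
  -- the norm character then only sees `c * ρ ^ 2`
  have hN : Algebra.norm F ζ = Algebra.norm F (z : M) * ρ ^ 2 := by
    rw [show ρ ^ 2 = Algebra.norm F (algebraMap F M ρ) by rw [Algebra.norm_algebraMap, hF],
      ← map_mul]
    simp [z, ρu, div_mul_cancel₀ _ ((map_ne_zero (algebraMap F M)).2 hρ0)]
  rw [hN, show x * (c * (Algebra.norm F (z : M) * ρ ^ 2))
    = x * (c * ρ ^ 2) + x * (c * ρ ^ 2 * (Algebra.norm F (z : M) - 1)) by ring, psiD_add,
    hsmall _ hNz, mul_one, mul_comm]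

omit hone in
/-- The inverse conjugate has the opposite order. -/
lemma ord_inv_sigma (y : M) :
    CFT.ord (plOver M v) (σ y)⁻¹ = -CFT.ord (plOver M v) y := by
  rw [CFT.ord_inv, neg_inj]
  conv_lhs => rw [show plOver M v = σ • plOver M v from ((plConj_eq_iff hF hσ).2 hns).symm,
    show σ y = σ • y from rfl]
  rw [CFT.ord_smul]

omit hns hone in
/-- The inverse conjugate has the inverse norm. -/
lemma norm_inv_sigma (y : M) : Algebra.norm F (σ y)⁻¹ = (Algebra.norm F y)⁻¹ := by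
  refine (algebraMap F M).injective ?_
  rw [map_inv₀ (algebraMap F M), norm_eq hF hσ, norm_eq hF hσ, map_inv₀ σ,
    sigma_apply_apply hF hσ, mul_inv, mul_comm]

omit hone in
/-- The norm twist of the dual variable is the constant of the shell. -/
lemma psiD_norm_dual_eq (hu2 : ∀ r : F, v.valuation F r = 1 → v.valuation F (r ^ 2 - 1) < 1)
    {a : Fˣ} {x : F} (hx : v.valuation F x ≤ v.valuation F (a : F)) {k : ℤ}
    (hk : 2 * k = -(plRamIdx F (plOver M v) * (CFT.ord v (a : F) + eL δ v + 1)))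
    {y : M} (hy0 : y ≠ 0) (hoy : CFT.ord (plOver M v) y = -dd M δ v - 1 - k)
    {ρ : F} (hρ0 : ρ ≠ 0) (hρv : CFT.ord v ρ = -(eL δ v + 1))
    (hc : algebraMap F M (Algebra.norm F (σ y)⁻¹ * ρ ^ 2) ∈ box σ v (k + k, k + k)) :
    psiD δ v (x / (a : F) ^ 2 * Algebra.norm F y)
      = psiD δ v (x * (Algebra.norm F (σ y)⁻¹ * ρ ^ 2)) := by
  have hN0 : Algebra.norm F y ≠ 0 := Algebra.norm_ne_zero_iff.2 hy0
  have hr := val_norm_div_eq_one hF hσ hns hy0 (a := a) hρ0 (by
    have hD : dd M δ v = plRamIdx F (plOver M v) * (eL δ v + 1) - 1 := rfl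
    rw [hoy, hρv]
    linear_combination -hk - 2 * hD)
  rw [show x / (a : F) ^ 2 * Algebra.norm F y = x * (Algebra.norm F (σ y)⁻¹ * ρ ^ 2)
    + x * (Algebra.norm F (σ y)⁻¹ * ρ ^ 2 * ((Algebra.norm F y / ((a : F) * ρ)) ^ 2 - 1)) by
      rw [norm_inv_sigma hF hσ]; field_simp; ring, psiD_add,
    psiD_mul_shell_small δ hF hσ hns hx hk hc (hu2 _ hr), mul_one]

omit hone in
/-- The transported summand on a shell. -/
lemma shell_twist_mul {x : F} {y : M} (hy0 : y ≠ 0) {k m : ℤ}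
    (hkm : k = m + CFT.ord (plOver M v) (σ y)⁻¹) (ζ : M) :
    phiS σ v θ k ((σ y)⁻¹ * ζ) * (psiD δ v (x * Algebra.norm F ((σ y)⁻¹ * ζ))
        * psiD δ v (pair σ ((σ y)⁻¹ * ζ) y))
      = ((θ (Units.mk0 (σ y)⁻¹ (inv_ne_zero ((map_ne_zero σ).2 hy0))) : ℂˣ) : ℂ)⁻¹
        * (phiS σ v θ m ζ * psiD δ v (Algebra.trace F M ζ)
          * psiD δ v (x * (Algebra.norm F (σ y)⁻¹ * Algebra.norm F ζ))) := by
  rw [pair, mul_right_comm _ ζ (σ y), inv_mul_cancel₀ ((map_ne_zero σ).2 hy0),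
    one_mul, map_mul, hkm, phiS_mul hF hσ hns θ (inv_ne_zero ((map_ne_zero σ).2 hy0))]
  ring

/-- **The transform on the dual shell is a Gauss sum.** -/
lemma qsum_shell_gauss (hθσ : ∀ x : Mˣ, θ (Units.map (σ : M →* M) x) = (θ x)⁻¹)
    (hθ4 : ∀ x, θ x ^ 4 = 1)
    (hu2 : ∀ r : F, v.valuation F r = 1 → v.valuation F (r ^ 2 - 1) < 1)
    (hsq : ∀ z : Mˣ, CFT.ord (plOver M v) (z : M) = 0 → θ z ^ 2 = 1 →
      v.valuation F (Algebra.norm F (z : M) - 1) < 1)
    {a : Fˣ} {x : F} (hx : v.valuation F x ≤ v.valuation F (a : F)) {k : ℤ}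
    (hk : 2 * k = -(plRamIdx F (plOver M v) * (CFT.ord v (a : F) + eL δ v + 1)))
    {y : M} (hyj : y ∈ box σ v (-dd M δ v - 1 - k, -dd M δ v - 1 - k))
    (hy1 : y ∉ box σ v (-dd M δ v - 1 - k + 1, -dd M δ v - 1 - k + 1)) :
    qsum (box σ v (k, k)) (box σ v (k + 1, k + 1))
        (fun η => phiS σ v θ k η * (psiD δ v (x * Algebra.norm F η) * psiD δ v (pair σ η y)))
      = gammaS σ δ v θ * (phiS σ v θ (-dd M δ v - 1 - k) y
        * psiD δ v (x / (a : F) ^ 2 * Algebra.norm F y)) := by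
  set D := dd M δ v with hD
  have hy0 : y ≠ 0 := fun h => hy1 (by rw [h]; exact zero_mem _)
  have hoy : CFT.ord (plOver M v) y = -D - 1 - k := by
    have h1 := (mem_box_diag hF hσ hns hy0).1 hyj
    have h2 := mt (mem_box_diag hF hσ hns hy0).2 hy1
    omega
  set b := (σ y)⁻¹ with hb
  have hb0 : b ≠ 0 := inv_ne_zero ((map_ne_zero σ).2 hy0)
  have hob : CFT.ord (plOver M v) b = D + 1 + k := by rw [hb, ord_inv_sigma hF hσ hns, hoy]; ring
  have hm1 : box σ v (k, k) = (box σ v (-D - 1, -D - 1)).map (mulE hb0).toAddMonoidHom := by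
    rw [box_diag_map hF hσ hns hb0, hob, show -D - 1 + (D + 1 + k) = k by ring]
  have hm2 : box σ v (k + 1, k + 1) = (box σ v (-D, -D)).map (mulE hb0).toAddMonoidHom := by
    rw [box_diag_map hF hσ hns hb0, hob, show -D + (D + 1 + k) = k + 1 by ring]
  have hper :=
    periodic_shell_twist δ hF hσ hns hone hx hk (i := k + 1) le_rfl (lo := box σ v (k, k))
    (y := y) (by rwa [show dual M δ v (k + 1, k + 1) = (-D - 1 - k, -D - 1 - k) by
      simp only [dual, D]; ext <;> simp <;> ring])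
  -- an element of `F` on the shell
  obtain ⟨π, hπ0, hπ⟩ := CFT.exists_ord_eq_one v
  set ρ := π ^ (-(eL δ v + 1))
  have hρ0 : ρ ≠ 0 := zpow_ne_zero _ hπ0
  have hρv : CFT.ord v ρ = -(eL δ v + 1) := by rw [CFT.ord_zpow, hπ, mul_one]
  have hρ : CFT.ord (plOver M v) (algebraMap F M ρ) = -D - 1 := by
    rw [CFT.ord_algebraMap_eq, plUnder_plOver, hρv]; simp only [D, dd]; ring
  have hρb : algebraMap F M ρ ∈ box σ v (-D - 1, -D - 1) :=
    (mem_box_diag hF hσ hns ((map_ne_zero _).2 hρ0)).2 hρ.ge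
  have hcb : algebraMap F M (Algebra.norm F b * ρ ^ 2) ∈ box σ v (k + k, k + k) := by
    have hbb : b ∈ box σ v (D + 1 + k, D + 1 + k) := (mem_box_diag hF hσ hns hb0).2 hob.ge
    rw [map_mul, norm_eq hF hσ, sq, map_mul]
    refine box_mono ?_ ?_ (mul_mem_box (mul_mem_box hbb ((sigma_mem_box_diag hF hσ).2 hbb))
      (mul_mem_box hρb hρb)) <;> simp <;> omega
  -- substitute `η = b ζ`, then average with the conjugate of `ζ`
  set h₀ : M → ℂ := fun ζ => phiS σ v θ (-D - 1) ζ * psiD δ v (Algebra.trace F M ζ)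
  set g₀ : M → ℂ := fun ζ => h₀ ζ * psiD δ v (x * (Algebra.norm F b * Algebra.norm F ζ))
  set f : M → ℂ :=
    fun η => phiS σ v θ k η * (psiD δ v (x * Algebra.norm F η) * psiD δ v (pair σ η y))
  have hcomp : ∀ ζ, (f ∘ mulE hb0) ζ = ((θ (Units.mk0 b hb0) : ℂˣ) : ℂ)⁻¹ * g₀ ζ :=
    shell_twist_mul δ hF hσ hns hy0
      (by rw [show CFT.ord (plOver M v) (σ y)⁻¹ = D + 1 + k from hob]; ring)
  have hper0 : Periodic (box σ v (-D - 1, -D - 1)) (box σ v (-D, -D)) h₀ := fun ζ hζ h hh => by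
    simp only [h₀]
    rw [periodic_phiS hF hσ hns hone (-D - 1) ζ hζ h (by rwa [sub_add_cancel]), map_add, psiD_add,
      psiD_trace_eq_one δ hF hσ hh, mul_one]
  have hper1 : Periodic (box σ v (-D - 1, -D - 1)) (box σ v (-D, -D)) g₀ := fun ζ hζ h hh => by
    refine mul_left_cancel₀ (inv_ne_zero (Units.ne_zero (θ (Units.mk0 b hb0)))) ?_
    rw [← hcomp, ← hcomp, Function.comp_apply, Function.comp_apply, map_add]
    exact hper _ (hm1 ▸ ⟨ζ, hζ, rfl⟩) _ (hm2 ▸ ⟨h, hh, rfl⟩)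
  have hg : qsum (box σ v (-D - 1, -D - 1)) (box σ v (-D, -D)) g₀
      = psiD δ v (x * (Algebra.norm F b * ρ ^ 2))
        * qsum (box σ v (-D - 1, -D - 1)) (box σ v (-D, -D)) h₀ :=
    mul_left_cancel₀ (two_ne_zero (α := ℂ)) (by
      rw [mul_left_comm, two_mul_qsum_box_eq hF hσ (by omega) hper0,
        two_mul_qsum_box_eq hF hσ (by omega) hper1, qsum_congr fun ζ hζ =>
          symm_shell_twist δ hF hσ hns hθσ hθ4 hsq hρ0 hρ
            (fun _ hd => psiD_mul_shell_small δ hF hσ hns hx hk hcb hd) hζ, qsum_smul])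
  have hφ : phiS σ v θ (-D - 1 - k) y = ((θ (Units.mk0 b hb0) : ℂˣ) : ℂ)⁻¹ := by
    rw [phiS, dif_pos ⟨hyj, hy1⟩]
    congr 2
    rw [show Units.mk0 b hb0 = (Units.map (σ : M →* M) (Units.mk0 y hy0))⁻¹ from
      Units.ext (by simp [b]), map_inv, hθσ, inv_inv]
  rw [hm1, hm2, qsum_map (mulE hb0) (by rwa [← hm1, ← hm2]), hφ,
    psiD_norm_dual_eq δ hF hσ hns hu2 hx hk hy0 hoy hρ0 hρv hcb, qsum_congr fun ζ _ => hcomp ζ,
    qsum_smul, hg, gammaS]
  ring

/-- **The transform of a character on a shell, twisted by the norm form.** -/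
theorem ft_shell (h2 : v.valuation F (2 : F) = 1)
    (hθσ : ∀ x : Mˣ, θ (Units.map (σ : M →* M) x) = (θ x)⁻¹) (hθ4 : ∀ x, θ x ^ 4 = 1)
    (hu2 : ∀ r : F, v.valuation F r = 1 → v.valuation F (r ^ 2 - 1) < 1)
    (hμ : ∃ μ : Mˣ, CFT.ord (plOver M v) (μ : M) = 0 ∧ θ μ ≠ 1 ∧
      v.valuation F (Algebra.norm F (μ : M) - 1) < 1)
    (hsq : ∀ z : Mˣ, CFT.ord (plOver M v) (z : M) = 0 → θ z ^ 2 = 1 →
      v.valuation F (Algebra.norm F (z : M) - 1) < 1)
    {a : Fˣ} {x : F} (hx : v.valuation F x ≤ v.valuation F (a : F))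
    {lo k hi : ℤ} (hk : 2 * k = -(plRamIdx F (plOver M v) * (CFT.ord v (a : F) + eL δ v + 1)))
    (hlk : lo ≤ k) (hkh : k + 1 ≤ hi) {y : M} (hy : y ∈ box σ v (dual M δ v (hi, hi))) :
    qsum (box σ v (lo, lo)) (box σ v (hi, hi))
        (fun η => phiS σ v θ k η * (psiD δ v (x * Algebra.norm F η) * psiD δ v (pair σ η y)))
      = boxCard σ v ((hi, hi) - (k + 1, k + 1)) * gammaS σ δ v θ
        * (phiS σ v θ (-dd M δ v - 1 - k) y * psiD δ v (x / (a : F) ^ 2 * Algebra.norm F y)) := by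
  set j := -dd M δ v - 1 - k with hj
  have adm : ∀ i : ℤ, Adm σ v (i, i) := fun i _ => rfl
  have hdual : dual M δ v (k + 1, k + 1) = (j, j) := by simp only [dual, hj]; ext <;> simp <;> ring
  have hdual' : dual M δ v (k, k) = (j + 1, j + 1) := by simp only [dual, hj]; ext <;> simp <;> ring
  -- restrict to the box of the shell
  rw [qsum_restrict (mid := box σ v (k, k)) (box_mono (by simpa using hlk) (by simpa using hlk))
    (periodic_shell_twist δ hF hσ hns hone hx hk hkh hy)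
    fun η _ hη => by rw [phiS, dif_neg fun h => hη h.1, zero_mul]]
  by_cases hyj : y ∈ box σ v (j, j)
  swap
  -- off the dual box a translation shows both sides vanish
  · rw [show phiS σ v θ j y = 0 by rw [phiS, dif_neg fun h => hyj h.1], zero_mul, mul_zero]
    obtain ⟨l, hl, hne⟩ :=
      exists_pair_psiD_ne δ hF hσ (fun _ => h2) (adm (k + 1)) (hdual.symm ▸ hyj)
    refine qsum_eq_zero (periodic_shell_twist δ hF hσ hns hone hx hk hkh hy)
      (box_mono (by simp) (by simp) hl) hne fun η hη => ?_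
    simp only [← mul_assoc]
    rw [phiS_psiD_norm_add δ hF hσ hns hone hx hk η hl, pair_add_left, psiD_add]
    ring
  -- otherwise it is a multiple of a sum over one shell: zero or a Gauss sum
  rw [qsum_coarse (mid := box σ v (k + 1, k + 1))
    (box_mono (by simpa using hkh) (by simpa using hkh)) (box_mono (by simp) (by simp))
    (relIndex_box_ne_zero hF hσ (by simp; omega) (by simp; omega) (adm k) (adm hi))
    (periodic_shell_twist δ hF hσ hns hone hx hk le_rfl (hdual.symm ▸ hyj)),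
    relIndex_box hF hσ (by simpa using hkh) (by simpa using hkh) (adm (k + 1)) (adm hi), mul_assoc]
  congr 1
  by_cases hy1 : y ∈ box σ v (j + 1, j + 1)
  · rw [show phiS σ v θ j y = 0 by rw [phiS, dif_neg fun h => h.2 hy1], zero_mul, mul_zero,
      qsum_congr (g := fun η => phiS σ v θ k η * psiD δ v (x * Algebra.norm F η)) fun η hη => by
        rw [psiD_pair_eq_one δ hF hσ hη (hdual'.symm ▸ hy1), mul_one],
      qsum_shell_norm_eq_zero δ hF hσ hns hone hμ hx hk]
  · exact qsum_shell_gauss δ hF hσ hns hone hθσ hθ4 hu2 hsq hx hk hyj hy1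

end Fermat.LT.Theta
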