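import Fermat.Agent.LT.Theta.Invariant
import Fermat.Agent.LT.Theta.Gal.Descent

/-!
# Theta: the form attached to the data, and the theta statement

`isForm_phi`: the series `phi` of the data (`Data`) is a form of level and type over `3`, its
invariance being the Poisson argument of `Invariant`. With the fields cut out by `ρ`
(`Gal/Descent`) this gives `thetaStatement`: the form on `L` and the hypotheses of the descent
(`LT/Sys/Proved`).
-/

set_option autoImplicit false

open NumberField Filter Fermat.CFT

noncomputable section

namespace Fermat.LT.Theta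

variable {F M : Type} [Field F] [NumberField F] [IsTotallyComplex F] [Field M] [NumberField M]
  [Algebra F M] [IsGalois F M] {σ : M ≃ₐ[F] M} {lam : Pl F → ℝ} (H : HData σ lam)
include H

/-- The series is bounded. -/
theorem bounded_phi : ∃ C : ℝ, ∀ p : Pt F (s3 F), ‖phi (dat H) p‖ ≤ C := by
  -- bounded on a Siegel domain, which meets every orbit
  obtain ⟨Ω, R, c, hc, hred⟩ := exists_siegel (F := F) (S := s3 F)
  choose B hB using fun ω : FinPt F (s3 F) => exists_bound_of_le (dat H) ω hc
  refine ⟨∑ ω ∈ Ω, |B ω|, fun p => ?_⟩
  obtain ⟨γ, hγ⟩ := hred p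
  rw [← isInvariant_iff.1 (isInvariant_phi H) γ p]
  refine (hB (γ • p).1 (γ • p).2 fun w => (hγ.2.1 w).2).trans ((le_abs_self _).trans ?_)
  exact Finset.single_le_sum (f := fun ω => |B ω|) (fun ω _ => abs_nonneg _) hγ.1

/-- **The series is a form**, of level and cuspidal type over `3`, with eigenvalues `lam`. -/
theorem isForm_phi : IsForm (s3 F) (s3 F) lam (phi (dat H)) where
  nonzero := (exists_std_phi_ne_zero H).imp fun _ h => h.2
  invariant := isInvariant_phi H
  continuous := continuous_phi (dat H)
  bounded := bounded_phi H
  arch := arch_phi (dat H)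
  cuspType _ hv := cusp_phi (dat H) hv
  hecke v hv p := hecke_phi (dat H) hv (lam_eq_sqrt_mul v) p

end Fermat.LT.Theta

namespace Fermat.LT

open Fermat.LT.Theta in
/-- **The theta statement.** `ThetaStatement` holds: the theta form on `L` with the hypotheses of
the descent. -/
theorem thetaStatement (K L : Type) [Field K] [NumberField K] [Field L] [NumberField L]
    [Algebra K L] :
    ThetaStatement K L :=
  Gal.thetaStatement_of_form K L fun M _ _ _ _ _ _ H => by
    have := H.galois
    exact ⟨_, isForm_phi H⟩

end Fermat.LT
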