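import Fermat.Agent.LT.Theta.FunEq

/-!
# Theta: the series does not vanish at a standard point

`exists_std_phi_ne_zero`, from a finite point with coefficient one (`exists_finW_one`).
-/

set_option autoImplicit false

open NumberField MeasureTheory Filter Fermat.CFT
open scoped Classical ComplexConjugate

noncomputable section

namespace Fermat.LT.Theta

open Fermat.LT.Mult (emb chi chiF trS meanM Per par tlift tmeas rep)

variable {F : Type} [Field F] [NumberField F]

/-- The finite point is standard at the level. -/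
def IsStd {S : Set (Pl F)} (ω : FinPt F S) : Prop :=
  ∀ v ∈ S, ∃ g ∈ U0 (v.valuation F), ω.1 v = ((g : GL (Fin 2) F) : Vert S v)

section Mean

variable [IsTotallyComplex F]

/-- A nontrivial character has mean zero. -/
lemma meanM_chi_eq_zero {N : ℕ} (hN : N ≠ 0) {b : F} (hb : b ≠ 0)
    (hp : Per N fun z : InfinitePlace F → ℂ => chi (emb b * z)) :
    meanM N (fun z : InfinitePlace F → ℂ => chi (emb b * z)) = 0 := by
  set c : InfinitePlace F → ℂ := fun _ => ((1 / (4 * Fintype.card (InfinitePlace F)) : ℝ) : ℂ)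
  have hc : chi c = -1 := by
    have hcard : (Fintype.card (InfinitePlace F) : ℝ) ≠ 0 := Nat.cast_ne_zero.2 Fintype.card_ne_zero
    have h1 : trS c = 1 / 2 := by
      change ∑ w : InfinitePlace F, 2 * (c w).re = _
      simp only [c, Complex.ofReal_re, Finset.sum_const, Finset.card_univ, nsmul_eq_mul]
      field_simp
      ring
    rw [Mult.chi, h1, ← Complex.exp_pi_mul_I]
    congr 1
    push_cast
    ring
  set z₀ : InfinitePlace F → ℂ := fun w => c w / w.embedding b
  have hz : emb b * z₀ = c := funext fun w => by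
    simp only [z₀, Pi.mul_apply, Mult.emb_apply]
    field_simp [(map_ne_zero w.embedding).2 hb]
  have h := Mult.meanM_translate hN hp z₀
  have e : meanM N (fun z : InfinitePlace F → ℂ => chi (emb b * (z + z₀)))
      = (-1) * meanM N (fun z : InfinitePlace F → ℂ => chi (emb b * z)) := by
    rw [Mult.meanM, Mult.meanM, ← integral_const_mul]
    refine integral_congr_ae (Eventually.of_forall fun q => ?_)
    change chi _ = -1 * chi _
    rw [mul_add, Mult.chi_add, hz, hc, mul_comm]
  rw [e] at h
  linear_combination (-1 / 2 : ℂ) * h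

/-- An element with bounded denominator gives a periodic character. -/
lemma per_chi_of_integral {N : ℕ} {b : F} (h : ∀ v : Pl F, v.valuation F ((N : F) * b) ≤ 1) :
    Per N fun z : InfinitePlace F → ℂ => chi (emb b * z) := fun z l => by
  change chi _ = chi _
  have h1 : chiF (-((N : F) * b * (l : F))) = 1 := Mult.chiF_of_integral fun v => by
    rw [Valuation.map_neg, map_mul]
    exact mul_le_one₀ (h v) zero_le (v.valuation_le_one l)
  rw [Mult.chiF, map_neg, neg_neg] at h1
  rw [mul_add, Mult.chi_add, ← map_mul, show b * ((N : F) * (l : F)) = (N : F) * b *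
    (l : F) by ring, h1, mul_one]

end Mean

section Main

variable [IsTotallyComplex F] {M : Type} [Field M] [NumberField M]
  [Algebra F M] [IsGalois F M] {σ : M ≃ₐ[F] M} {lam : Pl F → ℝ} (H : HData σ lam)
include H

/-- At the level some local norm `a` has `ord a + eL (dlt H) v = -1`. -/
lemma exists_lnorm_ord {v : Pl F} (hv : v ∈ s3 F) :
    ∃ a : Fˣ, a ∈ lnorms M v ∧ CFT.ord v (a : F) + eL (dlt H) v = -1 := by
  set e := eL (dlt H) v
  have hP := plOver_mem_sM H hv
  have hnorm : ∀ y : Mˣ, Units.map (Algebra.norm F : M →* F) y ∈ lnorms M v := fun y =>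
    norm_mem_localNorms (y := y) rfl
  rcases H.dich _ hP with ⟨he, -⟩ | ⟨he, -⟩
  -- unramified: an even power of a uniformiser
  · have hns := isNonsplit_s3 H hv
    have hr : v ∉ ramPl (K := F) M := by
      rintro ⟨W, hW, hWe⟩
      rcases eq_or_eq_of_plUnder H.finrank H.σ_ne hW with rfl | rfl
      · exact hWe he
      · exact hWe (by rw [plRamIdx_plConj]; exact he)
    obtain ⟨m, hm⟩ := (dlt_spec H hns hr).2 hv
    obtain ⟨ϖ, hϖ0, hϖ⟩ := CFT.exists_ord_eq_one v
    refine ⟨Units.mk0 ϖ hϖ0 ^ (-2 * (m + 1)), ?_, ?_⟩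
    · rw [mem_lnorms_iff_even H.finrank H.σ_ne hns hr, Units.val_zpow_eq_zpow_val, Units.val_mk0,
        CFT.ord_zpow, hϖ, mul_one, neg_mul]
      exact (even_two_mul _).neg
    · rw [Units.val_zpow_eq_zpow_val, Units.val_mk0, CFT.ord_zpow, hϖ]
      simp only [e] at hm ⊢
      omega
  -- ramified: the norm of a uniformiser has order `1`
  · obtain ⟨ϖ, hϖ0, hϖ⟩ := CFT.exists_ord_eq_one (plOver M v)
    set y := Units.mk0 ϖ hϖ0
    have hst : σ • plOver M v = plOver M v := H.stable _ hP
    have h1 : CFT.ord v (Algebra.norm F ϖ) = 1 := by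
      have h := congrArg (CFT.ord (plOver M v)) (algebraMap_norm_eq_prod_pow H.finrank H.σ_ne ϖ)
      rw [CFT.ord_algebraMap_eq, he, plUnder_plOver, show Finset.range 2 = {0, 1} by decide,
        Finset.prod_pair zero_ne_one] at h
      simp only [pow_zero, AlgEquiv.one_apply, pow_one] at h
      rw [CFT.ord_mul _ hϖ0 ((map_ne_zero σ).mpr hϖ0), hϖ] at h
      have h2 := CFT.ord_smul σ (plOver M v) ϖ
      rw [hst, hϖ, AlgEquiv.smul_def] at h2
      rw [h2] at h
      push_cast at h
      omega
    refine ⟨Units.map (Algebra.norm F : M →* F) y ^ (-(e + 1)), zpow_mem (hnorm y) _, ?_⟩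
    rw [Units.val_zpow_eq_zpow_val, CFT.ord_zpow, Units.coe_map]
    change -(e + 1) * CFT.ord v (Algebra.norm F ϖ) + _ = _
    rw [h1]
    ring

/-- A finite point with coefficient one. -/
theorem exists_finW_one :
    ∃ (ω : FinPt F (s3 F)) (β : Fˣ), finW (dat H) 1 ω = 1 ∧ IsStd (upMat β 0 • ω) := by
  choose ϖ hϖ0 hϖ using fun v : Pl F => CFT.exists_ord_eq_one v
  choose a₃ ha₃N ha₃ using fun (v : Pl F) (hv : v ∈ s3 F) => exists_lnorm_ord H hv
  set a : Pl F → Fˣ := fun v =>
    if hv : v ∈ s3 F then a₃ v hv else Units.mk0 (ϖ v) (hϖ0 v) ^ (-eL (dlt H) v) with ha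
  let ω : FinPt F (s3 F) := ⟨fun v => ((upMat (a v) 0 : GL (Fin 2) F) : Vert (s3 F) v), by
    filter_upwards [(Set.toFinite (s3 F)).compl_mem_cofinite, Mult.eventually_cnd_eq_zero,
      eventually_cofinite.2 (CFT.finite_ord_ne_zero (dlt H : F))] with v h1 h2 h3
    have : a v = 1 := by
      rw [ha]; simp only [dif_neg (show v ∉ s3 F from h1)]
      simp [eL, h2, h3]
    rw [this, upMat_one]⟩
  -- every local value at `ω` is one
  have hW : ∀ v, (dat H).W v (upMat (1 : Fˣ) (0 : F) • ω.1 v) = 1 := fun v => by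
    rw [upMat_one, one_smul]
    change locW _ _ _ _ v _ = 1
    rw [locW_upMat (dat H).h3 _ _ _ (dat H).hN, mul_zero, Mult.psi_zero, one_mul, hfun]
    by_cases hv : v ∈ s3 F
    · rw [if_pos hv, ha]
      simp only [dif_pos hv]
      exact if_pos ⟨ha₃ v hv, ha₃N v hv⟩
    · rw [if_neg hv, ha]
      simp only [dif_neg hv]
      rw [Units.val_zpow_eq_zpow_val, Units.val_mk0, CFT.ord_zpow, hϖ]
      change ((radial _ _ (-eL (dlt H) v * 1 + eL (dlt H) v) : ℝ) : ℂ) = 1
      simp [radial, chebU]
  -- `β` with prescribed absolute values above three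
  obtain ⟨n, hn⟩ : ∃ n : ℕ, ∀ v ∈ (Set.toFinite (s3 F)).toFinset,
      WithZero.exp (-(n : ℤ)) < v.valuation F ((a v)⁻¹ : Fˣ) := by
    obtain ⟨n, hn⟩ := Finset.bddAbove ((Set.toFinite (s3 F)).toFinset.image fun v =>
      (CFT.ord v ((a v)⁻¹ : Fˣ)).toNat + 1)
    refine ⟨n, fun v hv => ?_⟩
    rw [valuation_eq_exp_neg_ord v (Units.ne_zero _), WithZero.exp_lt_exp]
    have := hn (Finset.mem_coe.2 (Finset.mem_image_of_mem _ hv))
    omega
  obtain ⟨b, hb, -⟩ :=
    exists_approx (Set.toFinite (s3 F)).toFinset (fun v => (((a v)⁻¹ : Fˣ) : F)) n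
  have hval : ∀ v ∈ s3 F, v.valuation F b = v.valuation F ((a v)⁻¹ : Fˣ) := fun v hv => by
    have hvT := (Set.Finite.mem_toFinset (hs := Set.toFinite (s3 F))).2 hv
    exact (v.valuation F).map_eq_of_sub_lt ((hb v hvT).trans_lt (hn v hvT))
  have hb0 : b ≠ 0 := by
    obtain ⟨u, hu, -⟩ := H.exists_ram
    have hv : plUnder F u ∈ s3 F := three_mem_iff.2 ((H.mem_sM u).1 hu)
    intro h
    have := hval _ hv
    rw [h, map_zero] at this
    exact (Units.ne_zero _) ((map_eq_zero _).1 this.symm)
  refine ⟨ω, Units.mk0 b hb0, finprod_eq_one_of_forall_eq_one hW,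
    fun v hv =>
      ⟨upMat (Units.mk0 b hb0 * a v) 0, le_withScalars _ (upMat_mem_intGL _ ?_ (by simp)), ?_⟩⟩
  · rw [Units.val_mul, map_mul, Units.val_mk0, hval v hv, ← map_mul, Units.inv_mul, map_one]
  · change upMat _ 0 • _ = _
    rw [MulAction.Quotient.smul_coe, smul_eq_mul, upMat_mul, mul_zero, zero_add]

/-- **The series does not vanish at some standard point.** -/
theorem exists_std_phi_ne_zero : ∃ p : Pt F (s3 F), IsStd p.1 ∧ phi (dat H) p ≠ 0 := by
  obtain ⟨ω, β, hω, hstd⟩ := exists_finW_one H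
  suffices h : ∃ x, phi (dat H) (ω, x) ≠ 0 by
    obtain ⟨x, hx⟩ := h
    exact ⟨upMat β 0 • ((ω, x) : Pt F (s3 F)), hstd, by rwa [phi_upMat_smul]⟩
  by_contra hall
  push Not at hall
  obtain ⟨N, hN, hsupp⟩ := exists_support (dat H) ω
  set δ := (((dat H).δ : Fˣ) : F) with hδ
  set R : Fˣ → ℂ := fun α => ∏ w : InfinitePlace F,
    ((archRho (‖w.embedding (δ * (α : F))‖) : ℝ) : ℂ)
  set pt : (InfinitePlace F → ℂ) → InfinitePlace F → H3 := fun z w => H3.mk (z w) 1
  have harch : ∀ (α : Fˣ) z, archW (dat H) α (pt z) = R α * chi (emb (δ * (α : F)) * z) :=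
      fun α z => by
    have hp : ∀ w, H3.coord (pt z w) = (z w, 1) := fun w => H3.coord_mk_of_pos _ one_pos
    rw [← prod_eC, ← Finset.prod_mul_distrib]
    refine Finset.prod_congr rfl fun w _ => ?_
    rw [hW, hp, mul_one]
    rfl
  -- twist by a character so that `α = 1` becomes the constant term
  set G : Fˣ → (InfinitePlace F → ℂ) → ℂ := fun α z =>
    finW (dat H) α ω * R α * chi (emb (δ * ((α : F) - 1)) * z) with hG
  have hsum : ∀ z, ∑' α, G α z = 0 := fun z => by
    have e : ∀ α, G α z = chi (-(emb δ * z)) * (finW (dat H) α ω * archW (dat H) α (pt z)) :=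
        fun α => by
      rw [harch, hG]
      dsimp only
      rw [show emb (δ * ((α : F) - 1)) * z = -(emb δ * z) + emb (δ * (α : F)) * z by
        rw [mul_sub, map_sub, mul_one, sub_mul]; ring, Mult.chi_add]
      ring
    rw [tsum_congr e, tsum_mul_left]
    exact mul_eq_zero_of_right _ (hall (pt z))
  have hper : ∀ α, finW (dat H) α ω ≠ 0 →
      Per N fun z : InfinitePlace F → ℂ => chi (emb (δ * ((α : F) - 1)) * z) := fun α hα =>
    per_chi_of_integral fun v => by
      have h1 := hsupp α hα v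
      have h2 := hsupp 1 (by rw [hω]; exact one_ne_zero) v
      rw [Units.val_one, mul_one] at h2
      rw [mul_sub, mul_one, mul_sub]
      exact ((v.valuation F).map_sub _ _).trans (max_le h1 h2)
  obtain ⟨M', hM', hbd⟩ := norm_term_le (dat H) ω
  set t₀ : ℝ := 1
  have hle : ∀ α z, ‖G α z‖ ≤ major (dat H) M' t₀ α := fun α z => by
    refine le_of_eq_of_le ?_ (hbd α (pt z) t₀ fun w => by simp [pt, H3.coord_mk_of_pos, t₀])
    rw [harch, hG]
    simp only [norm_mul, Mult.norm_chi, mul_one]
  have hcont : ∀ α, Measurable fun q : Mult.Tor F => tlift N (G α) q := fun α => by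
    refine ((measurable_const.mul ?_) : Measurable fun q : Mult.Tor F =>
      finW (dat H) α ω * R α * chi (emb (δ * ((α : F) - 1)) * par N fun i => rep (q i)))
    exact (Mult.continuous_chi.comp ((continuous_const.mul continuous_id).comp
      (Mult.continuous_par N))).measurable.comp
      (measurable_pi_lambda _ fun i => Mult.measurable_rep.comp (measurable_pi_apply i))
  have hint : ∀ α, Integrable (fun q => tlift N (G α) q) (tmeas F) := fun α =>
    Integrable.of_bound (hcont α).aestronglyMeasurable (major (dat H) M' t₀ α)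
      (Eventually.of_forall fun q => hle α _)
  -- average over the torus: only the term `α = 1` survives
  have hkey : ∫ q, ∑' α, tlift N (G α) q ∂tmeas F = ∑' α, ∫ q, tlift N (G α) q ∂tmeas F := by
    have : Countable Fˣ :=
      Function.Injective.countable (f := fun a : Fˣ => (a : F)) Units.val_injective
    refine (integral_tsum_of_summable_integral_norm hint ?_).symm
    refine Summable.of_nonneg_of_le (fun α => integral_nonneg fun q => norm_nonneg _) (fun α => ?_)
      ((summable_major (dat H) hM' one_pos).mul_left ((tmeas F).real Set.univ))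
    rw [← smul_eq_mul, ← integral_const]
    exact integral_mono (hint α).norm (integrable_const _) fun q => hle α _
  have hz : ∀ α : Fˣ, ∫ q, tlift N (G α) q ∂tmeas F
      = if α = 1 then R 1 * ((tmeas F).real Set.univ : ℂ) else 0 := fun α => by
    have e : ∫ q, tlift N (G α) q ∂tmeas F
        = finW (dat H) α ω * R α * meanM N (fun z => chi (emb (δ * ((α : F) - 1)) * z)) := by
      rw [Mult.meanM, ← integral_const_mul]
      rfl
    rw [e]
    split_ifs with h
    · subst h
      rw [hω, one_mul]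
      congr 1
      rw [Mult.meanM]
      simp [tlift]
    · by_cases hα : finW (dat H) α ω = 0
      · rw [hα, zero_mul, zero_mul]
      rw [meanM_chi_eq_zero hN (b := δ * ((α : F) - 1))
        (mul_ne_zero (dat H).δ.ne_zero (sub_ne_zero.2 fun h' => h (Units.ext h')))
          (hper α hα), mul_zero]
  simp only [tlift, hsum, integral_zero] at hkey
  rw [show (∑' α : Fˣ, ∫ q, G α (par N fun i => rep (q i)) ∂tmeas F)
    = ∑' α : Fˣ, ∫ q, tlift N (G α) q ∂tmeas F from rfl, tsum_congr hz, tsum_ite_eq] at hkey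
  refine mul_ne_zero ?_ (Complex.ofReal_ne_zero.2 ?_) hkey.symm
  · refine Finset.prod_ne_zero_iff.2 fun w _ => Complex.ofReal_ne_zero.2 (archRho_pos ?_).ne'
    exact norm_pos_iff.2 (emb_mul_ne_zero (dat H) 1 w)
  · simp [measureReal_def]

end Main

end Fermat.LT.Theta
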