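import Fermat.Agent.LT.Theta.Artin

/-!
# Norms: sign, congruences, the product of residue cardinalities

`norm_nonneg_of_totallyComplex`, `norm_intCast_eq_one` and `finprod_resCard_pow` are these three
facts.
-/

set_option autoImplicit false

noncomputable section

open NumberField IsDedekindDomain Fermat.CFT
open scoped Classical

namespace Fermat.LT.Theta

variable {E : Type} [Field E] [NumberField E]

/-- Norms from a totally complex field to `ℚ` are nonnegative. -/
lemma norm_nonneg_of_totallyComplex [IsTotallyComplex E] (x : E) : 0 ≤ Algebra.norm ℚ x := by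
  have h : (algebraMap ℚ ℂ (Algebra.norm ℚ x)) =
      ((∏ w : InfinitePlace E, ‖w.embedding x‖ ^ 2 : ℝ) : ℂ) := by
    rw [Algebra.norm_eq_prod_embeddings ℚ ℂ x,
      ← Fintype.prod_equiv (RingHom.equivRatAlgHom E ℂ) (fun f => f x) (fun φ => φ x) fun _ => by
        simp [RingHom.equivRatAlgHom_apply],
      ← Finset.prod_fiberwise Finset.univ InfinitePlace.mk, Complex.ofReal_prod]
    refine Finset.prod_congr rfl fun w _ => ?_
    have hne : w.embedding ≠ ComplexEmbedding.conjugate w.embedding := fun h => by
      have := InfinitePlace.not_isReal_iff_isComplex.mpr (IsTotallyComplex.isComplex w)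
      exact this (InfinitePlace.isReal_iff.mpr (ComplexEmbedding.isReal_iff.mpr h.symm))
    have hset : ({φ | InfinitePlace.mk φ = w} : Finset (E →+* ℂ)) =
        {w.embedding, ComplexEmbedding.conjugate w.embedding} := by
      ext φ
      rw [Finset.mem_filter, Finset.mem_insert, Finset.mem_singleton]
      conv_lhs => rw [← InfinitePlace.mk_embedding w, InfinitePlace.mk_eq_iff]
      simp only [Finset.mem_univ, true_and]
      constructor
      · rintro (h | h)
        · exact Or.inl h
        · exact Or.inr (by rw [← h]; exact (star_involutive φ).symm)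
      · rintro (h | h)
        · exact Or.inl h
        · exact Or.inr (by rw [h]; exact star_involutive _)
    rw [hset, Finset.prod_pair hne, ComplexEmbedding.conjugate_coe_eq, Complex.mul_conj',
      Complex.ofReal_pow]
  have h2 : ((Algebra.norm ℚ x : ℝ) : ℂ) =
      ((∏ w : InfinitePlace E, ‖w.embedding x‖ ^ 2 : ℝ) : ℂ) := by
    rw [← h, eq_ratCast, Complex.ofReal_ratCast]
  have h3 := Complex.ofReal_inj.mp h2
  exact_mod_cast
    (h3 ▸ Finset.prod_nonneg fun w _ => by positivity : (0 : ℝ) ≤ (Algebra.norm ℚ x : ℝ))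

/-- Norms of integers of a totally complex field are nonnegative. -/
lemma norm_int_nonneg [IsTotallyComplex E] (a : 𝓞 E) : 0 ≤ Algebra.norm ℤ a := by
  have h := norm_nonneg_of_totallyComplex (a : E)
  rw [← Algebra.coe_norm_int] at h
  exact_mod_cast h

/-- An element congruent to `1` modulo `n` has norm congruent to `1` modulo `n`. -/
lemma norm_intCast_eq_one {n : ℕ} {a : 𝓞 E} (ha : (n : 𝓞 E) ∣ a - 1) :
    ((Algebra.norm ℤ a : ℤ) : ZMod n) = 1 := by
  obtain ⟨c, hc⟩ := ha
  let b := RingOfIntegers.basis E
  have ha' : a = 1 + (n : ℕ) • c := by rw [nsmul_eq_mul, ← hc]; ring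
  rw [Algebra.norm_eq_matrix_det b, ha', map_add, map_one, map_nsmul,
    show ((Matrix.det (1 + (n : ℕ) • Algebra.leftMulMatrix b c) : ℤ) : ZMod n) =
      Int.castRingHom (ZMod n) (Matrix.det (1 + (n : ℕ) • Algebra.leftMulMatrix b c)) from rfl,
    RingHom.map_det, map_add, map_one, map_nsmul]
  simp [nsmul_eq_mul]

/-- The multiplicity of a prime in a principal ideal is the order of its generator. -/
lemma count_eq_ord (w : Pl E) {a : 𝓞 E} (ha : a ≠ 0) :
    ((Associates.mk w.asIdeal).count (Associates.mk (Ideal.span {a} : Ideal (𝓞 E))).factors : ℤ) =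
      ord w (a : E) := by
  rw [ord, show (a : E) = algebraMap (𝓞 E) E a from rfl, HeightOneSpectrum.valuation_of_algebraMap,
    HeightOneSpectrum.intValuation_if_neg _ ha, WithZero.log_exp, neg_neg]

/-- `∏_w Nw ^ ord_w a = |N a|`. -/
lemma finprod_resCard_pow {M : Type*} [CommMonoid M] (φ : ℕ →* M) {a : 𝓞 E} (ha : a ≠ 0) :
    ∏ᶠ w : Pl E, φ (resCard w) ^ (ord w (a : E)).toNat =
      φ (Algebra.norm ℤ a).natAbs := by
  rw [← Ideal.absNorm_span_singleton]
  have hI : Ideal.span {a} ≠ (0 : Ideal (𝓞 E)) := by simpa using ha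
  conv_rhs => rw [← Ideal.finprod_heightOneSpectrum_factorization hI]
  have hfin := Ideal.hasFiniteMulSupport hI
  rw [map_finprod (Ideal.absNorm (S := 𝓞 E)) hfin,
    φ.map_finprod (hfin.subset fun v hv h => hv (by simp only [h, map_one]))]
  refine finprod_congr fun w => ?_
  rw [HeightOneSpectrum.maxPowDividing]
  simp only [map_pow, resCard, ← count_eq_ord w ha, Int.toNat_natCast]

end Fermat.LT.Theta
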