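import Fermat.Agent.LT.Theta.Weights

/-!
# Theta: sums over the norms as weighted sums over the units of the extension

For a family `f τ u ξ` on which the elements of norm one act by translation of `(τ, u)`, the sum
over the norms `n` of the sums of `f` at a chosen preimage of `n` is the sum over `τ` of the
integrals of `wt τ u` times the sum of `f τ u` over all units.
-/

set_option autoImplicit false

open NumberField MeasureTheory Filter Fermat.CFT
open scoped Classical ENNReal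

noncomputable section

namespace Fermat.LT.Theta

variable {F M : Type} [Field F] [NumberField F] [IsTotallyComplex F] [Field M] [NumberField M]
  [Algebra F M] [IsGalois F M] {σ : M ≃ₐ[F] M}

variable (F M) in
/-- The subgroup of norms from `M` in `Fˣ`. -/
def normUnits : Subgroup Fˣ := (Units.map (Algebra.norm F : M →* F)).range

/-- Reindexing by the exponents. -/
private def shearT : (Pl F →₀ ℤ) × nKer F M ≃ (Pl F →₀ ℤ) × nKer F M where
  toFun p := (p.1 + ordT F ((p.2 : Mˣ) : M), p.2)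
  invFun p := (p.1 - ordT F ((p.2 : Mˣ) : M), p.2)
  left_inv p := by simp
  right_inv p := by simp

omit [IsTotallyComplex F] in
/-- Translating by the inverse of a norm one element subtracts its exponents and logarithms. -/
private lemma neg_ordT (μ : nKer F M) (τ : Pl F →₀ ℤ) (u : InfinitePlace F → ℝ) :
    τ + ordT F (((μ⁻¹ : nKer F M) : Mˣ) : M) = τ - ordT F ((μ : Mˣ) : M) ∧
    u + logT (((μ⁻¹ : nKer F M) : Mˣ) : M) = u - logT ((μ : Mˣ) : M) := by
  have h1 := ordT_mul (F := F) (μ : Mˣ).ne_zero ((μ⁻¹ : nKer F M) : Mˣ).ne_zero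
  have h2 := logT_mul (F := F) (μ : Mˣ).ne_zero ((μ⁻¹ : nKer F M) : Mˣ).ne_zero
  rw [← Units.val_mul, ← Subgroup.coe_mul, mul_inv_cancel] at h1 h2
  have e1 : ordT F (((1 : nKer F M) : Mˣ) : M) = 0 := Finsupp.ext fun v => by simp
  have e2 : logT (F := F) (((1 : nKer F M) : Mˣ) : M) = 0 := funext fun w => by simp [logT]
  rw [e1] at h1
  rw [e2] at h2
  exact ⟨by rw [eq_neg_of_add_eq_zero_right h1.symm, sub_eq_add_neg],
    by rw [eq_neg_of_add_eq_zero_right h2.symm, sub_eq_add_neg]⟩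

variable (hF : Module.finrank F M = 2) (hσ : σ ≠ 1)
  {f : (Pl F →₀ ℤ) → (InfinitePlace F → ℝ) → M → ℂ}
  (hm : ∀ τ η, Measurable fun u => f τ u η)
  (hmul : ∀ (μ : nKer F M) τ u η, f τ u (((μ : Mˣ) : M) * η)
    = f (τ + ordT F ((μ : Mˣ) : M)) (u + logT ((μ : Mˣ) : M)) η)

include hF hσ in
/-- The weights also sum to one over negative translates. -/
private lemma tsum_wt_neg (τ : Pl F →₀ ℤ) (u : InfinitePlace F → ℝ) :
    ∑' μ : nKer F M,
      ENNReal.ofReal (wt M (τ - ordT F ((μ : Mˣ) : M)) (u - logT ((μ : Mˣ) : M))) = 1 := by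
  rw [← tsum_wt hF hσ τ u]
  conv_rhs => rw [← (Equiv.inv (nKer F M)).tsum_eq]
  refine tsum_congr fun μ => ?_
  rw [Equiv.inv_apply, (neg_ordT μ τ u).1, (neg_ordT μ τ u).2]

include hmul in
omit [IsTotallyComplex F] in
/-- The action of a norm one element moved onto the exponents. -/
private lemma wt_mul_shift (μ : nKer F M) (τ : Pl F →₀ ℤ) (ξ : M) (u : InfinitePlace F → ℝ) :
    (wt M τ (u - logT ((μ : Mˣ) : M)) : ℂ) *
        f τ (u - logT ((μ : Mˣ) : M)) (((μ : Mˣ) : M) * ξ)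
      = (wt M τ (u - logT ((μ : Mˣ) : M)) : ℂ) * f (τ + ordT F ((μ : Mˣ) : M)) u ξ := by
  rw [hmul, sub_add_cancel]

include hF hσ hm hmul in
/-- **The mass of an orbit.** The weighted mass of a family over the translates of `ξ` by the units
of norm one is its total mass at `ξ`. -/
private theorem mass_orbit (ξ : Mˣ) :
    ∑' (τ : Pl F →₀ ℤ) (μ : nKer F M),
        ∫⁻ u, ‖(wt M τ u : ℂ) * f τ u (((μ : Mˣ) : M) * (ξ : M))‖ₑ
      = ∑' τ : Pl F →₀ ℤ, ∫⁻ u, ‖f τ u (ξ : M)‖ₑ := by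
  have := countable_units (M := M)
  have e : ∀ (p : (Pl F →₀ ℤ) × nKer F M),
      ∫⁻ u, ‖(wt M p.1 u : ℂ) * f p.1 u (((p.2 : Mˣ) : M) * (ξ : M))‖ₑ
        = (fun q : (Pl F →₀ ℤ) × nKer F M => ∫⁻ u,
          ENNReal.ofReal (wt M (q.1 - ordT F ((q.2 : Mˣ) : M)) (u - logT ((q.2 : Mˣ) : M)))
            * ‖f q.1 u (ξ : M)‖ₑ) (shearT p) := fun p => by
    rw [← lintegral_sub_right_eq_self _ (logT ((p.2 : Mˣ) : M))]
    refine lintegral_congr fun u => ?_
    simp only [shearT, Equiv.coe_fn_mk, add_sub_cancel_right]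
    rw [wt_mul_shift hmul, enorm_mul, ← ofReal_norm, Complex.norm_real,
      Real.norm_of_nonneg (wt_nonneg _ _)]
  rw [← ENNReal.tsum_prod' (f := fun p : (Pl F →₀ ℤ) × nKer F M =>
      ∫⁻ u, ‖(wt M p.1 u : ℂ) * f p.1 u (((p.2 : Mˣ) : M) * (ξ : M))‖ₑ), tsum_congr e,
    shearT.tsum_eq (f := fun q : (Pl F →₀ ℤ) × nKer F M => ∫⁻ u,
      ENNReal.ofReal (wt M (q.1 - ordT F ((q.2 : Mˣ) : M)) (u - logT ((q.2 : Mˣ) : M)))
        * ‖f q.1 u (ξ : M)‖ₑ), ENNReal.tsum_prod']
  refine tsum_congr fun τ => ?_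
  simp only
  rw [← lintegral_tsum (f := fun (μ : nKer F M) (u : InfinitePlace F → ℝ) =>
    ENNReal.ofReal (wt M (τ - ordT F ((μ : Mˣ) : M)) (u - logT ((μ : Mˣ) : M)))
      * ‖f τ u (ξ : M)‖ₑ) fun μ =>
        (((measurable_wt _).comp (measurable_id.sub_const _)).ennreal_ofReal.mul
          (hm τ _).enorm).aemeasurable]
  refine lintegral_congr fun u => ?_
  rw [ENNReal.tsum_mul_right, tsum_wt_neg hF hσ, one_mul]

include hF hσ hm hmul in
/-- **The weighted sum over an orbit** is the plain sum over the exponents. -/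
private theorem tsum_orbit (ξ : Mˣ) (hfin : ∑' τ, ∫⁻ u, ‖f τ u (ξ : M)‖ₑ ≠ ∞)
    (hs : Summable fun q : (Pl F →₀ ℤ) × nKer F M =>
      ∫ u, (wt M q.1 u : ℂ) * f q.1 u (((q.2 : Mˣ) : M) * (ξ : M))) :
    ∑' q : (Pl F →₀ ℤ) × nKer F M, ∫ u, (wt M q.1 u : ℂ) * f q.1 u (((q.2 : Mˣ) : M) * (ξ : M))
      = ∑' τ, ∫ u, f τ u (ξ : M) := by
  have := countable_units (M := M)
  set J : (Pl F →₀ ℤ) × nKer F M → ℂ := fun q => ∫ u,
    (wt M (q.1 - ordT F ((q.2 : Mˣ) : M)) (u - logT ((q.2 : Mˣ) : M)) : ℂ)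
      * f q.1 u (ξ : M) with hJ
  -- Substituting shifts the weight instead of the argument.
  have hq : ∀ q : (Pl F →₀ ℤ) × nKer F M,
      ∫ u, (wt M q.1 u : ℂ) * f q.1 u (((q.2 : Mˣ) : M) * (ξ : M)) = J (shearT q) := fun q => by
    simp only [hJ, shearT, Equiv.coe_fn_mk, add_sub_cancel_right]
    rw [← integral_sub_right_eq_self _ (logT ((q.2 : Mˣ) : M))]
    exact integral_congr_ae (Eventually.of_forall fun u => wt_mul_shift hmul q.2 q.1 _ u)
  have hJs : Summable J := (shearT.summable_iff).1 (hs.congr hq)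
  -- Reindex by the shear and sum the weights first: they add up to one.
  rw [tsum_congr hq, shearT.tsum_eq, hJs.tsum_prod]
  refine tsum_congr fun τ => ?_
  simp only [hJ]
  rw [← integral_tsum (f := fun (μ : nKer F M) (u : InfinitePlace F → ℝ) =>
    (wt M (τ - ordT F ((μ : Mˣ) : M)) (u - logT ((μ : Mˣ) : M)) : ℂ)
      * f τ u (ξ : M)) (fun μ =>
        ((Complex.measurable_ofReal.comp ((measurable_wt _).comp
          (measurable_id.sub_const _))).mul (hm τ _)).aestronglyMeasurable)]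
  · refine integral_congr_ae (Eventually.of_forall fun u => ?_)
    simp only
    have h := (Equiv.inv (nKer F M)).hasSum_iff.2 (hasSum_wt hF hσ τ u)
    rw [tsum_mul_right]
    have h' : ∑' μ : nKer F M,
        (wt M (τ - ordT F ((μ : Mˣ) : M)) (u - logT ((μ : Mˣ) : M)) : ℂ) = 1 := by
      rw [← h.tsum_eq]
      refine tsum_congr fun μ => ?_
      simp only [Function.comp_apply, Equiv.inv_apply, (neg_ordT μ τ u).1, (neg_ordT μ τ u).2]
    rw [h', one_mul]
  · rw [← lintegral_tsum (f := fun (μ : nKer F M) (u : InfinitePlace F → ℝ) =>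
      ‖(wt M (τ - ordT F ((μ : Mˣ) : M)) (u - logT ((μ : Mˣ) : M)) : ℂ)
        * f τ u (ξ : M)‖ₑ) fun μ =>
          ((((Complex.measurable_ofReal.comp ((measurable_wt _).comp
            (measurable_id.sub_const _))).mul (hm τ _)).enorm).aemeasurable)]
    refine ne_top_of_le_ne_top hfin ?_
    refine le_trans (le_of_eq ?_) (ENNReal.le_tsum τ)
    refine lintegral_congr fun u => ?_
    simp only [enorm_mul]
    rw [ENNReal.tsum_mul_right]
    simp only [← ofReal_norm, Complex.norm_real, Real.norm_of_nonneg (wt_nonneg _ _)]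
    rw [tsum_wt_neg hF hσ, one_mul]

include hF hσ hm hmul in
/-- **Unfolding over the norms.** The sum over norms of `f` at chosen preimages is the weighted sum
of `f` over all units of `M`, both converging under a summable bound. -/
theorem unfold_norms (b : normUnits F M → ℝ) (hb : Summable b)
    (hle : ∀ ξ : Mˣ,
      ∑' τ, ∫⁻ u, ‖f τ u (ξ : M)‖ₑ ≤ ENNReal.ofReal (b ⟨nrm σ ξ, ξ, rfl⟩))
    (sec : normUnits F M → Mˣ) (hsec : ∀ n, nrm σ (sec n) = n.1) :
    ∑' n, ∑' τ, ∫ u, f τ u (sec n : M)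
        = ∑' τ : Pl F →₀ ℤ, ∫ u, (wt M τ u : ℂ) * ∑' ξ : Mˣ, f τ u (ξ : M)
    ∧ (Summable fun τ : Pl F →₀ ℤ => ∫ u, (wt M τ u : ℂ) * ∑' ξ : Mˣ, f τ u (ξ : M))
    ∧ ∀ τ : Pl F →₀ ℤ, Integrable fun u => (wt M τ u : ℂ) * ∑' ξ : Mˣ, f τ u (ξ : M) := by
  have := countable_units (M := M)
  have := countable_units (M := F)
  have hw : ∀ τ ξ, Measurable fun u => (wt M τ u : ℂ) * f τ u ξ := fun τ ξ =>
    (Complex.measurable_ofReal.comp (measurable_wt τ)).mul (hm τ ξ)
  have hnrm : ∀ n : normUnits F M, Units.map (Algebra.norm F : M →* F) (sec n) = n.1 := hsec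
  -- all units from the norms and the kernel
  let e : normUnits F M × nKer F M ≃ Mˣ :=
    { toFun := fun p => (p.2 : Mˣ) * sec p.1
      invFun := fun ξ => (⟨nrm σ ξ, ξ, rfl⟩, ⟨ξ * (sec ⟨nrm σ ξ, ξ, rfl⟩)⁻¹, by
        rw [nKer, MonoidHom.mem_ker, map_mul, map_inv, hnrm]; exact mul_inv_cancel _⟩)
      left_inv := fun p => by
        have h1 : (⟨nrm σ ((p.2 : Mˣ) * sec p.1), _, rfl⟩ : normUnits F M) = p.1 := by
          refine Subtype.ext ?_
          change Units.map _ _ = _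
          rw [map_mul, MonoidHom.mem_ker.1 p.2.2, one_mul, hnrm]
        refine Prod.ext h1 (Subtype.ext ?_)
        simp only [h1, mul_inv_cancel_right]
      right_inv := fun ξ => by simp }
  set I : (Pl F →₀ ℤ) × (normUnits F M × nKer F M) → ℂ := fun p =>
    ∫ u, (wt M p.1 u : ℂ) * f p.1 u ((e p.2 : Mˣ) : M)
  set L : (Pl F →₀ ℤ) × (normUnits F M × nKer F M) → ℝ≥0∞ := fun p =>
    ∫⁻ u, ‖(wt M p.1 u : ℂ) * f p.1 u ((e p.2 : Mˣ) : M)‖ₑ
  have hL : ∑' p, L p ≠ ∞ := by
    refine ne_top_of_le_ne_top (b := ∑' n, ENNReal.ofReal (max (b n) 0)) ?_ ?_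
    · rw [← ENNReal.ofReal_tsum_of_nonneg (fun n => le_max_right _ _)
        (Summable.of_nonneg_of_le (fun n => le_max_right _ _)
          (fun n => max_le (le_abs_self _) (abs_nonneg _)) hb.abs)]
      exact ENNReal.ofReal_ne_top
    rw [ENNReal.tsum_prod']
    simp only [ENNReal.tsum_prod']
    rw [ENNReal.tsum_comm]
    refine ENNReal.tsum_le_tsum fun n => ?_
    simp only [L, e, Equiv.coe_fn_mk, Units.val_mul]
    rw [mass_orbit hF hσ hm hmul]
    refine (hle (sec n)).trans (ENNReal.ofReal_le_ofReal ?_)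
    rw [show (⟨nrm σ (sec n), sec n, rfl⟩ : normUnits F M) = n from Subtype.ext (hsec n)]
    exact le_max_left _ _
  have hI : Summable I := by
    refine Summable.of_norm_bounded (g := fun p => (L p).toReal)
      (ENNReal.summable_toReal hL) fun p => ?_
    refine (norm_integral_le_lintegral_norm _).trans (le_of_eq ?_)
    simp only [L, ofReal_norm]
  -- the orbit sums
  have horb : ∀ n : normUnits F M, ∑' q : (Pl F →₀ ℤ) × nKer F M, I (q.1, (n, q.2))
      = ∑' τ, ∫ u, f τ u ((sec n : Mˣ) : M) := fun n =>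
    tsum_orbit hF hσ hm hmul (sec n)
      (ne_top_of_le_ne_top ENNReal.ofReal_ne_top (hle (sec n)))
      (hI.comp_injective (i := fun q : (Pl F →₀ ℤ) × nKer F M => (q.1, (n, q.2))) fun a b h => by
        simp only [Prod.mk.injEq, true_and] at h
        exact Prod.ext h.1 h.2)
  -- assemble
  have h1 : ∑' n, ∑' τ, ∫ u, f τ u ((sec n : Mˣ) : M) = ∑' p, I p := by
    rw [tsum_congr fun n => (horb n).symm]
    let e2 : normUnits F M × ((Pl F →₀ ℤ) × nKer F M) ≃ (Pl F →₀ ℤ) × (normUnits F M × nKer F M) :=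
      { toFun := fun p => (p.2.1, (p.1, p.2.2))
        invFun := fun p => (p.2.1, (p.1, p.2.2))
        left_inv := fun p => rfl
        right_inv := fun p => rfl }
    rw [← e2.tsum_eq I]
    exact ((e2.summable_iff.2 hI).tsum_prod).symm
  have hmeas : ∀ τ : Pl F →₀ ℤ, ∑' q, L (τ, q) ≠ ∞ := fun τ => by
    refine ne_top_of_le_ne_top hL ?_
    rw [ENNReal.tsum_prod' (f := L)]
    exact ENNReal.le_tsum (f := fun τ => ∑' q, L (τ, q)) τ
  have hfun : ∀ τ : Pl F →₀ ℤ, (fun u => (wt M τ u : ℂ) * ∑' ξ : Mˣ, f τ u (ξ : M))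
      = fun u => ∑' q : normUnits F M × nKer F M, (wt M τ u : ℂ) * f τ u ((e q : Mˣ) : M) :=
    fun τ => funext fun u => by rw [tsum_mul_left, e.tsum_eq (fun ξ : Mˣ => f τ u (ξ : M))]
  refine ⟨?_, ?_, fun τ => ?_⟩
  · rw [h1, hI.tsum_prod]
    refine tsum_congr fun τ => ?_
    rw [hfun τ]
    exact (integral_tsum (fun q => (hw τ _).aestronglyMeasurable) (hmeas τ)).symm
  · refine hI.prod.congr fun τ => ?_
    rw [hfun τ]
    exact (integral_tsum (fun q => (hw τ _).aestronglyMeasurable) (hmeas τ)).symm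
  · rw [hfun τ]
    have hm' : ∀ q : normUnits F M × nKer F M, AEMeasurable
        (fun u => ‖(wt M τ u : ℂ) * f τ u ((e q : Mˣ) : M)‖ₑ) volume :=
      fun q => (hw τ _).enorm.aemeasurable
    have hfin : ∫⁻ u, ∑' q : normUnits F M × nKer F M,
        ‖(wt M τ u : ℂ) * f τ u ((e q : Mˣ) : M)‖ₑ ≠ ∞ := by
      rw [lintegral_tsum hm']; exact hmeas τ
    have hsum : ∀ᵐ u ∂(volume : Measure (InfinitePlace F → ℝ)),
        Summable fun q : normUnits F M × nKer F M =>
          (wt M τ u : ℂ) * f τ u ((e q : Mˣ) : M) := by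
      refine (ae_lt_top' (AEMeasurable.tsum hm') hfin).mono fun u hu => ?_
      exact Summable.of_norm (tsum_enorm_ne_top_iff_summable_norm.1 hu.ne)
    refine ⟨aestronglyMeasurable_of_tendsto_ae
      (atTop : Filter (Finset (normUnits F M × nKer F M))) (fun s => ?_)
      (hsum.mono fun u hu => hu.hasSum), ?_⟩
    · exact (Finset.measurable_sum s fun q _ => hw τ _).aestronglyMeasurable
    · refine lt_of_le_of_lt (lintegral_mono_ae (hsum.mono fun u hu => ?_))
        (lt_top_iff_ne_top.2 hfin)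
      exact enorm_tsum_le_tsum_enorm

end Fermat.LT.Theta
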