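import Fermat.Agent.LT.Theta.Side
import Fermat.Agent.LT.Theta.AuxField

/-!
# Pairs of inert places with trivial Artin symbol

`exists_pair`: two unramified inert places are the symbols of an element with trivial Artin map.
-/

set_option autoImplicit false
set_option linter.unusedSectionVars false

noncomputable section

open NumberField Fermat.CFT
open scoped Pointwise Classical symmDiff

namespace Fermat.LT.Theta

variable {K : Type} [Field K] [NumberField K] [IsTotallyComplex K]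
  {F : Type} [Field F] [NumberField F] [Algebra K F] [IsGalois K F]
  {N : Type} [Field N] [NumberField N] [Algebra K N] [IsGalois K N]
  [Algebra F N] [IsScalarTower K F N]

/-- Unramified in the auxiliary field away from the given places. -/
lemma auxField_unram (ℓ₁ ℓ₂ : ℕ) [Fact ℓ₁.Prime] [Fact ℓ₂.Prime]
    {ζ₁ ζ₂ : auxField K N ℓ₁ ℓ₂} (h1 : IsPrimitiveRoot ζ₁ ℓ₁) (h2 : IsPrimitiveRoot ζ₂ ℓ₂)
    [IsGalois K (auxField K N ℓ₁ ℓ₂)] {W : Pl (auxField K N ℓ₁ ℓ₂)}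
    (hN : plRamIdx K (plUnder N W) = 1) (hl1 : (ℓ₁ : 𝓞 K) ∉ (plUnder K W).asIdeal)
    (hl2 : (ℓ₂ : 𝓞 K) ∉ (plUnder K W).asIdeal) : plRamIdx K W = 1 := by
  refine plRamIdx_eq_one_of_inertia W fun g hg => ?_
  have hc : Congr g W 1 := fun x => by rw [pow_one]; exact hg x
  have hres : g.restrictNormal N = 1 := Congr.eq_of_congr hN hc.restrictNormal Congr.one
  refine auxField_ext N ℓ₁ ℓ₂ h1 h2 (fun x => ?_)
    (apply_root_eq_of_inertia h1 (fun h => hl1 ((natCast_mem_plUnder W ℓ₁).mpr h)) hg)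
    (apply_root_eq_of_inertia h2 (fun h => hl2 ((natCast_mem_plUnder W ℓ₂).mpr h)) hg)
  rw [← AlgEquiv.restrictNormal_commutes g N x, hres]
  rfl

omit [IsTotallyComplex K] in
/-- The auxiliary field is abelian. -/
lemma auxField_comm (ℓ₁ ℓ₂ : ℕ) [Fact ℓ₁.Prime] [Fact ℓ₂.Prime]
    {ζ₁ ζ₂ : auxField K N ℓ₁ ℓ₂} (h1 : IsPrimitiveRoot ζ₁ ℓ₁) (h2 : IsPrimitiveRoot ζ₂ ℓ₂)
    (hN : ∀ a b : N ≃ₐ[K] N, a * b = b * a)
    (a b : auxField K N ℓ₁ ℓ₂ ≃ₐ[K] auxField K N ℓ₁ ℓ₂) : a * b = b * a := by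
  have hroot : ∀ {ℓ : ℕ} [Fact ℓ.Prime] {ζ : auxField K N ℓ₁ ℓ₂}, IsPrimitiveRoot ζ ℓ →
      ((b * a)⁻¹ * (a * b)) ζ = ζ := by
    intro ℓ _ ζ hζ
    have h : hζ.autToPow K ((b * a)⁻¹ * (a * b)) = 1 := by
      rw [map_mul, map_inv, map_mul, map_mul, mul_comm (hζ.autToPow K b), inv_mul_cancel]
    have h' := hζ.autToPow_spec K ((b * a)⁻¹ * (a * b))
    rw [h, Units.val_one, ZMod.val_one, pow_one] at h'
    exact h'.symm
  have hres : AlgEquiv.restrictNormalHom N ((b * a)⁻¹ * (a * b)) = 1 := by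
    rw [map_mul, map_inv, map_mul, map_mul, hN (AlgEquiv.restrictNormalHom N a), inv_mul_cancel]
  have := auxField_ext N ℓ₁ ℓ₂ h1 h2 (g := (b * a)⁻¹ * (a * b)) (fun x => by
    rw [← AlgEquiv.restrictNormal_commutes _ N x]
    exact congrArg _ (by rw [show ((b * a)⁻¹ * (a * b)).restrictNormal N = 1 from hres]; rfl))
    (hroot h1) (hroot h2)
  exact (inv_mul_eq_one.mp this).symm

/-- Automorphisms fixing `N` and the first roots reach every power of the second ones. -/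
lemma exists_fix_pow (ℓ₁ ℓ₂ : ℕ) [Fact ℓ₁.Prime] [Fact ℓ₂.Prime] (hne : ℓ₁ ≠ ℓ₂)
    {ζ₁ ζ₂ : auxField K N ℓ₁ ℓ₂} (h1 : IsPrimitiveRoot ζ₁ ℓ₁) (h2 : IsPrimitiveRoot ζ₂ ℓ₂)
    [IsGalois K (auxField K N ℓ₁ ℓ₂)]
    (hNunr : ∀ u : Pl N, (ℓ₂ : 𝓞 K) ∈ (plUnder K u).asIdeal → plRamIdx K u = 1)
    (hord : ∀ v : Pl K, (ℓ₂ : 𝓞 K) ∈ v.asIdeal → CFT.ord v (ℓ₂ : K) = 1) (c : (ZMod ℓ₂)ˣ) :
    ∃ u : auxField K N ℓ₁ ℓ₂ ≃ₐ[K] auxField K N ℓ₁ ℓ₂,
      u.restrictNormal N = 1 ∧ u ζ₁ = ζ₁ ∧ h2.autToPow K u = c := by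
  -- a place over `ℓ₂`; inertia there fixes `N` and `ζ₁`
  obtain ⟨W, hW⟩ : ∃ W : Pl (auxField K N ℓ₁ ℓ₂), (ℓ₂ : 𝓞 (auxField K N ℓ₁ ℓ₂)) ∈ W.asIdeal := by
    obtain ⟨M, hM, hle⟩ :=
        Ideal.exists_le_maximal (Ideal.span {(ℓ₂ : 𝓞 (auxField K N ℓ₁ ℓ₂))}) fun h => by
      have h1 := congrArg Ideal.absNorm h
      rw [CFT.absNorm_span_natCast, Ideal.absNorm_top] at h1
      exact (Nat.one_lt_pow Module.finrank_pos.ne' (Fact.out : ℓ₂.Prime).one_lt).ne' h1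
    have hmem := hle (Ideal.mem_span_singleton_self _)
    exact ⟨⟨M, hM.isPrime, fun h => (show (ℓ₂ : 𝓞 (auxField K N ℓ₁ ℓ₂)) ≠ 0 by
      exact_mod_cast (Fact.out : ℓ₂.Prime).ne_zero) (by simpa [h] using hmem)⟩, hmem⟩
  have hWK : (ℓ₂ : 𝓞 K) ∈ (plUnder K W).asIdeal := (natCast_mem_plUnder W ℓ₂).mpr hW
  have hℓ1 : (ℓ₁ : 𝓞 (auxField K N ℓ₁ ℓ₂)) ∉ W.asIdeal := by
    intro h
    refine W.isPrime.ne_top ((Ideal.eq_top_iff_one _).mpr ?_)
    have hco : IsCoprime (ℓ₁ : ℤ) (ℓ₂ : ℤ) := Int.isCoprime_iff_gcd_eq_one.mpr (by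
      simpa using (Nat.coprime_primes Fact.out Fact.out).mpr hne)
    obtain ⟨r, s, hrs⟩ := hco
    have : (r : 𝓞 (auxField K N ℓ₁ ℓ₂)) * (ℓ₁ : 𝓞 (auxField K N ℓ₁ ℓ₂)) +
        (s : 𝓞 (auxField K N ℓ₁ ℓ₂)) * (ℓ₂ : 𝓞 (auxField K N ℓ₁ ℓ₂)) = 1 := by
      exact_mod_cast congrArg (fun z : ℤ => (z : 𝓞 (auxField K N ℓ₁ ℓ₂))) hrs
    rw [← this]
    exact W.asIdeal.add_mem (Ideal.mul_mem_left _ _ h) (Ideal.mul_mem_left _ _ hW)
  set I := W.asIdeal.inertia ((auxField K N ℓ₁ ℓ₂) ≃ₐ[K] (auxField K N ℓ₁ ℓ₂))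
  have hIfix : ∀ g ∈ I, g.restrictNormal N = 1 ∧ g ζ₁ = ζ₁ := by
    intro g hg
    have hc : Congr g W 1 := fun x => by rw [pow_one]; exact hg x
    exact ⟨Congr.eq_of_congr (hNunr _ (by rwa [plUnder_plUnder'])) hc.restrictNormal Congr.one,
      apply_root_eq_of_inertia h1 hℓ1 hg⟩
  set φ := (h2.autToPow K).comp I.subtype
  -- it acts faithfully on `ζ₂`
  have hinj : Function.Injective φ := by
    rw [injective_iff_map_eq_one]
    rintro ⟨g, hg⟩ hφ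
    refine Subtype.ext (auxField_ext N ℓ₁ ℓ₂ h1 h2 (fun x => ?_) (hIfix g hg).2 ?_)
    · rw [← AlgEquiv.restrictNormal_commutes g N x, (hIfix g hg).1]; rfl
    · have h' := h2.autToPow_spec K g
      rw [show h2.autToPow K g = 1 from hφ, Units.val_one, ZMod.val_one, pow_one] at h'
      exact h'.symm
  -- and has order at least `ℓ₂ - 1`
  have hcardI : ℓ₂ - 1 ≤ Nat.card I := by
    have : Finite (𝓞 K ⧸ (plUnder K W).asIdeal) :=
      Ideal.finiteQuotientOfFreeOfNeBot _ (plUnder K W).ne_bot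
    have h3 := Ideal.card_inertia_eq_ramificationIdxIn
      (G := (auxField K N ℓ₁ ℓ₂) ≃ₐ[K] (auxField K N ℓ₁ ℓ₂)) (plUnder K W).asIdeal W.asIdeal
    rw [Ideal.ramificationIdxIn_eq_ramificationIdx (plUnder K W).asIdeal W.asIdeal
      ((auxField K N ℓ₁ ℓ₂) ≃ₐ[K] (auxField K N ℓ₁ ℓ₂)), ← plRamIdx_eq] at h3
    have h4 := CFT.ord_algebraMap_eq (K := K) W (ℓ₂ : K)
    rw [map_natCast, hord _ hWK, mul_one, ord_natCast_prime h2 W] at h4
    have h5 : (plRamIdx K W : ℤ) = ((ℓ₂ - 1) * zetaOrd ζ₂ W : ℕ) := by rw [← h4]; push_cast; ring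
    have h6 : plRamIdx K W = (ℓ₂ - 1) * zetaOrd ζ₂ W := by exact_mod_cast h5
    change ℓ₂ - 1 ≤ Nat.card (W.asIdeal.inertia ((auxField K N ℓ₁ ℓ₂) ≃ₐ[K] (auxField K N ℓ₁ ℓ₂)))
    rw [h3, h6]
    refine Nat.le_mul_of_pos_right _ (Nat.pos_of_ne_zero fun h0 => ?_)
    rw [h0, mul_zero] at h6
    exact (plRamIdx_pos (K := K) W).ne' h6
  have hsurj : Function.Surjective φ := by
    refine (hinj.bijective_of_nat_card_le ?_).2
    rw [Nat.card_eq_fintype_card (α := (ZMod ℓ₂)ˣ), ZMod.card_units]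
    exact hcardI
  obtain ⟨⟨g, hg⟩, hgc⟩ := hsurj c
  exact ⟨g, (hIfix g hg).1, (hIfix g hg).2, hgc⟩

/-- Fixing the roots of unity in the Frobenius subgroup forces fixing `N`. -/
lemma restrict_eq_one_of_mem {Ω : Type} [Field Ω] [NumberField Ω] [Algebra K Ω] [IsGalois K Ω]
    [Algebra N Ω] [IsScalarTower K N Ω] (R : Pl K) {ℓ : ℕ} [Fact ℓ.Prime] {ζ : Ω}
    (hζ : IsPrimitiveRoot ζ ℓ) {a : ℕ} (hcard : Nat.card (N ≃ₐ[K] N) = 2 ^ a)
    (hq : ∀ j : ℕ, (resCard R : ZMod ℓ) ^ j = 1 → 2 ^ a ∣ j) (hℓR : (ℓ : 𝓞 K) ∉ R.asIdeal)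
    {g : Ω ≃ₐ[K] Ω} (hg : g ∈ Subgroup.zpowers (frobEl K (plOver Ω R)) ⊔
      ((AlgEquiv.restrictNormalHom N).ker ⊓ (hζ.autToPow K).ker)) (hgζ : g ζ = ζ) :
    g.restrictNormal N = 1 := by
  have : (AlgEquiv.restrictNormalHom N (F := K) (K₁ := Ω)).ker.Normal := MonoidHom.normal_ker _
  have hnorm :
      ((AlgEquiv.restrictNormalHom N (F := K) (K₁ := Ω)).ker ⊓ (hζ.autToPow K).ker).Normal :=
    Subgroup.normal_inf_normal _ _
  obtain ⟨s, hs, u, hu, rfl⟩ := Subgroup.mem_sup_of_normal_right.mp hg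
  obtain ⟨i, rfl⟩ := Subgroup.mem_zpowers_iff.mp hs
  obtain ⟨huN, huζ⟩ := Subgroup.mem_inf.mp hu
  -- the Frobenius power fixes `ζ`
  have hsζ : hζ.autToPow K (frobEl K (plOver Ω R) ^ i * u) = 1 := by
    apply Units.ext
    have h' := hζ.autToPow_spec K (frobEl K (plOver Ω R) ^ i * u)
    rw [hgζ] at h'
    have hval := hζ.pow_inj (ZMod.val_lt _) (Fact.out : ℓ.Prime).one_lt (h'.trans (pow_one ζ).symm)
    rw [← ZMod.natCast_zmod_val ((hζ.autToPow K _ : (ZMod ℓ)ˣ) : ZMod ℓ), hval, Units.val_one,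
      Nat.cast_one]
  rw [map_mul, MonoidHom.mem_ker.mp huζ, mul_one, map_zpow] at hsζ
  set q' := hζ.autToPow K (frobEl K (plOver Ω R)) with hq'
  have hq'v : (q' : ZMod ℓ) = resCard R := by
    have := autToPow_frob hζ (congr_frobEl (K := K) (plOver Ω R))
      (fun h => hℓR ((plUnder_plOver (N := Ω) R) ▸ (natCast_mem_plUnder _ ℓ).mpr h))
    rwa [plUnder_plOver] at this
  -- so its exponent is divisible by the group order `2 ^ a`
  have hdvd : (2 ^ a : ℕ) ∣ orderOf q' := hq _ (by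
    rw [← hq'v, ← Units.val_pow_eq_pow_val, pow_orderOf_eq_one, Units.val_one])
  have hi : ((2 ^ a : ℕ) : ℤ) ∣ i :=
    (Int.natCast_dvd_natCast.mpr hdvd).trans (orderOf_dvd_iff_zpow_eq_one.mpr hsζ)
  change AlgEquiv.restrictNormalHom N (frobEl K (plOver Ω R) ^ i * u) = 1
  rw [map_mul, MonoidHom.mem_ker.mp huN, mul_one, map_zpow]
  obtain ⟨j, rfl⟩ := hi
  rw [zpow_mul, zpow_natCast, ← hcard, pow_card_eq_one', one_zpow]

variable (hF : Module.finrank K F = 2) {σ : F ≃ₐ[K] F} (hσ : σ ≠ 1)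
  (hcy : IsCyclic (N ≃ₐ[K] N)) {a : ℕ} (hcard : Nat.card (N ≃ₐ[K] N) = 2 ^ a)

/-- Two auxiliary primes away from the given places, with Frobenius of order a
multiple of `2 ^ a`. -/
private lemma exists_aux_primes (P Q : Pl K) (S : Finset (Pl K)) (a : ℕ) :
    ∃ ℓ₁ ℓ₂ : ℕ, ℓ₁.Prime ∧ ℓ₂.Prime ∧ ℓ₁ ≠ ℓ₂ ∧
      (∀ j : ℕ, (resCard P : ZMod ℓ₁) ^ j = 1 → 2 ^ a ∣ j) ∧
      (∀ j : ℕ, (resCard Q : ZMod ℓ₂) ^ j = 1 → 2 ^ a ∣ j) ∧
      (∀ v ∈ S, (ℓ₁ : 𝓞 K) ∉ v.asIdeal ∧ (ℓ₂ : 𝓞 K) ∉ v.asIdeal) ∧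
      ∀ v : Pl K, (ℓ₂ : 𝓞 K) ∈ v.asIdeal → CFT.ord v (ℓ₂ : K) = 1 := by
  set B : Finset ℕ := (finite_primes_under S).toFinset ∪
    (finite_ord_natCast_ne_one (K := K)).toFinset with hB
  obtain ⟨ℓ₁, hℓ₁, hB₁, -, -, hq₁⟩ := exists_prime_order (resCard P) a (one_lt_resCard P) B
  obtain ⟨ℓ₂, hℓ₂, hB₂, -, -, hq₂⟩ :=
    exists_prime_order (resCard Q) a (one_lt_resCard Q) (insert ℓ₁ B)
  rw [Finset.mem_insert, not_or] at hB₂
  have hout : ∀ ℓ : ℕ, ℓ.Prime → ℓ ∉ B → (∀ v ∈ S, (ℓ : 𝓞 K) ∉ v.asIdeal) ∧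
      ∀ v : Pl K, (ℓ : 𝓞 K) ∈ v.asIdeal → CFT.ord v (ℓ : K) = 1 := by
    intro ℓ hℓ hℓB
    simp only [hB, Finset.mem_union, Set.Finite.mem_toFinset, not_or] at hℓB
    refine ⟨fun v hv h => hℓB.1 ⟨hℓ, v, hv, h⟩, fun v hv => ?_⟩
    by_contra h
    exact hℓB.2 ⟨hℓ, v, hv, h⟩
  obtain ⟨hout₁, -⟩ := hout ℓ₁ hℓ₁ hB₁
  obtain ⟨hout₂, hord₂⟩ := hout ℓ₂ hℓ₂ hB₂.2
  exact ⟨ℓ₁, ℓ₂, hℓ₁, hℓ₂, Ne.symm hB₂.1, hq₁, hq₂, fun v hv => ⟨hout₁ v hv, hout₂ v hv⟩, hord₂⟩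

omit [IsTotallyComplex K] in
/-- The places of `T` and those over two primes form a finite set. -/
private lemma finite_aux_places (T : Finset (Pl K)) {ℓ₁ ℓ₂ : ℕ} (hℓ₁ : ℓ₁.Prime) (hℓ₂ : ℓ₂.Prime) :
    ((T : Set (Pl K)) ∪ {v | (ℓ₁ : 𝓞 K) ∈ v.asIdeal ∨ (ℓ₂ : 𝓞 K) ∈ v.asIdeal}).Finite := by
  refine T.finite_toSet.union (((CFT.finite_ord_ne_zero (ℓ₁ : K)).union
    (CFT.finite_ord_ne_zero (ℓ₂ : K))).subset ?_)
  rintro v (h | h)
  · refine Or.inl ?_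
    have := (ord_algebraMap_pos_iff v (r := (ℓ₁ : 𝓞 K)) (by exact_mod_cast hℓ₁.ne_zero)).mpr h
    exact ne_of_gt (by simpa using this)
  · refine Or.inr ?_
    have := (ord_algebraMap_pos_iff v (r := (ℓ₂ : 𝓞 K)) (by exact_mod_cast hℓ₂.ne_zero)).mpr h
    exact ne_of_gt (by simpa using this)

/-- An element in both Frobenius subgroups restricting to the second Frobenius on `N`. -/
private lemma exists_common_elt (ℓ₁ ℓ₂ : ℕ) [Fact ℓ₁.Prime] [Fact ℓ₂.Prime] (hne : ℓ₁ ≠ ℓ₂)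
    {ζ₁ ζ₂ : auxField K N ℓ₁ ℓ₂} (h1 : IsPrimitiveRoot ζ₁ ℓ₁) (h2 : IsPrimitiveRoot ζ₂ ℓ₂)
    [IsGalois K (auxField K N ℓ₁ ℓ₂)]
    (hNunr : ∀ u : Pl N, (ℓ₂ : 𝓞 K) ∈ (plUnder K u).asIdeal → plRamIdx K u = 1)
    (hord : ∀ v : Pl K, (ℓ₂ : 𝓞 K) ∈ v.asIdeal → CFT.ord v (ℓ₂ : K) = 1)
    (sP sQ : auxField K N ℓ₁ ℓ₂ ≃ₐ[K] auxField K N ℓ₁ ℓ₂)
    (hgen : orderOf (sP.restrictNormal N) = Nat.card (N ≃ₐ[K] N)) :
    ∃ t, t ∈ Subgroup.zpowers sP ⊔ ((AlgEquiv.restrictNormalHom N).ker ⊓ (h1.autToPow K).ker) ∧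
      t ∈ Subgroup.zpowers sQ ⊔ ((AlgEquiv.restrictNormalHom N).ker ⊓ (h2.autToPow K).ker) ∧
      t.restrictNormal N = sQ.restrictNormal N := by
  -- on `N`, `sQ` is a power of `sP`
  obtain ⟨k, hk⟩ : ∃ k : ℤ, sP.restrictNormal N ^ k = sQ.restrictNormal N := by
    refine Subgroup.mem_zpowers_iff.mp ?_
    rw [(Subgroup.card_eq_iff_eq_top _).mp (show Nat.card (Subgroup.zpowers (sP.restrictNormal N)) =
      Nat.card (N ≃ₐ[K] N) by rw [Nat.card_zpowers, hgen])]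
    exact Subgroup.mem_top _
  -- correct by `u`, trivial on `N` and on `ζ₁`, prescribed on `ζ₂`
  obtain ⟨u, huN, huζ, huc⟩ := exists_fix_pow (N := N) ℓ₁ ℓ₂ hne h1 h2 hNunr hord
    ((h2.autToPow K (sP ^ k))⁻¹ * h2.autToPow K sQ)
  set t := sP ^ k * u with ht
  have htN : t.restrictNormal N = sQ.restrictNormal N := by
    change AlgEquiv.restrictNormalHom N (sP ^ k * u) = _
    rw [map_mul, map_zpow, show AlgEquiv.restrictNormalHom N u = 1 from huN, mul_one]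
    exact hk
  refine ⟨t, ?_, ?_, htN⟩
  · refine Subgroup.mul_mem_sup (Subgroup.zpow_mem_zpowers _ k)
      (Subgroup.mem_inf.mpr ⟨huN, ?_⟩)
    rw [MonoidHom.mem_ker]
    apply Units.ext
    have h' := h1.autToPow_spec K u
    rw [huζ] at h'
    have hval := h1.pow_inj (ZMod.val_lt _) (Fact.out : ℓ₁.Prime).one_lt
      (h'.trans (pow_one ζ₁).symm)
    rw [← ZMod.natCast_zmod_val ((h1.autToPow K u : (ZMod ℓ₁)ˣ) : ZMod ℓ₁), hval, Units.val_one,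
      Nat.cast_one]
  · have : t = sQ * (sQ⁻¹ * t) := by rw [mul_inv_cancel_left]
    rw [this]
    refine Subgroup.mul_mem_sup (Subgroup.mem_zpowers _) (Subgroup.mem_inf.mpr ⟨?_, ?_⟩)
    · rw [MonoidHom.mem_ker, map_mul, map_inv,
        show AlgEquiv.restrictNormalHom N t = AlgEquiv.restrictNormalHom N sQ from htN,
        inv_mul_cancel]
    · rw [MonoidHom.mem_ker, map_mul, map_inv, ht, map_mul, huc, mul_inv_cancel_left,
        inv_mul_cancel]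

include hF hσ in
/-- An unramified inert place has Frobenius nontrivial on `F`. -/
private lemma frobEl_restrict_ne_one {Ω : Type} [Field Ω] [NumberField Ω] [Algebra K Ω]
    [IsGalois K Ω] [Algebra F Ω] [IsScalarTower K F Ω] (T' : Set (Pl K))
    (hun : ∀ W : Pl Ω, plUnder K W ∉ T' → plRamIdx K W = 1) {R : Pl K} (hR : R ∉ T')
    (hRns : IsNonsplit σ R) {W : Pl Ω} (hW : plUnder K W = R) :
    (frobEl K W).restrictNormal F ≠ 1 := by
  have hram := not_mem_ramPl_of_not_mem (Ω := Ω) (F := F) T' hun hR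
  refine (isNonsplit_iff_congr hF hσ (w := plUnder F W) ((plUnder_plUnder' (N := F) W).trans hW)
    (plRamIdx_eq_one_of_not_ram hram ((plUnder_plUnder' (N := F) W).trans hW)) ?_).mp hRns
  rw [← hW]
  exact (congr_frobEl (K := K) W).restrictNormal

omit [IsTotallyComplex K] in
/-- The symbols of two pairs sharing a place combine. -/
private lemma pair_symmDiff {P Q b : Pl K} (hP : b ≠ P) (hQ : b ≠ Q) :
    ({P, b} : Set (Pl K)) ∆ {Q, b} = {P} ∆ {Q} := by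
  ext v
  simp only [Set.mem_symmDiff, Set.mem_insert_iff, Set.mem_singleton_iff]
  constructor
  · rintro (⟨rfl | rfl, h⟩ | ⟨rfl | rfl, h⟩)
    · exact Or.inl ⟨rfl, fun e => h (Or.inl e)⟩
    · exact absurd (Or.inr rfl) h
    · exact Or.inr ⟨rfl, fun e => h (Or.inl e)⟩
    · exact absurd (Or.inr rfl) h
  · rintro (⟨rfl, h⟩ | ⟨rfl, h⟩)
    · exact Or.inl ⟨Or.inl rfl, fun e => e.elim h (fun e => hP e.symm)⟩
    · exact Or.inr ⟨Or.inl rfl, fun e => e.elim h (fun e => hQ e.symm)⟩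

include hF hσ hcy hcard in
/-- **Pairs.** Two unramified inert places are the symbols of an element with trivial Artin map. -/
theorem exists_pair {A : Type*} [CommGroup A] (χ : (N ≃ₐ[K] N) →* A) {T : Finset (Pl K)}
    (hT : ∀ u : Pl N, plUnder K u ∉ T → plRamIdx K u = 1) (n : ℕ) {P Q : Pl K} (hP : P ∉ T)
    (hQ : Q ∉ T) (hPns : IsNonsplit σ P) (hQns : IsNonsplit σ Q) :
    ∃ x : Kˣ, nonNorm σ x = {P} ∆ {Q} ∧ (∀ v ∈ T, CloseOne v n (x : K)) ∧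
      art χ (T : Set (Pl K)) (x : K) = 1 := by
  obtain ⟨ℓ₁, ℓ₂, hℓ₁, hℓ₂, hne, hq₁, hq₂, hout, hord₂⟩ :=
    exists_aux_primes P Q (insert P (insert Q T)) a
  have : Fact ℓ₁.Prime := ⟨hℓ₁⟩
  have : Fact ℓ₂.Prime := ⟨hℓ₂⟩
  set Ω := auxField K N ℓ₁ ℓ₂
  let _ : Algebra F Ω := ((algebraMap N Ω).comp (algebraMap F N)).toAlgebra
  have : IsScalarTower F N Ω := IsScalarTower.of_algebraMap_eq fun _ => rfl
  have : IsScalarTower K F Ω := IsScalarTower.of_algebraMap_eq fun x => by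
    rw [IsScalarTower.algebraMap_apply F N Ω, ← IsScalarTower.algebraMap_apply K F N,
      ← IsScalarTower.algebraMap_apply K N Ω]
  have := auxField_isGalois (K := K) N ℓ₁ ℓ₂
  obtain ⟨ζ₁, ζ₂, h1, h2⟩ := exists_auxField_roots (K := K) N ℓ₁ ℓ₂
  have hc := auxField_comm ℓ₁ ℓ₂ h1 h2 fun x y => (hcy.commGroup).mul_comm x y
  set T' : Set (Pl K) := (T : Set (Pl K)) ∪
    {v | (ℓ₁ : 𝓞 K) ∈ v.asIdeal ∨ (ℓ₂ : 𝓞 K) ∈ v.asIdeal} with hT'def
  have hT'fin : T'.Finite := finite_aux_places T hℓ₁ hℓ₂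
  have hun : ∀ W : Pl Ω, plUnder K W ∉ T' → plRamIdx K W = 1 := by
    intro W hW
    simp only [hT'def, Set.mem_union, Finset.mem_coe, Set.mem_ofPred_eq, not_or] at hW
    exact auxField_unram ℓ₁ ℓ₂ h1 h2 (hT _ (by rw [plUnder_plUnder']; exact hW.1)) hW.2.1 hW.2.2
  have hPT : P ∉ T' := fun h => h.elim hP fun h => h.elim (hout P (by simp)).1 (hout P (by simp)).2
  have hQT : Q ∉ T' := fun h => h.elim hQ fun h => h.elim (hout Q (by simp)).1 (hout Q (by simp)).2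
  -- a common element acting nontrivially on `F`
  obtain ⟨t, htP, htQ, htN⟩ := exists_common_elt (N := N) ℓ₁ ℓ₂ hne h1 h2
    (fun w hw => hT w fun h => (hout (plUnder K w)
      (Finset.mem_insert_of_mem (Finset.mem_insert_of_mem h))).2 hw) hord₂
    (frobEl K (plOver Ω P)) (frobEl K (plOver Ω Q)) (by
      rw [hcard]
      refine orderOf_of_restrict_ne_one (F := F) hcy hcard hF ?_
      rw [restrictNormal_restrictNormal]
      exact frobEl_restrict_ne_one hF hσ T' hun hPT hPns (plUnder_plOver P))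
  have htF : t.restrictNormal F ≠ 1 := by
    rw [← restrictNormal_restrictNormal (N := N), htN, restrictNormal_restrictNormal]
    exact frobEl_restrict_ne_one hF hσ T' hun hQT hQns (plUnder_plOver Q)
  obtain ⟨W, f, hfodd, hWT, hWR', hWf, hR⟩ := exists_common_place hc hF hσ T' hT'fin hun htF
    ({P, Q} : Finset (Pl K))
  simp only [Finset.mem_insert, Finset.mem_singleton, not_or] at hWR'
  obtain ⟨x, hx, hxn, hxA⟩ := exists_pair_of_subgroup (N := N) hc hF hσ T' hT'fin hun _ h1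
    (fun v h => Or.inr (Or.inl h))
    (fun g hg hgζ => restrict_eq_one_of_mem P h1 hcard hq₁ (hout P (by simp)).1 hg hgζ) χ (n + 1)
    odd_one hfodd (W := plOver Ω P) (W' := W) (by rwa [plUnder_plOver]) hWT
    (by rw [plUnder_plOver]; exact Ne.symm hWR'.1)
    (by rw [pow_one]; exact Subgroup.mem_sup_left (Subgroup.mem_zpowers _))
    (Subgroup.zpowers_le.mpr htP hWf) (by rwa [plUnder_plOver]) hR
  obtain ⟨y, hy, hyn, hyA⟩ := exists_pair_of_subgroup (N := N) hc hF hσ T' hT'fin hun _ h2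
    (fun v h => Or.inr (Or.inr h))
    (fun g hg hgζ => restrict_eq_one_of_mem Q h2 hcard hq₂ (hout Q (by simp)).2 hg hgζ) χ (n + 1)
    odd_one hfodd (W := plOver Ω Q) (W' := W) (by rwa [plUnder_plOver]) hWT
    (by rw [plUnder_plOver]; exact Ne.symm hWR'.2)
    (by rw [pow_one]; exact Subgroup.mem_sup_left (Subgroup.mem_zpowers _))
    (Subgroup.zpowers_le.mpr htQ hWf) (by rwa [plUnder_plOver]) hR
  rw [plUnder_plOver] at hx hy
  refine ⟨x * y, ?_, fun v hv => ?_, ?_⟩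
  · rw [nonNorm_mul hF hσ, hx, hy, pair_symmDiff hWR'.1 hWR'.2]
  · rw [Units.val_mul]
    exact closeOne_mono ((hxn v (Or.inl hv)).mul (Int.natCast_pos.mpr n.succ_pos)
      (hyn v (Or.inl hv)) y.ne_zero) (by push_cast; omega)
  · have hsame : ∀ z : Kˣ, (∀ v ∈ T', CloseOne v ((n + 1 : ℕ) : ℤ) (z : K)) →
        art χ (T : Set (Pl K)) (z : K) = art χ T' (z : K) := fun z hz =>
      art_eq_of_subset χ Set.subset_union_left fun v hv _ =>
        (hz v hv).ord_eq_zero (Int.natCast_pos.mpr n.succ_pos)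
    rw [Units.val_mul, art_mul χ _ x.ne_zero y.ne_zero, hsame x hxn, hsame y hyn, hxA, hyA, mul_one]

end Fermat.LT.Theta
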