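import Fermat.Agent.LT.Theta.Data
import Fermat.Agent.LT.Theta.LocalShell

/-!
# Theta: parameters of a finite point and their behaviour under the inversion

`PDat` holds the parameters, which exist unless the coefficients vanish (`exists_pdat_or_zero`);
`PDat.inv` gives those of the inverted point.
-/

set_option autoImplicit false
set_option linter.unusedSectionVars false

noncomputable section

open NumberField Fermat.CFT Filter
open scoped Classical

namespace Fermat.LT.Theta

section Inversion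

variable {F : Type} [Field F] [NumberField F]

variable (F) in
/-- The inversion matrix `[[0, 1], [-1, 0]]`. -/
def jMat : GL (Fin 2) F :=
  Matrix.GeneralLinearGroup.mkOfDetNeZero !![0, 1; -1, 0] (by simp [Matrix.det_fin_two_of])

/-- The entries of the inversion. -/
@[simp] lemma coe_jMat : ((jMat F : GL (Fin 2) F) : Matrix (Fin 2) (Fin 2) F) = !![0, 1; -1, 0] :=
  rfl

/-- The inversion is integral everywhere. -/
lemma jMat_mem_intGL (v : Pl F) : jMat F ∈ intGL (v.valuation F) := by
  refine mem_intGL_of_le (fun i j => ?_) fun i j => ?_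
  · fin_cases i <;> fin_cases j <;> simp
  · have e : (((jMat F)⁻¹ : GL (Fin 2) F) : Matrix (Fin 2) (Fin 2) F) = !![0, -1; 1, 0] := by
      rw [Matrix.coe_units_inv]
      refine Matrix.inv_eq_left_inv ?_
      ext i j
      fin_cases i <;> fin_cases j <;> simp [Matrix.mul_apply, Fin.sum_univ_two]
    rw [e]
    fin_cases i <;> fin_cases j <;> simp

/-- A unipotent conjugate of the inversion lies in the stabiliser at the level. -/
lemma upper_jMat_mem_klein {S : Set (Pl F)} (h3 : ∀ v ∈ S, pnorm v = 3) {v : Pl F} (hv : v ∈ S)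
    {r : F} (hr : v.valuation F r ≤ 1) : upMat 1 (-r) * jMat F * upMat 1 r ∈ klein S v := by
  have h1 : upMat 1 (-r) * jMat F * upMat 1 r ∈ intGL (v.valuation F) :=
    mul_mem (mul_mem (upMat_mem_intGL _ (by simp) (by rwa [Valuation.map_neg])) (jMat_mem_intGL v))
      (upMat_mem_intGL _ (by simp) hr)
  obtain ⟨m, hm⟩ := h1
  change incGL v m = _ at hm
  have e1 : scal (1 : Fˣ) * incGL v m = upMat 1 (-r) * jMat F * upMat 1 r := by rw [hm]; simp [scal]
  rw [← e1, mem_klein_on hv (h3 v hv)]
  set r' : (v.valuation F).integer := ⟨r, hr⟩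
  have e : ∀ i j,
      (((m : Matrix (Fin 2) (Fin 2) (v.valuation F).integer) i j : (v.valuation F).integer) : F)
      = (!![r, r * r + 1; -1, -r] : Matrix (Fin 2) (Fin 2) F) i j := fun i j => by
    have : ((m : Matrix (Fin 2) (Fin 2) (v.valuation F).integer) i j : F)
        = (upMat 1 (-r) * jMat F * upMat 1 r : GL (Fin 2) F).1 i j := by rw [← hm]; rfl
    rw [this, Units.val_mul, Units.val_mul, coe_upMat, coe_upMat, coe_jMat]
    fin_cases i <;> fin_cases j <;> simp [Matrix.mul_apply, Fin.sum_univ_two]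
  have a00 : (m : Matrix (Fin 2) (Fin 2) (v.valuation F).integer) 0 0 = r' :=
    Subtype.ext (by simpa [r'] using e 0 0)
  have a01 : (m : Matrix (Fin 2) (Fin 2) (v.valuation F).integer) 0 1 = r' * r' + 1 :=
    Subtype.ext (by simpa [r'] using e 0 1)
  have a10 : (m : Matrix (Fin 2) (Fin 2) (v.valuation F).integer) 1 0 = -1 :=
    Subtype.ext (by simpa using e 1 0)
  have a11 : (m : Matrix (Fin 2) (Fin 2) (v.valuation F).integer) 1 1 = -r' :=
    Subtype.ext (by simpa [r'] using e 1 1)
  change Q83 _ _ _ _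
  simp only [red3, Matrix.GeneralLinearGroup.map_apply, a00, a01, a10, a11, map_add, map_mul,
    map_neg, map_one]
  generalize res3 (h3 v hv) r' = t
  revert t
  decide

/-- Scalars lie in every stabiliser. -/
lemma scal_mem_klein {S : Set (Pl F)} (h3 : ∀ v ∈ S, pnorm v = 3) (v : Pl F) (c : Fˣ) :
    scal c ∈ klein S v := by
  refine lev_subset_klein h3 ?_
  unfold lev
  split_ifs <;> exact scal_mem_withScalars _ c

/-- The inversion lies in every stabiliser. -/
lemma jMat_mem_klein {S : Set (Pl F)} (h3 : ∀ v ∈ S, pnorm v = 3) (v : Pl F) :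
    jMat F ∈ klein S v := by
  by_cases hv : v ∈ S
  · obtain ⟨a, ha⟩ := jMat_mem_intGL v
    change incGL v a = _ at ha
    have h1 : scal (1 : Fˣ) * incGL v a = jMat F := by rw [ha]; simp [scal]
    rw [← h1, mem_klein_on hv (h3 v hv)]
    have e : ∀ i j,
        (((a : Matrix (Fin 2) (Fin 2) (v.valuation F).integer) i j : (v.valuation F).integer) : F)
        = (jMat F : Matrix (Fin 2) (Fin 2) F) i j := fun i j => by rw [← ha]; rfl
    have a00 : (a : Matrix (Fin 2) (Fin 2) (v.valuation F).integer) 0 0 = 0 :=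
      Subtype.ext (by simpa using e 0 0)
    have a01 : (a : Matrix (Fin 2) (Fin 2) (v.valuation F).integer) 0 1 = 1 :=
      Subtype.ext (by simpa using e 0 1)
    have a10 : (a : Matrix (Fin 2) (Fin 2) (v.valuation F).integer) 1 0 = -1 :=
      Subtype.ext (by simpa using e 1 0)
    have a11 : (a : Matrix (Fin 2) (Fin 2) (v.valuation F).integer) 1 1 = 0 :=
      Subtype.ext (by simpa using e 1 1)
    change Q83 _ _ _ _
    simp only [red3, Matrix.GeneralLinearGroup.map_apply, a00, a01, a10, a11, map_zero,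
      map_one, map_neg]
    decide
  · exact (mem_klein_off hv).2 ⟨1, by simpa [scal] using jMat_mem_intGL v⟩

/-- The inversion inverts diagonal matrices up to scalars. -/
lemma jMat_mul_upMat_zero (a : Fˣ) :
    jMat F * upMat a 0 = upMat a⁻¹ 0 * (scal a * jMat F) := by
  refine Units.ext ?_
  simp only [Units.val_mul, coe_jMat, coe_upMat, scal_coe]
  ext i j
  fin_cases i <;> fin_cases j <;>
    simp [Matrix.mul_apply, Fin.sum_univ_two, Matrix.scalar_apply]

/-- Bruhat rewriting of the inverted triangular matrix. -/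
lemma jMat_mul_upMat (a : Fˣ) (x : Fˣ) :
    ∃ K : GL (Fin 2) F, (K : Matrix (Fin 2) (Fin 2) F) = !![-1, 0; -(a : F) / x, -1] ∧
      jMat F * upMat a (x : F) = upMat (a * (x ^ 2)⁻¹) (-((x⁻¹ : Fˣ) : F)) * (scal x * K) := by
  refine ⟨Matrix.GeneralLinearGroup.mkOfDetNeZero !![-1, 0; -(a : F) / x, -1]
    (by simp [Matrix.det_fin_two_of]), rfl, Units.ext ?_⟩
  have hx := x.ne_zero
  simp only [Units.val_mul, coe_jMat, coe_upMat, scal_coe]
  ext i j
  fin_cases i <;> fin_cases j <;>
    simp [Matrix.mul_apply, Fin.sum_univ_two, Matrix.scalar_apply,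
      Matrix.GeneralLinearGroup.mkOfDetNeZero] <;>
    field_simp; ring

/-- An integral lower triangular matrix lies in `U0`. -/
lemma lower_mem_U0 {v : Pl F} {r : F} (hr : v.valuation F r ≤ 1) {K : GL (Fin 2) F}
    (hK : (K : Matrix (Fin 2) (Fin 2) F) = !![-1, 0; r, -1]) : K ∈ U0 (v.valuation F) := by
  refine ⟨1, ?_⟩
  rw [show scal (1 : Fˣ) = (1 : GL (Fin 2) F) by simp [scal], one_mul]
  refine mem_intGL_of_le (fun i j => ?_) fun i j => ?_
  · rw [hK]
    fin_cases i <;> fin_cases j <;> simp [hr]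
  · have e : ((K⁻¹ : GL (Fin 2) F) : Matrix (Fin 2) (Fin 2) F) = !![-1, 0; -r, -1] := by
      rw [Matrix.coe_units_inv, hK]
      refine Matrix.inv_eq_left_inv ?_
      ext i j
      fin_cases i <;> fin_cases j <;> simp [Matrix.mul_apply, Fin.sum_univ_two]
    rw [e]
    fin_cases i <;> fin_cases j <;> simp [hr]

end Inversion

variable {F M : Type} [Field F] [NumberField F] [IsTotallyComplex F] [Field M] [NumberField M]
  [Algebra F M] [IsGalois F M] {σ : M ≃ₐ[F] M} {lam : Pl F → ℝ} (H : HData σ lam)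
include H

/-- Only finitely many places ramify. -/
lemma ramPl_finite : (ramPl (K := F) M).Finite := (Set.toFinite (s3 F)).subset (ramPl_subset H)

/-- Places off the level are unramified. -/
lemma notMem_ramPl {v : Pl F} (hv : v ∉ s3 F) : v ∉ ramPl (K := F) M :=
  fun h => hv (ramPl_subset H h)

omit H in
/-- At the level `2` is a unit. -/
lemma val_two_of_ram {v : Pl F} (hv : v ∈ s3 F) : v.valuation F (2 : F) = 1 := by
  have h := ord_two_eq_zero (E := F) hv
  rw [Nat.cast_ofNat] at h
  rw [valuation_eq_exp_neg_ord v two_ne_zero, h]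
  simp

/-- The chosen place over a place over `3` is in `sM`. -/
lemma plOver_mem_sM {v : Pl F} (hv : v ∈ s3 F) : plOver M v ∈ H.sM := by
  rw [H.mem_sM, ← three_mem_iff (F := F), plUnder_plOver]; exact hv

/-- The places over `3` do not split. -/
lemma isNonsplit_s3 {v : Pl F} (hv : v ∈ s3 F) : IsNonsplit σ v := by
  have h := isNonsplit_of_sM H ((H.mem_sM _).1 (plOver_mem_sM H hv))
  rwa [plUnder_plOver] at h

/-- Off the level the ramification index is one. -/
lemma plRamIdx_off {v : Pl F} (hv : v ∉ s3 F) : plRamIdx F (plOver M v) = 1 :=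
  plRamIdx_eq_one_of_not_ram (notMem_ramPl H hv) (plUnder_plOver v)

/-- Off the level the exponent of the orthogonal of the integers is `eL`. -/
lemma dd_off {v : Pl F} (hv : v ∉ s3 F) : dd M (dlt H) v = eL (dlt H) v :=
  dd_eq (dlt H) (notMem_ramPl H hv)

/-- The parameters of a finite point. -/
structure PDat (ω : FinPt F (s3 F)) where
  /-- The diagonal parameter at each place. -/
  a : Pl F → Fˣ
  /-- The unipotent parameter at each place. -/
  x : Pl F → F
  /-- The component at `v` is the class of `[[a, x], [0, 1]]` times an element of the stabiliser. -/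
  rep : ∀ v, ∃ k ∈ klein (s3 F) v, ω.1 v = ((upMat (a v) (x v) * k : GL (Fin 2) F) : Vert (s3 F) v)
  /-- The box exponent at the chosen prime over `v`. -/
  k1 : Pl F → ℤ
  /-- The box exponent at the conjugate prime. -/
  k2 : Pl F → ℤ
  /-- Almost everywhere the parameters and exponents are trivial. -/
  fin : ∀ᶠ v in cofinite, CFT.ord v (a v : F) = 0 ∧ x v = 0 ∧ k1 v = 0 ∧ k2 v = 0
  /-- At a non-split place the two exponents agree. -/
  adm : ∀ v, IsNonsplit σ v → k1 v = k2 v
  /-- Off `3` the unipotent parameter is zero or of smaller order than `a`. -/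
  xoff : ∀ v ∉ s3 F, x v = 0 ∨ CFT.ord v (x v) < CFT.ord v (a v : F)
  /-- Off `3` the exponents add to the order of `a` plus the shift. -/
  koff : ∀ v ∉ s3 F, k1 v + k2 v = CFT.ord v (a v : F) + eL (dlt H) v
  /-- Over `3` the unipotent parameter is at most as large as `a`. -/
  xon : ∀ v ∈ s3 F, v.valuation F (x v) ≤ v.valuation F (a v : F)
  /-- Over `3` the diagonal parameter is a local norm from `M`. -/
  aon : ∀ v ∈ s3 F, a v ∈ lnorms M v
  /-- Over `3` the exponent is fixed by the order of `a`, the shift and the ramification index. -/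
  kon : ∀ v ∈ s3 F, 2 * k1 v =
    plRamIdx F (plOver M v) * (CFT.ord v (a v : F) + eL (dlt H) v + 1)

/-- Nearness: the translation at the level is integral relative to the diagonal. -/
def IsNear (ω : FinPt F (s3 F)) : Prop :=
  ∀ v ∈ s3 F, ∃ (a : Fˣ) (x : F), v.valuation F x ≤ v.valuation F (a : F) ∧
    ∃ k ∈ klein (s3 F) v, ω.1 v = ((upMat a x * k : GL (Fin 2) F) : Vert (s3 F) v)

variable {H}

variable (H)

/-- Off the level a vertex has coordinates with translation zero or more polar than the diagonal. -/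
lemma exists_rep_off {ω : FinPt F (s3 F)} {v : Pl F} (hv : v ∉ s3 F) :
    ∃ (a : Fˣ) (x : F), (x = 0 ∨ CFT.ord v x < CFT.ord v (a : F)) ∧
      ∃ k ∈ klein (s3 F) v, ω.1 v = ((upMat a x * k : GL (Fin 2) F) : Vert (s3 F) v) := by
  obtain ⟨a, x, k, hk, h⟩ := exists_repr (dat H).h3 (ω.1 v)
  by_cases hx : x = 0 ∨ CFT.ord v x < CFT.ord v (a : F)
  · exact ⟨a, x, hx, k, hk, h⟩
  rw [not_or, not_lt] at hx
  have hr : v.valuation F (((a⁻¹ : Fˣ) : F) * x) ≤ 1 := by
    rw [valuation_eq_exp_neg_ord v (mul_ne_zero (a⁻¹).ne_zero hx.1),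
      CFT.ord_mul v (a⁻¹).ne_zero hx.1,
      Units.val_inv_eq_inv_val, CFT.ord_inv, ← WithZero.exp_zero, WithZero.exp_le_exp]
    omega
  refine ⟨a, 0, Or.inl rfl, upMat 1 (((a⁻¹ : Fˣ) : F) * x) * k,
    klein_mul (dat H).h3 ((mem_klein_off hv).2 ⟨1, ?_⟩) hk, ?_⟩
  · rw [show scal (1 : Fˣ) = (1 : GL (Fin 2) F) by simp [scal], one_mul]
    exact upMat_mem_intGL _ (by simp) hr
  · rw [h, ← mul_assoc, upMat_mul, mul_one, add_zero, ← mul_assoc, Units.mul_inv, one_mul]

/-- The data exist or the coefficients vanish. -/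
theorem exists_pdat_or_zero {ω : FinPt F (s3 F)} (hω : IsNear ω) :
    Nonempty (PDat H ω) ∨
      ∀ α : Fˣ, α ∈ (Units.map (Algebra.norm F : M →* F)).range → finW (dat H) α ω = 0 := by
  have h : ∀ v, ∃ (a : Fˣ) (x : F), (v ∈ s3 F → v.valuation F x ≤ v.valuation F (a : F)) ∧
      (v ∉ s3 F → x = 0 ∨ CFT.ord v x < CFT.ord v (a : F)) ∧
      (ω.1 v = ((1 : GL (Fin 2) F) : Vert (s3 F) v) → v ∉ s3 F → a = 1 ∧ x = 0) ∧
      ∃ k ∈ klein (s3 F) v, ω.1 v = ((upMat a x * k : GL (Fin 2) F) : Vert (s3 F) v) := by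
    intro v
    by_cases hv : v ∈ s3 F
    · obtain ⟨a, x, hx, k, hk, he⟩ := hω v hv
      exact ⟨a, x, fun _ => hx, fun h => absurd hv h, fun _ h => absurd hv h, k, hk, he⟩
    by_cases h1 : ω.1 v = ((1 : GL (Fin 2) F) : Vert (s3 F) v)
    · exact ⟨1, 0, fun h => absurd h hv, fun _ => Or.inl rfl, fun _ _ => ⟨rfl, rfl⟩, 1,
        one_mem_klein (dat H).h3, by rw [h1, upMat_one, one_mul]⟩
    · obtain ⟨a, x, hx, k, hk, he⟩ := exists_rep_off H (ω := ω) hv
      exact ⟨a, x, fun h => absurd h hv, fun _ => hx, fun h => absurd h h1, k, hk, he⟩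
  choose a x hx3 hxoff hbase hrep using h
  -- unless these parity and norm conditions hold, every coefficient at a norm vanishes
  set A : Pl F → ℤ := fun v => CFT.ord v (a v : F) + eL (dlt H) v with hA
  by_cases hsol : (∀ v ∉ s3 F, IsNonsplit σ v → Even (A v)) ∧ ∀ v ∈ s3 F, a v ∈ lnorms M v
  swap
  · right
    intro α hα
    obtain ⟨ξ, rfl⟩ := hα
    set α := Units.map (Algebra.norm F : M →* F) ξ
    have hloc : ∀ v, finW (dat H) α ω = 0 ∨
        hfun (dlt H) (cOf lam) (lnorms M) (s3 F) v (α * a v) ≠ 0 := by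
      intro v
      by_contra hc
      rw [not_or, not_not] at hc
      refine hc.1 (finprod_eq_zero _ v ?_ (finite_mulSupport_W (dat H) α ω))
      obtain ⟨k, hk, he⟩ := hrep v
      rw [he, MulAction.Quotient.smul_coe, smul_eq_mul, ← mul_assoc, upMat_mul, LDat.W,
        locW_eq (dat H).h3 _ _ _ (dat H).hN hk rfl]
      exact mul_eq_zero_of_right _ hc.2
    have hαn : ∀ v, α ∈ lnorms M v := fun v => norm_mem_localNorms (y := ξ) rfl
    rw [not_and_or] at hsol
    push Not at hsol
    rcases hsol with ⟨v, hv, hns, hodd⟩ | ⟨v, hv, hnm⟩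
    · refine (hloc v).resolve_right fun hh => hh ?_
      rw [hfun, if_neg hv]
      obtain ⟨P, hP⟩ : ∃ P : Pl M, plUnder F P = v := ⟨_, plUnder_plOver v⟩
      subst hP
      have h3 : (3 : 𝓞 M) ∉ P.asIdeal := fun h => hv (three_mem_iff.2 h)
      have hc0 : cOf lam (plUnder F P) = 0 := by
        rw [cOf, H.lam_inert P h3 (hns P rfl), zero_div]
      have hαe := (mem_lnorms_iff_even H.finrank H.σ_ne hns (notMem_ramPl H hv) α).1 (hαn _)
      rw [hc0, Units.val_mul, CFT.ord_mul _ α.ne_zero (Units.ne_zero _), add_assoc]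
      have hn : Odd (CFT.ord (plUnder F P) (α : F) + A (plUnder F P)) :=
        hαe.add_odd (Int.not_even_iff_odd.1 hodd)
      rw [radial]
      split_ifs with hneg
      · simp
      obtain ⟨n, hn'⟩ := hn
      rw [show (CFT.ord (plUnder F P) (α : F) + (CFT.ord (plUnder F P) (a (plUnder F P) : F)
        + eL (dlt H) (plUnder F P))).toNat = 2 * n.toNat + 1 by simp only [hA] at hn'; omega,
        (chebU_zero _).2]
      simp
    · refine (hloc v).resolve_right fun hh => hh ?_
      rw [hfun, if_pos hv, if_neg]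
      exact fun h => hnm (((lnorms M v).mul_mem_cancel_left (hαn v)).1 h.2)
  -- if they hold, choose the exponents place by place
  left
  obtain ⟨hev, haN⟩ := hsol
  have hkex : ∀ v, ∃ k1 k2 : ℤ, (IsNonsplit σ v → k1 = k2) ∧ (v ∉ s3 F → k1 + k2 = A v) ∧
      (v ∈ s3 F → 2 * k1 = plRamIdx F (plOver M v) * (A v + 1)) ∧
      (v ∉ s3 F → A v = 0 → k1 = 0 ∧ k2 = 0) := by
    intro v
    by_cases hv : v ∈ s3 F
    · obtain ⟨r, hr⟩ : (2 : ℤ) ∣ plRamIdx F (plOver M v) * (A v + 1) := by
        rcases H.dich _ (plOver_mem_sM H hv) with ⟨he, -⟩ | ⟨he, -⟩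
        · rw [he, Nat.cast_one, one_mul]
          have hns := isNonsplit_s3 H hv
          have hr : v ∉ ramPl (K := F) M := by
            rintro ⟨W, hW, hWe⟩
            rcases eq_or_eq_of_plUnder H.finrank H.σ_ne hW with rfl | rfl
            · exact hWe he
            · exact hWe (by rw [plRamIdx_plConj]; exact he)
          have h1 := (mem_lnorms_iff_even H.finrank H.σ_ne hns hr (a v)).1 (haN v hv)
          have h2 := (dlt_spec H hns hr).2 hv
          have h3 : Even (A v + 1) := by
            rw [hA]; exact (h1.add_odd h2).add_one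
          exact even_iff_two_dvd.1 h3
        · exact ⟨A v + 1, by rw [he]; push_cast; ring⟩
      exact ⟨r, r, fun _ => rfl, fun h => absurd hv h, fun _ => hr.symm, fun h => absurd hv h⟩
    by_cases hns : IsNonsplit σ v
    · obtain ⟨r, hr⟩ := hev v hv hns
      exact ⟨r, r, fun _ => rfl, fun _ => hr.symm, fun h => absurd h hv, fun _ h0 => by omega⟩
    · exact ⟨A v, 0, fun h => absurd h hns, fun _ => add_zero _, fun h => absurd h hv,
        fun _ h0 => ⟨h0, rfl⟩⟩
  choose k1 k2 hadm hoff hon hzero using hkex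
  refine ⟨⟨a, x, hrep, k1, k2, ?_, hadm, hxoff, hoff, hx3, haN, hon⟩⟩
  filter_upwards [ω.2, (Set.toFinite (s3 F)).compl_mem_cofinite, Mult.eventually_cnd_eq_zero,
    eventually_cofinite.2 (CFT.finite_ord_ne_zero (dlt H : F))] with v h1 h2 h3 h4
  obtain ⟨e1, e2⟩ := hbase v h1 h2
  have ho : CFT.ord v (a v : F) = 0 := by rw [e1]; simp
  exact ⟨ho, e2, hzero v h2 (by simp [hA, ho, eL, h3, h4])⟩

variable {H}

/-- The parameters of the inverted point. -/
def PDat.inv {ω : FinPt F (s3 F)} (P : PDat H ω) : PDat H (jMat F • ω) where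
  a v := if v ∈ s3 F then (P.a v)⁻¹ else
    if h : P.x v = 0 then (P.a v)⁻¹ else P.a v * (Units.mk0 (P.x v) h ^ 2)⁻¹
  x v := if v ∈ s3 F then P.x v / (P.a v : F) ^ 2 else -(P.x v)⁻¹
  rep v := by
    obtain ⟨k, hk, he⟩ := P.rep v
    rw [FinPt.smul_apply, he, MulAction.Quotient.smul_coe, smul_eq_mul, ← mul_assoc]
    by_cases hs : v ∈ s3 F
    -- at the level the inversion moves through the upper triangular element into the Klein group
    · rw [if_pos hs, if_pos hs]
      set r := ((P.a v)⁻¹ : Fˣ) * P.x v with hr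
      have hra : v.valuation F r ≤ 1 := by
        rw [hr, Units.val_inv_eq_inv_val, map_mul, map_inv₀]
        exact inv_mul_le_one_of_le₀ (P.xon v hs) zero_le
      have e : upMat (P.a v) (P.x v) = upMat (P.a v) 0 * upMat 1 r := by
        rw [upMat_mul, mul_one, hr, ← mul_assoc, Units.mul_inv, one_mul, add_zero]
      refine ⟨_, klein_mul (dat H).h3 (klein_mul (dat H).h3 (scal_mem_klein (dat H).h3 v (P.a v))
        (upper_jMat_mem_klein (dat H).h3 hs hra)) hk, ?_⟩
      congr 1
      rw [e, ← mul_assoc, jMat_mul_upMat_zero, ← mul_assoc (upMat _ _) (_ * _) k]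
      congr 1
      rw [show upMat (P.a v)⁻¹ (P.x v / (P.a v : F) ^ 2) = upMat (P.a v)⁻¹ 0 * upMat 1 r by
        rw [upMat_mul, mul_one, hr, add_zero, Units.val_inv_eq_inv_val]; congr 1; field_simp]
      simp only [mul_assoc]
      congr 1
      rw [← mul_assoc (upMat (1 : Fˣ) r), ← scal_comm, mul_assoc]
      congr 1
      rw [← mul_assoc (upMat 1 r), upMat_mul, one_mul, Units.val_one, one_mul,
        neg_add_cancel, upMat_one, one_mul]
    -- off the level: invert, using `jMat_mul_upMat` when `P.x v ≠ 0`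
    rw [if_neg hs, if_neg hs]
    by_cases hx : P.x v = 0
    · rw [dif_pos hx, hx, jMat_mul_upMat_zero, inv_zero, neg_zero, mul_assoc]
      exact ⟨_, klein_mul (dat H).h3 (klein_mul (dat H).h3 (scal_mem_klein (dat H).h3 v _)
        (jMat_mem_klein (dat H).h3 v)) hk, rfl⟩
    · rw [dif_neg hx]
      obtain ⟨K, hK, hJ⟩ := jMat_mul_upMat (P.a v) (Units.mk0 (P.x v) hx)
      rw [Units.val_mk0] at hJ hK
      rw [hJ, mul_assoc]
      have hlt := (P.xoff v hs).resolve_left hx
      refine ⟨_, klein_mul (dat H).h3 (klein_mul (dat H).h3 (scal_mem_klein (dat H).h3 v _)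
        ((mem_klein_off hs).2 (lower_mem_U0 ?_ hK)))
          hk, by rw [Units.val_inv_eq_inv_val, Units.val_mk0]⟩
      rw [valuation_eq_exp_neg_ord v (div_ne_zero (neg_ne_zero.2 (P.a v).ne_zero) hx),
        CFT.ord_div v (neg_ne_zero.2 (P.a v).ne_zero) hx, CFT.ord_neg, ← WithZero.exp_zero,
        WithZero.exp_le_exp]
      omega
  k1 v := if v ∈ s3 F ∨ P.x v = 0 then dd M (dlt H) v + (if v ∈ s3 F then 1 else 0) - P.k2 v
    else P.k1 v - CFT.ord v (P.x v)
  k2 v := if v ∈ s3 F ∨ P.x v = 0 then dd M (dlt H) v + (if v ∈ s3 F then 1 else 0) - P.k1 v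
    else P.k2 v - CFT.ord v (P.x v)
  fin := by
    filter_upwards [P.fin, (Set.toFinite (s3 F)).compl_mem_cofinite, Mult.eventually_cnd_eq_zero,
      eventually_cofinite.2 (CFT.finite_ord_ne_zero (dlt H : F))] with v ⟨h1, h2, h3, h4⟩ h5 h6 h7
    simp only [h2, if_neg (show v ∉ s3 F from h5), or_true, if_pos, h3, h4, dd_off H h5, dif_pos]
    simp [h1, eL, h6, h7, CFT.ord_inv]
  adm v hns := by
    have := P.adm v hns
    split_ifs <;> omega
  xoff v hv := by
    rw [if_neg hv, if_neg hv]
    by_cases hx : P.x v = 0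
    · left; rw [hx, inv_zero, neg_zero]
    right
    rw [dif_neg hx, Units.val_mul, CFT.ord_mul v (Units.ne_zero _) (Units.ne_zero _),
      Units.val_inv_eq_inv_val, CFT.ord_inv, Units.val_pow_eq_pow_val, Units.val_mk0, CFT.ord_pow,
      CFT.ord_neg, CFT.ord_inv]
    have := (P.xoff v hv).resolve_left hx
    omega
  koff v hv := by
    have hk := P.koff v hv
    simp only [if_neg hv]
    by_cases hx : P.x v = 0
    · rw [if_pos (Or.inr hx), if_pos (Or.inr hx), dif_pos hx, dd_off H hv,
        Units.val_inv_eq_inv_val, CFT.ord_inv]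
      omega
    · rw [if_neg (not_or.2 ⟨hv, hx⟩), if_neg (not_or.2 ⟨hv, hx⟩), dif_neg hx, Units.val_mul,
        CFT.ord_mul v (Units.ne_zero _) (Units.ne_zero _), Units.val_inv_eq_inv_val, CFT.ord_inv,
        Units.val_pow_eq_pow_val, Units.val_mk0, CFT.ord_pow]
      omega
  xon v hv := by
    rw [if_pos hv, if_pos hv, Units.val_inv_eq_inv_val, map_div₀, map_pow, map_inv₀, sq]
    refine (div_le_div_of_nonneg_right (P.xon v hv) zero_le).trans_eq ?_
    have h0 : v.valuation F (P.a v : F) ≠ 0 := (v.valuation F).ne_zero_iff.2 (P.a v).ne_zero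
    field_simp
  aon v hv := by rw [if_pos hv]; exact inv_mem (P.aon v hv)
  kon v hv := by
    rw [if_pos hv, if_pos (Or.inl hv), if_pos hv, Units.val_inv_eq_inv_val, CFT.ord_inv,
      ← P.adm v (isNonsplit_s3 H hv), dd]
    linear_combination -(P.kon v hv)

end Fermat.LT.Theta
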