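import Mathlib

/-!
# Theta: Poisson summation over `ℤ ^ d`

`poisson_pi` is the formula, for a continuous integrable function with locally uniformly summable
translates.
-/

set_option autoImplicit false

open MeasureTheory Filter Topology
open scoped Real

noncomputable section

namespace Fermat.LT.Theta

variable {ι : Type*} [Fintype ι]

/-- The integers as a translation. -/
def zVec (n : ι → ℤ) : ι → ℝ := fun i => (n i : ℝ)

omit [Fintype ι] in
/-- `zVec` is additive. -/
lemma zVec_add (m n : ι → ℤ) : zVec (m + n) = zVec m + zVec n :=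
  funext fun i => by simp [zVec]

/-- `exp (2πi k·s)`. -/
def eDot (k : ι → ℤ) (s : ι → ℝ) :
    ℂ := Complex.exp (2 * π * Complex.I * ((∑ i, (k i : ℝ) * s i : ℝ) : ℂ))

/-- `eDot` has absolute value one. -/
lemma norm_eDot (k : ι → ℤ) (s : ι → ℝ) : ‖eDot k s‖ = 1 := by
  rw [eDot, show (2 * π * Complex.I * ((∑ i, (k i : ℝ) * s i : ℝ) : ℂ))
    = ((2 * π * ∑ i, (k i : ℝ) * s i : ℝ) : ℂ) * Complex.I by push_cast; ring]
  exact Complex.norm_exp_ofReal_mul_I _

/-- `eDot` is continuous. -/
lemma continuous_eDot (k : ι → ℤ) : Continuous (eDot k) := by unfold eDot; fun_prop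

/-- `eDot` is periodic under integral translations. -/
lemma eDot_add_zVec (k n : ι → ℤ) (s : ι → ℝ) : eDot k (s + zVec n) = eDot k s := by
  rw [eDot, eDot, Complex.exp_eq_exp_iff_exists_int]
  refine ⟨∑ i, k i * n i, ?_⟩
  simp only [Pi.add_apply, zVec, mul_add, Finset.sum_add_distrib]
  push_cast
  ring

/-- The torus characters lift to `eDot`. -/
lemma mFourier_neg_mk (k : ι → ℤ) (s : ι → ℝ) :
    UnitAddTorus.mFourier (-k) (fun i => (s i : UnitAddCircle)) = eDot (-k) s := by
  change ∏ i, fourier ((-k) i) ((s i : UnitAddCircle)) = _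
  simp only [fourier_coe_apply, ← Complex.exp_sum, eDot]
  congr 1
  push_cast
  rw [Finset.mul_sum]
  exact Finset.sum_congr rfl fun i _ => by ring

variable {g : (ι → ℝ) → ℂ}

/-- **Poisson summation.** For a continuous integrable `g` on `ℝ ^ ι` with locally uniform summable
bounds, the sum over `ℤ ^ ι` is that of the transform. -/
theorem poisson_pi (hg : Continuous g) (hgi : Integrable g)
    (hb : ∀ R : ℝ, ∃ b : (ι → ℤ) → ℝ, Summable b ∧ ∀ n s, ‖s‖ ≤ R → ‖g (s + zVec n)‖ ≤ b n)
    (hhat : Summable fun k : ι → ℤ => ∫ s, g s * eDot k s) :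
    ∑' n : ι → ℤ, g (zVec n) = ∑' k : ι → ℤ, ∫ s, g s * eDot k s := by
  -- the periodisation is a continuous function on the torus
  set per : (ι → ℝ) → ℂ := fun s => ∑' n : ι → ℤ, g (s + zVec n) with hper
  have hperiod : ∀ s m, per (s + zVec m) = per s := fun s m => by
    simp only [hper]
    rw [← (Equiv.addRight (-m)).tsum_eq fun n => g (s + zVec m + zVec n)]
    refine tsum_congr fun n => ?_
    rw [Equiv.coe_addRight, add_assoc, ← zVec_add]
    congr 3
    funext i
    simp
  have hpc : Continuous per := continuous_iff_continuousAt.2 fun s₀ => by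
    obtain ⟨b, hbs, hb'⟩ := hb (‖s₀‖ + 1)
    refine (continuousOn_tsum (fun n => (hg.comp (continuous_id.add continuous_const)).continuousOn)
      hbs (s := Metric.ball s₀ 1) fun n s hs => hb' n s ?_).continuousAt
        (Metric.ball_mem_nhds _ one_pos)
    have h := norm_le_norm_add_norm_sub' s s₀
    rw [Metric.mem_ball, dist_eq_norm] at hs
    linarith
  set rp : UnitAddCircle → ℝ := fun q => (AddCircle.measurableEquivIco 1 0 q : ℝ)
  have hrp : ∀ x : ℝ, ∃ k : ℤ, rp (x : UnitAddCircle) = x + k := fun x => by
    have := (AddCircle.equivIco 1 0).symm_apply_apply (x : UnitAddCircle)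
    change ((rp x : ℝ) : UnitAddCircle) = (x : UnitAddCircle) at this
    rw [← sub_eq_zero, ← AddCircle.coe_sub, AddCircle.coe_eq_zero_iff] at this
    obtain ⟨k, hk⟩ := this
    exact ⟨k, by simp at hk; linarith⟩
  set f₀ : UnitAddTorus ι → ℂ := fun q => per fun i => rp (q i)
  have hf₀ : ∀ s : ι → ℝ, f₀ (fun i => (s i : UnitAddCircle)) = per s := fun s => by
    choose k hk using fun i => hrp (s i)
    change per (fun i => rp ((s i : UnitAddCircle))) = _
    rw [show (fun i => rp ((s i : UnitAddCircle))) = s + zVec k from funext hk, hperiod]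
  have hfc : Continuous f₀ := by
    have hq : IsOpenQuotientMap (Pi.map fun (_ : ι) (x : ℝ) => (x : UnitAddCircle)) :=
      IsOpenQuotientMap.piMap fun _ => QuotientAddGroup.isOpenQuotientMap_mk
    rw [← hq.continuous_comp_iff]
    exact hpc.congr fun s => (hf₀ s).symm
  let f : C(UnitAddTorus ι, ℂ) := ⟨f₀, hfc⟩
  set C : Set (ι → ℝ) := {x | ∀ i, x i ∈ Set.Ioc (0 : ℝ) (0 + 1)} with hC
  -- its Fourier coefficients are the integrals of `g` against the characters
  have hcoef : ∀ k, UnitAddTorus.mFourierCoeff (⇑f) k = ∫ s, g s * eDot (-k) s := fun k => by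
    rw [UnitAddTorus.mFourierCoeff_eq_integral _ _ (fun _ => (0 : ℝ))]
    have hsub : C ⊆ Metric.closedBall 0 1 := fun x hx => by
      rw [Metric.mem_closedBall, dist_zero_right, pi_norm_le_iff_of_nonneg zero_le_one]
      exact fun i => by
        rw [Real.norm_eq_abs, abs_le]
        obtain ⟨h1, h2⟩ := hx i
        constructor <;> linarith
    have hCpi : C = Set.univ.pi fun _ => Set.Ioc (0 : ℝ) (0 + 1) := by ext x; simp [hC]
    have hCm : MeasurableSet C := hCpi ▸ MeasurableSet.univ_pi fun _ => measurableSet_Ioc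
    have hCfin : volume C < ⊤ :=
      lt_of_le_of_lt (measure_mono hsub) (isCompact_closedBall _ _).measure_lt_top
    obtain ⟨b, hbs, hb'⟩ := hb 1
    have hint : ∀ n, IntegrableOn (fun x => eDot (-k) x * g (x + zVec n)) C := fun n =>
      (((continuous_eDot _).mul
        (hg.comp (continuous_id.add continuous_const))).continuousOn.integrableOn_compact
        (isCompact_closedBall 0 1)).mono_set hsub
    have hsum : Summable fun n => ∫ x in C, ‖eDot (-k) x * g (x + zVec n)‖ := by
      refine Summable.of_nonneg_of_le (fun n => integral_nonneg fun x =>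
        norm_nonneg _) (fun n => ?_) (hbs.mul_left (volume.real C))
      refine le_trans (setIntegral_mono_on (g := fun _ => b n) (hint n).norm
        (integrableOn_const hCfin.ne) hCm fun x hx => ?_)
          (le_of_eq (by rw [setIntegral_const, smul_eq_mul]))
      rw [norm_mul, norm_eDot, one_mul]
      exact hb' n x (by simpa using hsub hx)
    change ∫ x in C, UnitAddTorus.mFourier (-k) (fun i => (x i : UnitAddCircle))
      • f₀ (fun i => (x i : UnitAddCircle)) = _
    simp only [mFourier_neg_mk, hf₀, smul_eq_mul, hper, ← tsum_mul_left]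
    rw [← integral_tsum_of_summable_integral_norm hint hsum]
    -- unfold the box
    set F' : (ι → ℝ) → ℂ := fun s => g s * eDot (-k) s
    have hF : Integrable F' := hgi.mul_bdd (c := 1) (continuous_eDot _).aestronglyMeasurable
      (Eventually.of_forall fun s => (norm_eDot _ _).le)
    set T : (ι → ℤ) → Set (ι → ℝ) := fun n => {x | ∀ i, x i ∈ Set.Ioc (n i : ℝ) (n i + 1)}
    have hTm : ∀ n, MeasurableSet (T n) := fun n => by
      have : T n = Set.univ.pi fun i => Set.Ioc (n i : ℝ) (n i + 1) := by ext x; simp [T]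
      exact this ▸ MeasurableSet.univ_pi fun _ => measurableSet_Ioc
    have hTd : Pairwise (Function.onFun Disjoint T) := fun m n hmn => by
      refine Set.disjoint_left.2 fun x hm hn => hmn (funext fun i => ?_)
      obtain ⟨h1, h2⟩ := hm i
      obtain ⟨h3, h4⟩ := hn i
      have h5 : (m i : ℝ) < n i + 1 := by linarith
      have h6 : (n i : ℝ) < m i + 1 := by linarith
      norm_cast at h5 h6
      omega
    have hTu : ⋃ n, T n = Set.univ := by
      refine Set.eq_univ_of_forall fun x => Set.mem_iUnion.2 ⟨fun i => ⌈x i⌉ - 1, fun i => ?_⟩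
      constructor <;> push_cast <;> linarith [Int.le_ceil (x i), Int.ceil_lt_add_one (x i)]
    rw [← setIntegral_univ (f := F'), ← hTu, integral_iUnion hTm hTd hF.integrableOn]
    refine tsum_congr fun n => ?_
    have hpre : (fun x : ι → ℝ => x + zVec n) ⁻¹' T n = C := by
      ext x
      simp only [T, hC, zVec, Set.mem_preimage, Set.mem_ofPred_eq, Pi.add_apply,
        Set.mem_Ioc, zero_add]
      exact forall_congr' fun i => by constructor <;> rintro ⟨h1, h2⟩ <;> constructor <;> linarith
    rw [← (measurePreserving_add_right volume (zVec n)).setIntegral_preimage_emb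
      (MeasurableEquiv.addRight (zVec n)).measurableEmbedding F' (T n), hpre]
    refine setIntegral_congr_fun hCm fun x _ => ?_
    change _ = g (x + zVec n) * eDot (-k) (x + zVec n)
    rw [eDot_add_zVec, mul_comm]
  have hs : Summable (UnitAddTorus.mFourierCoeff (⇑f)) := by
    rw [funext hcoef]
    exact hhat.comp_injective neg_injective
  have h0 := (UnitAddTorus.hasSum_mFourier_series_apply_of_summable hs 0).tsum_eq
  have hone : ∀ k : ι → ℤ, UnitAddTorus.mFourier k (0 : UnitAddTorus ι) = 1 := fun k => by
    change ∏ i, fourier (k i) (0 : UnitAddCircle) = 1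
    exact Finset.prod_eq_one fun i _ => by simp
  simp only [hone, smul_eq_mul, mul_one, hcoef] at h0
  have hz : f₀ 0 = per 0 := by
    have := hf₀ 0
    simpa [Pi.zero_def] using this
  rw [show f (0 : UnitAddTorus ι) = f₀ 0 from rfl, hz] at h0
  rw [← (Equiv.neg (ι → ℤ)).tsum_eq (fun k => ∫ s, g s * eDot k s)]
  simp only [hper, zero_add] at h0
  exact h0.symm

end Fermat.LT.Theta
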