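import Fermat.Agent.LT.Theta.Pair
import Fermat.Agent.CFT.Kummer.Hasse

/-!
# The product formula for quadratic norm residue symbols

`even_ncard_nonNorm`: an element fails to be a local norm at an even number of places.
-/

set_option autoImplicit false

noncomputable section

open NumberField Fermat.CFT
open scoped Classical symmDiff

namespace Fermat.LT.Theta

variable {K : Type} [Field K] [NumberField K]

/-- Every place has a unit which is not a local square. -/
lemma exists_unit_not_localPowers (v : Pl K) :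
    ∃ c : Kˣ, CFT.ord v (c : K) = 0 ∧ c ∉ localPowers 2 (-1 : K) v := by
  by_contra hno
  push Not at hno
  obtain ⟨π, hπ0, hπ⟩ := CFT.exists_ord_eq_one v
  set P := localPowers 2 (-1 : K) v
  have hidx := index_localPowers (p := 2) (neg_one_primitive (K := K)) (v := v)
  -- The index of the local squares is at least `4`.
  have hge : 4 ≤ P.index := by
    rw [hidx]
    exact Nat.le_mul_of_pos_right (2 * 2) (pow_pos (resCard_pos v) _)
  -- But if all units were squares, parity of the order would leave two classes.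
  have hall : ∀ x : Kˣ, x ∈ P ∨ x * Units.mk0 π hπ0 ∈ P := by
    intro x
    rcases Int.even_or_odd' (CFT.ord v (x : K)) with ⟨k, hk | hk⟩
    · left
      have h := hno (x / (Units.mk0 π hπ0 ^ k) ^ 2) (by
        simp only [Units.val_div_eq_div_val, Units.val_pow_eq_pow_val, Units.val_zpow_eq_zpow_val,
          Units.val_mk0]
        rw [CFT.ord_div v x.ne_zero (pow_ne_zero _ (zpow_ne_zero _ hπ0)), CFT.ord_pow, CFT.ord_zpow,
          hπ]
        push_cast; omega)
      simpa using mul_mem h (pow_mem_localPowers (p := 2) (ζ := (-1 : K)) v (Units.mk0 π hπ0 ^ k))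
    · right
      have h := hno (x * Units.mk0 π hπ0 / (Units.mk0 π hπ0 ^ (k + 1)) ^ 2) (by
        simp only [Units.val_div_eq_div_val, Units.val_mul, Units.val_pow_eq_pow_val,
          Units.val_zpow_eq_zpow_val, Units.val_mk0]
        rw [CFT.ord_div v (mul_ne_zero x.ne_zero hπ0) (pow_ne_zero _ (zpow_ne_zero _ hπ0)),
          CFT.ord_mul v x.ne_zero hπ0, CFT.ord_pow, CFT.ord_zpow, hπ]
        push_cast; omega)
      simpa using mul_mem h
        (pow_mem_localPowers (p := 2) (ζ := (-1 : K)) v (Units.mk0 π hπ0 ^ (k + 1)))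
  have hle : P.index ≤ 2 := by
    have : Finite (Kˣ ⧸ P) := Nat.finite_of_card_ne_zero (show P.index ≠ 0 by omega)
    rw [Subgroup.index_eq_card]
    refine (Nat.card_le_card_of_surjective (α := Bool)
      (fun b => if b then (1 : Kˣ ⧸ P) else QuotientGroup.mk (Units.mk0 π hπ0)⁻¹) ?_).trans
      (by simp)
    intro q
    induction q using QuotientGroup.induction_on with
    | _ x =>
      rcases hall x with h | h
      · exact ⟨true, by simpa using ((QuotientGroup.eq_one_iff x).mpr h).symm⟩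
      · refine ⟨false, ?_⟩
        simp only [Bool.false_eq_true, if_false]
        rw [QuotientGroup.eq, inv_inv, mul_comm]
        exact h
  omega

section Kummer

variable {F : Type} [Field F] [NumberField F] [Algebra K F] [IsGalois K F]
  (hF : Module.finrank K F = 2) {σ : F ≃ₐ[K] F} (hσ : σ ≠ 1)

include hF hσ in
/-- An element which becomes a square is a local square at the split places. -/
theorem mem_localPowers_of_split {β : F} {a : Kˣ} (hβ : β ^ 2 = algebraMap K F (a : K))
    {v : Pl K} (hv : ¬ IsNonsplit σ v) : a ∈ localPowers 2 (-1 : K) v := by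
  obtain ⟨w, rfl⟩ := CFT.exists_plUnder_eq (F := F) v
  have hne : σ • w ≠ w := fun h => hv (IsNonsplit.of_smul_eq hF hσ h)
  have hne' : σ⁻¹ • w ≠ w := fun h => hne (by conv_lhs => rw [← h, smul_inv_smul])
  have hβ0 : β ≠ 0 := by
    intro h
    rw [h, zero_pow two_ne_zero, eq_comm, map_eq_zero] at hβ
    exact a.ne_zero hβ
  set L := plRamIdx K w * localLevel 2 (-1 : K) (plUnder K w) + 1 with hL
  set m := (L : ℤ) + |CFT.ord w β| + |CFT.ord (σ⁻¹ • w) β| with hm
  -- `u` is close to `β` at `w` and small at the conjugate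
  obtain ⟨u, hu, -⟩ := Fermat.LT.exists_approx (F := F) ({w, σ⁻¹ • w} : Finset (Pl F))
    (fun x => if x = w then β else 0) m.toNat
  have hmn : m ≤ m.toNat := Int.self_le_toNat _
  have huw := hu w (Finset.mem_insert_self _ _)
  rw [if_pos rfl] at huw
  have huσ := hu (σ⁻¹ • w) (Finset.mem_insert_of_mem (Finset.mem_singleton_self _))
  rw [if_neg hne', sub_zero] at huσ
  obtain ⟨y, hy⟩ : u + σ u ∈ Set.range (algebraMap K F) := by
    refine (IsGalois.mem_range_algebraMap_iff_fixed _).mpr fun τ => ?_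
    obtain ⟨i, hi, rfl⟩ := exists_eq_generator_pow hF hσ τ
    interval_cases i
    · simp
    · rw [pow_one, map_add, ← AlgEquiv.mul_apply, ← pow_two,
        show σ ^ 2 = 1 by rw [← orderOf_generator hF hσ]; exact pow_orderOf_eq_one σ]
      simp [add_comm]
  -- so `u + σ u` is close to `β` at `w`
  have hclose : CloseOne w (L : ℤ) ((u + σ u) / β) := by
    by_cases h1 : (u + σ u) / β = 1
    · exact Or.inl h1
    refine Or.inr ?_
    have hsum : u + σ u - β ≠ 0 := fun h => h1 (by rw [sub_eq_zero.mp h, div_self hβ0])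
    rw [div_sub_one hβ0, CFT.ord_div w hsum hβ0]
    have h3 : (m : ℤ) ≤ CFT.ord w (u + σ u - β) := by
      rw [show u + σ u - β = (u - β) + σ u by ring] at hsum ⊢
      refine CFT.ord_add_ge w hsum ?_ ?_
      · rcases eq_or_ne (u - β) 0 with h | h
        · exact Or.inl h
        · rw [← CFT.le_ord_iff w h] at huw
          exact Or.inr (hmn.trans huw)
      · rcases eq_or_ne u 0 with rfl | h
        · exact Or.inl (map_zero σ)
        · rw [← CFT.le_ord_iff _ h] at huσ
          have h4 := CFT.ord_smul σ (σ⁻¹ • w) u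
          rw [smul_inv_smul] at h4
          refine Or.inr ?_
          change m ≤ CFT.ord w (σ • u)
          rw [h4]; exact hmn.trans huσ
    have := le_abs_self (CFT.ord w β)
    have := abs_nonneg (CFT.ord (σ⁻¹ • w) β)
    omega
  have hL0 : (0 : ℤ) < (L : ℤ) := Int.natCast_pos.mpr (Nat.succ_pos _)
  have hy0 : y ≠ 0 := by
    rintro rfl
    rw [map_zero] at hy
    rw [← hy, zero_div] at hclose
    rcases hclose with h | h
    · exact zero_ne_one h
    · simp at h
  refine ⟨Units.mk0 y hy0, closeOne_of_algebraMap (w := w) rfl ?_⟩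
  rw [map_div₀, Units.val_mk0, map_pow, hy, ← hβ]
  have hne0 : (u + σ u) / β ≠ 0 := div_ne_zero (by rw [← hy]; simpa using hy0) hβ0
  have h5 := (hclose.mul hL0 hclose hne0).inv hL0 (mul_ne_zero hne0 hne0)
  rw [show ((u + σ u) / β * ((u + σ u) / β))⁻¹ = β ^ 2 / (u + σ u) ^ 2 by
    rw [← pow_two, ← inv_pow, inv_div, div_pow]] at h5
  exact closeOne_mono h5 (by rw [hL]; push_cast; omega)

variable [IsTotallyComplex K]

include hF hσ in
/-- An unramified non-split place is never alone in failing to give norms. -/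
lemma not_alone_unram {P : Pl K} (hP : P ∉ ramPl F) (hns : IsNonsplit σ P) : ¬ Alone σ P := by
  rintro ⟨z, hz⟩
  set T := (finite_ramPl hF hσ).toFinset
  obtain ⟨Q, hQT, hQr, hQns, hQ⟩ := exists_not_alone hF hσ (insert P T)
  rw [Finset.mem_insert, not_or] at hQT
  have : IsCyclic (F ≃ₐ[K] F) := isCyclic_of_prime_card (p := 2) (card_aut_eq hF)
  obtain ⟨x, hx, -, -⟩ := exists_pair (N := F) hF hσ this (a := 1)
    (by rw [card_aut_eq hF, pow_one]) (quadSgn hF) (T := T)
    (fun u hu => plRamIdx_eq_one_of_not_ram (by simpa [T] using hu) rfl) 1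
    (by simpa [T] using hP) hQT.2 hns hQns
  refine hQ ⟨z * x, ?_⟩
  rw [nonNorm_mul hF hσ, hz, hx, ← symmDiff_assoc, symmDiff_self, bot_symmDiff]

include hF hσ in
/-- Products of pairs realise every finite set of unramified inert places up to one place. -/
lemma exists_kill {N : Type} [Field N] [NumberField N] [Algebra K N] [IsGalois K N] [Algebra F N]
    [IsScalarTower K F N] (hcy : IsCyclic (N ≃ₐ[K] N)) {a : ℕ}
    (hcard : Nat.card (N ≃ₐ[K] N) = 2 ^ a) {A : Type*} [CommGroup A] (χ : (N ≃ₐ[K] N) →* A)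
    {T : Finset (Pl K)} (hT : ∀ u : Pl N, plUnder K u ∉ T → plRamIdx K u = 1) (n : ℕ)
    {Q : Pl K} (hQ : Q ∉ T) (hQns : IsNonsplit σ Q) (R : Finset (Pl K))
    (hR : ∀ r ∈ R, r ∉ T ∧ IsNonsplit σ r) :
    ∃ x : Kˣ, nonNorm σ x = (if Even R.card then ↑R else ↑R ∆ {Q}) ∧
      (∀ v ∈ T, CloseOne v ((n + 1 : ℕ) : ℤ) (x : K)) ∧ art χ (T : Set (Pl K)) (x : K) = 1 := by
  induction R using Finset.induction with
  | empty => exact ⟨1, by simp [nonNorm_one], fun v _ => Or.inl rfl, by simp [art_one]⟩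
  | @insert r R hr ih =>
    obtain ⟨x, hx, hxc, hxA⟩ := ih fun s hs => hR s (Finset.mem_insert_of_mem hs)
    obtain ⟨hrT, hrns⟩ := hR r (Finset.mem_insert_self _ _)
    obtain ⟨y, hy, hyc, hyA⟩ := exists_pair hF hσ hcy hcard χ hT (n + 1) hrT hQ hrns hQns
    refine ⟨x * y, ?_, fun v hv => ?_, ?_⟩
    · have hins : ((insert r R : Finset (Pl K)) : Set (Pl K)) = ↑R ∆ {r} := by
        rw [Finset.coe_insert, Set.insert_eq]
        ext v
        simp only [Set.mem_union, Set.mem_singleton_iff, Set.mem_symmDiff, Finset.mem_coe]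
        constructor
        · rintro (rfl | h)
          · exact Or.inr ⟨rfl, hr⟩
          · exact Or.inl ⟨h, fun e => hr (e ▸ h)⟩
        · tauto
      rw [nonNorm_mul hF hσ, hx, hy, Finset.card_insert_of_notMem hr, hins]
      by_cases he : Even R.card
      · rw [if_pos he, if_neg (by rw [Nat.even_add_one, not_not]; exact he), symmDiff_assoc]
      · rw [if_neg he, if_pos (Nat.even_add_one.mpr he), symmDiff_comm ({r} : Set (Pl K)),
          symmDiff_assoc, ← symmDiff_assoc ({Q} : Set (Pl K)), symmDiff_self, bot_symmDiff]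
    · rw [Units.val_mul]
      exact (hxc v hv).mul (Int.natCast_pos.mpr n.succ_pos) (hyc v hv) y.ne_zero
    · rw [Units.val_mul, art_mul χ _ x.ne_zero y.ne_zero, hxA, hyA, mul_one]

include hF hσ in
/-- Correct an element so that all its symbols are concentrated at one place. -/
lemma exists_even_adjust {T : Finset (Pl K)} (hT : ∀ u : Pl K, u ∉ T → u ∉ ramPl F)
    {v : Pl K} (hvT : v ∈ T) (hal : Alone σ v) (c : Kˣ) (L : ℕ)
    (hc : ∀ u ∈ T, u ≠ v → c ∈ lnorms F u) :
    ∃ y : Kˣ, nonNorm σ (c * y) ⊆ {v} ∧ ∀ u ∈ T, CloseOne u ((L + 1 : ℕ) : ℤ) (y : K) := by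
  set R := ((nonNorm_finite hF hσ c).toFinset).erase v with hR
  have hRmem : ∀ r ∈ R, r ∉ T ∧ IsNonsplit σ r := by
    intro r hr
    obtain ⟨hrv, hr⟩ := Finset.mem_erase.mp hr
    rw [Set.Finite.mem_toFinset] at hr
    exact ⟨fun hrT => hr.2 (hc r hrT hrv), hr.1⟩
  -- an auxiliary place absorbs the other symbols
  obtain ⟨Q, hQT, hQr, hQns, hQ⟩ := exists_not_alone hF hσ T
  have hcy : IsCyclic (F ≃ₐ[K] F) := isCyclic_of_prime_card (p := 2) (card_aut_eq hF)
  obtain ⟨y, hy, hyc, -⟩ := exists_kill hF hσ (N := F) hcy (a := 1)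
    (by rw [card_aut_eq hF, pow_one]) (quadSgn hF) (T := T)
    (fun u hu => plRamIdx_eq_one_of_not_ram (hT _ hu) rfl) L hQT hQns R hRmem
  have hQv : Q ≠ v := fun e => hQT (e ▸ hvT)
  have hsub : ∀ u, u ∈ nonNorm σ c → u = v ∨ u ∈ (↑R : Set (Pl K)) := fun u hu => by
    by_cases h : u = v
    · exact Or.inl h
    · exact Or.inr (Finset.mem_erase.mpr ⟨h, (Set.Finite.mem_toFinset _).mpr hu⟩)
  have hsup : ∀ u, u ∈ (↑R : Set (Pl K)) → u ∈ nonNorm σ c := fun u hu =>
    (Set.Finite.mem_toFinset _).mp (Finset.mem_of_mem_erase hu)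
  refine ⟨y, fun u hu => ?_, hyc⟩
  rw [nonNorm_mul hF hσ, hy, Set.mem_symmDiff] at hu
  split_ifs at hu with he
  · rcases hu with ⟨h1, h2⟩ | ⟨h1, h2⟩
    · rcases hsub u h1 with h | h
      · exact h
      · exact absurd h h2
    · exact absurd (hsup u h1) h2
  · -- the leftover symbol at `Q` contradicts the product formula
    exfalso
    have hQc : Q ∉ (↑R : Set (Pl K)) → Q ∈ nonNorm σ (c * y) := fun h => by
      rw [nonNorm_mul hF hσ, hy, if_neg he, Set.mem_symmDiff]
      refine Or.inr ⟨Set.mem_symmDiff.mpr (Or.inr ⟨rfl, h⟩), fun h' => ?_⟩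
      rcases hsub Q h' with h'' | h''
      · exact hQv h''
      · exact h h''
    have hrest : ∀ r, r ∈ nonNorm σ (c * y) → r = v ∨ r = Q := by
      intro r hr
      rw [nonNorm_mul hF hσ, hy, if_neg he, Set.mem_symmDiff, Set.mem_symmDiff] at hr
      rcases hr with ⟨h1, h2⟩ | ⟨⟨h1, -⟩ | ⟨h1, -⟩, h2⟩
      · rcases hsub r h1 with h | h
        · exact Or.inl h
        · by_cases hrQ : r = Q
          · exact Or.inr hrQ
          · exact absurd (Or.inl ⟨h, hrQ⟩) h2
      · exact absurd (hsup r h1) h2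
      · exact Or.inr h1
    have hQmem : Q ∈ nonNorm σ (c * y) := by
      by_cases h : Q ∈ (↑R : Set (Pl K))
      · rw [nonNorm_mul hF hσ, hy, if_neg he, Set.mem_symmDiff, Set.mem_symmDiff]
        exact Or.inl ⟨hsup Q h, fun h' => h'.elim (fun h' => h'.2 rfl) fun h' => h'.2 h⟩
      · exact hQc h
    obtain ⟨z, hz⟩ := hal
    by_cases hvm : v ∈ nonNorm σ (c * y)
    · refine hQ ⟨c * y * z, ?_⟩
      rw [nonNorm_mul hF hσ (c * y) z, hz]
      ext r
      rw [Set.mem_symmDiff, Set.mem_singleton_iff, Set.mem_singleton_iff]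
      constructor
      · rintro (⟨h1, h2⟩ | ⟨rfl, h2⟩)
        · exact (hrest r h1).resolve_left h2
        · exact absurd hvm h2
      · rintro rfl
        exact Or.inl ⟨hQmem, hQv⟩
    · refine hQ ⟨c * y, Set.ext fun r => ⟨fun h => ?_, fun h => ?_⟩⟩
      · exact (hrest r h).resolve_left fun e => hvm (e ▸ h)
      · rw [Set.mem_singleton_iff] at h; exact h ▸ hQmem

variable (hdy : ∀ v ∈ ramPl F, CFT.ord v ((2 : ℕ) : K) = 0)

include hF hσ hdy in
/-- A ramified place is never alone in failing to give norms. -/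
lemma not_alone_ram {v : Pl K} (hv : v ∈ ramPl F) : ¬ Alone σ v := by
  rintro ⟨z, hz⟩
  obtain ⟨α, m, hα0, hα, hσα⟩ := exists_kummer_generator hF hσ (neg_one_primitive (K := K))
  obtain ⟨c₀, hc₀ord, hc₀⟩ := exists_unit_not_localPowers v
  set T := (finite_ramPl hF hσ).toFinset ∪
    (CFT.finite_ord_ne_zero ((2 : ℕ) : K)).toFinset with hTdef
  have hramT : ∀ u : Pl K, u ∉ T → u ∉ ramPl F ∧ CFT.ord u ((2 : ℕ) : K) = 0 := fun u hu => by
    simpa [hTdef] using hu
  have hvT : v ∈ T := by simp [hTdef, hv]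
  obtain ⟨L, hL⟩ : ∃ L : ℕ, ∀ u ∈ T, localLevel 2 (-1 : K) u ≤ L :=
    ⟨_, fun u hu => Finset.le_sup (f := fun u : Pl K => localLevel 2 (-1 : K) u) hu⟩
  obtain ⟨c, hc⟩ := exists_units_approx T (fun u => if u = v then c₀ else 1) (L + 1)
  have hvT1 : ∀ u ∈ T, u ≠ v → CloseOne u ((L + 1 : ℕ) : ℤ) (c : K) := fun u hu huv => by
    simpa [huv] using hc u hu
  obtain ⟨y, hy, hyc⟩ :=
    exists_even_adjust hF hσ (T := T) (fun u hu => (hramT u hu).1) hvT ⟨z, hz⟩ c L
    fun u hu huv => mem_lnorms_of_closeOne (closeOne_mono (hvT1 u hu huv) (by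
      exact_mod_cast (hL u hu).trans (Nat.le_succ _)))
  -- `c'`: a unit at `v` but no square there, near `1` at the rest of `T`
  set c' : Kˣ := c * y with hc'def
  have hc'T : ∀ u ∈ T, u ≠ v → CloseOne u ((L + 1 : ℕ) : ℤ) (c' : K) := fun u hu huv => by
    rw [hc'def, Units.val_mul]
    exact (hvT1 u hu huv).mul (Int.natCast_pos.mpr L.succ_pos) (hyc u hu) y.ne_zero
  have hlev : ∀ u ∈ T, ((localLevel 2 (-1 : K) u : ℕ) : ℤ) ≤ ((L + 1 : ℕ) : ℤ) := fun u hu => by
    exact_mod_cast (hL u hu).trans (Nat.le_succ _)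
  have hclosev : ∀ z : Kˣ, CloseOne v ((L + 1 : ℕ) : ℤ) (z : K) → z ∈ localPowers 2 (-1 : K) v :=
    fun z h => ⟨1, by simpa using closeOne_mono h (hlev v hvT)⟩
  have hcv : CloseOne v ((L + 1 : ℕ) : ℤ) ((c / c₀ : Kˣ) : K) := by
    rw [Units.val_div_eq_div_val]; simpa using hc v hvT
  have hc'v : c' ∉ localPowers 2 (-1 : K) v := fun h => hc₀ (by
    have h2 := div_mem (div_mem h (hclosev y (hyc v hvT))) (hclosev _ hcv)
    rwa [hc'def, mul_div_cancel_right, div_div_cancel] at h2)
  have hc'ord : CFT.ord v (c' : K) = 0 := by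
    rw [hc'def, Units.val_mul, CFT.ord_mul v c.ne_zero y.ne_zero,
      (hyc v hvT).ord_eq_zero (Int.natCast_pos.mpr L.succ_pos)]
    have h := hcv.ord_eq_zero (Int.natCast_pos.mpr L.succ_pos)
    rw [Units.val_div_eq_div_val, CFT.ord_div v c.ne_zero c₀.ne_zero, hc₀ord] at h
    omega
  have hno : ∀ t : K, t ^ 2 ≠ (c' : K) := by
    intro t ht
    have ht0 : t ≠ 0 := by rintro rfl; simp [eq_comm] at ht
    exact hc'v ⟨Units.mk0 t ht0, Or.inl (by rw [Units.val_mk0, ht, div_self c'.ne_zero])⟩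
  -- the field of a square root of `c'`
  have hne : (primitiveRoots 2 K).Nonempty :=
    ⟨-1, (mem_primitiveRoots two_pos).mpr neg_one_primitive⟩
  have hirr : Irreducible (Polynomial.X ^ 2 - Polynomial.C (c' : K)) :=
    X_pow_sub_C_irreducible_of_prime Nat.prime_two hno
  let F' := (Polynomial.X ^ 2 - Polynomial.C (c' : K)).SplittingField
  have hF' : Module.finrank K F' = 2 := finrank_of_isSplittingField_X_pow_sub_C hne hirr F'
  have : IsGalois K F' := isGalois_of_isSplittingField_X_pow_sub_C hne hirr F'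
  have : NumberField F' := NumberField.of_module_finite K F'
  obtain ⟨β, hβ⟩ : ∃ β : F', β ^ 2 = algebraMap K F' (c' : K) :=
    ⟨_, rootOfSplitsXPowSubC_pow (c' : K) F'⟩
  obtain ⟨τ, hτ, hτβ⟩ := exists_aut_mul_root (neg_one_primitive (K := K)) hβ hno
  have hramodd : ∀ u ∈ ramPl F', CFT.ord u ((2 : ℕ) : K) = 0 → ¬ (2 : ℤ) ∣ CFT.ord u (c' : K) := by
    rintro u ⟨w, rfl, hw⟩ h2 hdvd
    exact hw (plRamIdx_eq_one_of_dvd hF' neg_one_primitive hβ hτβ h2 hdvd)
  have hvns : IsNonsplit τ v := by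
    by_contra h; exact hc'v (mem_localPowers_of_split hF' hτ hβ h)
  have hvur : v ∉ ramPl F' := fun h => hramodd v h (hdy v hv) (by rw [hc'ord]; exact dvd_zero _)
  have hmv : ¬ (2 : ℤ) ∣ CFT.ord v (m : K) := by
    obtain ⟨w, rfl, hw⟩ := hv
    exact fun h => hw (plRamIdx_eq_one_of_dvd hF neg_one_primitive hα hσα (hdy _ ⟨w, rfl, hw⟩) h)
  refine not_alone_unram hF' hτ hvur hvns ⟨m, Set.ext fun u => ?_⟩
  rw [Set.mem_singleton_iff]
  constructor
  · rintro ⟨huns, hum⟩
    by_contra huv
    by_cases huT : u ∈ T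
    · exact not_isNonsplit_of_mem_localPowers neg_one_primitive hβ hτβ
        ⟨1, by simpa using closeOne_mono (hc'T u huT huv) (hlev u huT)⟩ huns
    obtain ⟨hur, hu2⟩ := hramT u huT
    by_cases hsp : IsNonsplit σ u
    · -- inert in `F`: `c'` has even valuation, so `u` is unramified in `F'`
      have heven : Even (CFT.ord u (c' : K)) := by
        rw [← mem_lnorms_iff_even hF hσ hsp hur]
        by_contra h
        have : u ∈ nonNorm σ c' := ⟨hsp, h⟩
        exact huv (hy (hc'def ▸ this))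
      have hu' : u ∉ ramPl F' := fun h => hramodd u h hu2 (even_iff_two_dvd.mp heven)
      refine hum ((mem_lnorms_iff_even hF' hτ huns hu' m).mpr ?_)
      obtain ⟨w, rfl⟩ := CFT.exists_plUnder_eq (F := F) u
      have h := congrArg (CFT.ord w) hα
      rw [CFT.ord_pow, CFT.ord_algebraMap_eq, plRamIdx_eq_one_of_not_ram hur rfl, Nat.cast_one,
        one_mul] at h
      exact ⟨CFT.ord w α, by rw [← h]; push_cast; ring⟩
    · exact hum (Subgroup.mem_sup_right (mem_localPowers_of_split hF hσ hα hsp))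
  · rintro rfl
    exact ⟨hvns, fun h => hmv (even_iff_two_dvd.mp
      ((mem_lnorms_iff_even hF' hτ hvns hvur m).mp h))⟩

include hF hσ hdy in
/-- **The product formula.** An element of `K` fails to be a local norm at an even number of
places. -/
theorem even_ncard_nonNorm (x : Kˣ) : Even (nonNorm σ x).ncard := by
  obtain ⟨U, A, hU, -, -, -, hP⟩ :=
    exists_relation hF hσ (nonNorm_finite hF hσ x).toFinset
  set P := (nonNorm_finite hF hσ x).toFinset with hPdef
  have hPns : ∀ v ∈ P, IsNonsplit σ v := fun v hv => ((Set.Finite.mem_toFinset _).mp hv).1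
  have h := (hP P hU hPns).mp ⟨x, by simp [hPdef]⟩
  rw [Finset.inter_eq_left.mpr ?_] at h
  · rwa [Set.ncard_eq_toFinset_card _ (nonNorm_finite hF hσ x)]
  intro v hv
  by_contra hvA
  obtain ⟨z, hz⟩ :=
    (hP {v} (Finset.singleton_subset_iff.mpr (hU hv)) (by simpa using hPns v hv)).mpr
    (by rw [Finset.singleton_inter_of_notMem hvA]; exact Even.zero)
  rw [Finset.coe_singleton] at hz
  by_cases hr : v ∈ ramPl F
  · exact not_alone_ram hF hσ hdy hr ⟨z, hz⟩
  · exact not_alone_unram hF hσ hr (hPns v hv) ⟨z, hz⟩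

end Kummer

end Fermat.LT.Theta
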