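import Fermat.Agent.LT.Theta.Cross

/-!
# One side of a crossing: pairing two inert places through the fixed field of a subgroup

`exists_pair_of_subgroup` pairs the two places in the fixed field of the subgroup, using
`exists_common_place`.
-/

set_option autoImplicit false
set_option linter.unusedSectionVars false

noncomputable section

open NumberField Fermat.CFT
open scoped Classical symmDiff

namespace Fermat.LT.Theta

variable {K : Type} [Field K] [NumberField K]

/-- Restriction to a normal subextension is transitive. -/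
lemma restrictNormal_restrictNormal {F N Ω : Type} [Field F] [Field N] [Field Ω] [Algebra K F]
    [Algebra K N] [Algebra K Ω] [Algebra F N] [Algebra F Ω] [Algebra N Ω] [IsScalarTower K F N]
    [IsScalarTower K F Ω] [IsScalarTower K N Ω] [IsScalarTower F N Ω] [Normal K F] [Normal K N]
    (g : Ω ≃ₐ[K] Ω) : (g.restrictNormal N).restrictNormal F = g.restrictNormal F := by
  refine AlgEquiv.ext fun x => (algebraMap F Ω).injective ?_
  rw [AlgEquiv.restrictNormal_commutes, IsScalarTower.algebraMap_apply F N Ω,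
    AlgEquiv.restrictNormal_commutes, AlgEquiv.restrictNormal_commutes,
    ← IsScalarTower.algebraMap_apply F N Ω]

/-- In a cyclic two-group the elements acting nontrivially on the quadratic subfield generate. -/
lemma orderOf_of_restrict_ne_one {F N : Type} [Field F] [NumberField F] [Field N]
    [Algebra K F] [Algebra K N] [Algebra F N] [IsScalarTower K F N] [IsGalois K F]
    (hcy : IsCyclic (N ≃ₐ[K] N)) {a : ℕ} (hcard : Nat.card (N ≃ₐ[K] N) = 2 ^ a)
    (hF : Module.finrank K F = 2) {g : N ≃ₐ[K] N} (hg : g.restrictNormal F ≠ 1) :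
    orderOf g = 2 ^ a := by
  obtain ⟨γ, hγ⟩ := hcy.exists_generator
  obtain ⟨i, rfl⟩ := Subgroup.mem_zpowers_iff.mp (hγ g)
  have hord : orderOf γ = 2 ^ a := by rw [orderOf_eq_card_of_forall_mem_zpowers hγ, hcard]
  have hi : ¬ Even i := fun ⟨k, hk⟩ => hg (by
    have h2 : (AlgEquiv.restrictNormalHom F γ : F ≃ₐ[K] F) ^ 2 = 1 := by
      rw [← show Nat.card (F ≃ₐ[K] F) = 2 by rw [IsGalois.card_aut_eq_finrank, hF]]
      exact pow_card_eq_one'
    change AlgEquiv.restrictNormalHom F (γ ^ i) = 1
    rw [map_zpow, hk, ← two_mul, zpow_mul, zpow_two, ← pow_two, h2, one_zpow])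
  have hcop : ∀ m : ℕ, Odd m → (orderOf γ).Coprime m := fun m hm => by
    rw [hord]; exact Nat.Coprime.pow_left _ (Nat.coprime_two_left.mpr hm)
  rcases Int.eq_nat_or_neg i with ⟨m, rfl | rfl⟩
  · rw [zpow_natCast,
      (hcop m (Nat.not_even_iff_odd.mp fun he => hi (he.natCast))).orderOf_pow, hord]
  · rw [zpow_neg, zpow_natCast, orderOf_inv,
      (hcop m (Nat.not_even_iff_odd.mp fun he => hi (he.natCast.neg))).orderOf_pow, hord]

variable [IsTotallyComplex K]
  {F : Type} [Field F] [NumberField F] [Algebra K F] [IsGalois K F]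
  {N : Type} [Field N] [NumberField N] [Algebra K N] [IsGalois K N]
  {Ω : Type} [Field Ω] [NumberField Ω] [Algebra K Ω] [IsGalois K Ω]
  [Algebra F N] [IsScalarTower K F N]
  [Algebra F Ω] [IsScalarTower K F Ω] [Algebra N Ω] [IsScalarTower K N Ω] [IsScalarTower F N Ω]
  (hc : ∀ a b : Ω ≃ₐ[K] Ω, a * b = b * a) (hF : Module.finrank K F = 2) {σ : F ≃ₐ[K] F}
  (hσ : σ ≠ 1) (T : Set (Pl K)) (hT : T.Finite)
  (hun : ∀ W : Pl Ω, plUnder K W ∉ T → plRamIdx K W = 1)

include hun in
/-- Outside the excluded set the extension is unramified. -/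
lemma not_mem_ramPl_of_not_mem {v : Pl K} (hv : v ∉ T) : v ∉ ramPl F := by
  rintro ⟨u, rfl, hu⟩
  obtain ⟨W, rfl⟩ := CFT.exists_plUnder_eq (F := Ω) u
  refine hu ?_
  have h1 := plRamIdx_tower (K := K) (N := F) W
  rw [hun W (by rwa [plUnder_plUnder'] at hv)] at h1
  exact Nat.eq_one_of_mul_eq_one_right h1.symm

include hc in
/-- The fixed field of a subgroup is Galois. -/
lemma isGalois_fixedField (H : Subgroup (Ω ≃ₐ[K] Ω)) :
    IsGalois K (IntermediateField.fixedField H) := by
  have : H.Normal := ⟨fun x hx g => by rwa [hc g x, mul_inv_cancel_right]⟩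
  infer_instance

include hF in
/-- A nontrivial restriction to `F` cuts out a quadratic extension of `E`. -/
lemma finrank_fixedField_resHom {E : Type} [Field E] [NumberField E] [Algebra K E] [Algebra E Ω]
    [IsScalarTower K E Ω] [IsGalois K E] [IsGalois E Ω] {g : Ω ≃ₐ[E] Ω}
    (hg : resHom K E F Ω g ≠ 1) :
    Module.finrank E (IntermediateField.fixedField (resHom K E F Ω).ker) = 2 := by
  have hFc : Nat.card (F ≃ₐ[K] F) = 2 := by rw [IsGalois.card_aut_eq_finrank, hF]
  have hrange : Nat.card (resHom K E F Ω).range = 2 :=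
    le_antisymm ((Nat.card_le_card_of_injective _ Subtype.val_injective).trans hFc.le)
      (Finite.one_lt_card_iff_nontrivial.mpr
        ⟨⟨⟨_, g, rfl⟩, 1, fun h => hg (congrArg Subtype.val h)⟩⟩)
  have h1 := IntermediateField.finrank_fixedField_eq_card (resHom K E F Ω).ker
  have h2 := Module.finrank_mul_finrank E
    (IntermediateField.fixedField (resHom K E F Ω).ker) Ω
  have h3 := Subgroup.card_mul_index (resHom K E F Ω).ker
  rw [Subgroup.index_ker, hrange, IsGalois.card_aut_eq_finrank, ← h2, h1,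
    mul_comm (Module.finrank E _)] at h3
  exact (Nat.eq_of_mul_eq_mul_left Nat.card_pos h3).symm

include hc hF hσ hun hT in
/-- When `H` contains odd Frobenius powers at two non-split places outside `T`, some `x` fails to
be a local norm exactly there, is close to `1` on `T` and has trivial symbol. -/
theorem exists_pair_of_subgroup (H : Subgroup (Ω ≃ₐ[K] Ω)) {ℓ : ℕ} [Fact ℓ.Prime] {ζ : Ω}
    (hζ : IsPrimitiveRoot ζ ℓ) (hTℓ : ∀ v : Pl K, (ℓ : 𝓞 K) ∈ v.asIdeal → v ∈ T)
    (hH : ∀ g ∈ H, g ζ = ζ → g.restrictNormal N = 1) {A : Type*} [CommGroup A]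
    (χ : (N ≃ₐ[K] N) →* A) (n : ℕ) {W W' : Pl Ω} {f f' : ℕ} (hf : Odd f) (hf' : Odd f')
    (hW : plUnder K W ∉ T) (hW' : plUnder K W' ∉ T) (hne : plUnder K W ≠ plUnder K W')
    (hP : frobEl K W ^ f ∈ H) (hP' : frobEl K W' ^ f' ∈ H)
    (hns : IsNonsplit σ (plUnder K W)) (hns' : IsNonsplit σ (plUnder K W')) :
    ∃ x : Kˣ, nonNorm σ x = {plUnder K W, plUnder K W'} ∧
      (∀ v ∈ T, CloseOne v n (x : K)) ∧ art χ T (x : K) = 1 := by
  set E := IntermediateField.fixedField H with hEdef
  have := isGalois_fixedField hc H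
  have : IsTotallyComplex E := isTotallyComplex_of_algebra (F := K) (K := E)
  have hmemH : ∀ g : Ω ≃ₐ[E] Ω, g.restrictScalars K ∈ H := fun g => by
    rw [← IntermediateField.fixingSubgroup_fixedField H]
    exact (IntermediateField.mem_fixingSubgroup_iff _ _).mpr fun x hx => g.commutes ⟨x, hx⟩
  -- non-splitting in the quadratic extension of `E`
  set E' := IntermediateField.fixedField (resHom K E F Ω).ker
  have hker : ∀ g : Ω ≃ₐ[E] Ω, g.restrictNormal E' = 1 ↔ resHom K E F Ω g = 1 := by
    intro g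
    change g ∈ (AlgEquiv.restrictNormalHom E').ker ↔ g ∈ (resHom K E F Ω).ker
    rw [IntermediateField.restrictNormalHom_ker, IntermediateField.fixingSubgroup_fixedField]
  have hfrobE : ∀ (V : Pl Ω) (k : ℕ), Odd k → plUnder K V ∉ T → frobEl K V ^ k ∈ H →
      IsNonsplit σ (plUnder K V) → resHom K E F Ω (frobPl Ω (plUnder E V)) ≠ 1 := by
    intro V k hk hV hmem hsp
    have hVE : plUnder K (plUnder E V) = plUnder K V := plUnder_plUnder' V
    rw [resHom_frobPl hc (plUnder E V) (fun U hU => hun U (by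
      rw [← plUnder_plUnder' (N := E) U, hU, hVE]; exact hV)), hVE]
    have hramE : plRamIdx K (plUnder E V) = 1 := by
      have h1 := plRamIdx_tower (K := K) (N := E) V
      rw [hun V hV] at h1
      exact Nat.eq_one_of_mul_eq_one_right h1.symm
    have hcg : Congr ((frobEl K V).restrictNormal E) (plUnder E V)
        (resCard (plUnder K (plUnder E V))) := by
      rw [hVE]; exact (congr_frobEl (K := K) V).restrictNormal
    have hdvd : Nat.card (MulAction.stabilizer (E ≃ₐ[K] E) (plUnder E V)) ∣ k := by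
      rw [← (congr_pow_stabilizer (plUnder E V) hramE hcg).1, orderOf_dvd_iff_pow_eq_one]
      change (AlgEquiv.restrictNormalHom E (frobEl K V)) ^ k = 1
      rw [← map_pow, ← MonoidHom.mem_ker, IntermediateField.restrictNormalHom_ker,
        IntermediateField.fixingSubgroup_fixedField]
      exact hmem
    have hodd := hk.of_dvd_nat hdvd
    have h2 : frobPl F (plUnder K V) ^ 2 = 1 := by
      rw [← show Nat.card (F ≃ₐ[K] F) = 2 by rw [IsGalois.card_aut_eq_finrank, hF]]
      exact pow_card_eq_one'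
    obtain ⟨j, hj⟩ := hodd
    rw [hj, pow_succ, pow_mul, h2, one_pow, one_mul]
    exact (isNonsplit_iff_frobPl hF hσ (not_mem_ramPl_of_not_mem T hun hV)).mp hsp
  have hWne := hfrobE W f hf hW hP hns
  have hcard2 : Module.finrank E E' = 2 := finrank_fixedField_resHom hF hWne
  obtain ⟨σE, hσE⟩ : ∃ σE : E' ≃ₐ[E] E', σE ≠ 1 := by
    have : Nontrivial (E' ≃ₐ[E] E') := Finite.one_lt_card_iff_nontrivial.mp (by
      rw [IsGalois.card_aut_eq_finrank, hcard2]; norm_num)
    exact exists_ne 1
  have hinj : ∀ g : Ω ≃ₐ[E] Ω, g ζ = ζ → resHom K E N Ω g = 1 := fun g hg =>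
    hH _ (hmemH g) hg
  have hinjF : ∀ g : Ω ≃ₐ[E] Ω, g ζ = ζ → resHom K E F Ω g = 1 := fun g hg => by
    rw [resHom_apply, ← restrictNormal_restrictNormal (F := F) (N := N)]
    have := hinj g hg
    rw [resHom_apply] at this
    rw [this]
    exact map_one (AlgEquiv.restrictNormalHom F)
  have hw : ∀ V : Pl Ω, plUnder K V ∉ T → plUnder K (plUnder E V) ∉ T := fun V hV => by
    rwa [plUnder_plUnder']
  set m := n + 1 + hT.toFinset.sup (fun v => localLevel 2 (-1 : K) v) with hm
  obtain ⟨M, hM⟩ : ∃ M : ℕ, ∀ w ∈ plAbove E hT.toFinset, plRamIdx K w * m ≤ M :=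
    ⟨_, fun w hw => Finset.le_sup (f := fun w : Pl E => plRamIdx K w * m) hw⟩
  -- a pair of non-norms for `E'/E`, close to `1` over `T`; then take its norm down to `K`
  obtain ⟨x, hx, hcl, hart⟩ := exists_pair_norm (E' := E') hc hcard2 hσE T hun hζ hTℓ χ hT hinj M
    (hw W hW) (hw W' hW')
    ((isNonsplit_iff_res hker hcard2 hσE T hun (hw W hW)).mpr hWne)
    ((isNonsplit_iff_res hker hcard2 hσE T hun (hw W' hW')).mpr (hfrobE W' f' hf' hW' hP' hns'))
    (not_alone_of_cyclo hc hF hker hcard2 hσE T hun hζ hTℓ hT hinjF (hw W hW))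
    (not_alone_of_cyclo hc hF hker hcard2 hσE T hun hζ hTℓ hT hinjF (hw W' hW'))
  set y : Kˣ := Units.map (Algebra.norm K : E →* K) x
  have hclose : ∀ v ∈ T, CloseOne v m (y : K) := fun v hv => by
    refine closeOne_norm (by omega) x.ne_zero fun w hw => ?_
    exact closeOne_mono (hcl w (hw ▸ hv)) (by exact_mod_cast hM w (by simp [hw, hv]))
  refine ⟨y, Set.ext fun v => ?_, fun v hv => closeOne_mono (hclose v hv)
    (by exact_mod_cast (show n ≤ m by omega)), hart⟩
  by_cases hv : v ∈ T
  · have h1 : v ∉ nonNorm σ y := fun h => h.2 (mem_lnorms_of_closeOne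
      (closeOne_mono (hclose v hv) (by
        exact_mod_cast (Finset.le_sup (f := fun v => localLevel 2 (-1 : K) v)
          (hT.mem_toFinset.mpr hv)).trans (show _ ≤ m by omega))))
    simp only [h1, false_iff, Set.mem_insert_iff, Set.mem_singleton_iff, not_or]
    exact ⟨fun h => hW (h ▸ hv), fun h => hW' (h ▸ hv)⟩
  rw [mem_nonNorm_norm_iff hc hF hker hcard2 hσE hσ (fun U hU => hun U (hU ▸ hv)) x, hx]
  have hneE : plUnder E W ≠ plUnder E W' := fun h => hne (by
    rw [← plUnder_plUnder' (N := E) W, h, plUnder_plUnder'])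
  have hset : {w | w ∈ ({plUnder E W} : Set (Pl E)) ∆ {plUnder E W'} ∧ plUnder K w = v} =
      (if plUnder K W = v then {plUnder E W} else ∅) ∪
        (if plUnder K W' = v then {plUnder E W'} else ∅) := by
    ext w
    simp only [Set.mem_ofPred_eq, Set.mem_symmDiff, Set.mem_singleton_iff, Set.mem_union]
    constructor
    · rintro ⟨⟨rfl, -⟩ | ⟨rfl, -⟩, hv'⟩ <;> rw [plUnder_plUnder'] at hv' <;> simp [hv']
    · rintro (h | h) <;> split_ifs at h with h' <;> try exact absurd h (Set.notMem_empty _)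
      all_goals rw [Set.mem_singleton_iff] at h; subst h
      · exact ⟨Or.inl ⟨rfl, hneE⟩, by rw [plUnder_plUnder', h']⟩
      · exact ⟨Or.inr ⟨rfl, hneE.symm⟩, by rw [plUnder_plUnder', h']⟩
  rw [hset]
  by_cases h1 : plUnder K W = v
  · have h2 : plUnder K W' ≠ v := fun h => hne (h1.trans h.symm)
    simp [h1, h2]
  · by_cases h2 : plUnder K W' = v
    · simp [h1, h2]
    · simp [h1, h2, Ne.symm h1, Ne.symm h2]

include hc hF hσ hun hT in
/-- A non-split place with a Frobenius power of odd exponent in a given cyclic group. -/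
theorem exists_common_place {t : Ω ≃ₐ[K] Ω} (htF : t.restrictNormal F ≠ 1) (B : Finset (Pl K)) :
    ∃ (W : Pl Ω) (f : ℕ), Odd f ∧ plUnder K W ∉ T ∧ plUnder K W ∉ B ∧
      frobEl K W ^ f ∈ Subgroup.zpowers t ∧ IsNonsplit σ (plUnder K W) := by
  set E := IntermediateField.fixedField (Subgroup.zpowers t) with hEdef
  have := isGalois_fixedField hc (Subgroup.zpowers t)
  have : IsTotallyComplex E := isTotallyComplex_of_algebra (F := K) (K := E)
  set E' := IntermediateField.fixedField (resHom K E F Ω).ker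
  have hker : ∀ g : Ω ≃ₐ[E] Ω, g.restrictNormal E' = 1 ↔ resHom K E F Ω g = 1 := by
    intro g
    change g ∈ (AlgEquiv.restrictNormalHom E').ker ↔ g ∈ (resHom K E F Ω).ker
    rw [IntermediateField.restrictNormalHom_ker, IntermediateField.fixingSubgroup_fixedField]
  have hcard2 : Module.finrank E E' = 2 := by
    obtain ⟨g, hg⟩ : ∃ g : Ω ≃ₐ[E] Ω, g.restrictScalars K = t := by
      have ht' : t ∈ E.fixingSubgroup := by
        rw [hEdef, IntermediateField.fixingSubgroup_fixedField]; exact Subgroup.mem_zpowers _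
      refine ⟨IntermediateField.fixingSubgroupEquiv E ⟨t, ht'⟩, ?_⟩
      ext x; rfl
    exact finrank_fixedField_resHom hF (g := g) (by rw [resHom_apply, hg]; exact htF)
  obtain ⟨σE, hσE⟩ : ∃ σE : E' ≃ₐ[E] E', σE ≠ 1 := by
    have : Nontrivial (E' ≃ₐ[E] E') := Finite.one_lt_card_iff_nontrivial.mp (by
      rw [IsGalois.card_aut_eq_finrank, hcard2]; norm_num)
    exact exists_ne 1
  -- a non-split place of `E'/E` outside `T` and `B`
  obtain ⟨b, hbT, -, hbns, -⟩ := exists_not_alone hcard2 hσE
    (plAbove E (B ∪ hT.toFinset))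
  simp only [mem_plAbove, Finset.mem_union, Set.Finite.mem_toFinset, not_or] at hbT
  obtain ⟨hbB, hbT⟩ := hbT
  set W := plOver Ω b
  have hWb : plUnder E W = b := plUnder_plOver b
  have hWR : plUnder K W = plUnder K b := by rw [← plUnder_plUnder' (N := E) W, hWb]
  have hres := (isNonsplit_iff_res hker hcard2 hσE T hun hbT).mp hbns
  rw [resHom_frobPl hc b (fun U hU => hun U (by
    rw [← plUnder_plUnder' (N := E) U, hU]; exact hbT))] at hres
  set f := Nat.card (MulAction.stabilizer (E ≃ₐ[K] E) b)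
  have hR : IsNonsplit σ (plUnder K b) := by
    rw [isNonsplit_iff_frobPl hF hσ (not_mem_ramPl_of_not_mem T hun hbT)]
    intro h; rw [h, one_pow] at hres; exact hres rfl
  have hfodd : Odd f := by
    rw [← Nat.not_even_iff_odd]
    rintro ⟨j, hj⟩
    have h2 : frobPl F (plUnder K b) ^ 2 = 1 := by
      rw [← show Nat.card (F ≃ₐ[K] F) = 2 by rw [IsGalois.card_aut_eq_finrank, hF]]
      exact pow_card_eq_one'
    rw [hj, ← two_mul, pow_mul, h2, one_pow] at hres
    exact hres rfl
  have hWf : frobEl K W ^ f ∈ Subgroup.zpowers t := by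
    have hramE : plRamIdx K b = 1 := by
      have h1 := plRamIdx_tower (K := K) (N := E) W
      rw [hun W (hWR ▸ hbT), hWb] at h1
      exact Nat.eq_one_of_mul_eq_one_right h1.symm
    have hcg : Congr ((frobEl K W).restrictNormal E) b (resCard (plUnder K b)) := by
      rw [← hWR, ← hWb]; exact (congr_frobEl (K := K) W).restrictNormal
    rw [← IntermediateField.fixingSubgroup_fixedField (Subgroup.zpowers t), ← hEdef,
      ← E.restrictNormalHom_ker, MonoidHom.mem_ker, map_pow]
    change ((frobEl K W).restrictNormal E) ^ f = 1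
    rw [← orderOf_dvd_iff_pow_eq_one, (congr_pow_stabilizer b hramE hcg).1]
  exact ⟨W, f, hfodd, hWR ▸ hbT, hWR ▸ hbB, hWf, hWR ▸ hR⟩

end Fermat.LT.Theta
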