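import Mathlib

/-!
# Theta: sums over finite quotients of additive subgroups

`qsum lo hi f` is the sum of `f` over `lo / hi`; `qsum_restrict` and `qsum_coarse` change the
groups.
-/

set_option autoImplicit false

noncomputable section

open scoped Classical

namespace Fermat.LT.Theta

variable {A : Type*} [AddCommGroup A]

/-- The sum of `f` over `lo / hi`. -/
def qsum (lo hi : AddSubgroup A) (f : A → ℂ) : ℂ :=
  ∑ᶠ x : lo ⧸ hi.addSubgroupOf lo, f ((Quotient.out x : lo) : A)

/-- `f` on `lo` only depends on the class modulo `hi`. -/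
def Periodic (lo hi : AddSubgroup A) (f : A → ℂ) : Prop :=
  ∀ x ∈ lo, ∀ h ∈ hi, f (x + h) = f x

variable {lo mid hi : AddSubgroup A} {f g : A → ℂ}

/-- Periodicity passes to a smaller domain and period. -/
lemma Periodic.mono (h : Periodic lo hi f) {lo' hi' : AddSubgroup A} (h1 : lo' ≤ lo)
    (h2 : hi' ≤ hi) : Periodic lo' hi' f := fun x hx y hy => h x (h1 hx) y (h2 hy)

/-- A periodic function is determined on representatives of classes. -/
lemma Periodic.eq_out (hf : Periodic lo hi f) (x : lo) :
    f ((Quotient.out (QuotientAddGroup.mk (s := hi.addSubgroupOf lo) x) : lo) : A) = f x := by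
  set q := Quotient.out (QuotientAddGroup.mk (s := hi.addSubgroupOf lo) x)
  have h : -x + q ∈ hi.addSubgroupOf lo := QuotientAddGroup.eq.1 (QuotientAddGroup.out_eq' _).symm
  rw [AddSubgroup.mem_addSubgroupOf] at h
  have := hf x x.2 _ h
  simpa using this

/-- The sum only depends on the values on `lo`. -/
lemma qsum_congr (h : ∀ x ∈ lo, f x = g x) : qsum lo hi f = qsum lo hi g :=
  finsum_congr fun x => h _ (Quotient.out x).2

/-- Constants factor out of the sum. -/
lemma qsum_smul (c : ℂ) : qsum lo hi (fun x => c * f x) = c * qsum lo hi f :=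
  (mul_finsum _ c).symm

/-- Shifting by a group element does not change the sum. -/
lemma qsum_shift (hf : Periodic lo hi f) {l : A} (hl : l ∈ lo) :
    qsum lo hi (fun x => f (x + l)) = qsum lo hi f := by
  conv_rhs => rw [qsum, ← finsum_comp_equiv (Equiv.addRight
    (QuotientAddGroup.mk (s := hi.addSubgroupOf lo) (⟨l, hl⟩ : lo)))]
  refine finsum_congr fun x => ?_
  change _ = f ((Quotient.out (x + QuotientAddGroup.mk (⟨l, hl⟩ : lo)) : lo) : A)
  conv_rhs => rw [← QuotientAddGroup.out_eq' x, ← QuotientAddGroup.mk_add, hf.eq_out]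
  rfl

/-- A function changing by a factor other than `1` under a translation sums to zero. -/
lemma qsum_eq_zero (hf : Periodic lo hi f) {l : A} (hl : l ∈ lo) {c : ℂ} (hc : c ≠ 1)
    (h : ∀ x ∈ lo, f (x + l) = c * f x) : qsum lo hi f = 0 := by
  have e := qsum_shift hf hl
  rw [qsum_congr h, qsum_smul] at e
  by_contra h0
  exact hc ((mul_eq_right₀ h0).1 e)

/-- A constant sums to the index times the constant. -/
lemma qsum_const (c : ℂ) (h : ∀ x ∈ lo, f x = c) (hfin : hi.relIndex lo ≠ 0) :
    qsum lo hi f = hi.relIndex lo * c := by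
  have : Finite (lo ⧸ hi.addSubgroupOf lo) := Nat.finite_of_card_ne_zero hfin
  let _ := Fintype.ofFinite (lo ⧸ hi.addSubgroupOf lo)
  rw [qsum_congr h, qsum, finsum_eq_sum_of_fintype, Finset.sum_const, Finset.card_univ,
    nsmul_eq_mul, ← Nat.card_eq_fintype_card]
  rfl

/-- An additive automorphism transports sums. -/
lemma qsum_map (e : A ≃+ A) (hf : Periodic (lo.map e.toAddMonoidHom) (hi.map e.toAddMonoidHom) f) :
    qsum (lo.map e.toAddMonoidHom) (hi.map e.toAddMonoidHom) f = qsum lo hi (f ∘ e) := by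
  set lo' := lo.map e.toAddMonoidHom
  set hi' := hi.map e.toAddMonoidHom
  let φ : lo ≃+ lo' := AddEquiv.addSubgroupMap e lo
  have hH : (hi.addSubgroupOf lo).map (φ : lo →+ lo') = hi'.addSubgroupOf lo' := by
    ext ⟨y, hy⟩
    constructor
    · rintro ⟨x, hx, h⟩
      rw [AddSubgroup.mem_addSubgroupOf, ← h]
      exact ⟨x, hx, rfl⟩
    · rintro ⟨x, hx, h⟩
      obtain ⟨x', hx', h'⟩ := hy
      have : x' = x := e.injective (h'.trans h.symm)
      subst this; exact ⟨⟨x', hx'⟩, hx, Subtype.ext h'⟩
  rw [qsum, qsum, ← finsum_comp_equiv (QuotientAddGroup.congr _ _ φ hH).toEquiv]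
  refine finsum_congr fun x => ?_
  conv_lhs => rw [← QuotientAddGroup.out_eq' x]
  change f ((Quotient.out (QuotientAddGroup.mk (s := hi'.addSubgroupOf lo')
    (φ (Quotient.out x))) : lo') : A) = _
  rw [hf.eq_out]
  rfl

/-- The map on quotients induced by an inclusion. -/
def inclQ (hmid : mid ≤ lo) (hi : AddSubgroup A) :
    mid ⧸ hi.addSubgroupOf mid →+ lo ⧸ hi.addSubgroupOf lo :=
  QuotientAddGroup.map _ _ (AddSubgroup.inclusion hmid) fun _ hx => hx

/-- `inclQ` on classes. -/
lemma inclQ_mk (hmid : mid ≤ lo) (x : mid) :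
    inclQ hmid hi (QuotientAddGroup.mk x) = QuotientAddGroup.mk (AddSubgroup.inclusion hmid x) :=
      rfl

/-- The map induced by an inclusion is injective. -/
lemma inclQ_injective (hmid : mid ≤ lo) : Function.Injective (inclQ hmid hi) := by
  rw [injective_iff_map_eq_zero]
  intro a ha
  obtain ⟨a, rfl⟩ := QuotientAddGroup.mk_surjective a
  rw [inclQ_mk, QuotientAddGroup.eq_zero_iff] at ha
  exact (QuotientAddGroup.eq_zero_iff _).2 ha

/-- A function supported on an intermediate group sums over that group. -/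
lemma qsum_restrict (hmid : mid ≤ lo) (hf : Periodic lo hi f)
    (h0 : ∀ x ∈ lo, x ∉ mid → f x = 0) : qsum lo hi f = qsum mid hi f := by
  have hι := inclQ_injective (hi := hi) hmid
  calc qsum lo hi f = ∑ᶠ x ∈ Set.range (inclQ hmid hi), f ((Quotient.out x : lo) : A) := by
        rw [qsum, ← finsum_mem_univ]
        refine finsum_mem_inter_support_eq' _ _ _ fun x hx => iff_of_true (Set.mem_univ x) ?_
        have hm : ((Quotient.out x : lo) : A) ∈ mid := by
          by_contra hm; exact hx (h0 _ (Quotient.out x).2 hm)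
        refine ⟨QuotientAddGroup.mk ⟨_, hm⟩, ?_⟩
        rw [inclQ_mk]
        conv_rhs => rw [← QuotientAddGroup.out_eq' x]
        exact congrArg _ (Subtype.ext rfl)
    _ = qsum mid hi f := by
        rw [finsum_mem_range hι, qsum]
        refine finsum_congr fun x => ?_
        conv_lhs => rw [← QuotientAddGroup.out_eq' x, inclQ_mk, hf.eq_out]
        rfl

/-- A coarser period multiplies the sum by the index. -/
lemma qsum_coarse (hhm : hi ≤ mid) (hmid : mid ≤ lo) (hfin : hi.relIndex lo ≠ 0)
    (hf : Periodic lo mid f) : qsum lo hi f = hi.relIndex mid * qsum lo mid f := by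
  have : Finite (lo ⧸ hi.addSubgroupOf lo) := Nat.finite_of_card_ne_zero hfin
  let π : lo ⧸ hi.addSubgroupOf lo →+ lo ⧸ mid.addSubgroupOf lo :=
    QuotientAddGroup.map _ _ (AddMonoidHom.id lo) fun x hx => hhm hx
  have hπ : Function.Surjective π := fun y => by
    obtain ⟨y, rfl⟩ := QuotientAddGroup.mk_surjective y
    exact ⟨QuotientAddGroup.mk y, rfl⟩
  have : Finite (lo ⧸ mid.addSubgroupOf lo) := Finite.of_surjective π hπ
  let _ := Fintype.ofFinite (lo ⧸ hi.addSubgroupOf lo)
  let _ := Fintype.ofFinite (lo ⧸ mid.addSubgroupOf lo)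
  rw [qsum, qsum, finsum_eq_sum_of_fintype, finsum_eq_sum_of_fintype,
    ← Finset.sum_fiberwise Finset.univ π, Finset.mul_sum]
  refine Finset.sum_congr rfl fun y _ => ?_
  have hval : ∀ x ∈ (Finset.univ.filter fun x => π x = y),
      f ((Quotient.out x : lo) : A) = f ((Quotient.out y : lo) : A) := by
    intro x hx
    rw [← (Finset.mem_filter.1 hx).2, ← hf.eq_out (Quotient.out x)]
    conv_rhs => rw [← QuotientAddGroup.out_eq' x]
    rfl
  rw [Finset.sum_congr rfl hval, Finset.sum_const, nsmul_eq_mul]
  congr 1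
  norm_cast
  obtain ⟨x₀, hx₀⟩ := hπ y
  -- every fibre is a translate of the kernel
  have e1 : (Finset.univ.filter fun x => π x = y).card
      = (Finset.univ.filter fun x => π x = 0).card := by
    refine Finset.card_equiv (Equiv.subRight x₀) fun x => ?_
    simp [map_sub, hx₀, sub_eq_zero]
  have hι := inclQ_injective (hi := hi) hmid
  have : Finite (mid ⧸ hi.addSubgroupOf mid) := Finite.of_injective _ hι
  let _ := Fintype.ofFinite (mid ⧸ hi.addSubgroupOf mid)
  have e2 : (Finset.univ.filter fun x => π x = 0) = Finset.univ.image (inclQ hmid hi) := by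
    ext x
    obtain ⟨x, rfl⟩ := QuotientAddGroup.mk_surjective x
    simp only [Finset.mem_filter, Finset.mem_univ, true_and, Finset.mem_image]
    rw [show π (QuotientAddGroup.mk x) = QuotientAddGroup.mk x from rfl,
      QuotientAddGroup.eq_zero_iff]
    constructor
    · exact fun h => ⟨QuotientAddGroup.mk ⟨x.1, h⟩, rfl⟩
    · rintro ⟨a, ha⟩
      obtain ⟨a, rfl⟩ := QuotientAddGroup.mk_surjective a
      rw [inclQ_mk, QuotientAddGroup.eq] at ha
      have h2 := mid.add_mem a.2 (hhm ha)
      simpa [AddSubgroup.mem_addSubgroupOf] using h2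
  rw [e1, e2, Finset.card_image_of_injective _ hι, Finset.card_univ, ← Nat.card_eq_fintype_card]
  rfl

/-- The sum of an indicator is an index. -/
lemma qsum_indicator (hhm : hi ≤ mid) (hmid : mid ≤ lo) (hfin : hi.relIndex lo ≠ 0) :
    qsum lo hi (fun x => if x ∈ mid then 1 else 0) = hi.relIndex mid := by
  rw [qsum_restrict hmid (fun x _ h hh => if_congr (mid.add_mem_cancel_right (hhm hh)) rfl rfl)
    fun x _ hx => if_neg hx]
  have hne : hi.relIndex mid ≠ 0 := by
    have := AddSubgroup.relIndex_mul_relIndex hi mid lo hhm hmid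
    exact left_ne_zero_of_mul (this ▸ hfin)
  rw [qsum_const 1 (fun x hx => if_pos hx) hne, mul_one]

end Fermat.LT.Theta
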