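import Fermat.Agent.LT.Theta.Point
import Fermat.Agent.LT.Height

/-!
# Theta: the coefficient at a norm as a finite sum of products of local factors

`W_norm` evaluates the local coefficient at a norm in terms of the factors `locT`.
-/

set_option autoImplicit false
set_option linter.unusedSectionVars false

noncomputable section

open NumberField Fermat.CFT Filter
open scoped Pointwise Classical

namespace Fermat.LT.Theta

/-- Chebyshev values are geometric sums. -/
lemma sum_zpow_chebU {z : ℂ} (hz : z ≠ 0) {c : ℝ} (hc : (c : ℂ) = z + z⁻¹) : ∀ n : ℕ,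
    ∑ i ∈ Finset.range (n + 1), z ^ ((2 * i : ℤ) - n) = (chebU c n : ℂ) := by
  set S : ℕ → ℂ := fun n => ∑ i ∈ Finset.range (n + 1), z ^ ((2 * i : ℤ) - n) with hS
  have h1 : ∀ n, S (n + 1) = z⁻¹ * S n + z ^ ((n : ℤ) + 1) := fun n => by
    simp only [hS]
    rw [Finset.sum_range_succ _ (n + 1), Finset.mul_sum]
    congr 1
    · refine Finset.sum_congr rfl fun i _ => ?_
      rw [← zpow_neg_one, ← zpow_add₀ hz]
      push_cast; ring_nf
    · push_cast; ring_nf
  have h0 : S 0 = 1 := by simp [hS]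
  have h3 : ∀ n, S (n + 2) = (z + z⁻¹) * S (n + 1) - S n := fun n => by
    have e1 := h1 (n + 1)
    have e2 : z * S (n + 1) = S n + z ^ ((n : ℤ) + 2) := by
      rw [h1, mul_add, ← mul_assoc, mul_inv_cancel₀ hz, one_mul, mul_comm z, ← zpow_add_one₀ hz]
      ring_nf
    rw [show (((n + 1 : ℕ)) : ℤ) + 1 = (n : ℤ) + 2 by push_cast; ring] at e1
    rw [e1, add_mul, e2]
    ring
  have key : ∀ n, S n = (chebU c n : ℂ) ∧ S (n + 1) = (chebU c (n + 1) : ℂ) := fun n => by
    induction n with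
    | zero =>
      refine ⟨by rw [h0]; simp [chebU], ?_⟩
      rw [h1, h0]
      simp [chebU, hc]
      ring
    | succ n ih =>
      refine ⟨ih.2, ?_⟩
      rw [h3, ih.1, ih.2, show chebU c (n + 1 + 1) = c * chebU c (n + 1) - chebU c n from rfl, ← hc]
      push_cast
      rfl
  exact fun n => (key n).1

variable {F M : Type} [Field F] [NumberField F] [IsTotallyComplex F] [Field M] [NumberField M]
  [Algebra F M] [IsGalois F M] {σ : M ≃ₐ[F] M} {lam : Pl F → ℝ}

/-- `q_v ^ (-n/2)`. -/
def sqp (v : Pl F) (n : ℤ) : ℝ := Real.sqrt (pnorm v) ^ (-n)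

/-- `sqp` turns sums into products. -/
lemma sqp_add (v : Pl F) (m n : ℤ) : sqp v (m + n) = sqp v m * sqp v n := by
  rw [sqp, sqp, sqp, neg_add, zpow_add₀ (sqrt_pnorm_ne_zero v)]

/-- `sqp` is positive. -/
lemma sqp_pos (v : Pl F) (n : ℤ) : 0 < sqp v n :=
  zpow_pos ((Real.sqrt_nonneg _).lt_of_ne' (sqrt_pnorm_ne_zero v)) _

/-- The character on exponents at the places over `v`. -/
def zw (H : HData σ lam) (v : Pl F) (i : ℤ × ℤ) : ℂ :=
  if v ∈ s3 F then 1
  else if IsNonsplit σ v then (H.th (plOver M v) : ℂ) ^ i.1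
  else (H.th (plOver M v) : ℂ) ^ (i.1 - i.2)

variable (H : HData σ lam)

/-- The values `th` have absolute value one. -/
lemma norm_th (P : Pl M) : ‖(H.th P : ℂ)‖ = 1 :=
  Complex.norm_eq_one_of_pow_eq_one (by rw [← Units.val_pow_eq_pow_val, H.th_four, Units.val_one])
    four_ne_zero

/-- The character on exponents has absolute value one. -/
lemma norm_zw (v : Pl F) (i : ℤ × ℤ) : ‖zw H v i‖ = 1 := by
  unfold zw
  split_ifs <;> simp [norm_th]

/-- The character on exponents does not vanish. -/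
lemma zw_ne_zero (v : Pl F) (i : ℤ × ℤ) : zw H v i ≠ 0 := fun h => by
  have := norm_zw H v i
  rw [h, norm_zero] at this
  exact zero_ne_one this

/-- The character on exponents is multiplicative. -/
lemma zw_add (v : Pl F) (i j : ℤ × ℤ) : zw H v (i + j) = zw H v i * zw H v j := by
  unfold zw
  split_ifs
  · rw [one_mul]
  · rw [Prod.fst_add, zpow_add₀ (Units.ne_zero _)]
  · rw [Prod.fst_add, Prod.snd_add, ← zpow_add₀ (Units.ne_zero _)]
    congr 1; ring

/-- The character at exponent zero is one. -/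
@[simp] lemma zw_zero (v : Pl F) : zw H v 0 = 1 := by simp [zw]

variable {H} {ω : FinPt F (s3 F)} (P : PDat H ω)

/-- The exponents of the box at `v`. -/
def mBox (v : Pl F) (j : ℤ) : ℤ × ℤ := (-(P.k1 v + j), -(P.k2 v - j))

/-- The local factor at exponent `j`: a weight times an indicator or character and a phase. -/
def locT (v : Pl F) (j : ℤ) (η : M) : ℂ :=
  if IsNonsplit σ v ∧ j ≠ 0 then 0
  else zw H v (j, -j) * ((if v ∈ s3 F then phiS σ v (H.θ (plOver M v)) (-P.k1 v) η
    else if η ∈ box σ v (mBox P v j) then 1 else 0) * psiD (dlt H) v (P.x v * Algebra.norm F η))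

/-- The exponent of `a` at `v` shifted by `eL`, and by one over `3`. -/
def aP (v : Pl F) : ℤ :=
  CFT.ord v (P.a v : F) + eL (dlt H) v + (if v ∈ s3 F then 1 else 0)

/-- The constant in the local coefficient at `v`. -/
def cP (v : Pl F) : ℂ := (sqp v (aP P v) : ℂ) * zw H v (P.k1 v, P.k2 v)

/-- The local constant does not vanish. -/
lemma cP_ne_zero (v : Pl F) : cP P v ≠ 0 :=
  mul_ne_zero (Complex.ofReal_ne_zero.2 (sqp_pos v _).ne') (zw_ne_zero H v _)

/-- The exponents of `ξ` at `v`. -/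
def ordV (σ : M ≃ₐ[F] M) (v : Pl F) (ξ : M) : ℤ × ℤ :=
  (CFT.ord (plOver M v) ξ, CFT.ord (plConj σ v) ξ)

variable (H) in
/-- The local value of the character at `ξ`. -/
def chiV (v : Pl F) (ξ : Mˣ) : ℂ :=
  if v ∈ s3 F then (H.θ (plOver M v) ξ : ℂ) else zw H v (ordV σ v (ξ : M))

/-- The summation range at `v`. -/
def jSet (v : Pl F) (ξ : M) : Finset ℤ :=
  if IsNonsplit σ v then
    (if (v ∈ s3 F ∧ CFT.ord (plOver M v) ξ + P.k1 v = 0) ∨
      (v ∉ s3 F ∧ 0 ≤ CFT.ord (plOver M v) ξ + P.k1 v) then {0} else ∅)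
  else Finset.Icc (-(CFT.ord (plOver M v) ξ + P.k1 v)) (CFT.ord (plConj σ v) ξ + P.k2 v)

include H in
/-- The orders above add to the ramification index times the order of the norm. -/
lemma norm_ord (v : Pl F) (ξ : Mˣ) :
    (plRamIdx F (plOver M v) : ℤ) * CFT.ord v (Algebra.norm F (ξ : M))
      = (ordV σ v (ξ : M)).1 + (ordV σ v (ξ : M)).2 := by
  have hF := H.finrank
  have hσ := H.σ_ne
  have h := CFT.ord_algebraMap_eq (plOver M v) (Algebra.norm F (ξ : M))
  rw [plUnder_plOver, norm_eq hF hσ, CFT.ord_mul _ ξ.ne_zero ((map_ne_zero σ).2 ξ.ne_zero)] at h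
  rw [← h, ordV]
  congr 1
  conv_lhs => rw [← smul_plConj hF hσ v]
  exact CFT.ord_smul σ _ _

include H in
/-- At a non-split place the two orders agree. -/
lemma nonsplit_ord {v : Pl F} (hns : IsNonsplit σ v) (ξ : M) :
    CFT.ord (plConj σ v) ξ = CFT.ord (plOver M v) ξ := by
  rw [(plConj_eq_iff H.finrank H.σ_ne).2 hns]

/-- The local factor vanishes outside the summation range. -/
lemma locT_eq_zero {v : Pl F} {j : ℤ} {ξ : Mˣ} (hj : j ∉ jSet P v (ξ : M)) :
    locT P v j (ξ : M) = 0 := by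
  unfold locT
  split_ifs with h1 hv h3
  · rfl
  · rw [jSet, if_pos (isNonsplit_s3 H hv)] at hj
    rw [mul_eq_zero]; right
    have hj0 : j = 0 := by
      by_contra h; exact h1 ⟨isNonsplit_s3 H hv, h⟩
    subst hj0
    refine mul_eq_zero_of_left ?_ _
    rw [phiS, dif_neg]
    intro hh
    rw [mem_box_diag H.finrank H.σ_ne (isNonsplit_s3 H hv) ξ.ne_zero,
      mem_box_diag H.finrank H.σ_ne (isNonsplit_s3 H hv) ξ.ne_zero] at hh
    rw [if_pos (Or.inl ⟨hv, by omega⟩)] at hj
    simp at hj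
  · exfalso
    rw [mem_box_iff_ord ξ.ne_zero] at h3
    simp only [mBox] at h3
    by_cases hns : IsNonsplit σ v
    · have hj0 : j = 0 := by by_contra h; exact h1 ⟨hns, h⟩
      subst hj0
      rw [jSet, if_pos hns, if_pos (Or.inr ⟨hv, by omega⟩)] at hj
      simp at hj
    · rw [jSet, if_neg hns, Finset.mem_Icc] at hj
      omega
  · simp

/-- The local coefficient at the point in its parameters. -/
lemma locW_at (v : Pl F) (α : Fˣ) :
    (dat H).W v (upMat α 0 • ω.1 v)
      = psiD (dlt H) v ((α : F) * P.x v) * hfun (dlt H) (cOf lam) (lnorms M)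
        (s3 F) v (α * P.a v) := by
  obtain ⟨k, hk, he⟩ := P.rep v
  rw [he, MulAction.Quotient.smul_coe, smul_eq_mul, ← mul_assoc, upMat_mul, LDat.W,
    locW_eq (dat H).h3 _ _ _ (dat H).hN hk rfl, add_zero]
  rfl

/-- The norm of a unit of `M`, as a unit of `F`. -/
def nrm (_σ : M ≃ₐ[F] M) (ξ : Mˣ) : Fˣ := Units.map (Algebra.norm F : M →* F) ξ

/-- The value of `nrm`. -/
@[simp] lemma coe_nrm (ξ : Mˣ) : ((nrm σ ξ : Fˣ) : F) = Algebra.norm F (ξ : M) := rfl

/-- An element lies in the box of each exponent in its range. -/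
lemma mem_box_of_jSet {v : Pl F} (hv : v ∉ s3 F) {j : ℤ} {ξ : Mˣ} (hj : j ∈ jSet P v (ξ : M)) :
    (ξ : M) ∈ box σ v (mBox P v j) := by
  rw [mem_box_iff_ord ξ.ne_zero]
  simp only [mBox]
  by_cases hns : IsNonsplit σ v
  · rw [jSet, if_pos hns] at hj
    split_ifs at hj with h
    · rw [Finset.mem_singleton] at hj
      have := nonsplit_ord (H := H) hns (ξ : M)
      have := P.adm v hns
      obtain ⟨h3, -⟩ | ⟨-, h0⟩ := h
      · exact absurd h3 hv
      · omega
    · simp at hj
  · rw [jSet, if_neg hns, Finset.mem_Icc] at hj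
    omega

include H in
/-- At a split place the normalised eigenvalue is the character plus its inverse. -/
lemma cOf_split {v : Pl F} (hv : v ∉ s3 F) (hns : ¬ IsNonsplit σ v) :
    ((cOf lam v : ℝ) : ℂ) = (H.th (plOver M v) : ℂ) + (H.th (plOver M v) : ℂ)⁻¹ := by
  have h3 : (3 : 𝓞 M) ∉ (plOver M v).asIdeal := fun h => hv (by
    have := (three_mem_iff (F := F)).2 h
    rwa [plUnder_plOver] at this)
  have hsne : σ • plOver M v ≠ plOver M v := fun h => hns ((plConj_eq_iff H.finrank H.σ_ne).1 h)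
  have h := H.lam_split _ h3 hsne
  rw [plUnder_plOver] at h
  rw [cOf, Complex.ofReal_div, h, Units.val_inv_eq_inv_val]
  exact mul_div_cancel_left₀ _ (Complex.ofReal_ne_zero.2 (sqrt_pnorm_ne_zero v))

include H in
/-- At an inert place the eigenvalue is `0` and the character is `-1`. -/
lemma cOf_inert {v : Pl F} (hv : v ∉ s3 F) (hns : IsNonsplit σ v) :
    cOf lam v = 0 ∧ (H.th (plOver M v) : ℂ) = -1 := by
  have h3 : (3 : 𝓞 M) ∉ (plOver M v).asIdeal := fun h => hv (by
    have := (three_mem_iff (F := F)).2 h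
    rwa [plUnder_plOver] at this)
  have hs := hns _ (plUnder_plOver v)
  refine ⟨?_, by rw [H.th_inert _ h3 hs]; simp⟩
  have := H.lam_inert _ h3 hs
  rw [plUnder_plOver] at this
  rw [cOf, this, zero_div]

/-- The local coefficient at a norm, at the level: only the exponent `0` contributes. -/
lemma W_norm_level {v : Pl F} (hv : v ∈ s3 F) (ξ : Mˣ) :
    (dat H).W v (upMat (nrm σ ξ) 0 • ω.1 v)
      = (sqp v (CFT.ord v (nrm σ ξ : F)) : ℂ) * chiV H v ξ * cP P v
        * ∑ j ∈ jSet P v (ξ : M), locT P v j (ξ : M) := by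
  rw [locW_at P, hfun]
  have hord := norm_ord (H := H) v ξ
  have hns := isNonsplit_s3 H hv
  have hQ := nonsplit_ord (H := H) hns (ξ : M)
  have hN : nrm σ ξ * P.a v ∈ lnorms M v :=
    mul_mem (norm_mem_localNorms (y := ξ) rfl) (P.aon v hv)
  have hkon := P.kon v hv
  simp only [ordV] at hord
  rw [if_pos hv, Units.val_mul,
    CFT.ord_mul v (Units.ne_zero _) (Units.ne_zero _), coe_nrm]
  have he : (1 : ℤ) ≤ plRamIdx F (plOver M v) := by exact_mod_cast plRamIdx_pos _
  -- the level condition on `N ξ`, read upstairs on `ξ`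
  have hiff : CFT.ord v (Algebra.norm F (ξ : M)) + CFT.ord v (P.a v : F) + eL (dlt H) v = -1
      ↔ CFT.ord (plOver M v) (ξ : M) + P.k1 v = 0 := by
    constructor <;> intro h <;> nlinarith
  -- on the level `ξ` lies in the box shell and the two sides agree
  by_cases hc : CFT.ord (plOver M v) (ξ : M) + P.k1 v = 0
  · have hb : (ξ : M) ∈ box σ v (-P.k1 v, -P.k1 v) ∧
        (ξ : M) ∉ box σ v (-P.k1 v + 1, -P.k1 v + 1) := by
      rw [mem_box_diag H.finrank H.σ_ne hns ξ.ne_zero,
        mem_box_diag H.finrank H.σ_ne hns ξ.ne_zero]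
      omega
    rw [if_pos ⟨hiff.2 hc, hN⟩, jSet, if_pos hns, if_pos (Or.inl ⟨hv, hc⟩), Finset.sum_singleton,
      locT, if_neg (fun h => h.2 rfl), if_pos hv, phiS, dif_pos hb, cP, chiV, if_pos hv, zw,
      if_pos hv, zw, if_pos hv, aP, if_pos hv]
    rw [Units.mk0_val, mul_one, one_mul, mul_comm (Algebra.norm F (ξ : M)) (P.x v)]
    set ψ := psiD (dlt H) v (P.x v * Algebra.norm F (ξ : M))
    set T := (H.θ (plOver M v) ξ : ℂ)
    rw [show ∀ A B : ℂ, A * T * (B * 1) * (T⁻¹ * ψ) = A * B * (T * T⁻¹) * ψ from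
      fun A B => by ring,
      mul_inv_cancel₀ (Units.ne_zero _), mul_one, ← Complex.ofReal_mul, ← sqp_add, sqp,
      show -(CFT.ord v (Algebra.norm F (ξ : M)) +
          (CFT.ord v (P.a v : F) + eL (dlt H) v + 1)) = 0 by
        have := hiff.2 hc; omega]
    simp
  -- off the level both sides vanish
  · rw [if_neg fun h => hc (hiff.1 h.1), jSet, if_pos hns, if_neg, Finset.sum_empty,
      mul_zero, mul_zero]
    rintro (⟨-, h⟩ | ⟨h, -⟩)
    · exact hc h
    · exact h hv

/-- The local coefficient at a norm, off the level: the radial value is the sum over the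
exponents. -/
lemma W_norm_off {v : Pl F} (hv : v ∉ s3 F) (ξ : Mˣ) :
    (dat H).W v (upMat (nrm σ ξ) 0 • ω.1 v)
      = (sqp v (CFT.ord v (nrm σ ξ : F)) : ℂ) * chiV H v ξ * cP P v
        * ∑ j ∈ jSet P v (ξ : M), locT P v j (ξ : M) := by
  rw [locW_at P, hfun]
  have hord := norm_ord (H := H) v ξ
  rw [plRamIdx_off H hv, Nat.cast_one, one_mul] at hord
  simp only [ordV] at hord
  have hk := P.koff v hv
  -- `i1`, `i2` are the exponents at the two places over `v`
  set i1 := CFT.ord (plOver M v) (ξ : M) + P.k1 v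
  set i2 := CFT.ord (plConj σ v) (ξ : M) + P.k2 v
  set z := (H.th (plOver M v) : ℂ)
  rw [if_neg hv, Units.val_mul, CFT.ord_mul v (Units.ne_zero _) (Units.ne_zero _), coe_nrm,
    show CFT.ord v (Algebra.norm F (ξ : M)) + CFT.ord v (P.a v : F) + eL (dlt H) v = i1 + i2 by
      omega,
    Finset.sum_congr rfl fun j hj => show locT P v j (ξ : M)
      = zw H v (j, -j) * psiD (dlt H) v (P.x v * Algebra.norm F (ξ : M)) from ?_, ← Finset.sum_mul,
    mul_comm (Algebra.norm F (ξ : M)) (P.x v)]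
  swap
  · rw [locT, if_neg hv, if_pos (mem_box_of_jSet P hv hj), one_mul, if_neg]
    rintro ⟨hns, hj0⟩
    rw [jSet, if_pos hns] at hj
    split_ifs at hj
    · exact hj0 (Finset.mem_singleton.1 hj)
    · simp at hj
  rw [mul_comm (psiD _ _ _), ← mul_assoc]
  congr 1
  rw [cP, chiV, if_neg hv, aP, if_neg hv, add_zero, ordV]
  -- collect the factors: only `i1 + j` and `i2 - j` remain
  have hsq : (sqp v (CFT.ord v (Algebra.norm F (ξ : M))) : ℂ) *
      (sqp v (CFT.ord v (P.a v : F) + eL (dlt H) v) : ℂ)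
      = (sqp v (i1 + i2) : ℂ) := by
    rw [← Complex.ofReal_mul, ← sqp_add]; congr 2; omega
  have hzsum : ∀ j, zw H v (CFT.ord (plOver M v) (ξ : M), CFT.ord (plConj σ v) (ξ : M))
      * zw H v (P.k1 v, P.k2 v) * zw H v (j, -j) = zw H v (i1 + j, i2 + -j) := fun j => by
    rw [← zw_add, ← zw_add]; rfl
  rw [Finset.mul_sum, Finset.sum_congr rfl fun j _ => show _ = (sqp v (i1 + i2) : ℂ) *
      zw H v (i1 + j, i2 + -j) by
    rw [← hsq, ← hzsum j]; ring, ← Finset.mul_sum]
  rw [radial]
  -- inert: the exponent is `j = 0`; split: the sum is a Chebyshev value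
  by_cases hns : IsNonsplit σ v
  · obtain ⟨hc0, hth⟩ := cOf_inert (H := H) hv hns
    have h12 : i2 = i1 := by
      have := nonsplit_ord (H := H) hns (ξ : M)
      have := P.adm v hns
      omega
    rw [jSet, if_pos hns, hc0]
    by_cases h0 : 0 ≤ i1
    · rw [if_pos (Or.inr ⟨hv, h0⟩), Finset.sum_singleton, if_neg (by omega), zw,
        if_neg hv, if_pos hns]
      obtain ⟨n, hn⟩ := Int.eq_ofNat_of_zero_le h0
      rw [h12, hn, hth, show ((n : ℤ) + n).toNat = 2 * n by omega, (chebU_zero n).1, add_zero, sqp,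
        show -((n : ℤ) + n) = -((2 * n : ℕ) : ℤ) by
          push_cast; ring, zpow_neg, zpow_natCast, zpow_natCast]
      push_cast
      rfl
    · rw [if_neg (show ¬ ((v ∈ s3 F ∧ CFT.ord (plOver M v) (ξ : M) + P.k1 v = 0) ∨
        (v ∉ s3 F ∧ 0 ≤ CFT.ord (plOver M v) (ξ : M) + P.k1 v)) from fun h =>
          h.elim (fun h => hv h.1) fun h => h0 h.2), Finset.sum_empty, mul_zero,
        if_pos (by omega)]
      simp
  · rw [jSet, if_neg hns]
    by_cases h0 : 0 ≤ i1 + i2
    · obtain ⟨n, hn⟩ := Int.eq_ofNat_of_zero_le h0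
      rw [if_neg (by omega), hn, sqp, zpow_neg, zpow_natCast, Int.toNat_natCast]
      push_cast
      congr 1
      rw [← sum_zpow_chebU (Units.ne_zero _) (cOf_split (H := H) hv hns) n]
      refine Finset.sum_bij (fun i _ => (i : ℤ) - i1) (fun i hi => ?_) (fun a _ b _ h => by
        omega) (fun j hj => ?_) fun i hi => ?_
      · rw [Finset.mem_range] at hi; rw [Finset.mem_Icc]; omega
      · rw [Finset.mem_Icc] at hj
        exact ⟨(j + i1).toNat, Finset.mem_range.2 (by omega), by omega⟩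
      · rw [zw, if_neg hv, if_neg hns]
        congr 1
        omega
    · rw [if_pos (by omega), Finset.Icc_eq_empty (by omega), Finset.sum_empty, mul_zero]
      simp

/-- **The local coefficient at a norm.** The local factor at the norm of `ξ` is a character value
times constants times the sum over `jSet` of the local terms. -/
theorem W_norm (v : Pl F) (ξ : Mˣ) :
    (dat H).W v (upMat (nrm σ ξ) 0 • ω.1 v)
      = (sqp v (CFT.ord v (nrm σ ξ : F)) : ℂ) * chiV H v ξ * cP P v
        * ∑ j ∈ jSet P v (ξ : M), locT P v j (ξ : M) :=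
  (em (v ∈ s3 F)).elim (W_norm_level P · ξ) (W_norm_off P · ξ)

end Fermat.LT.Theta
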