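import Fermat.Agent.LT.Theta.LocalFT
import Fermat.Agent.LT.Theta.LatSum

/-!
# Theta: the lattice sums at a point and at its inversion

`exists_lattice_transform` is the exchange, by Poisson summation and the transform `qsum_locA` of
the finite part.
-/

set_option autoImplicit false

open NumberField MeasureTheory Filter Fermat.CFT
open scoped Classical ComplexConjugate

noncomputable section

namespace Fermat.LT.Theta

open Fermat.LT.Mult (chiF)

variable {F M : Type} [Field F] [NumberField F] [IsTotallyComplex F] [Field M] [NumberField M]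
  [Algebra F M] [IsGalois F M] {σ : M ≃ₐ[F] M} {lam : Pl F → ℝ} {H : HData σ lam}
  {ω : FinPt F (s3 F)} (P : PDat H ω)

/-- Nothing happens at `v`. -/
def Triv (D : ℕ) (τ : Pl F →₀ ℤ) (v : Pl F) : Prop :=
  bnd P v (τ v) = 0 ∧ P.x v = 0 ∧ dOrd M σ D v = 0

/-- The bound and the translation vanish at almost all places. -/
lemma eventually_bnd (τ : Pl F →₀ ℤ) : ∀ᶠ v in cofinite, bnd P v (τ v) = 0 ∧ P.x v = 0 := by
  filter_upwards [P.fin, (Set.toFinite (s3 F)).compl_mem_cofinite, Mult.eventually_cnd_eq_zero,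
    eventually_cofinite.2 (CFT.finite_ord_ne_zero (dlt H : F)),
    τ.support.finite_toSet.compl_mem_cofinite] with v ⟨h1, h2, h3, h4⟩ h5 h6 h7 h8
  simp only [Set.mem_compl_iff, Finset.mem_coe, Finsupp.mem_support_iff, not_not] at h8
  refine ⟨?_, h2⟩
  simp [bnd, h1, h2, h3, h4, h8, dd_off H h5, eL, h6, h7]
  exact h5

/-- One integer makes all exponent vectors large. -/
lemma exists_bigD (τ : Pl F →₀ ℤ) :
    ∃ D : ℕ, D ≠ 0 ∧ ∀ v, Big P v (τ v) (dOrd M σ D v) := by
  obtain ⟨D, hD, hDv⟩ := exists_nat_small (F := F) (fun v => (bnd P v (τ v)).toNat)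
    ((eventually_cofinite.1 (eventually_bnd P τ)).subset fun v hv h => hv (by simp [h.1]))
  refine ⟨D, hD, fun v => ⟨adm_dOrd H.finrank H.σ_ne D v, ?_, ?_⟩⟩
  all_goals
    have hDF : (D : F) ≠ 0 := Nat.cast_ne_zero.2 hD
    have h := hDv v
    rw [valuation_eq_exp_neg_ord v hDF, WithZero.exp_le_exp] at h
    have h0 : 0 ≤ CFT.ord v (D : F) := by
      exact_mod_cast CFT.ord_algebraMap_nonneg v (D : 𝓞 F)
    have he : (1 : ℤ) ≤ plRamIdx F (plOver M v) := by exact_mod_cast plRamIdx_pos _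
    have hle := le_mul_of_one_le_left h0 he
  · change _ ≤ CFT.ord (plOver M v) (D : M)
    rw [show (D : M) = algebraMap F M (D : F) from (map_natCast _ D).symm, CFT.ord_algebraMap_eq,
      plUnder_plOver]
    omega
  · change _ ≤ CFT.ord (plConj σ v) (D : M)
    rw [show (D : M) = algebraMap F M (D : F) from (map_natCast _ D).symm, CFT.ord_algebraMap_eq,
      plUnder_plConj, plRamIdx_plConj]
    omega

/-- Something happens at only finitely many places. -/
lemma finite_nontriv (D : ℕ) (τ : Pl F →₀ ℤ) : {v | ¬ Triv P D τ v}.Finite := by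
  refine eventually_cofinite.1 ?_
  have h1 : ((fun W => plUnder F W) '' {W : Pl M | CFT.ord W (D : M) ≠ 0}).Finite :=
    (CFT.finite_ord_ne_zero (D : M)).image _
  filter_upwards [eventually_bnd P τ, h1.compl_mem_cofinite] with v hv c
  refine ⟨hv.1, hv.2, Prod.ext ?_ ?_⟩ <;> by_contra h
  · exact c ⟨plOver M v, h, plUnder_plOver v⟩
  · exact c ⟨plConj σ v, h, plUnder_plConj v⟩

variable {P}

variable (P) in
/-- All local parameters at `v` vanish, also the exponent `τ v`. -/
structure Vanishing (τ : Pl F →₀ ℤ) (v : Pl F) : Prop where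
  /-- `v` does not lie over `3`. -/
  notMem : v ∉ s3 F
  /-- The box exponent at the chosen prime over `v` is zero. -/
  k1_eq : P.k1 v = 0
  /-- The box exponent at the conjugate prime is zero. -/
  k2_eq : P.k2 v = 0
  /-- The exponent `τ v` is zero. -/
  tau_eq : τ v = 0
  /-- The diagonal parameter is a unit. -/
  ord_a : CFT.ord v (P.a v : F) = 0
  /-- The shifted conductor exponent is zero. -/
  eL_eq : eL (dlt H) v = 0
  /-- The exponent of the orthogonal of the integers is zero. -/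
  dd_eq : dd M (dlt H) v = 0

/-- Where nothing happens all parameters vanish. -/
lemma triv_spec {D : ℕ} {τ : Pl F →₀ ℤ} {v : Pl F} (h : Triv P D τ v) : Vanishing P τ v := by
  obtain ⟨h, -, -⟩ := h
  unfold bnd at h
  have := abs_nonneg (P.k1 v); have := abs_nonneg (P.k2 v); have := abs_nonneg (τ v)
  have := abs_nonneg (CFT.ord v (P.a v : F)); have := abs_nonneg (CFT.ord v (P.x v))
  have := abs_nonneg (eL (dlt H) v); have := abs_nonneg (dd M (dlt H) v)
  by_cases hs : v ∈ s3 F
  · rw [if_pos hs] at h; omega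
  rw [if_neg hs] at h
  exact ⟨hs, abs_eq_zero.1 (by omega), abs_eq_zero.1 (by omega), abs_eq_zero.1 (by omega),
    abs_eq_zero.1 (by omega), abs_eq_zero.1 (by omega), abs_eq_zero.1 (by omega)⟩

/-- Where nothing happens the local factors and constant are trivial. -/
lemma locT_of_triv {D : ℕ} {τ : Pl F →₀ ℤ} {v : Pl F} (h : Triv P D τ v) {η : M}
    (hη : η ∈ box σ v 0) :
    locT P v (τ v) η = 1 ∧ locT P.inv v (τ v) η = 1 ∧ cLoc P v = 1 := by
  obtain ⟨hs, h1, h2, h3, h4, h5, h6⟩ := triv_spec h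
  have hx := h.2.1
  have hx' : P.inv.x v = 0 := by simp only [PDat.inv, if_neg hs, hx]; simp
  have hk1 : P.inv.k1 v = 0 := by simp only [PDat.inv, if_pos (Or.inr hx), h2, h6, if_neg hs]; simp
  have hk2 : P.inv.k2 v = 0 := by simp only [PDat.inv, if_pos (Or.inr hx), h1, h6, if_neg hs]; simp
  have hm : (((-(0 + 0)), (-(0 - 0))) : ℤ × ℤ) = 0 := by simp
  refine ⟨?_, ?_, ?_⟩
  · rw [locT, h3, if_neg fun h' => h'.2 rfl, if_neg hs, mBox, h1, h2, hm, if_pos hη, hx, neg_zero,
      show ((0 : ℤ), (0 : ℤ)) = (0 : ℤ × ℤ) from rfl, zw_zero]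
    simp
  · rw [locT, h3, if_neg fun h' => h'.2 rfl, if_neg hs, mBox, hk1, hk2, hm, if_pos hη,
      hx', neg_zero, show ((0 : ℤ), (0 : ℤ)) = (0 : ℤ × ℤ) from rfl, zw_zero]
    simp
  · rw [cLoc, if_neg hs, if_pos hx, h4, h5]
    simp

variable (P) in
/-- The product of the local constants. -/
def cGlob : ℂ := ∏ᶠ v, cLoc P v

/-- The local products may be taken over the places where something happens. -/
lemma locA_eq_of_mem {D : ℕ} {τ : Pl F →₀ ℤ} {V : Finset (Pl F)} (hV : ∀ v ∉ V, Triv P D τ v)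
    {η : M} (hη : ∀ v ∉ V, η ∈ box σ v 0) :
    locA P τ η = ∏ v ∈ V, locT P v (τ v) η ∧ locA P.inv τ η = ∏ v ∈ V, locT P.inv v (τ v) η := by
  have hs3 : ∀ Q : ∀ v, v ∈ s3 F → Prop, (∀ v hv, Q v hv) → ∃ v ∈ V, ∃ hv : v ∈ s3 F, Q v hv := by
    intro Q hQ
    obtain ⟨u, hu, -⟩ := H.exists_ram
    have hv : plUnder F u ∈ s3 F := three_mem_iff.2 ((H.mem_sM u).1 hu)
    refine ⟨plUnder F u, ?_, hv, hQ _ hv⟩
    by_contra hc
    exact (triv_spec (hV _ hc)).notMem hv
  rcases eq_or_ne η 0 with rfl | h0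
  · obtain ⟨v, hvV, hv, -⟩ := hs3 (fun _ _ => True) fun _ _ => trivial
    have hz : ∀ {ω' : FinPt F (s3 F)} (Q : PDat H ω'), locT Q v (τ v) (0 : M) = 0 := fun Q => by
      rw [locT]
      by_cases h1 : IsNonsplit σ v ∧ τ v ≠ 0
      · rw [if_pos h1]
      rw [if_neg h1, if_pos hv, phiS, dif_neg fun h => h.2 (zero_mem _)]
      simp
    constructor <;> rw [locA, if_pos rfl, Finset.prod_eq_zero hvV (hz _)]
  constructor <;> rw [locA, if_neg h0] <;>
    refine finprod_eq_prod_of_mulSupport_subset _ fun v hv => ?_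
  · by_contra hc
    exact hv (locT_of_triv (hV v hc) (hη v hc)).1
  · by_contra hc
    exact hv (locT_of_triv (hV v hc) (hη v hc)).2.1

/-- The product of the local factors is supported in the big global box. -/
lemma mem_gBox_of_locA_ne {hi : Pl F → ℤ × ℤ} {τ : Pl F →₀ ℤ} (hb : ∀ v, Big P v (τ v) (hi v))
    {η : M} (h : locA P τ η ≠ 0) : η ∈ gBox σ (fun v => -hi v) := by
  rcases eq_or_ne η 0 with rfl | h0
  · exact zero_mem _
  refine mem_gBox.2 fun v => locT_supp (hb v) fun hz => h ?_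
  rw [show η = ((Units.mk0 η h0 : Mˣ) : M) from rfl, locA, if_neg (Units.ne_zero _)]
  exact finprod_eq_zero _ v hz ((Finset.finite_toSet _).subset (mulSupport_locT P τ _))

/-- At the inverted point that product is supported in the dual boxes. -/
lemma mem_dual_of_locA_inv_ne {hi : Pl F → ℤ × ℤ} {τ : Pl F →₀ ℤ} (hb : ∀ v, Big P v (τ v) (hi v))
    {y : M} (h : locA P.inv τ y ≠ 0) (v : Pl F) : y ∈ box σ v (dual M (dlt H) v (hi v)) := by
  rcases eq_or_ne y 0 with rfl | h0
  · exact zero_mem _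
  refine locT_inv_supp (hb v) fun hz => h ?_
  rw [show y = ((Units.mk0 y h0 : Mˣ) : M) from rfl, locA, if_neg (Units.ne_zero _)]
  exact finprod_eq_zero _ v hz ((Finset.finite_toSet _).subset (mulSupport_locT P.inv τ _))

/-- **The transform of the finite part.** The sum of `locA` against a character over a box quotient
is a global constant times `locA` of the inverse data at the dual point. -/
theorem qsum_locA {D : ℕ} (hD : D ≠ 0) {τ : Pl F →₀ ℤ} (hb : ∀ v, Big P v (τ v) (dOrd M σ D v))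
    {y : M} (hy : ∀ v, y ∈ box σ v (dual M (dlt H) v (dOrd M σ D v))) :
    qsum (gBox σ fun v => -dOrd M σ D v) (gBox σ (dOrd M σ D))
        (fun η => locA P τ η * chiF ((dlt H : F) * pair σ η y))
      = (((D : ℝ) ^ Module.finrank ℚ M : ℝ) : ℂ) * cGlob P * locA P.inv τ y := by
  have hF := H.finrank
  have hσ := H.σ_ne
  -- only the finitely many places of `V` matter
  set V := (finite_nontriv P D τ).toFinset
  have hV : ∀ v ∉ V, Triv P D τ v := fun v hv => by simpa [V] using hv
  have hbox0 : ∀ v ∉ V, ∀ η ∈ gBox σ (fun v => -dOrd M σ D v), η ∈ box σ v 0 := fun v hv η hη => by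
    have := mem_gBox.1 hη v
    rwa [(hV v hv).2.2, neg_zero] at this
  have hy0 : ∀ v ∉ V, y ∈ box σ v 0 := fun v hv => by
    have := hy v
    simp only [(hV v hv).2.2, dual, (triv_spec (hV v hv)).dd_eq, Prod.fst_zero, Prod.snd_zero,
      neg_zero, sub_zero] at this
    exact this
  -- the global character is a product over `V`
  have hchi : ∀ η ∈ gBox σ (fun v => -dOrd M σ D v),
      chiF ((dlt H : F) * pair σ η y) = ∏ v ∈ V, psiD (dlt H) v (pair σ η y) := fun η hη => by
    rw [← finprod_psi]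
    refine finprod_eq_prod_of_mulSupport_subset _ fun v hv => ?_
    by_contra hc
    refine hv (psiD_pair_eq_one (dlt H) hF hσ (hbox0 v hc η hη) ?_)
    rw [show dual M (dlt H) v (0 : ℤ × ℤ) = 0 by simp [dual, (triv_spec (hV v hc)).dd_eq]]
    exact hy0 v hc
  rw [qsum_congr (g := fun η => ∏ v ∈ V, locT P v (τ v) η * psiD (dlt H) v (pair σ η y))
      fun η hη => by
    rw [(locA_eq_of_mem hV fun v hv => hbox0 v hv η hη).1, hchi η hη, ← Finset.prod_mul_distrib]]
  -- the sum factors into the local transforms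
  rw [qsum_gBox hF hσ (lo := fun v => -dOrd M σ D v) (hi := dOrd M σ D) (V := V)
    (fun v => by have := dOrd_nonneg D v (σ := σ); simp only [Prod.fst_neg, Prod.snd_neg]; omega)
    (fun v => ⟨adm_neg (adm_dOrd hF hσ D v), adm_dOrd hF hσ D v⟩)
    (fun v hv => ⟨by rw [(hV v hv).2.2, neg_zero], (hV v hv).2.2⟩)
    (fun v η => locT P v (τ v) η * psiD (dlt H) v (pair σ η y)) fun v _ η hη h hh => ?_]
  swap
  · change _ * _ = _ * _
    rw [periodic_locT (hb v) η hη h hh, pair_add_left, psiD_add,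
      psiD_pair_eq_one (dlt H) hF hσ hh (hy v), mul_one]
  -- evaluate each and collect the constants
  rw [Finset.prod_congr rfl fun v _ => ft_loc (hb v) (hy v), Finset.prod_mul_distrib,
    Finset.prod_mul_distrib, ← (locA_eq_of_mem hV hy0).2, ← Complex.ofReal_prod,
    prod_boxVol_dOrd hF hσ hD fun v hv => (hV v hv).2.2, cGlob]
  congr 2
  refine (finprod_eq_prod_of_mulSupport_subset _ fun v hv => ?_).symm
  by_contra hc
  exact hv (locT_of_triv (hV v hc) (hy0 v hc)).2.2

/-- The product of the local factors is periodic modulo the box of `D`. -/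
lemma periodic_locA {D : ℕ} {τ : Pl F →₀ ℤ} (hb : ∀ v, Big P v (τ v) (dOrd M σ D v)) :
    Periodic (gBox σ fun v => -dOrd M σ D v) (gBox σ (dOrd M σ D)) (locA P τ) := fun η hη h hh => by
  set V := (finite_nontriv P D τ).toFinset
  have hV : ∀ v ∉ V, Triv P D τ v := fun v hv => by simpa [V] using hv
  have hb0 : ∀ η ∈ gBox σ (fun v => -dOrd M σ D v), ∀ v ∉ V, η ∈ box σ v 0 := fun η hη v hv => by
    have := mem_gBox.1 hη v
    rwa [(hV v hv).2.2, neg_zero] at this
  have hle : gBox σ (dOrd M σ D) ≤ gBox σ fun v => -dOrd M σ D v :=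
      fun z hz => mem_gBox.2 fun v => by
    have := dOrd_nonneg D v (σ := σ)
    exact box_mono (by simp; omega) (by simp; omega) (mem_gBox.1 hz v)
  rw [(locA_eq_of_mem hV (hb0 _ (add_mem hη (hle hh)))).1, (locA_eq_of_mem hV (hb0 η hη)).1]
  exact Finset.prod_congr rfl fun v _ => periodic_locT (hb v) η (mem_gBox.1 hη v) h
    (mem_gBox.1 hh v)

variable (H) in
/-- **The lattice sums are exchanged by the inversion.** -/
theorem exists_lattice_transform : ∃ κ : ℝ, ∀ {ω : FinPt F (s3 F)} (P : PDat H ω) (τ : Pl F →₀ ℤ)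
    (t q : InfinitePlace F → ℝ), (∀ w, 0 < t w) → (∀ w, 0 < q w) → ∀ z : InfinitePlace F → ℂ,
    ∑' η : M, locA P τ η * gE (dlt H) t q z (jj σ η)
      = (κ * jacG (dlt H) t z : ℝ) * cGlob P
        * ∑' y : M, locA P.inv τ y * gE (dlt H) (tJ t z) q (zJ t z) (jj σ y) := by
  have hF := H.finrank
  have hσ := H.σ_ne
  obtain ⟨κ, hκ⟩ := exists_periodic_poisson hF hσ (dlt H)
  refine ⟨κ, fun {ω} P τ t q ht hq z => ?_⟩
  obtain ⟨D, hD, hb⟩ := exists_bigD P τ
  refine (hκ hD _ _ (cGlob P) (periodic_locA hb) (fun η => mem_gBox_of_locA_ne hb) ?_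
    (norm_locA_le P τ) (norm_locA_le P.inv τ) (fun y hy => ?_) (fun k => ?_) t q ht hq z).1
  · rw [relIndex_gBox hF hσ (lo := fun v => -dOrd M σ D v) (V := (finite_nontriv P D τ).toFinset)
      (fun v => by have := dOrd_nonneg D v (σ := σ); simp only [Prod.fst_neg, Prod.snd_neg]; omega)
      (fun v => ⟨adm_neg (adm_dOrd hF hσ D v), adm_dOrd hF hσ D v⟩) fun v hv => by
        have : Triv P D τ v := by simpa using hv
        exact ⟨by rw [this.2.2, neg_zero], this.2.2⟩]
    exact (Finset.prod_pos fun v _ => boxCard_pos v _).ne'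
  · refine exists_dualY_eq hF hσ (dlt H) hD fun l => ?_
    rw [← finprod_psi]
    refine finprod_eq_one_of_forall_eq_one fun v => ?_
    exact psiD_pair_eq_one (dlt H) hF hσ
      (mem_gBox.1 ((mem_gBox_dOrd hF hσ hD).2 ⟨l, rfl⟩) v) (mem_dual_of_locA_inv_ne hb hy v)
  · exact qsum_locA hD hb fun v => dual_of_global hF hσ (dlt H) (ramPl_finite H)
      (fun v hv => val_two_of_ram (ramPl_subset H hv)) hD
      (fun l => chiF_pair_dualY hF hσ (dlt H) hD k l) v

end Fermat.LT.Theta
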