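import Fermat.Agent.LT.Theta.Orbit

/-!
# Theta: the part of the series over the norms as a weighted sum over all of the extension

`phi1_eq` is the unfolding, term by term `term_eq`, with the majorant `exists_mass_le`.
-/

set_option autoImplicit false

open NumberField MeasureTheory Filter Fermat.CFT
open scoped Classical ComplexConjugate Pointwise ENNReal

noncomputable section

namespace Fermat.LT.Theta

variable {F M : Type} [Field F] [NumberField F] [IsTotallyComplex F] [Field M] [NumberField M]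
  [Algebra F M] [IsGalois F M] {σ : M ≃ₐ[F] M} {lam : Pl F → ℝ}

section Def

variable (H : HData σ lam)

/-- The part of the series over the norms. -/
def phi1 (p : Pt F (s3 F)) : ℂ :=
  ∑' n : normUnits F M, finW (dat H) n p.1 * archW (dat H) n p.2

end Def

variable {H : HData σ lam} {ω : FinPt F (s3 F)} (P : PDat H ω) (x : InfinitePlace F → H3)

/-- The heights of the point at the infinite places. -/
def tOf (w : InfinitePlace F) : ℝ := (H3.coord (x w)).2

/-- The horizontal coordinates of the point at the infinite places. -/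
def zOf (w : InfinitePlace F) : ℂ := (H3.coord (x w)).1

omit [NumberField F] [IsTotallyComplex F] in
/-- The heights are positive. -/
lemma tOf_pos (w : InfinitePlace F) : 0 < tOf x w := H3.coord_pos _

/-- The summand of the theta sum: `locA` times the Gaussian. -/
def thTerm (τ : Pl F →₀ ℤ) (u : InfinitePlace F → ℝ) (η : M) : ℂ :=
  locA P τ η * gU σ (dlt H) (tOf x) (zOf x) η u

/-- The sum over all of `M`. -/
def thSum (τ : Pl F →₀ ℤ) (u : InfinitePlace F → ℝ) : ℂ := ∑' η : M, thTerm P x τ u η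

/-- The product of the finite constant and the archimedean constants. -/
def cTot : ℂ := cFin P * ((∏ w : InfinitePlace F, w (dlt H : F) * tOf x w : ℝ) : ℂ)

/-- The product of the scaled heights is positive. -/
lemma prod_dlt_pos : 0 < ∏ w : InfinitePlace F, w (dlt H : F) * tOf x w :=
  Finset.prod_pos fun w _ => mul_pos (InfinitePlace.pos_iff.2 (dlt H).ne_zero) (tOf_pos x w)

variable {P x}

/-- A norm one multiplier shifts the exponent of the local factor. -/
lemma locT_mul (μ : nKer F M) (v : Pl F) (j : ℤ) (ξ : Mˣ) :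
    locT P v j (((μ : Mˣ) * ξ : Mˣ) : M)
      = (chiV H v (μ : Mˣ))⁻¹ * locT P v (j + CFT.ord (plOver M v) ((μ : Mˣ) : M)) (ξ : M) := by
  have hF := H.finrank
  have hσ := H.σ_ne
  set m := CFT.ord (plOver M v) ((μ : Mˣ) : M) with hm
  -- `μ` has opposite orders at the two places over `v`
  have hsum := ord_conj_of_norm_one hF hσ (norm_of_mem_nKer μ) v
  have hQ : CFT.ord (plConj σ v) ((μ : Mˣ) : M) = -m := by omega
  have hm0 : IsNonsplit σ v → m = 0 := fun hns => by
    have := nonsplit_ord (H := H) hns ((μ : Mˣ) : M)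
    omega
  have hN : Algebra.norm F (((μ : Mˣ) * ξ : Mˣ) : M) = Algebra.norm F (ξ : M) := by
    rw [Units.val_mul, map_mul, norm_of_mem_nKer, one_mul]
  have hc : IsNonsplit σ v ∧ j + m ≠ 0 ↔ IsNonsplit σ v ∧ j ≠ 0 :=
    and_congr_right fun hns => by rw [hm0 hns, add_zero]
  rw [locT, locT, hN]
  by_cases h0 : IsNonsplit σ v ∧ j ≠ 0
  · rw [if_pos h0, if_pos (hc.2 h0), mul_zero]
  rw [if_neg h0, if_neg fun h => h0 (hc.1 h)]
  by_cases hs : v ∈ s3 F
  -- over `3` the shell function transforms by `θ`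
  · have hns := isNonsplit_s3 H hs
    have h := phiS_mul hF hσ hns (H.θ (plOver M v)) (μ : Mˣ).ne_zero (-P.k1 v) (ξ : M)
    rw [← hm, hm0 hns, add_zero, Units.mk0_val] at h
    rw [if_pos hs, if_pos hs, Units.val_mul, h, chiV, if_pos hs, zw, if_pos hs, zw, if_pos hs]
    ring
  -- elsewhere the box shifts by `m`
  · have hbox : (((μ : Mˣ) * ξ : Mˣ) : M) ∈ box σ v (mBox P v j)
        ↔ (ξ : M) ∈ box σ v (mBox P v (j + m)) := by
      rw [mem_box_iff_ord (Units.ne_zero _), mem_box_iff_ord ξ.ne_zero, Units.val_mul,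
        CFT.ord_mul _ (Units.ne_zero _) ξ.ne_zero,
          CFT.ord_mul _ (Units.ne_zero _) ξ.ne_zero, hQ, ← hm]
      simp only [mBox]
      omega
    rw [if_neg hs, if_neg hs, chiV, if_neg hs, if_congr hbox rfl rfl,
      show ((j + m, -(j + m)) : ℤ × ℤ) = ordV σ v ((μ : Mˣ) : M) + (j, -j) by
        rw [ordV, ← hm, hQ, Prod.mk_add_mk]; congr 1 <;> ring, zw_add,
      mul_assoc (zw H v (ordV σ v _)), inv_mul_cancel_left₀ (zw_ne_zero H v _)]

/-- The local characters multiply to one over any larger set of places. -/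
lemma prod_chiV_of_subset (μ : Mˣ) {V : Finset (Pl F)} (hV : vSet P (μ : M) ⊆ V) :
    ∏ v ∈ V, chiV H v μ = 1 := by
  rw [← Finset.prod_subset hV fun v _ hv => ?_, prod_chiV P μ]
  have h1 := (of_notMem_vSet P hv).notMem
  have h8 := (of_notMem_vSet P hv).ordV_eq
  rw [chiV, if_neg h1, h8, zw_zero]

/-- A norm one multiplier shifts the exponent vector of the product. -/
lemma locA_mul (μ : nKer F M) (τ : Pl F →₀ ℤ) (η : M) :
    locA P τ (((μ : Mˣ) : M) * η) = locA P (τ + ordT F ((μ : Mˣ) : M)) η := by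
  rcases eq_or_ne η 0 with rfl | hη
  · simp [locA]
  lift η to Mˣ using isUnit_iff_ne_zero.2 hη
  rw [← Units.val_mul]
  set τ' := τ + ordT F ((μ : Mˣ) : M)
  set V := (vSet P (((μ : Mˣ) * η : Mˣ) : M) ∪ τ.support) ∪ (vSet P (η : M) ∪ τ'.support)
    ∪ vSet P ((μ : Mˣ) : M)
  rw [locA_eq_prod P τ _ (V := V) (Finset.subset_union_left.trans Finset.subset_union_left),
    locA_eq_prod P τ' η (V := V) (Finset.subset_union_right.trans Finset.subset_union_left)]
  simp only [locT_mul]
  rw [Finset.prod_mul_distrib, Finset.prod_inv_distrib,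
    prod_chiV_of_subset _ Finset.subset_union_right, inv_one, one_mul]
  rfl

/-- A norm one multiplier translates the exponents of the summand. -/
lemma thTerm_mul (μ : nKer F M) (τ : Pl F →₀ ℤ) (u : InfinitePlace F → ℝ) (η : M) :
    thTerm P x τ u (((μ : Mˣ) : M) * η)
      = thTerm P x (τ + ordT F ((μ : Mˣ) : M)) (u + logT ((μ : Mˣ) : M)) η := by
  rw [thTerm, thTerm, locA_mul, gU_mul H.finrank H.σ_ne _ _ _ (norm_of_mem_nKer μ)]

/-- The summand is measurable in the logarithmic variable. -/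
lemma measurable_thTerm (τ : Pl F →₀ ℤ) (η : M) : Measurable fun u => thTerm P x τ u η :=
  measurable_const.mul (continuous_gU _ _ _ _).measurable

/-- The summand vanishes outside the summation set. -/
lemma thTerm_eq_zero {τ : Pl F →₀ ℤ} {ξ : Mˣ} (h : τ ∉ tSet P (ξ : M)) (u : InfinitePlace F → ℝ) :
    thTerm P x τ u (ξ : M) = 0 := by
  rw [thTerm, locA_eq_zero P h, zero_mul]

/-- **The term at a norm.** The term of the series at the norm of `ξ` is a constant times the sum
over exponents of the integrals of the theta terms at `ξ`. -/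
theorem term_eq (ξ : Mˣ) :
    finW (dat H) (nrm σ ξ) ω * archW (dat H) (nrm σ ξ) x
      = cTot P x * ∑' τ : Pl F →₀ ℤ, ∫ u, thTerm P x τ u (ξ : M) := by
  have hpos : (∏ w : InfinitePlace F, w (nrm σ ξ : F)) ≠ 0 :=
    Finset.prod_ne_zero_iff.2 fun w _ => (InfinitePlace.pos_iff.2 (Units.ne_zero _)).ne'
  have hpos' : ((∏ w : InfinitePlace F, w (nrm σ ξ : F) : ℝ) : ℂ) ≠ 0 :=
    Complex.ofReal_ne_zero.2 hpos
  rw [tsum_eq_sum (s := tSet P (ξ : M)) fun τ hτ => by simp [thTerm_eq_zero hτ]]
  simp only [thTerm, integral_const_mul, ← Finset.sum_mul]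
  rw [finW_norm, archW_norm H.finrank H.σ_ne, Complex.ofReal_inv, cTot]
  set A := ((∏ w : InfinitePlace F, w (nrm σ ξ : F) : ℝ) : ℂ)
  show A⁻¹ * cFin P * _ * (_ * A * ∫ u, gU σ (dlt H) (tOf x) (zOf x) (ξ : M) u) = _
  field_simp
  unfold tOf zOf
  ring

/-- The total mass at `ξ`. -/
def massT (P : PDat H ω) (x : InfinitePlace F → H3) (ξ : Mˣ) : ℝ≥0∞ :=
  ∑' τ : Pl F →₀ ℤ, ∫⁻ u, ‖thTerm P x τ u (ξ : M)‖ₑ

/-- **The majorant of the masses.** The total masses at the elements of `M` are bounded by a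
summable function of their norms. -/
theorem exists_mass_le : ∃ b : normUnits F M → ℝ, Summable b ∧
    ∀ ξ : Mˣ, massT P x ξ ≤ ENNReal.ofReal (b ⟨nrm σ ξ, ξ, rfl⟩) := by
  obtain ⟨N, hN, hsupp⟩ := exists_fracLat_of_tSet P
  obtain ⟨t₀, ht₀, hx⟩ := exists_height_le x
  set Pd := ∏ w : InfinitePlace F, w (dlt H : F) * tOf x w
  have hPd : 0 < Pd := prod_dlt_pos x
  have hc : 0 < ‖cFin P‖ := norm_pos_iff.2 (cFin_ne_zero P)
  refine ⟨fun n => (Pd * ‖cFin P‖)⁻¹ * major (dat H) N t₀ n,
    ((summable_major (dat H) hN ht₀).comp_injective Subtype.val_injective).mul_left _, fun ξ => ?_⟩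
  set Af := ∏ w : InfinitePlace F, archF (w (dlt H : F) * tOf x w * w (Algebra.norm F (ξ : M)))
  have hAf : 0 ≤ Af := Finset.prod_nonneg fun w _ => archF_nonneg _
  -- Finitely many local terms, each at most the archimedean integral `Af`.
  calc massT P x ξ = ∑ τ ∈ tSet P (ξ : M), ∫⁻ u, ‖thTerm P x τ u (ξ : M)‖ₑ :=
        tsum_eq_sum fun τ hτ => by simp [thTerm_eq_zero hτ]
    _ ≤ ∑ _τ ∈ tSet P (ξ : M), ∫⁻ u, ‖gU σ (dlt H) (tOf x) (zOf x) (ξ : M) u‖ₑ := by
        refine Finset.sum_le_sum fun τ _ => lintegral_mono fun u => ?_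
        rw [thTerm, enorm_mul]
        refine mul_le_of_le_one_left' ?_
        rw [← ofReal_norm, ENNReal.ofReal_le_one]
        exact norm_locA_le P τ _
    _ = ENNReal.ofReal ((tSet P (ξ : M)).card * Af) := by
        rw [Finset.sum_const, lintegral_norm_gU H.finrank H.σ_ne _ _ ξ.ne_zero (tOf_pos x),
          nsmul_eq_mul, ENNReal.ofReal_mul (Nat.cast_nonneg _), ENNReal.ofReal_natCast]
    _ ≤ _ := by
      refine ENNReal.ofReal_le_ofReal ?_
      rcases (tSet P (ξ : M)).eq_empty_or_nonempty with he | hne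
      · rw [he, Finset.card_empty, Nat.cast_zero, zero_mul]
        exact mul_nonneg (inv_nonneg.2 (mul_nonneg hPd.le hc.le)) (major_nonneg _ _ _ _)
      dsimp only
      rw [major, Set.indicator_of_mem
        (show nrm σ ξ ∈ {α : Fˣ | ((dat H).δ : F) * α ∈ fracLat (F := F) N} from hsupp ξ hne)]
      have h1 := norm_archW_le (dat H) (nrm σ ξ) hx
      set Pn := ∏ w : InfinitePlace F, w (nrm σ ξ : F)
      have hPn : 0 < Pn := Finset.prod_pos fun w _ => InfinitePlace.pos_iff.2 (Units.ne_zero _)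
      -- Multiplied by the norms, `Af` is the archimedean Whittaker value, which has a majorant.
      have h2 : ‖archW (dat H) (nrm σ ξ) x‖ = Pd * Pn * Af := by
        rw [archW_norm H.finrank H.σ_ne, integral_gU H.finrank H.σ_ne _ _ ξ.ne_zero,
          norm_mul, norm_mul,
          norm_mul, norm_prod, Finset.prod_eq_one (fun w _ => norm_eC _), one_mul,
            Complex.norm_real,
          Complex.norm_real, Complex.norm_real]
        simp only [Pd, Pn, Af, tOf] at *
        rw [Real.norm_of_nonneg hPd.le, Real.norm_of_nonneg hPn.le, Real.norm_of_nonneg hAf]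
      rw [h2] at h1
      have h3 := norm_cFin_mul_card_le P ξ
      rw [inv_mul_eq_div, le_div_iff₀ (mul_pos hPd hc)]
      calc ((tSet P (ξ : M)).card : ℝ) * Af * (Pd * ‖cFin P‖)
          = (Pn⁻¹ * ‖cFin P‖ * (tSet P (ξ : M)).card) * (Pd * Pn * Af) := by field_simp
        _ ≤ _ := mul_le_mul h3 h1 (mul_nonneg (mul_nonneg hPd.le hPn.le) hAf) (wBound_pos _).le

variable (P x) in
/-- **Unfolding.** The part `phi1` of the series over the norms is the weighted sum of the theta
sums over all of `M`. -/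
theorem phi1_eq :
    phi1 H (ω, x) = cTot P x * ∑' τ : Pl F →₀ ℤ, ∫ u, (wt M τ u : ℂ) * thSum P x τ u := by
  obtain ⟨b, hb, hle⟩ := exists_mass_le (P := P) (x := x)
  choose sec hsec using fun n : normUnits F M => n.2
  have hnrm : ∀ n, nrm σ (sec n) = n.1 := hsec
  have hsum : ∀ τ u, thSum P x τ u = ∑' ξ : Mˣ, thTerm P x τ u (ξ : M) := fun τ u => by
    refine (Function.Injective.tsum_eq (f := thTerm P x τ u) Units.val_injective
      fun η hη => ?_).symm
    rcases eq_or_ne η 0 with rfl | h0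
    · exact absurd (show thTerm P x τ u 0 = 0 by simp [thTerm, locA]) hη
    · exact ⟨Units.mk0 η h0, rfl⟩
  simp only [hsum]
  rw [← (unfold_norms H.finrank H.σ_ne (f := thTerm P x) measurable_thTerm thTerm_mul
      b hb hle sec hnrm).1, ← tsum_mul_left, phi1]
  exact tsum_congr fun n => by rw [← term_eq (sec n), hnrm n]

end Fermat.LT.Theta
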