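import Fermat.Agent.LT.Theta.ArchInt

/-!
# Theta: a partition of unity for the elements of norm one

`wt` is the weight: `hasSum_wt` says that it sums to one over each orbit of these elements.
-/

set_option autoImplicit false
set_option linter.unusedSectionVars false

open NumberField MeasureTheory Filter Topology Fermat.CFT
open scoped Real Classical ComplexConjugate ENNReal

noncomputable section

namespace Fermat.LT.Theta

variable (F M : Type) [Field F] [NumberField F] [Field M] [NumberField M] [Algebra F M]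
  [IsGalois F M]

/-- The units of norm one. -/
def nKer : Subgroup Mˣ := (Units.map (Algebra.norm F : M →* F)).ker

variable {F M}

/-- Elements of `nKer` have norm one. -/
lemma norm_of_mem_nKer (μ : nKer F M) : Algebra.norm F ((μ : Mˣ) : M) = 1 := by
  have h := congrArg Units.val (MonoidHom.mem_ker.1 μ.2)
  simpa using h

/-- The unit group of a number field is countable. -/
lemma countable_units : Countable Mˣ :=
  Function.Injective.countable (f := fun a : Mˣ => (a : M)) Units.val_injective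

/-- An element has nonzero order over only finitely many places. -/
lemma finite_ordT (μ : M) : (Function.support fun v : Pl F => CFT.ord (plOver M v) μ).Finite := by
  refine ((CFT.finite_ord_ne_zero μ).image fun W => plUnder F W).subset fun v hv => ?_
  exact ⟨plOver M v, hv, plUnder_plOver v⟩

variable (F) in
/-- The exponents of a multiplier. -/
def ordT (μ : M) : Pl F →₀ ℤ := Finsupp.ofSupportFinite _ (finite_ordT (F := F) μ)

/-- The value of `ordT`. -/
@[simp] lemma ordT_apply (μ : M) (v : Pl F) : ordT F μ v = CFT.ord (plOver M v) μ := rfl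

/-- The exponents are additive. -/
lemma ordT_mul {μ ν : M} (hμ : μ ≠ 0) (hν : ν ≠ 0) : ordT F (μ * ν) = ordT F μ + ordT F ν :=
  Finsupp.ext fun v => by simp [CFT.ord_mul _ hμ hν]

/-- The logarithmic shift is additive. -/
lemma logT_mul {μ ν : M} (hμ : μ ≠ 0) (hν : ν ≠ 0) :
    logT (F := F) (μ * ν) = logT μ + logT ν := funext fun w => by
  simp only [logT, Pi.add_apply, map_mul, norm_mul]
  rw [Real.log_mul (norm_ne_zero_iff.2 ((map_ne_zero _).2 hμ))
    (norm_ne_zero_iff.2 ((map_ne_zero _).2 hν))]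
  ring

/-- The exponents as a homomorphism. -/
def ordHom : Additive (nKer F M) →+ (Pl F →₀ ℤ) where
  toFun μ := ordT F (((Additive.toMul μ : nKer F M) : Mˣ) : M)
  map_zero' := Finsupp.ext fun v => by simp
  map_add' μ ν := by
    simp only [toMul_add, Subgroup.coe_mul, Units.val_mul]
    exact ordT_mul (Units.ne_zero _) (Units.ne_zero _)

variable (F M) in
/-- The chosen representatives of the exponent vectors. -/
def repT (τ : Pl F →₀ ℤ) : Prop :=
  (QuotientAddGroup.mk (s := (ordHom (F := F) (M := M)).range) τ).out = τ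

variable (M) in
/-- The unnormalised weight. -/
def g0 (τ : Pl F →₀ ℤ) (u : InfinitePlace F → ℝ) : ℝ :=
  if repT F M τ then Real.exp (-∑ w, (Real.exp (u w) + (Real.exp (u w))⁻¹)) else 0

/-- The unnormalised weight is nonnegative. -/
lemma g0_nonneg (τ : Pl F →₀ ℤ) (u : InfinitePlace F → ℝ) : 0 ≤ g0 M τ u := by
  unfold g0; split_ifs <;> positivity

/-- The unnormalised weight is measurable. -/
lemma measurable_g0 (τ : Pl F →₀ ℤ) : Measurable (g0 M τ) := by
  unfold g0
  split_ifs <;> fun_prop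

variable (M) in
/-- The sum over the orbit. -/
def orbSum (τ : Pl F →₀ ℤ) (u : InfinitePlace F → ℝ) : ℝ≥0∞ :=
  ∑' μ : nKer F M, ENNReal.ofReal (g0 M (τ + ordT F ((μ : Mˣ) : M)) (u + logT ((μ : Mˣ) : M)))

/-- The orbit sum is invariant along the orbit. -/
lemma orbSum_shift (τ : Pl F →₀ ℤ) (u : InfinitePlace F → ℝ) (ν : nKer F M) :
    orbSum M (τ + ordT F ((ν : Mˣ) : M)) (u + logT ((ν : Mˣ) : M)) = orbSum M τ u := by
  unfold orbSum
  conv_rhs => rw [← (Equiv.mulLeft ν).tsum_eq]
  refine tsum_congr fun μ => ?_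
  rw [Equiv.coe_mulLeft, Subgroup.coe_mul, Units.val_mul,
    ordT_mul (Units.ne_zero _) (Units.ne_zero _),
    logT_mul (Units.ne_zero _) (Units.ne_zero _), add_assoc, add_assoc]

/-- The orbit sum is positive. -/
lemma orbSum_ne_zero (τ : Pl F →₀ ℤ) (u : InfinitePlace F → ℝ) : orbSum M τ u ≠ 0 := by
  set A := (ordHom (F := F) (M := M)).range
  set r := (QuotientAddGroup.mk (s := A) τ).out
  have hr : -τ + r ∈ A := QuotientAddGroup.eq.1 (QuotientAddGroup.out_eq' _).symm
  obtain ⟨μ, hμ⟩ := hr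
  have hrep : repT F M (τ + ordT F (((Additive.toMul μ : nKer F M) : Mˣ) : M)) := by
    rw [show ordT F (((Additive.toMul μ : nKer F M) : Mˣ) : M) = -τ + r from hμ,
      add_neg_cancel_left]
    unfold repT
    rw [QuotientAddGroup.out_eq']
  intro h
  have := ENNReal.tsum_eq_zero.1 h (Additive.toMul μ)
  rw [ENNReal.ofReal_eq_zero, g0, if_pos hrep] at this
  exact absurd this (not_le.2 (Real.exp_pos _))

variable {σ : M ≃ₐ[F] M} (hF : Module.finrank F M = 2) (hσ : σ ≠ 1)
include hF hσ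

/-- A norm one element has opposite orders at conjugate places. -/
lemma ord_conj_of_norm_one {μ : M} (hμ : Algebra.norm F μ = 1) (v : Pl F) :
    CFT.ord (plOver M v) μ + CFT.ord (plConj σ v) μ = 0 := by
  have hμ0 : μ ≠ 0 := fun h => by simp [h] at hμ
  have h := norm_eq hF hσ μ
  rw [hμ, map_one] at h
  have e : CFT.ord (plOver M v) (σ μ) = CFT.ord (plConj σ v) μ := by
    conv_lhs => rw [← smul_plConj hF hσ v]
    exact CFT.ord_smul σ _ _
  rw [← e, ← CFT.ord_mul _ hμ0 ((map_ne_zero σ).2 hμ0), ← h, CFT.ord_one]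

/-- A norm one element with zero exponents is integral. -/
lemma mem_fracLat_of_ordT {μ : M} (hμ : Algebra.norm F μ = 1) (h : ordT F μ = 0) :
    μ ∈ fracLat (F := M) 1 := by
  have hμ0 : μ ≠ 0 := fun h0 => by simp [h0] at hμ
  intro W
  rw [Nat.cast_one, one_mul, valuation_eq_exp_neg_ord W hμ0, ← WithZero.exp_zero,
    WithZero.exp_le_exp]
  have hP : CFT.ord (plOver M (plUnder F W)) μ = 0 := by rw [← ordT_apply, h]; rfl
  rcases eq_or_eq_of_plUnder hF hσ (rfl : plUnder F W = plUnder F W) with e | e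
  · rw [e]; omega
  · rw [e]
    have := ord_conj_of_norm_one hF hσ hμ (plUnder F W)
    omega

variable [IsTotallyComplex F]

/-- The unnormalised weight is dominated by a Gaussian. -/
lemma g0_le_gauss {τ : Pl F →₀ ℤ} (u : InfinitePlace F → ℝ) (μ : nKer F M) :
    g0 M τ (u + logT ((μ : Mˣ) : M))
      ≤ ‖gE (1 : Fˣ) (fun _ => 1 / (2 * π)) (fun w => Real.exp (u w)) (fun _ => 0)
          (jj σ ((μ : Mˣ) : M))‖ := by
  rw [g0]
  split_ifs
  swap
  · exact norm_nonneg _
  refine le_of_eq ?_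
  rw [gE, norm_prod, ← Finset.sum_neg_distrib, Real.exp_sum]
  refine Finset.prod_congr rfl fun w _ => ?_
  have h1 : ‖jw M w ((μ : Mˣ) : M)‖ * ‖jw M w (σ ((μ : Mˣ) : M))‖ = 1 := by
    rw [← norm_mul, ← jw_norm hF hσ, norm_of_mem_nKer, map_one, norm_one]
  have h0 : 0 < ‖jw M w ((μ : Mˣ) : M)‖ := by
    refine lt_of_le_of_ne (norm_nonneg _) fun h => ?_
    rw [← h, zero_mul] at h1
    exact zero_ne_one h1
  rw [norm_gW, jj_apply, Units.val_one, map_one, norm_one, eq_inv_of_mul_eq_one_right h1,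
    Pi.add_apply, logT, Real.exp_add, two_mul (Real.log _), Real.exp_add, Real.exp_log h0]
  congr 1
  have := Real.exp_pos (u w)
  field_simp

/-- The orbit sum is finite. -/
lemma orbSum_ne_top (τ : Pl F →₀ ℤ) (u : InfinitePlace F → ℝ) : orbSum M τ u ≠ ∞ := by
  set f : nKer F M → ℝ≥0∞ := fun μ =>
    ENNReal.ofReal (g0 M (τ + ordT F ((μ : Mˣ) : M)) (u + logT ((μ : Mˣ) : M)))
  rcases isEmpty_or_nonempty {μ : nKer F M // f μ ≠ 0} with he | ⟨⟨μ₀, hμ₀⟩⟩
  · rw [orbSum, show (fun μ => f μ) = fun _ => 0 from funext fun μ => by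
      by_contra h; exact he.false ⟨μ, h⟩, tsum_zero]
    exact ENNReal.zero_ne_top
  have hrep : ∀ μ, f μ ≠ 0 → repT F M (τ + ordT F ((μ : Mˣ) : M)) := fun μ hμ => by
    by_contra h
    exact hμ (by simp [f, g0, h])
  -- all nonzero terms have the same order vector
  have hsame : ∀ μ, f μ ≠ 0 → ordT F ((μ : Mˣ) : M) = ordT F ((μ₀ : Mˣ) : M) := fun μ hμ => by
    have h1 := hrep μ hμ
    have h2 := hrep μ₀ hμ₀
    unfold repT at h1 h2
    refine add_left_cancel (a := τ) ?_
    rw [← h1, ← h2]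
    congr 1
    rw [QuotientAddGroup.eq]
    refine ⟨Additive.ofMul (μ⁻¹ * μ₀), ?_⟩
    rw [show ordHom (Additive.ofMul (μ⁻¹ * μ₀)) =
      ordT F (((μ⁻¹ * μ₀ : nKer F M) : Mˣ) : M) from rfl]
    have e : ordT F (((μ * (μ⁻¹ * μ₀) : nKer F M) : Mˣ) : M) = ordT F ((μ₀ : Mˣ) : M) := by
      rw [mul_inv_cancel_left]
    rw [Subgroup.coe_mul, Units.val_mul, ordT_mul (Units.ne_zero _) (Units.ne_zero _)] at e
    rw [← e]; abel
  set u' := u + logT ((μ₀ : Mˣ) : M)
  -- so they embed in a fractional lattice, where the sum converges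
  have hmem : ∀ μ : {μ : nKer F M // f μ ≠ 0},
      (((μ₀⁻¹ * μ.1 : nKer F M) : Mˣ) : M) ∈ fracLat (F := M) 1 := fun μ => by
    refine mem_fracLat_of_ordT hF hσ (norm_of_mem_nKer _) ?_
    have e : ordT F (((μ₀ * (μ₀⁻¹ * μ.1) : nKer F M) : Mˣ) : M) = ordT F ((μ₀ : Mˣ) : M) := by
      rw [mul_inv_cancel_left, hsame _ μ.2]
    rw [Subgroup.coe_mul, Units.val_mul, ordT_mul (Units.ne_zero _) (Units.ne_zero _)] at e
    exact add_eq_left.1 e
  let i : {μ : nKer F M // f μ ≠ 0} → fracLat (F := M) 1 := fun μ => ⟨_, hmem μ⟩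
  have hi : Function.Injective i := fun a b h => by
    have h' : ((μ₀⁻¹ * a.1 : nKer F M) : Mˣ) = ((μ₀⁻¹ * b.1 : nKer F M) : Mˣ) :=
      Units.ext (congrArg Subtype.val h)
    exact Subtype.ext (mul_left_cancel (Subtype.ext h'))
  have hs := summable_gE hF hσ (1 : Fˣ) (t := fun _ => 1 / (2 * π)) (q := fun w => Real.exp (u' w))
    (fun _ => by positivity) (fun w => Real.exp_pos _) (fun _ => 0) one_ne_zero
  rw [orbSum, ← tsum_subtype_eq_of_support_subset (f := f) (s := {μ | f μ ≠ 0}) fun μ hμ => hμ]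
  refine ne_top_of_le_ne_top (b := ∑' a : fracLat (F := M) 1, ENNReal.ofReal ‖gE (1 : Fˣ)
    (fun _ => 1 / (2 * π)) (fun w => Real.exp (u' w)) (fun _ => 0) (jj σ (a.1 : M))‖) ?_ ?_
  · rw [← ENNReal.ofReal_tsum_of_nonneg (fun _ => norm_nonneg _) hs]
    exact ENNReal.ofReal_ne_top
  refine le_trans ?_ (ENNReal.tsum_comp_le_tsum_of_injective hi _)
  refine ENNReal.tsum_le_tsum fun μ => ENNReal.ofReal_le_ofReal ?_
  refine le_trans (le_of_eq ?_)
    (g0_le_gauss hF hσ (τ := τ + ordT F ((μ.1 : Mˣ) : M)) u' (μ₀⁻¹ * μ.1))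
  congr 1
  rw [show u' = u + logT ((μ₀ : Mˣ) : M) from rfl, add_assoc,
    ← logT_mul (Units.ne_zero _) (Units.ne_zero _), ← Units.val_mul, ← Subgroup.coe_mul,
    mul_inv_cancel_left]

omit hF hσ

variable (M) in
/-- The weight: `g0` over its sum on the orbit of the units of norm one. -/
def wt (τ : Pl F →₀ ℤ) (u : InfinitePlace F → ℝ) : ℝ := g0 M τ u / (orbSum M τ u).toReal

/-- The weights are nonnegative. -/
lemma wt_nonneg (τ : Pl F →₀ ℤ) (u : InfinitePlace F → ℝ) : 0 ≤ wt M τ u :=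
  div_nonneg (g0_nonneg τ u) ENNReal.toReal_nonneg

/-- The weights are measurable. -/
lemma measurable_wt (τ : Pl F →₀ ℤ) : Measurable (wt M τ) := by
  have := countable_units (M := M)
  refine (measurable_g0 τ).div (Measurable.ennreal_toReal (Measurable.tsum fun μ => ?_))
  exact ENNReal.measurable_ofReal.comp ((measurable_g0 _).comp (measurable_id.add_const _))

include hF hσ

/-- **The partition of unity.** The translates of the weight `wt` by the units of norm one sum to
one. -/
theorem tsum_wt (τ : Pl F →₀ ℤ) (u : InfinitePlace F → ℝ) :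
    ∑' μ : nKer F M, ENNReal.ofReal (wt M (τ + ordT F ((μ : Mˣ) : M)) (u + logT ((μ : Mˣ) : M))) =
      1 := by
  have hpos : 0 < (orbSum M τ u).toReal :=
    ENNReal.toReal_pos (orbSum_ne_zero τ u) (orbSum_ne_top hF hσ τ u)
  simp only [wt, orbSum_shift, ENNReal.ofReal_div_of_pos hpos]
  simp only [div_eq_mul_inv]
  rw [ENNReal.tsum_mul_right, ENNReal.ofReal_toReal (orbSum_ne_top hF hσ τ u)]
  exact ENNReal.mul_inv_cancel (orbSum_ne_zero τ u) (orbSum_ne_top hF hσ τ u)

/-- The weights over each orbit sum to `1`. -/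
theorem hasSum_wt (τ : Pl F →₀ ℤ) (u : InfinitePlace F → ℝ) :
    HasSum (fun μ : nKer F M =>
      (wt M (τ + ordT F ((μ : Mˣ) : M)) (u + logT ((μ : Mˣ) : M)) : ℂ)) 1 := by
  have h := tsum_wt hF hσ τ u
  have hs : Summable fun μ : nKer F M =>
      wt M (τ + ordT F ((μ : Mˣ) : M)) (u + logT ((μ : Mˣ) : M)) := by
    refine (ENNReal.summable_toReal (by rw [h]; exact ENNReal.one_ne_top)).congr fun μ => ?_
    exact ENNReal.toReal_ofReal (wt_nonneg _ _)
  have h1 : ∑' μ : nKer F M, wt M (τ + ordT F ((μ : Mˣ) : M)) (u + logT ((μ : Mˣ) : M)) = 1 := by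
    have := ENNReal.ofReal_tsum_of_nonneg (fun μ => wt_nonneg _ _) hs
    rw [h, ENNReal.ofReal_eq_one] at this
    exact this
  have := Complex.hasSum_ofReal.2 (h1 ▸ hs.hasSum)
  simpa using this

end Fermat.LT.Theta
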